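import Fermat.Agent.LT.Base
import Fermat.Agent.LT.RS.Weight

/-!
Carriers of the twisted trace formula (piece B): points, tests, kernels, twisting.
Everything finite adelic is a coset space with counting measure; no Haar measures on adeles.
-/

set_option autoImplicit false

noncomputable section

namespace FLTAgent.LT

open NumberField IsDedekindDomain MeasureTheory

/-- Hyperbolic distance. -/
def hdist (p q : H3) : ℝ := Real.arcosh (coshDist p q)

/-- Complex conjugation of upper half space. -/
def conjH3 (p : H3) : H3 := ((starRingEnd ℂ) p.1, p.2)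

variable {F E : Type*} [Field F] [NumberField F] [Field E] [NumberField E]

/-- Points at infinity pulled along `i` (conjugated where the chosen embeddings differ). -/
def infMap (i : F →+* E) (x : Xinf F) : Xinf E := fun w => by
  classical exact
    if (w.comap i).embedding = w.embedding.comp i then x (w.comap i)
    else conjH3 (x (w.comap i))

variable (F) in
/-- `U(N)` times the centre. -/
def UZ (N : ℕ) : Subgroup (GF F) :=
  Subgroup.closure ({k | InLevel N k} ∪ Set.range (scalarGF (F := F)))

variable (F) in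
/-- The finite adelic points of level `N`. -/
abbrev Cos (N : ℕ) := GF F ⧸ UZ F N

instance instMeasurableSpaceCos (N : ℕ) : MeasurableSpace (Cos F N) := ⊤

variable (F) in
/-- Points of level `N`. -/
abbrev Pt (N : ℕ) := Xinf F × Cos F N

variable (F) in
/-- Hyperbolic measures times counting measure. -/
def ptMeasure (N : ℕ) : Measure (Pt F N) :=
  (Measure.pi fun _ : InfinitePlace F => hypMeasure).prod Measure.count

/-- The action of a global matrix on points. -/
def smulPt {N : ℕ} (γ : GL (Fin 2) F) (p : Pt F N) : Pt F N :=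
  (actInf γ p.1, toFin γ • p.2)

/-- Points mapped along `i`, the level changing from `N` to `N'`. -/
def ptMap (i : F →+* E) {N N' : ℕ} (p : Pt F N) : Pt E N' :=
  (infMap i p.1, QuotientGroup.mk (gfMap i p.2.out))

variable (F) in
/-- `PGL₂(F)`. -/
abbrev PG := GL (Fin 2) F ⧸ Subgroup.center (GL (Fin 2) F)

/-- A weight: nonnegative, with orbit sums one (the substitute for a fundamental domain). -/
def IsPtWeight {N : ℕ} (w : Pt F N → ENNReal) : Prop :=
  Measurable w ∧ ∀ p, ∑' γ : PG F, w (smulPt γ.out p) = 1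

/-- The finite measure of the quotient, carried by a weight. -/
def quotMeasure {N : ℕ} (w : Pt F N → ENNReal) : Measure (Pt F N) :=
  RS.wMeasure (ptMeasure F N) w

variable (F) in
/-- A test function: finite part and a function of the tuple of hyperbolic distances. -/
structure Test where
  fin : GF F → ℂ
  inf : (InfinitePlace F → ℝ) → ℂ

/-- The regularity required of tests at level `N`. -/
structure Test.Ok (t : Test F) (N : ℕ) : Prop where
  left_inv : ∀ u ∈ UZ F N, ∀ g, t.fin (u * g) = t.fin g
  right_inv : ∀ u ∈ UZ F N, ∀ g, t.fin (g * u) = t.fin g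
  finite : ((QuotientGroup.mk : GF F → Cos F N) '' Function.support t.fin).Finite
  lipschitz : ∃ C, LipschitzWith C t.inf
  compact : HasCompactSupport t.inf

/-- The convolution operator of a test. -/
def testOp {N : ℕ} (t : Test F) (φ : Pt F N → ℂ) (p : Pt F N) : ℂ :=
  ∑ᶠ h : Cos F N, t.fin h.out *
    ∫ y, t.inf (fun w => hdist (p.1 w) (y w)) * φ (y, QuotientGroup.mk (p.2.out * h.out))
      ∂Measure.pi fun _ : InfinitePlace F => hypMeasure

/-- One term of the twisted kernel. -/
def term {N : ℕ} (τ : F →+* F) (t : Test F) (γ : GL (Fin 2) F) (p : Pt F N) : ℂ :=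
  t.fin (p.2.out⁻¹ * toFin γ * gfMap τ p.2.out) *
    t.inf fun w => hdist (p.1 w) (actInf γ (infMap τ p.1) w)

/-- The kernel. -/
def kern {N : ℕ} (t : Test F) (p q : Pt F N) : ℂ :=
  ∑' γ : PG F, t.fin (p.2.out⁻¹ * toFin γ.out * q.2.out) *
    t.inf fun w => hdist (p.1 w) (actInf γ.out q.1 w)

/-- The twisted diagonal of the kernel. -/
def kernTw {N : ℕ} (τ : F →+* F) (t : Test F) (p : Pt F N) : ℂ :=
  ∑' γ : PG F, term τ t γ.out p

/-- `γ · τγ · … · τ^{n-1}γ`. -/
def twNorm (τ : F →+* F) : ℕ → GL (Fin 2) F → GL (Fin 2) F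
  | 0, _ => 1
  | n + 1, γ => γ * Matrix.GeneralLinearGroup.map τ (twNorm τ n γ)

omit [NumberField F] in
/-- The empty twisted norm; the unfolding equation of `twNorm` is realised here, once. -/
theorem twNorm_zero (τ : F →+* F) (γ : GL (Fin 2) F) : twNorm τ 0 γ = 1 := by
  rw [twNorm.eq_def]

/-- Elliptic regular with nonzero trace. -/
def EllElem (δ : GL (Fin 2) F) : Prop :=
  (δ : Matrix (Fin 2) (Fin 2) F).trace ≠ 0 ∧
    ¬ IsSquare ((δ : Matrix (Fin 2) (Fin 2) F).trace ^ 2 - 4 * (δ : Matrix (Fin 2) (Fin 2) F).det)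

/-- The elliptic part of the twisted diagonal. -/
def ellTw {N : ℕ} (τ : F →+* F) (n : ℕ) (t : Test F) (p : Pt F N) : ℂ :=
  ∑' γ : PG F, Set.indicator {γ : PG F | EllElem (twNorm τ n γ.out)} (fun γ => term τ t γ.out p) γ

/-- Only regular norms with nonzero trace meet the test. -/
def NoSing (τ : F →+* F) (n N : ℕ) (t : Test F) : Prop :=
  ∀ (γ : GL (Fin 2) F) (p : Pt F N), term τ t γ p ≠ 0 →
    (twNorm τ n γ : Matrix (Fin 2) (Fin 2) F).trace ≠ 0 ∧
      (twNorm τ n γ : Matrix (Fin 2) (Fin 2) F).trace ^ 2 -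
        4 * (twNorm τ n γ : Matrix (Fin 2) (Fin 2) F).det ≠ 0

section hecke

variable (v : HeightOneSpectrum (𝓞 F))

/-- Composition with `T_v` on the right. -/
def Test.mulHecke (t : Test F) : Test F where
  fin y :=
    (∑ᶠ u : 𝓞 F ⧸ v.asIdeal,
        t.fin (y * upperGF (unifIdele v)
          (adeleSingle v (((Quotient.out u : 𝓞 F) : F) : v.adicCompletion F)))) +
      t.fin (y * lowerDiag (unifIdele v))
  inf := t.inf

/-- Composition with `1 - (T_v / (q + 1))²`. -/
def Test.damp (t : Test F) : Test F where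
  fin y := t.fin y - ((t.mulHecke v).mulHecke v).fin y /
    (((Nat.card (𝓞 F ⧸ v.asIdeal) + 1 : ℕ) : ℂ)) ^ 2
  inf := t.inf

/-- `J`-fold damping. -/
def Test.dampPow : ℕ → Test F → Test F
  | 0, t => t
  | J + 1, t => (dampPow J t).damp v

/-- No damping; the unfolding equation of `dampPow` is realised here, once. -/
theorem Test.dampPow_zero (t : Test F) : Test.dampPow v 0 t = t := by
  rw [Test.dampPow.eq_def]

/-- The test is trivial at `v`: supported where the `v`-component is in the maximal compact times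
the centre, and invariant under that group. -/
def Test.OneAt (t : Test F) : Prop :=
  ∀ g, t.fin g ≠ 0 →
    ∃ c : (v.adicCompletion F)ˣ, ∀ i j : Fin 2,
      Valued.v (((g : Matrix (Fin 2) (Fin 2) (Af F)) i j v) * (c : v.adicCompletion F)) ≤ 1 ∧
      Valued.v (((g⁻¹ : GF F) : Matrix (Fin 2) (Fin 2) (Af F)) i j v *
        ((c⁻¹ : (v.adicCompletion F)ˣ) : v.adicCompletion F)) ≤ 1

end hecke

/-- The geometric transfer of tests along a cyclic extension `i : F → E` with generator `τ`:
for every elliptic regular `δ` either nothing meets it, or a norm preimage `γ` exists whose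
weighted point set pushes forward to that of `δ`, equivariantly on the support for the
centraliser. -/
def Matched (i : F →+* E) (τ : E →+* E) (n : ℕ) {N N' : ℕ} (f : Test E) (φ : Test F) (c : ℂ) :
    Prop :=
  ∀ δ : GL (Fin 2) F, EllElem δ →
    ((∀ q : Pt F N', term (RingHom.id F) φ δ q = 0) ∧
      ∀ γ : GL (Fin 2) E, (∃ (a : Eˣ) (h : GL (Fin 2) E),
          (twNorm τ n γ : Matrix (Fin 2) (Fin 2) E) =
            (a : E) • ((h * Matrix.GeneralLinearGroup.map i δ * h⁻¹ : GL (Fin 2) E) :
              Matrix (Fin 2) (Fin 2) E)) →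
        ∀ p : Pt E N, term τ f γ p = 0) ∨
    ∃ (γ : GL (Fin 2) E) (a : Eˣ) (π : Pt E N → Pt F N'),
      (twNorm τ n γ : Matrix (Fin 2) (Fin 2) E) =
          (a : E) • (Matrix.GeneralLinearGroup.map i δ : Matrix (Fin 2) (Fin 2) E) ∧
        Commute γ (Matrix.GeneralLinearGroup.map i δ) ∧ Measurable π ∧
        (∀ ξ : GL (Fin 2) F, Commute ξ δ → ∀ p, term τ f γ p ≠ 0 →
          π (smulPt (Matrix.GeneralLinearGroup.map i ξ) p) = smulPt ξ (π p)) ∧
        ∀ Φ : Pt F N' → ℂ, Measurable Φ →
          Integrable (fun p => term τ f γ p * Φ (π p)) (ptMeasure E N) →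
          Integrable (fun q => term (RingHom.id F) φ δ q * Φ q) (ptMeasure F N') →
          ∫ p, term τ f γ p * Φ (π p) ∂ptMeasure E N =
            c * ∫ q, term (RingHom.id F) φ δ q * Φ q ∂ptMeasure F N'

/-! ### Statements

`EllipticTotal` and `HypVanish` are meant for `τ` of exact order `n ∈ {1, 3}`, with `i` the inclusion
of its fixed field; their owners add these hypotheses. -/

variable (F) in
/-- Reduction theory: a weight of finite volume. -/
def Reduction : Prop :=
  ∀ N : ℕ, 0 < N → ∃ w : Pt F N → ENNReal, IsPtWeight w ∧ quotMeasure w Set.univ < ⊤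

/-- Piece B3a: matched tests have equal elliptic parts. -/
def EllipticTotal (i : F →+* E) (τ : E →+* E) (n : ℕ) : Prop :=
  ∀ (N N' : ℕ) (f : Test E) (φ : Test F) (c : ℂ), 0 < N → 0 < N' → f.Ok N → φ.Ok N' →
    NoSing τ n N f → Matched i τ n (N := N) (N' := N') f φ c →
    ∀ (w : Pt E N → ENNReal) (w' : Pt F N' → ENNReal), IsPtWeight w → IsPtWeight w' →
      Integrable (ellTw τ n f) (quotMeasure w) ∧
      Integrable (ellTw (RingHom.id F) 1 φ) (quotMeasure w') ∧
      ∫ p, ellTw τ n f p ∂quotMeasure w =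
        c * ∫ q, ellTw (RingHom.id F) 1 φ q ∂quotMeasure w'

/-- Piece B3b: the non-elliptic part of damped tests tends to zero. -/
def HypVanish (τ : F →+* F) (n : ℕ) : Prop :=
  ∀ (N : ℕ) (t : Test F) (v : HeightOneSpectrum (𝓞 F)), 0 < N → t.Ok N → (N : 𝓞 F) ∉ v.asIdeal →
    placeBelow τ v ≠ v ∨ n = 1 → (∀ k, t.OneAt ((placeBelow τ)^[k] v)) →
    (∀ J, NoSing τ n N (t.dampPow v J)) →
    ∀ w : Pt F N → ENNReal, IsPtWeight w →
      (∀ J, Integrable (fun p => kernTw τ (t.dampPow v J) p - ellTw τ n (t.dampPow v J) p)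
        (quotMeasure w)) →
      Filter.Tendsto
        (fun J => ∫ p, kernTw τ (t.dampPow v J) p - ellTw τ n (t.dampPow v J) p ∂quotMeasure w)
        Filter.atTop (nhds 0)

end FLTAgent.LT
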