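import Fermat.Agent.LT.Hyp.Measure
import Fermat.Agent.LT.TF.Defs

/-!
`PGL₂(F)` acting on the points of level `N` and preserving the measure.
-/

set_option autoImplicit false
set_option linter.unusedSectionVars false
set_option linter.style.haveILetI false
set_option synthInstance.maxHeartbeats 200000

noncomputable section

namespace FLTAgent.LT

open NumberField IsDedekindDomain MeasureTheory

instance sigmaFinite_hypMeasure : SigmaFinite hypMeasure := by
  haveI : LocallyCompactSpace (Set.Ioi (0 : ℝ)) := isOpen_Ioi.locallyCompactSpace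
  haveI : IsFiniteMeasureOnCompacts ((volume : Measure (ℂ × ℝ)).comap Hyp.emb) :=
    IsFiniteMeasureOnCompacts.comap' _ (continuous_fst.prodMk (continuous_subtype_val.comp
      continuous_snd)) Hyp.measurableEmbedding_emb
  rw [Hyp.hypMeasure_eq]
  exact SigmaFinite.withDensity_ofReal _

variable {F : Type*} [Field F] [NumberField F]

lemma actInf_one (x : Xinf F) : actInf (1 : GL (Fin 2) F) x = x :=
  funext fun w => by simp [actInf, Hyp.act_one]

lemma actInf_mul (γ δ : GL (Fin 2) F) (x : Xinf F) : actInf (γ * δ) x = actInf γ (actInf δ x) :=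
  funext fun w => by simp [actInf, Hyp.act_mul]

lemma act_scalar (a : ℂˣ) (p : H3) : act (Matrix.GeneralLinearGroup.scalar (Fin 2) a) p = p := by
  refine Hyp.herm_injective ?_
  have hn : (‖(Matrix.GeneralLinearGroup.det (Matrix.GeneralLinearGroup.scalar (Fin 2) a) : ℂ)‖ : ℂ)
      = (a : ℂ) * (starRingEnd ℂ) a := by
    rw [Complex.mul_conj', ← Complex.ofReal_pow]
    simp [Matrix.GeneralLinearGroup.scalar, sq]
  have h := Hyp.mul_herm_mul (Matrix.GeneralLinearGroup.scalar (Fin 2) a) p
  rw [hn] at h
  refine (smul_right_injective (Matrix (Fin 2) (Fin 2) ℂ)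
    (mul_ne_zero a.ne_zero ((map_ne_zero (starRingEnd ℂ)).2 a.ne_zero))) (h.symm.trans ?_)
  simp [Matrix.GeneralLinearGroup.scalar, ← Matrix.smul_one_eq_diagonal,
    smul_smul, mul_comm]

lemma mem_center_iff_scalar (γ : GL (Fin 2) F) :
    γ ∈ Subgroup.center (GL (Fin 2) F) ↔
      ∃ a : Fˣ, Matrix.GeneralLinearGroup.scalar (Fin 2) a = γ := by
  rw [Matrix.GeneralLinearGroup.center_eq_range_scalar]
  rfl

lemma toFin_scalar (a : Fˣ) :
    toFin (Matrix.GeneralLinearGroup.scalar (Fin 2) a) =
      scalarGF (Units.map (algebraMap F (Af F)).toMonoidHom a) :=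
  Units.ext (Matrix.ext fun i j => by
    rcases eq_or_ne i j with rfl | h <;>
      simp_all [toFin, scalarGF, Matrix.GeneralLinearGroup.scalar])

lemma center_smul (γ : GL (Fin 2) F) (hγ : γ ∈ Subgroup.center (GL (Fin 2) F)) {N : ℕ}
    (p : Pt F N) : smulPt γ p = p := by
  obtain ⟨a, rfl⟩ := (mem_center_iff_scalar γ).1 hγ
  refine Prod.ext (funext fun w => ?_) ?_
  · show act _ (p.1 w) = p.1 w
    convert act_scalar (Units.map w.embedding.toMonoidHom a) (p.1 w) using 2
    apply Units.ext
    ext i j
    rcases eq_or_ne i j with rfl | h <;> simp_all [Matrix.GeneralLinearGroup.scalar]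
  · obtain ⟨g, hg⟩ := QuotientGroup.mk_surjective p.2
    show toFin _ • p.2 = p.2
    rw [← hg, toFin_scalar, MulAction.Quotient.smul_mk, QuotientGroup.eq]
    set s := scalarGF (Units.map (algebraMap F (Af F)).toMonoidHom a)
    have hc : g * s = s * g := by
      apply Units.ext
      exact (Matrix.scalar_commute _ (fun r => Commute.all _ r) _).symm.eq
    rw [smul_eq_mul, ← hc, mul_inv_rev, mul_assoc, inv_mul_cancel, mul_one]
    exact Subgroup.inv_mem _ (Subgroup.subset_closure (Or.inr ⟨_, rfl⟩))

lemma smul_pt_apply {N : ℕ} (γ : GL (Fin 2) F) (p : Pt F N) :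
    smulPt γ p = (actInf γ p.1, toFin γ • p.2) := rfl

lemma smulPt_mul {N : ℕ} (γ δ : GL (Fin 2) F) (p : Pt F N) :
    smulPt (γ * δ) p = smulPt γ (smulPt δ p) := by
  simp [smulPt, actInf_mul, mul_smul]

/-- `PGL₂(F)` acts on the points. -/
instance (priority := high) instMulActionPG {N : ℕ} : MulAction (PG F) (Pt F N) where
  smul q p := smulPt q.out p
  one_smul p := center_smul _ (by
    rw [← QuotientGroup.eq_one_iff, QuotientGroup.out_eq']) p
  mul_smul q r p := by
    show smulPt (q * r).out p = smulPt q.out (smulPt r.out p)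
    rw [← smulPt_mul]
    obtain ⟨z, hz⟩ : ∃ z ∈ Subgroup.center (GL (Fin 2) F), (q * r).out = q.out * r.out * z := by
      refine ⟨(q.out * r.out)⁻¹ * (q * r).out, QuotientGroup.eq.1 ?_, by group⟩
      simp [QuotientGroup.mk_mul]
    rw [hz.2, smulPt_mul (q.out * r.out) z, center_smul z hz.1]

lemma mk_smul {N : ℕ} (γ : GL (Fin 2) F) (p : Pt F N) :
    (QuotientGroup.mk γ : PG F) • p = smulPt γ p := by
  show smulPt _ p = _
  set z := γ⁻¹ * (QuotientGroup.mk γ : PG F).out
  have hz : z ∈ Subgroup.center (GL (Fin 2) F) := QuotientGroup.eq.1 (by simp)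
  rw [show (QuotientGroup.mk γ : PG F).out = γ * z by simp [z], smulPt_mul, center_smul z hz]

lemma measurable_actInf (γ : GL (Fin 2) F) : Measurable (actInf γ) :=
  measurable_pi_lambda _ fun w => (Hyp.measurable_act _).comp (measurable_pi_apply w)

instance instMeasurableConstSMulPG {N : ℕ} : MeasurableConstSMul (PG F) (Pt F N) where
  measurable_const_smul _q :=
    ((measurable_actInf _).comp measurable_fst).prodMk (measurable_from_top.comp measurable_snd)

lemma measurePreserving_actInf (γ : GL (Fin 2) F) :
    MeasurePreserving (actInf γ) (Measure.pi fun _ : InfinitePlace F => hypMeasure)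
      (Measure.pi fun _ : InfinitePlace F => hypMeasure) :=
  measurePreserving_pi _ _ fun _ => Hyp.measurePreserving_act _

instance instSMulInvariantMeasurePG {N : ℕ} [Countable (Cos F N)] :
    SMulInvariantMeasure (PG F) (Pt F N) (ptMeasure F N) where
  measure_preimage_smul q s hs := by
    have h2 : MeasurePreserving (fun c : Cos F N => toFin q.out • c) Measure.count Measure.count :=
      ⟨measurable_from_top, Measure.ext fun t ht => by
        rw [Measure.map_apply measurable_from_top ht, Measure.count_apply (measurable_from_top ht),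
          Measure.count_apply ht, Set.encard_preimage_of_bijective (MulAction.bijective _)]⟩
    exact ((measurePreserving_actInf q.out).prod h2).measure_preimage hs.nullMeasurableSet

instance countable_GLF : Countable (GL (Fin 2) F) := by
  haveI : Countable F := (Module.finBasis ℚ F).equivFun.toEquiv.countable_iff.2 inferInstance
  haveI : Countable (Matrix (Fin 2) (Fin 2) F) := inferInstanceAs (Countable (Fin 2 → Fin 2 → F))
  exact Units.val_injective.countable

instance countable_PG : Countable (PG F) := Quotient.countable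

lemma isPtWeight_iff {N : ℕ} (w : Pt F N → ENNReal) : IsPtWeight w ↔ RS.IsWeight (PG F) w :=
  ⟨fun h => ⟨h.1, h.2⟩, fun h => ⟨h.1, h.2⟩⟩

end FLTAgent.LT
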