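import Fermat.Agent.LT.TF.FinOp

/-!
The operators of finite kernels are symmetric on `L²` of the quotient.
-/

set_option autoImplicit false
set_option linter.unusedSectionVars false
set_option linter.unusedSimpArgs false
set_option linter.deprecated false
set_option linter.style.haveILetI false
set_option synthInstance.maxHeartbeats 200000

noncomputable section

namespace FLTAgent.LT

open NumberField IsDedekindDomain MeasureTheory Filter
open scoped ENNReal InnerProductSpace

variable {F : Type*} [Field F] [NumberField F] {N : ℕ} [Countable (Cos F N)]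
  {w : Pt F N → ℝ≥0∞} (hw : IsPtWeight w)

include hw

lemma lintegral_sq_lt_top (u : Lp ℂ 2 (quotMeasure w)) :
    ∫⁻ p, ‖u p‖ₑ ^ 2 ∂quotMeasure w < ⊤ := by
  have := Lp.enorm_def u ▸ (enorm_lt_top : (‖u‖ₑ : ℝ≥0∞) < ⊤)
  rw [eLpNorm_two_eq] at this
  exact (ENNReal.rpow_lt_top_iff_of_pos (by norm_num)).1 this

lemma integral_quotMeasure (f : Pt F N → ℂ) :
    ∫ p, f p ∂quotMeasure w = ∫ p, ((w p).toReal : ℂ) * f p ∂ptMeasure F N := by
  rw [quotMeasure, RS.wMeasure, integral_withDensity_eq_integral_toReal_smul hw.1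
    (Eventually.of_forall fun p => (wt_ne_top hw p).lt_top)]
  exact integral_congr_ae (Eventually.of_forall fun p => Complex.real_smul)

/-- Averaging does not change integrals over the quotient. -/
lemma integral_avg {g : Pt F N → ℂ} (hg : Measurable g)
    (hi : ∫⁻ p, ‖g p‖ₑ ∂quotMeasure w < ⊤) :
    ∫ p, avg w g p ∂quotMeasure w = ∫ p, g p ∂quotMeasure w := by
  haveI : SMulInvariantMeasure (PG F) (Pt F N) (ptMeasure F N) := instSMulInvariantMeasurePG
  have hgi : Integrable g (quotMeasure w) := ⟨hg.aestronglyMeasurable, hi⟩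
  set T : PG F → Pt F N → ℂ := fun γ p => ((w (γ • p)).toReal : ℂ) * g (γ • p)
  have hwm : ∀ γ : PG F, Measurable fun p => ((w (γ • p)).toReal : ℂ) := fun γ =>
    Complex.measurable_ofReal.comp (hw.1.comp (measurable_const_smul γ)).ennreal_toReal
  have hT : ∀ γ, AEStronglyMeasurable (T γ) (quotMeasure w) := fun γ =>
    ((hwm γ).mul (hg.comp (measurable_const_smul γ))).aestronglyMeasurable
  have hT2 : ∑' γ, ∫⁻ p, ‖T γ p‖ₑ ∂quotMeasure w ≠ ⊤ := by
    rw [← lintegral_tsum fun γ => (hT γ).enorm]
    refine ne_top_of_le_ne_top hi.ne (le_of_eq ?_)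
    rw [← lintegral_wt_avg hw (g := fun p => ‖g p‖ₑ) hg.enorm]
    exact lintegral_congr fun p => tsum_congr fun γ => by rw [enorm_mul, enorm_wt hw]
  set S : PG F → Pt F N → ℂ := fun γ p => ((w (γ • p)).toReal : ℂ) * g p
  have hS : ∀ γ, AEStronglyMeasurable (S γ) (quotMeasure w) := fun γ =>
    ((hwm γ).mul hg).aestronglyMeasurable
  have hSle : ∀ p, ∑' γ, ‖S γ p‖ₑ = ‖g p‖ₑ := fun p => by
    simp only [S, enorm_mul, enorm_wt hw, ENNReal.tsum_mul_right,
      ((isPtWeight_iff w).1 hw).sum_one, one_mul]
  have hS2 : ∑' γ, ∫⁻ p, ‖S γ p‖ₑ ∂quotMeasure w ≠ ⊤ := by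
    rw [← lintegral_tsum fun γ => (hS γ).enorm, lintegral_congr hSle]
    exact hi.ne
  have e : ∀ γ, ∫ p, T γ p ∂quotMeasure w = ∫ p, S γ⁻¹ p ∂quotMeasure w := fun γ => by
    rw [integral_quotMeasure hw, integral_quotMeasure hw,
      ← (measurePreserving_smul γ (ptMeasure F N)).integral_comp
        (MeasurableEquiv.smul γ).measurableEmbedding
        (fun p => ((w p).toReal : ℂ) * S γ⁻¹ p)]
    refine integral_congr_ae (Eventually.of_forall fun p => ?_)
    simp only [T, S, inv_smul_smul]
    ring
  calc ∫ p, avg w g p ∂quotMeasure w = ∑' γ, ∫ p, T γ p ∂quotMeasure w := integral_tsum hT hT2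
    _ = ∑' γ, ∫ p, S γ p ∂quotMeasure w := by
        simp only [e]
        exact (Equiv.inv (PG F)).tsum_eq fun γ => ∫ p, S γ p ∂quotMeasure w
    _ = ∫ p, ∑' γ, S γ p ∂quotMeasure w := (integral_tsum hS hS2).symm
    _ = _ := by
        refine integral_congr_ae (Eventually.of_forall fun p => ?_)
        have hW := ((isPtWeight_iff w).1 hw).sum_one p
        have hr : ∑' γ : PG F, (w (γ • p)).toReal = 1 := by
          rw [← ENNReal.tsum_toReal_eq fun γ => wt_ne_top hw _, hW, ENNReal.toReal_one]
        simp only [S, tsum_mul_right]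
        rw [← Complex.ofReal_tsum, hr, Complex.ofReal_one, one_mul]

variable {f : GF F → ℂ} (hf : IsFinKer N f)

include hf

omit hw in
/-- The image is invariant. -/
lemma finOp_smul (u : Pt F N → ℂ) (γ : PG F) (p : Pt F N) :
    finOp w f u (γ • p) = finOp w f u p := by
  unfold finOp
  rw [← (MulAction.toPerm γ : Cos F N ≃ Cos F N).tsum_eq]
  refine tsum_congr fun c' => ?_
  rw [MulAction.toPerm_apply, smul_cos_eq, hf.pairVal_smul,
    show ((γ • p).1, γ • c') = γ • ((p.1, c') : Pt F N) from rfl, avg_smul]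

/-- **Symmetry.** -/
theorem finFormula_symm (u v : Lp ℂ 2 (quotMeasure w)) :
    ⟪(finFormula hw hf).op u, v⟫_ℂ = ⟪u, (finFormula hw hf).op v⟫_ℂ := by
  haveI := sFinite_quotMeasure hw
  -- both sides as pairings of averages over pairs of cosets
  have hu : Measurable (u : Pt F N → ℂ) := (Lp.stronglyMeasurable u).measurable
  have hv : Measurable (v : Pt F N → ℂ) := (Lp.stronglyMeasurable v).measurable
  have key : ∀ a b : Lp ℂ 2 (quotMeasure w), ⟪(finFormula hw hf).op a, b⟫_ℂ =
      ∫ z, (starRingEnd ℂ) (pairVal f z.1.2 z.2 * avg w a (z.1.1, z.2)) * avg w b z.1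
        ∂(quotMeasure w).prod Measure.count ∧
      Integrable (fun z : Pt F N × Cos F N =>
        (starRingEnd ℂ) (pairVal f z.1.2 z.2 * avg w a (z.1.1, z.2)) * avg w b z.1)
        ((quotMeasure w).prod Measure.count) := by
    intro a b
    have ha : Measurable (a : Pt F N → ℂ) := (Lp.stronglyMeasurable a).measurable
    have hb : Measurable (b : Pt F N → ℂ) := (Lp.stronglyMeasurable b).measurable
    set Z : Pt F N × Cos F N → ℂ := fun z =>
      (starRingEnd ℂ) (pairVal f z.1.2 z.2 * avg w a (z.1.1, z.2)) * avg w b z.1 with hZ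
    set P : Pt F N × Cos F N → ℝ≥0∞ := fun z => ‖pairVal f z.1.2 z.2‖ₑ
    set A : Pt F N → ℝ≥0∞ := fun q => ‖avg w (a : Pt F N → ℂ) q‖ₑ ^ 2 with hA
    set B : Pt F N → ℝ≥0∞ := fun q => ‖avg w (b : Pt F N → ℂ) q‖ₑ ^ 2
    have hP : Measurable P := (measurable_cosPair fun c c' : Cos F N => pairVal f c c').enorm
    have hAm : Measurable A := (measurable_avg hw ha).enorm.pow_const 2
    have hBm : Measurable B := (measurable_avg hw hb).enorm.pow_const 2
    have hm : Measurable Z :=
      (Complex.continuous_conj.measurable.comp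
        ((measurable_cosPair fun c c' : Cos F N => pairVal f c c').mul
          (measurable_comp_swap (measurable_avg hw ha)))).mul
        ((measurable_avg hw hb).comp measurable_fst)
    have two : ∀ x y : ℝ≥0∞, x * y ≤ x ^ 2 + y ^ 2 := fun x y => by
      rcases le_total x y with h | h
      · exact (mul_le_mul' h le_rfl).trans (le_add_left (sq y).ge)
      · exact (mul_le_mul' le_rfl h).trans (le_add_right (sq x).ge)
    have hinv : ∀ (γ : PG F) (p : Pt F N) (c : Cos F N),
        P (γ • p, γ • c) * A ((γ • p).1, γ • c) = P (p, c) * A (p.1, c) := fun γ p c => by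
      show ‖pairVal f (γ • p).2 (γ • c)‖ₑ * A (γ • ((p.1, c) : Pt F N)) = _
      rw [smul_cos_eq, hf.pairVal_smul, hA]
      simp only [avg_smul]
      rfl
    have hfin : ∫⁻ z, ‖Z z‖ₑ ∂(quotMeasure w).prod Measure.count < ⊤ := by
      refine lt_of_le_of_lt (lintegral_mono (g := fun z => P z * A (z.1.1, z.2) + P z * B z.1)
        fun z => ?_) ?_
      · simp only [Z, enorm_mul, RCLike.enorm_conj, P, A, B, ← mul_add, mul_assoc]
        exact mul_le_mul' le_rfl (two _ _)
      · rw [lintegral_add_left (f := fun z => P z * A (z.1.1, z.2))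
          (hP.mul (measurable_comp_swap hAm))]
        refine ENNReal.add_lt_top.2 ⟨?_, ?_⟩
        · rw [lintegral_pair_swap hw (H := fun z => P z * A (z.1.1, z.2))
            (hP.mul (measurable_comp_swap hAm)) hinv, lintegral_prod
            (fun z => P (swapCos z) * A ((swapCos z).1.1, (swapCos z).2))
            ((hP.mul (measurable_comp_swap hAm)).comp swapCos.measurable).aemeasurable]
          simp only [lintegral_count, swapCos_apply, P, ENNReal.tsum_mul_right, hf.col_mass]
          rw [lintegral_const_mul' _ _ hf.finMass_ne_top]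
          exact ENNReal.mul_lt_top hf.finMass_ne_top.lt_top
            ((lintegral_sq_avg_le hw ha).trans_lt (lintegral_sq_lt_top hw a))
        · rw [lintegral_prod (fun z : Pt F N × Cos F N => P z * B z.1)
            (hP.mul (hBm.comp measurable_fst)).aemeasurable]
          simp only [lintegral_count, P, ENNReal.tsum_mul_right, hf.row_mass]
          rw [lintegral_const_mul' _ _ hf.finMass_ne_top]
          exact ENNReal.mul_lt_top hf.finMass_ne_top.lt_top
            ((lintegral_sq_avg_le hw hb).trans_lt (lintegral_sq_lt_top hw b))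
    have hZi : Integrable Z ((quotMeasure w).prod Measure.count) := ⟨hm.aestronglyMeasurable, hfin⟩
    refine ⟨?_, hZi⟩
    set G : Pt F N → ℂ := fun p => (starRingEnd ℂ) (finOp w f (a : Pt F N → ℂ) p) with hG
    have hGm : Measurable G :=
      Complex.continuous_conj.measurable.comp (measurable_finOp hw f ha)
    have hGb : ∫⁻ p, ‖G p * b p‖ₑ ∂quotMeasure w < ⊤ := by
      refine lt_of_le_of_lt (lintegral_mono (g := fun p => ‖finOp w f (a : Pt F N → ℂ) p‖ₑ ^ 2 +
        ‖b p‖ₑ ^ 2) fun p => ?_) ?_
      · simp only [hG, enorm_mul, RCLike.enorm_conj]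
        exact two _ _
      · rw [lintegral_add_right _ (hb.enorm.pow_const 2)]
        exact ENNReal.add_lt_top.2 ⟨(lintegral_sq_finOp_le hw hf ha).trans_lt
          (ENNReal.mul_lt_top (ENNReal.pow_lt_top hf.finMass_ne_top.lt_top)
            (lintegral_sq_lt_top hw a)), lintegral_sq_lt_top hw b⟩
    calc ⟪(finFormula hw hf).op a, b⟫_ℂ = ∫ p, G p * b p ∂quotMeasure w := by
          rw [inner_Lp_two]
          refine integral_congr_ae ?_
          filter_upwards [(finFormula hw hf).op_ae a] with p hp
          rw [hp]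
      _ = ∫ p, avg w (fun p => G p * b p) p ∂quotMeasure w := (integral_avg hw (hGm.mul hb) hGb).symm
      _ = ∫ p, G p * avg w b p ∂quotMeasure w := by
          refine integral_congr_ae (Eventually.of_forall fun p => ?_)
          simp only [avg, hG, finOp_smul hf, ← tsum_mul_left]
          exact tsum_congr fun γ => by ring
      _ = ∫ p, ∫ c', Z (p, c') ∂Measure.count ∂quotMeasure w := by
          refine integral_congr_ae ?_
          filter_upwards [hZi.prod_right_ae] with p hp
          rw [integral_countable hp, hG]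
          simp only [finOp, hZ, Complex.conj_tsum, map_mul, ← tsum_mul_right,
            Measure.real, Measure.count_singleton, ENNReal.toReal_one, one_smul]
      _ = _ := (integral_prod Z hZi).symm
  obtain ⟨k1, i1⟩ := key u v
  obtain ⟨k2, -⟩ := key v u
  rw [k1, ← inner_conj_symm (𝕜 := ℂ), k2, ← integral_conj]
  -- exchange the two cosets
  set Z : Pt F N × Cos F N → ℂ := fun z =>
    (starRingEnd ℂ) (pairVal f z.1.2 z.2 * avg w (u : Pt F N → ℂ) (z.1.1, z.2)) *
      avg w (v : Pt F N → ℂ) z.1 with hZ
  have hm : Measurable Z :=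
    (Complex.continuous_conj.measurable.comp
      ((measurable_cosPair fun c c' : Cos F N => pairVal f c c').mul
        (measurable_comp_swap (measurable_avg hw hu)))).mul
      ((measurable_avg hw hv).comp measurable_fst)
  have hinv : ∀ (γ : PG F) (p : Pt F N) (c : Cos F N), Z (γ • p, γ • c) = Z (p, c) := fun γ p c => by
    show (starRingEnd ℂ) (pairVal f (γ • p).2 (γ • c) * avg w _ (γ • ((p.1, c) : Pt F N))) *
      avg w _ (γ • p) = _
    rw [smul_cos_eq, hf.pairVal_smul, avg_smul, avg_smul]
  have hswap := RS.integral_congr_of_lintegral (μ₁ := Measure.map swapCos ((quotMeasure w).prod Measure.count))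
    ENNReal.one_ne_top hm i1 fun φ hφ => by
      rw [lintegral_map (f := fun z => φ (Z z)) (hφ.comp hm) swapCos.measurable, one_mul]
      exact (lintegral_pair_swap hw (H := fun z => φ (Z z)) (hφ.comp hm)
        fun γ p c => congrArg φ (hinv γ p c)).symm
  have h := hswap.2
  rw [integral_map_equiv, ENNReal.toReal_one, Complex.ofReal_one, one_mul] at h
  rw [← h]
  refine integral_congr_ae (Eventually.of_forall fun z => ?_)
  simp only [Z, swapCos_apply, map_mul, Complex.conj_conj, Prod.mk.eta, hf.pairVal_conj]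
  ring

end FLTAgent.LT
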