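import Fermat.Agent.LT.TF.WordOp
import Fermat.Agent.LT.TF.FinSymm
import Fermat.Agent.LT.Red.Main

/-!
Kernel sections are bounded and square integrable, and the product of two kernels is the kernel of
the convolution.
-/

set_option autoImplicit false
set_option linter.unusedSectionVars false
set_option linter.unusedSimpArgs false
set_option linter.deprecated false
set_option linter.style.haveILetI false
set_option synthInstance.maxHeartbeats 200000

noncomputable section

namespace FLTAgent.LT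

open NumberField IsDedekindDomain MeasureTheory
open scoped ENNReal

variable {F : Type*} [Field F] [NumberField F] {N : ℕ}

/-- The transposed test. -/
def Test.flip (t : Test F) : Test F where
  fin y := t.fin y⁻¹
  inf := t.inf

theorem Test.flip_flip (t : Test F) : t.flip.flip = t := by
  cases t
  simp [Test.flip]

theorem Test.Ok.flip {t : Test F} (ht : t.Ok N) (hfin :
    ((QuotientGroup.mk : GF F → Cos F N) '' Function.support fun y => t.fin y⁻¹).Finite) :
    t.flip.Ok N :=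
  ⟨fun u hu g => by simp [Test.flip, ht.right_inv _ (inv_mem hu)],
    fun u hu g => by simp [Test.flip, ht.left_inv _ (inv_mem hu)], hfin, ht.lipschitz, ht.compact⟩

theorem kTerm_flip (t : Test F) (p q : Pt F N) : kTerm t.flip p q = kTerm t q p := by
  simp only [kTerm, Test.flip, mul_inv_rev, inv_inv]
  congr 2
  exact funext fun w => hdist_comm _ _

/-- A bound for distances gives bounds for the coordinates. -/
theorem exists_coord_bound {t : Test F} (ht : t.Ok N) :
    ∃ K : ℝ, 1 ≤ K ∧ ∀ p q : Xinf F, (t.inf fun w => hdist (p w) (q w)) ≠ 0 → ∀ w,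
      ‖(q w).1‖ ≤ ‖(p w).1‖ + 2 * K * ((p w).2 : ℝ) ∧
        ((p w).2 : ℝ) ≤ 2 * K * (q w).2 ∧ ((q w).2 : ℝ) ≤ 2 * K * (p w).2 := by
  obtain ⟨B, hB⟩ := ht.compact.isBounded.exists_norm_le
  refine ⟨Real.cosh B, Real.one_le_cosh B, fun p q h w => ?_⟩
  have hd : hdist (p w) (q w) ≤ B :=
    (le_abs_self _).trans ((norm_le_pi_norm _ w).trans (hB _ (subset_tsupport _ h)))
  have hK : (0 : ℝ) < 2 * Real.cosh B := mul_pos two_pos (Real.cosh_pos B)
  obtain ⟨h1, h2⟩ := hdist_bound hd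
  obtain ⟨-, h3⟩ := hdist_bound (p := q w) (q := p w) (B := B) (by rwa [hdist_comm])
  rw [div_le_iff₀ hK] at h2 h3
  exact ⟨h1, by linarith, by linarith⟩

theorem kTerm_cos_mem (t : Test F) {p q : Pt F N} (h : kTerm t p q ≠ 0) :
    q.2 ∈ (fun d => p.2.out • d) '' ((QuotientGroup.mk : GF F → Cos F N) ''
      Function.support t.fin) := by
  refine ⟨_, ⟨_, left_ne_zero_of_mul h, rfl⟩, ?_⟩
  show p.2.out • ((p.2.out⁻¹ * q.2.out : GF F) : Cos F N) = q.2
  rw [MulAction.Quotient.smul_mk, smul_eq_mul, mul_inv_cancel_left, QuotientGroup.out_eq']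

/-- Translates near a fixed point, uniformly in an intermediate point. -/
theorem finite_near {t₁ t₂ : Test F} (h₁ : t₁.Ok N) (h₂ : t₂.Ok N) (p q : Pt F N) :
    {γ : PG F | ∃ r, kTerm t₁ p r ≠ 0 ∧ kTerm t₂ r (γ • q) ≠ 0}.Finite := by
  classical
  obtain ⟨K₁, hK₁, hb₁⟩ := exists_coord_bound h₁
  obtain ⟨K₂, hK₂, hb₂⟩ := exists_coord_bound h₂
  set f : InfinitePlace F → ℝ := fun w =>
    ‖(p.1 w).1‖ + 2 * K₁ * ((p.1 w).2 : ℝ) + 2 * K₂ * (2 * K₁ * ((p.1 w).2 : ℝ))
  have hK1 : 0 < K₁ := one_pos.trans_le hK₁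
  have hK2 : 0 < K₂ := one_pos.trans_le hK₂
  have hf0 : ∀ w, 0 ≤ f w := fun w => by
    have := (p.1 w).2.2.out
    positivity
  set c : ℝ := Finset.univ.inf' Finset.univ_nonempty fun w : InfinitePlace F =>
    ((p.1 w).2 : ℝ) / (2 * K₁) / (2 * K₂)
  have hc : 0 < c := (Finset.lt_inf'_iff _).2 fun w _ =>
    div_pos (div_pos (p.1 w).2.2 (by positivity)) (by positivity)
  set A := (fun d => p.2.out • d) '' ((QuotientGroup.mk : GF F → Cos F N) ''
    Function.support t₁.fin)
  set T : Set (Cos F N) := ⋃ a ∈ A, (fun d => a.out • d) ''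
    ((QuotientGroup.mk : GF F → Cos F N) '' Function.support t₂.fin)
  have hT : T.Finite := (h₁.finite.image _).biUnion fun a _ => h₂.finite.image _
  refine (Red.finite_meets hT (∑ w, f w) hc q).subset ?_
  rintro γ ⟨r, hr1, hr2⟩
  refine ⟨Set.mem_biUnion (kTerm_cos_mem t₁ hr1) (kTerm_cos_mem t₂ hr2), fun w => ?_⟩
  obtain ⟨a1, a2, a3⟩ := hb₁ p.1 r.1 (right_ne_zero_of_mul hr1) w
  obtain ⟨b1, b2, b3⟩ := hb₂ r.1 (γ • q).1 (right_ne_zero_of_mul hr2) w
  refine ⟨le_trans ?_ (Finset.single_le_sum (fun w _ => hf0 w) (Finset.mem_univ w)),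
    le_trans (Finset.inf'_le _ (Finset.mem_univ w)) ?_⟩
  · have : 2 * K₂ * ((r.1 w).2 : ℝ) ≤ 2 * K₂ * (2 * K₁ * ((p.1 w).2 : ℝ)) :=
      mul_le_mul_of_nonneg_left a3 (by positivity)
    simp only [f]
    linarith
  · rw [div_le_iff₀ (by positivity)]
    refine le_trans ((div_le_iff₀ (by positivity)).2 ?_) (b2.trans_eq (mul_comm _ _))
    linarith

lemma measurable_section_left (G : Pt F N → Pt F N → ℂ)
    (h : Measurable fun x : Pt F N × Pt F N => G x.1 x.2) (q : Pt F N) :
    Measurable fun p => G p q := by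
  have h1 : Measurable fun p : Pt F N => ((p, q) : Pt F N × Pt F N) :=
    measurable_id.prodMk measurable_const
  exact h.comp h1

lemma measurable_section_right (G : Pt F N → Pt F N → ℂ)
    (h : Measurable fun x : Pt F N × Pt F N => G x.1 x.2) (p : Pt F N) :
    Measurable fun q => G p q := by
  have h1 : Measurable fun q : Pt F N => ((p, q) : Pt F N × Pt F N) :=
    measurable_const.prodMk measurable_id
  exact h.comp h1

theorem Test.Ok.exists_bound {t : Test F} (ht : t.Ok N) :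
    ∃ C, 0 ≤ C ∧ ∀ p q : Pt F N, ‖kTerm t p q‖ ≤ C := by
  classical
  obtain ⟨L, hL⟩ := ht.lipschitz
  obtain ⟨A, hA⟩ := hL.continuous.bounded_above_of_compact_support ht.compact
  set B : ℝ := ∑ c ∈ ht.finite.toFinset, ‖t.fin c.out‖
  have hA0 : 0 ≤ A := (norm_nonneg _).trans (hA 0)
  have hB0 : 0 ≤ B := Finset.sum_nonneg fun c _ => norm_nonneg _
  refine ⟨B * A, mul_nonneg hB0 hA0, fun p q => ?_⟩
  rw [kTerm, norm_mul]
  refine mul_le_mul ?_ (hA _) (norm_nonneg _) hB0
  set y := p.2.out⁻¹ * q.2.out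
  by_cases hy : t.fin y = 0
  · simpa [hy] using hB0
  obtain ⟨u, hu, e⟩ : ∃ u ∈ UZ F N, (y : Cos F N).out = y * u :=
    ⟨_, QuotientGroup.eq.1 (QuotientGroup.out_eq' _).symm, (mul_inv_cancel_left _ _).symm⟩
  calc ‖t.fin y‖ = ‖t.fin (y : Cos F N).out‖ := by rw [e, ht.right_inv u hu]
    _ ≤ B := Finset.single_le_sum (f := fun c : Cos F N => ‖t.fin c.out‖)
      (fun c _ => norm_nonneg _) (ht.finite.mem_toFinset.2 ⟨y, hy, rfl⟩)

/-- A kernel section is bounded, given finiteness of the transposed support. -/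
theorem exists_kern_bound {t : Test F} (ht : t.Ok N) (hf : t.flip.Ok N) (q : Pt F N) :
    ∃ C, 0 ≤ C ∧ ∀ p : Pt F N, ‖kern t p q‖ ≤ C := by
  classical
  obtain ⟨C, hC0, hC⟩ := ht.exists_bound
  set Γ := (finite_near hf ht q q).toFinset
  refine ⟨Γ.card * C, by positivity, fun p => ?_⟩
  rw [kern_eq_tsum ht]
  by_cases h : ∀ γ : PG F, kTerm t p (γ • q) = 0
  · simp only [h, tsum_zero, norm_zero]; positivity
  push Not at h
  obtain ⟨γ₀, hγ₀⟩ := h
  rw [← kern_eq_tsum ht, ← kern_smul_left ht γ₀⁻¹, kern_eq_tsum ht]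
  have hp : kTerm t (γ₀⁻¹ • p) q ≠ 0 := by
    rwa [← kTerm_smul ht γ₀, smul_inv_smul]
  rw [tsum_eq_sum (s := Γ) fun γ hγ => by
    by_contra hne
    exact hγ ((finite_near hf ht q q).mem_toFinset.2 ⟨_, by rwa [kTerm_flip], hne⟩)]
  exact (norm_sum_le _ _).trans ((Finset.sum_le_card_nsmul _ _ C fun γ _ => hC _ _).trans_eq
    (nsmul_eq_mul _ _))

/-- Convolution of finite parts. -/
def finConv (N : ℕ) (f₁ f₂ : GF F → ℂ) (y : GF F) : ℂ :=
  ∑' h : Cos F N, f₁ h.out * f₂ (h.out⁻¹ * y)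

theorem ok_finConv {t₁ t₂ : Test F} (h₁ : t₁.Ok N) (h₂ : t₂.Ok N) {s : (InfinitePlace F → ℝ) → ℂ}
    (hs : ∃ C, LipschitzWith C s) (hs' : HasCompactSupport s) :
    (⟨finConv N t₁.fin t₂.fin, s⟩ : Test F).Ok N := by
  refine ⟨fun u hu g => ?_, fun u hu g => ?_, ?_, hs, hs'⟩
  · show finConv N _ _ (u * g) = finConv N _ _ g
    rw [finConv, ← (MulAction.toPerm u : Cos F N ≃ Cos F N).tsum_eq]
    refine tsum_congr fun h => ?_
    obtain ⟨k, hk, e⟩ := exists_out_mul u h
    rw [MulAction.toPerm_apply, e, h₁.right_inv k hk, h₁.left_inv u hu,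
      show (u * h.out * k)⁻¹ * (u * g) = k⁻¹ * (h.out⁻¹ * g) by group,
      h₂.left_inv _ (inv_mem hk)]
  · show finConv N _ _ (g * u) = finConv N _ _ g
    exact tsum_congr fun h => by rw [← mul_assoc, h₂.right_inv u hu]
  · refine ((h₁.finite.biUnion fun (a : Cos F N) _ =>
      h₂.finite.image fun d : Cos F N => a.out • d)).subset ?_
    rintro _ ⟨g, hg, rfl⟩
    obtain ⟨h, hh⟩ : ∃ h : Cos F N, t₁.fin h.out * t₂.fin (h.out⁻¹ * g) ≠ 0 := by
      by_contra! hall
      exact hg (by simp [finConv, hall])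
    refine Set.mem_biUnion ⟨_, left_ne_zero_of_mul hh, QuotientGroup.out_eq' h⟩
      ⟨_, ⟨_, right_ne_zero_of_mul hh, rfl⟩, ?_⟩
    show h.out • ((h.out⁻¹ * g : GF F) : Cos F N) = _
    rw [MulAction.Quotient.smul_mk, smul_eq_mul, mul_inv_cancel_left]

section

variable [Countable (Cos F N)] {w : Pt F N → ℝ≥0∞} (hw : IsPtWeight w)

include hw

/-- Unfolding one kernel against an invariant function. -/
theorem intOp_kern_eq {t : Test F} (ht : t.Ok N) {u : Pt F N → ℂ} (hu : Measurable u)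
    (huinv : ∀ (γ : PG F) p, u (γ • p) = u p) (p : Pt F N)
    (hfin : ∫⁻ r, ‖kTerm t p r * u r‖ₑ ∂ptMeasure F N ≠ ⊤) :
    intOp (quotMeasure w) (kern t) u p = ∫ r, kTerm t p r * u r ∂ptMeasure F N := by
  haveI : SMulInvariantMeasure (PG F) (Pt F N) (ptMeasure F N) := instSMulInvariantMeasurePG
  set T : Pt F N → ℂ := fun r => kTerm t p r * u r
  have hm : Measurable T :=
    ((measurable_kTerm ht).comp measurable_prodMk_left).mul hu
  have hwm : ∀ γ : PG F, Measurable fun r => ((w (γ • r)).toReal : ℂ) := fun γ =>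
    Complex.measurable_ofReal.comp (hw.1.comp (measurable_const_smul γ)).ennreal_toReal
  have hT : ∀ γ : PG F, AEStronglyMeasurable (fun r => T (γ • r)) (quotMeasure w) := fun γ =>
    (hm.comp (measurable_const_smul γ)).aestronglyMeasurable
  have hS : ∀ γ : PG F, AEStronglyMeasurable (fun r => ((w (γ • r)).toReal : ℂ) * T r)
      (ptMeasure F N) := fun γ => ((hwm γ).mul hm).aestronglyMeasurable
  have hT2 : ∑' γ : PG F, ∫⁻ r, ‖T (γ • r)‖ₑ ∂quotMeasure w ≠ ⊤ := by
    rw [← lintegral_tsum fun γ => (hT γ).enorm,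
      lintegral_unfold hw (g := fun r => ‖T r‖ₑ) hm.enorm]
    exact hfin
  have hS2 : ∑' γ : PG F, ∫⁻ r, ‖((w (γ • r)).toReal : ℂ) * T r‖ₑ ∂ptMeasure F N ≠ ⊤ := by
    rw [← lintegral_tsum fun γ => (hS γ).enorm]
    refine ne_top_of_le_ne_top hfin (le_of_eq (lintegral_congr fun r => ?_))
    simp only [enorm_mul, enorm_wt hw, ENNReal.tsum_mul_right,
      ((isPtWeight_iff w).1 hw).sum_one, one_mul, T]
  have e : ∀ γ : PG F, ∫ r, T (γ • r) ∂quotMeasure w =
      ∫ r, ((w (γ⁻¹ • r)).toReal : ℂ) * T r ∂ptMeasure F N := fun γ => by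
    rw [integral_quotMeasure hw, ← (measurePreserving_smul γ (ptMeasure F N)).integral_comp
      (MeasurableEquiv.smul γ).measurableEmbedding
      (fun r => ((w (γ⁻¹ • r)).toReal : ℂ) * T r)]
    simp only [inv_smul_smul]
  calc intOp (quotMeasure w) (kern t) u p = ∫ r, ∑' γ : PG F, T (γ • r) ∂quotMeasure w := by
        refine integral_congr_ae (Filter.Eventually.of_forall fun r => ?_)
        simp only [T, huinv, tsum_mul_right, ← kern_eq_tsum ht]
    _ = ∑' γ : PG F, ∫ r, T (γ • r) ∂quotMeasure w := integral_tsum hT hT2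
    _ = ∑' γ : PG F, ∫ r, ((w (γ • r)).toReal : ℂ) * T r ∂ptMeasure F N := by
        simp only [e]
        exact (Equiv.inv (PG F)).tsum_eq fun γ =>
          ∫ r, ((w (γ • r)).toReal : ℂ) * T r ∂ptMeasure F N
    _ = ∫ r, ∑' γ : PG F, ((w (γ • r)).toReal : ℂ) * T r ∂ptMeasure F N :=
        (integral_tsum hS hS2).symm
    _ = _ := by
        refine integral_congr_ae (Filter.Eventually.of_forall fun r => ?_)
        have hr : ∑' γ : PG F, (w (γ • r)).toReal = 1 := by
          rw [← ENNReal.tsum_toReal_eq fun γ => wt_ne_top hw _,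
            ((isPtWeight_iff w).1 hw).sum_one r, ENNReal.toReal_one]
        simp only [tsum_mul_right]
        rw [← Complex.ofReal_tsum, hr, Complex.ofReal_one, one_mul]

theorem lintegral_kTerm_lt_top {t : Test F} (ht : t.Ok N) (p : Pt F N)
    (hsize : t.size N p.1 ≠ ⊤) :
    ∫⁻ r, ‖kTerm t p r‖ₑ ∂ptMeasure F N ≠ ⊤ := by
  refine ne_top_of_le_ne_top hsize (le_of_eq ?_)
  have hy : Measurable fun y : Xinf F => ‖t.inf fun v => hdist (p.1 v) (y v)‖ₑ :=
    ((measurable_infTerm ht).comp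
      (f := fun y : Xinf F => (p.1, y)) (measurable_const.prodMk measurable_id)).enorm
  have e : ∀ q : Pt F N, ‖kTerm t p q‖ₑ =
      ‖t.inf fun v => hdist (p.1 v) (q.1 v)‖ₑ * ‖t.fin (p.2.out⁻¹ * q.2.out)‖ₑ := fun q => by
    rw [kTerm, enorm_mul, mul_comm]
  simp only [e, ptMeasure]
  rw [lintegral_prod_mul (f := fun y : Xinf F => ‖t.inf fun v => hdist (p.1 v) (y v)‖ₑ)
      (g := fun c : Cos F N => ‖t.fin (p.2.out⁻¹ * c.out)‖ₑ)
      hy.aemeasurable (measurable_of_countable _).aemeasurable, lintegral_count, Test.size, mul_comm]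
  congr 1
  rw [← (MulAction.toPerm p.2.out : Cos F N ≃ Cos F N).tsum_eq]
  refine tsum_congr fun c => congrArg _ ?_
  obtain ⟨u, hu, hc⟩ := exists_out_mul p.2.out c
  rw [MulAction.toPerm_apply, hc,
    show p.2.out⁻¹ * (p.2.out * c.out * u) = c.out * u by group, ht.right_inv u hu]

omit hw in
/-- The support of the infinite part around a point has finite mass. -/
theorem size_ne_top {t : Test F} (ht : t.Ok N) (x : Xinf F) : t.size N x ≠ ⊤ := by
  classical
  refine ENNReal.mul_ne_top ?_ ?_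
  · rw [tsum_eq_sum (s := ht.finite.toFinset) fun c hc => ?_]
    · exact ENNReal.sum_ne_top.2 fun _ _ => enorm_ne_top
    · by_contra h
      exact hc (ht.finite.mem_toFinset.2 ⟨c.out, fun h0 => h (by simp [h0]),
        QuotientGroup.out_eq' c⟩)
  · obtain ⟨K, hK, hb⟩ := exists_coord_bound ht
    obtain ⟨L, hL⟩ := ht.lipschitz
    obtain ⟨A, hA⟩ := hL.continuous.bounded_above_of_compact_support ht.compact
    have hK0 : 0 < K := one_pos.trans_le hK
    set S : Set (Xinf F) := Set.univ.pi fun v =>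
      {y : H3 | ‖y.1‖ ≤ ‖(x v).1‖ + 2 * K * ((x v).2 : ℝ) ∧ ((x v).2 : ℝ) / (2 * K) ≤ (y.2 : ℝ)}
    refine ne_top_of_le_ne_top ?_ (lintegral_mono
      (g := S.indicator fun _ => ENNReal.ofReal A) fun y => ?_)
    · refine ne_top_of_le_ne_top ?_ (lintegral_indicator_const_le _ _)
      refine ENNReal.mul_ne_top ENNReal.ofReal_ne_top ?_
      rw [Measure.pi_pi]
      exact ENNReal.prod_ne_top fun v _ =>
        (Red.hypMeasure_cusp_lt_top _ (div_pos (x v).2.2 (mul_pos two_pos hK0))).ne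
    · by_cases h : t.inf (fun v => hdist (x v) (y v)) = 0
      · simp [h]
      · have hy : y ∈ S := fun v _ => ⟨(hb x y h v).1, (div_le_iff₀ (mul_pos two_pos hK0)).2 (by
          linarith [(hb x y h v).2.1])⟩
        rw [Set.indicator_of_mem hy, ← ofReal_norm]
        exact ENNReal.ofReal_le_ofReal (hA _)

set_option maxHeartbeats 400000 in
/-- A kernel section is square integrable. -/
theorem memLp_kern {t : Test F} (ht : t.Ok N) (hf : t.flip.Ok N) (q : Pt F N) :
    MemLp (fun p => kern t p q) 2 (quotMeasure w) := by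
  obtain ⟨C, hC0, hC⟩ := exists_kern_bound ht hf q
  have hm : Measurable fun p => kern t p q :=
    measurable_section_left (kern t) (measurable_kern ht) q
  refine ⟨hm.aestronglyMeasurable, ?_⟩
  rw [eLpNorm_two_eq]
  refine ENNReal.rpow_lt_top_of_nonneg (by norm_num) (ne_top_of_le_ne_top
    (b := ENNReal.ofReal C * ∫⁻ p, ‖kern t.flip q p‖ₑ ∂quotMeasure w) ?_ ?_)
  · exact ENNReal.mul_ne_top ENNReal.ofReal_ne_top
      (ne_top_of_le_ne_top (size_ne_top hf q.1) (lintegral_kern_le hw hf q))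
  · rw [← lintegral_const_mul' _ _ ENNReal.ofReal_ne_top]
    refine lintegral_mono fun p => ?_
    have hk : kern t.flip q p = kern t p q := by
      rw [kern_eq_tsum hf, kern_eq_tsum ht, ← (Equiv.inv (PG F)).tsum_eq]
      refine tsum_congr fun γ => ?_
      rw [Equiv.inv_apply, kTerm_flip, ← kTerm_smul ht γ, smul_inv_smul]
    rw [hk, sq]
    refine mul_le_mul' ?_ le_rfl
    rw [← ofReal_norm]
    exact ENNReal.ofReal_le_ofReal (hC p)

set_option maxHeartbeats 400000 in
/-- **The product of two kernels is the kernel of the convolution.** -/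
theorem intOp_kern_kern {t₁ t₂ : Test F} (h₁ : t₁.Ok N) (h₂ : t₂.Ok N) (h₂' : t₂.flip.Ok N)
    {s : (InfinitePlace F → ℝ) → ℂ}
    (hspec : ∀ x z : Xinf F, ∫ y, t₁.inf (fun v => hdist (x v) (y v)) *
      t₂.inf (fun v => hdist (y v) (z v)) ∂Measure.pi (fun _ : InfinitePlace F => hypMeasure) =
        s fun v => hdist (x v) (z v))
    (hs : ∃ C, LipschitzWith C s) (hs' : HasCompactSupport s) (p q : Pt F N) :
    intOp (quotMeasure w) (kern t₁) (fun r => kern t₂ r q) p =
      kern ⟨finConv N t₁.fin t₂.fin, s⟩ p q := by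
  classical
  have hok := ok_finConv h₁ h₂ hs hs'
  obtain ⟨C, hC0, hC⟩ := exists_kern_bound h₂ h₂' q
  obtain ⟨C', hC'0, hC'⟩ := h₂.exists_bound
  set Γ := (finite_near h₁ h₂ p q).toFinset
  have hm1 : Measurable fun r => kTerm t₁ p r :=
    measurable_section_right (kTerm t₁) (measurable_kTerm h₁) p
  have hm2 : ∀ γ : PG F, Measurable fun r => kTerm t₂ r (γ • q) := fun γ =>
    measurable_section_left (kTerm t₂) (measurable_kTerm h₂) (γ • q)
  have hi1 : Integrable (fun r => kTerm t₁ p r) (ptMeasure F N) :=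
    ⟨hm1.aestronglyMeasurable, (lintegral_kTerm_lt_top hw h₁ p (size_ne_top h₁ _)).lt_top⟩
  have hi : ∀ γ : PG F, Integrable (fun r => kTerm t₁ p r * kTerm t₂ r (γ • q)) (ptMeasure F N) :=
    fun γ => hi1.mul_bdd (hm2 γ).aestronglyMeasurable (Filter.Eventually.of_forall fun r => hC' _ _)
  rw [intOp_kern_eq hw h₁ (u := fun r => kern t₂ r q)
    (measurable_section_left (kern t₂) (measurable_kern h₂) q) (fun γ r => kern_smul_left h₂ γ r q) p
    ((hi1.mul_bdd (measurable_section_left (kern t₂) (measurable_kern h₂) q).aestronglyMeasurable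
      (Filter.Eventually.of_forall hC)).2).ne]
  have hsum : ∀ r, kTerm t₁ p r * kern t₂ r q = ∑ γ ∈ Γ, kTerm t₁ p r * kTerm t₂ r (γ • q) := by
    intro r
    by_cases hr : kTerm t₁ p r = 0
    · simp [hr]
    rw [kern_eq_tsum h₂, ← Finset.mul_sum, tsum_eq_sum (s := Γ) fun γ hγ => by
      by_contra hne
      exact hγ ((finite_near h₁ h₂ p q).mem_toFinset.2 ⟨r, hr, hne⟩)]
  simp only [hsum]
  rw [integral_finsetSum _ fun γ _ => hi γ, kern_eq_tsum hok]
  have hterm : ∀ γ : PG F, ∫ r, kTerm t₁ p r * kTerm t₂ r (γ • q) ∂ptMeasure F N =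
      kTerm (⟨finConv N t₁.fin t₂.fin, s⟩ : Test F) p (γ • q) := fun γ => by
    set z := γ • q
    have e : ∀ r : Pt F N, kTerm t₁ p r * kTerm t₂ r z =
        (t₁.inf (fun v => hdist (p.1 v) (r.1 v)) * t₂.inf (fun v => hdist (r.1 v) (z.1 v))) *
          (t₁.fin (p.2.out⁻¹ * r.2.out) * t₂.fin (r.2.out⁻¹ * z.2.out)) := fun r => by
      simp only [kTerm]; ring
    simp only [e, ptMeasure]
    rw [integral_prod_mul
      (f := fun y : Xinf F => t₁.inf (fun v => hdist (p.1 v) (y v)) *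
        t₂.inf (fun v => hdist (y v) (z.1 v)))
      (g := fun c : Cos F N => t₁.fin (p.2.out⁻¹ * c.out) * t₂.fin (c.out⁻¹ * z.2.out)), hspec,
      kTerm, mul_comm]
    congr 1
    have hfs : (Function.support fun c : Cos F N =>
        t₁.fin (p.2.out⁻¹ * c.out) * t₂.fin (c.out⁻¹ * z.2.out)).Finite := by
      refine (h₁.finite.image fun d => p.2.out • d).subset fun c hc =>
        ⟨_, ⟨_, left_ne_zero_of_mul hc, rfl⟩, ?_⟩
      show p.2.out • ((p.2.out⁻¹ * c.out : GF F) : Cos F N) = c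
      rw [MulAction.Quotient.smul_mk, smul_eq_mul, mul_inv_cancel_left, QuotientGroup.out_eq']
    rw [integral_countable (integrable_count_iff.2 (summable_of_hasFiniteSupport hfs).norm)]
    simp only [Measure.real, Measure.count_singleton, ENNReal.toReal_one, one_smul]
    show _ = ∑' h : Cos F N, _
    rw [← (MulAction.toPerm p.2.out : Cos F N ≃ Cos F N).tsum_eq]
    refine tsum_congr fun c => ?_
    obtain ⟨u, hu, hc⟩ := exists_out_mul p.2.out c
    rw [MulAction.toPerm_apply, hc,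
      show p.2.out⁻¹ * (p.2.out * c.out * u) = c.out * u by group, h₁.right_inv u hu,
      show (p.2.out * c.out * u)⁻¹ * z.2.out = u⁻¹ * (c.out⁻¹ * (p.2.out⁻¹ * z.2.out)) by group,
      h₂.left_inv _ (inv_mem hu)]
  simp only [hterm]
  refine (tsum_eq_sum fun γ hγ => ?_).symm
  rw [← hterm, integral_eq_zero_of_ae (Filter.Eventually.of_forall fun r => ?_)]
  simp only [Pi.zero_apply, mul_eq_zero]
  by_contra hne
  push Not at hne
  exact hγ ((finite_near h₁ h₂ p q).mem_toFinset.2 ⟨r, hne.1, hne.2⟩)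

end

end FLTAgent.LT
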