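import Mathlib

/-!
Operators on `L²` from formulas: the generic constructor from a quadratic bound, and Schur's test
for integral kernels.
-/

set_option autoImplicit false
set_option linter.unusedSectionVars false
set_option linter.deprecated false

noncomputable section

namespace FLTAgent.LT

open MeasureTheory Filter
open scoped InnerProductSpace ENNReal

variable {X : Type*} [MeasurableSpace X] {μ : Measure X}

lemma eLpNorm_two_eq (f : X → ℂ) :
    eLpNorm f 2 μ = (∫⁻ x, ‖f x‖ₑ ^ 2 ∂μ) ^ (1 / 2 : ℝ) := by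
  rw [eLpNorm_eq_lintegral_rpow_enorm_toReal two_ne_zero ENNReal.ofNat_ne_top]
  simp

lemma enorm_Lp_two (u : Lp ℂ 2 μ) :
    (‖u‖ₑ : ℝ≥0∞) = (∫⁻ x, ‖u x‖ₑ ^ 2 ∂μ) ^ (1 / 2 : ℝ) := by
  rw [Lp.enorm_def, eLpNorm_two_eq]

/-- A formula, defined on all functions, which makes sense on `L²`. -/
structure L2Formula (μ : Measure X) (L : (X → ℂ) → X → ℂ) (R : ℝ) : Prop where
  nonneg : 0 ≤ R
  meas : ∀ u : Lp ℂ 2 μ, AEStronglyMeasurable (L u) μ
  bound : ∀ u : Lp ℂ 2 μ,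
    ∫⁻ x, ‖L u x‖ₑ ^ 2 ∂μ ≤ ENNReal.ofReal R ^ 2 * ∫⁻ x, ‖u x‖ₑ ^ 2 ∂μ
  add : ∀ u v : Lp ℂ 2 μ, L (u + v : Lp ℂ 2 μ) =ᵐ[μ] L u + L v
  smul : ∀ (a : ℂ) (u : Lp ℂ 2 μ), L (a • u : Lp ℂ 2 μ) =ᵐ[μ] a • L u

variable {L : (X → ℂ) → X → ℂ} {R : ℝ}

lemma L2Formula.eLpNorm_le (h : L2Formula μ L R) (u : Lp ℂ 2 μ) :
    eLpNorm (L u) 2 μ ≤ ENNReal.ofReal R * ‖u‖ₑ := by
  rw [eLpNorm_two_eq, enorm_Lp_two,
    show ENNReal.ofReal R = (ENNReal.ofReal R ^ 2) ^ (1 / 2 : ℝ) by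
      rw [← ENNReal.rpow_natCast, ← ENNReal.rpow_mul]; simp,
    ← ENNReal.mul_rpow_of_nonneg _ _ (by norm_num)]
  exact ENNReal.rpow_le_rpow (h.bound u) (by norm_num)

lemma L2Formula.memLp (h : L2Formula μ L R) (u : Lp ℂ 2 μ) : MemLp (L u) 2 μ :=
  ⟨h.meas u, (h.eLpNorm_le u).trans_lt (ENNReal.mul_lt_top ENNReal.ofReal_lt_top enorm_lt_top)⟩

/-- The operator of a formula. -/
def L2Formula.op (h : L2Formula μ L R) : Lp ℂ 2 μ →L[ℂ] Lp ℂ 2 μ :=
  LinearMap.mkContinuous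
    { toFun := fun u => (h.memLp u).toLp (L u)
      map_add' := fun u v => by
        refine Lp.ext ?_
        filter_upwards [(h.memLp (u + v)).coeFn_toLp, (h.memLp u).coeFn_toLp, (h.memLp v).coeFn_toLp,
          Lp.coeFn_add ((h.memLp u).toLp (L u)) ((h.memLp v).toLp (L v)), h.add u v] with
          x h1 h2 h3 h4 h5
        rw [h1, h4, h5, Pi.add_apply, Pi.add_apply, h2, h3]
      map_smul' := fun a u => by
        refine Lp.ext ?_
        filter_upwards [(h.memLp (a • u)).coeFn_toLp, (h.memLp u).coeFn_toLp,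
          Lp.coeFn_smul a ((h.memLp u).toLp (L u)), h.smul a u] with x h1 h2 h3 h4
        rw [h1, RingHom.id_apply, h3, h4, Pi.smul_apply, Pi.smul_apply, h2] }
    R fun u => by
      simp only [LinearMap.coe_mk, AddHom.coe_mk, Lp.norm_toLp]
      rw [← ENNReal.toReal_ofReal h.nonneg, ← toReal_enorm, ← ENNReal.toReal_mul]
      exact ENNReal.toReal_mono (ENNReal.mul_ne_top ENNReal.ofReal_ne_top enorm_ne_top)
        (h.eLpNorm_le u)

lemma L2Formula.op_ae (h : L2Formula μ L R) (u : Lp ℂ 2 μ) : h.op u =ᵐ[μ] L u :=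
  (h.memLp u).coeFn_toLp

lemma L2Formula.norm_op_le (h : L2Formula μ L R) (u : Lp ℂ 2 μ) : ‖h.op u‖ ≤ R * ‖u‖ :=
  (h.op.le_opNorm u).trans (mul_le_mul_of_nonneg_right
    (LinearMap.mkContinuous_norm_le _ h.nonneg _) (norm_nonneg u))

lemma inner_Lp_two (u v : Lp ℂ 2 μ) : ⟪u, v⟫_ℂ = ∫ x, (starRingEnd ℂ) (u x) * v x ∂μ := by
  rw [L2.inner_def]
  simp [mul_comm]

/-! ### Schur's test -/

variable [SFinite μ]

/-- The integral operator of a kernel. -/
def intOp (μ : Measure X) (K : X → X → ℂ) (u : X → ℂ) : X → ℂ := fun p => ∫ q, K p q * u q ∂μ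

/-- A kernel whose absolute row and column integrals are at most `R`. -/
structure SchurKernel (μ : Measure X) (K : X → X → ℂ) (R : ℝ) : Prop where
  nonneg : 0 ≤ R
  meas : Measurable (Function.uncurry K)
  row : ∀ p, ∫⁻ q, ‖K p q‖ₑ ∂μ ≤ ENNReal.ofReal R
  col : ∀ q, ∫⁻ p, ‖K p q‖ₑ ∂μ ≤ ENNReal.ofReal R

variable {K : X → X → ℂ}

lemma SchurKernel.sq_lintegral_le (h : SchurKernel μ K R) (u : X → ℂ)
    (hu : AEStronglyMeasurable u μ) (p : X) :
    (∫⁻ q, ‖K p q * u q‖ₑ ∂μ) ^ 2 ≤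
      ENNReal.ofReal R * ∫⁻ q, ‖K p q‖ₑ * ‖u q‖ₑ ^ 2 ∂μ := by
  have hK : Measurable fun q => ‖K p q‖ₑ := (h.meas.comp measurable_prodMk_left).enorm
  have hu' : AEMeasurable (fun q => ‖u q‖ₑ) μ := hu.enorm
  have e : ∀ a b : ℝ≥0∞, a * b = a ^ (1 / 2 : ℝ) * (a ^ (1 / 2 : ℝ) * b) := fun a b => by
    rw [← mul_assoc, ← ENNReal.rpow_add_of_nonneg _ _ (by norm_num) (by norm_num)]
    norm_num
  have hs : ∀ a : ℝ≥0∞, (a ^ (1 / 2 : ℝ)) ^ (2 : ℝ) = a := fun a => by
    rw [← ENNReal.rpow_mul]; norm_num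
  have hH := ENNReal.lintegral_mul_le_Lp_mul_Lq μ (p := 2) (q := 2) ⟨by norm_num, by norm_num,
    by norm_num⟩ (hK.pow_const (1 / 2 : ℝ)).aemeasurable
    ((hK.pow_const (1 / 2 : ℝ)).aemeasurable.mul hu')
  simp only [Pi.mul_apply, ← e, hs, ENNReal.mul_rpow_of_nonneg _ _ (by norm_num : (0 : ℝ) ≤ 2)]
    at hH
  simp only [enorm_mul]
  refine (pow_le_pow_left₀ zero_le hH 2).trans ?_
  rw [mul_pow, ← ENNReal.rpow_natCast, ← ENNReal.rpow_mul, ← ENNReal.rpow_natCast (_ ^ _) 2,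
    ← ENNReal.rpow_mul]
  norm_num
  exact mul_le_mul' (h.row p) le_rfl

lemma SchurKernel.lintegral_bound (h : SchurKernel μ K R) (u : X → ℂ)
    (hu : AEStronglyMeasurable u μ) :
    ∫⁻ p, (∫⁻ q, ‖K p q * u q‖ₑ ∂μ) ^ 2 ∂μ ≤ ENNReal.ofReal R ^ 2 * ∫⁻ q, ‖u q‖ₑ ^ 2 ∂μ := by
  calc ∫⁻ p, (∫⁻ q, ‖K p q * u q‖ₑ ∂μ) ^ 2 ∂μ
      ≤ ∫⁻ p, ENNReal.ofReal R * ∫⁻ q, ‖K p q‖ₑ * ‖u q‖ₑ ^ 2 ∂μ ∂μ :=
        lintegral_mono (h.sq_lintegral_le u hu)
    _ = ENNReal.ofReal R * ∫⁻ q, ∫⁻ p, ‖K p q‖ₑ * ‖u q‖ₑ ^ 2 ∂μ ∂μ := by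
        rw [lintegral_const_mul' _ _ ENNReal.ofReal_ne_top, lintegral_lintegral_swap]
        exact h.meas.enorm.aemeasurable.mul
          ((hu.enorm.pow_const 2).comp_quasiMeasurePreserving Measure.quasiMeasurePreserving_snd)
    _ ≤ ENNReal.ofReal R * ∫⁻ q, ENNReal.ofReal R * ‖u q‖ₑ ^ 2 ∂μ := by
        refine mul_le_mul' le_rfl (lintegral_mono fun q => ?_)
        rw [lintegral_mul_const' _ _ (ENNReal.pow_ne_top enorm_ne_top)]
        exact mul_le_mul' (h.col q) le_rfl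
    _ = _ := by
        rw [lintegral_const_mul' _ _ ENNReal.ofReal_ne_top, ← mul_assoc, sq]

lemma SchurKernel.integrable_row (h : SchurKernel μ K R) (u : Lp ℂ 2 μ) :
    ∀ᵐ p ∂μ, Integrable (fun q => K p q * u q) μ := by
  have hu : AEStronglyMeasurable (u : X → ℂ) μ := Lp.aestronglyMeasurable u
  have hfin : ∫⁻ q, ‖u q‖ₑ ^ 2 ∂μ < ⊤ := by
    have := Lp.enorm_def u ▸ (enorm_lt_top : (‖u‖ₑ : ℝ≥0∞) < ⊤)
    rw [eLpNorm_two_eq] at this
    exact (ENNReal.rpow_lt_top_iff_of_pos (by norm_num)).1 this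
  have hm : AEMeasurable (fun p => (∫⁻ q, ‖K p q * u q‖ₑ ∂μ) ^ 2) μ :=
    ((h.meas.aestronglyMeasurable.mul (hu.comp_quasiMeasurePreserving
      Measure.quasiMeasurePreserving_snd)).enorm.lintegral_prod_right').pow_const 2
  filter_upwards [ae_lt_top' hm ((h.lintegral_bound u hu).trans_lt
    (ENNReal.mul_lt_top (ENNReal.pow_lt_top ENNReal.ofReal_lt_top) hfin)).ne] with p hp
  exact ⟨(h.meas.comp measurable_prodMk_left).aestronglyMeasurable.mul hu,
    (ENNReal.pow_lt_top_iff.1 hp).resolve_right two_ne_zero⟩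

theorem SchurKernel.formula (h : SchurKernel μ K R) : L2Formula μ (intOp μ K) R where
  nonneg := h.nonneg
  meas u := AEStronglyMeasurable.integral_prod_right'
    (h.meas.aestronglyMeasurable.mul ((Lp.aestronglyMeasurable u).comp_quasiMeasurePreserving
      Measure.quasiMeasurePreserving_snd))
  bound u := (lintegral_mono fun p => pow_le_pow_left₀ zero_le
    (enorm_integral_le_lintegral_enorm _) 2).trans (h.lintegral_bound u (Lp.aestronglyMeasurable u))
  add u v := by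
    filter_upwards [h.integrable_row u, h.integrable_row v] with p hu hv
    simp only [intOp, Pi.add_apply]
    rw [← integral_add hu hv]
    refine integral_congr_ae ?_
    filter_upwards [Lp.coeFn_add u v] with q hq
    rw [hq, Pi.add_apply, mul_add]
  smul a u := by
    refine Eventually.of_forall fun p => ?_
    simp only [intOp, Pi.smul_apply, smul_eq_mul]
    rw [← integral_const_mul]
    refine integral_congr_ae ?_
    filter_upwards [Lp.coeFn_smul a u] with q hq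
    rw [hq, Pi.smul_apply, smul_eq_mul]
    ring

/-- The operator of a hermitian Schur kernel is symmetric. -/
theorem SchurKernel.symm (h : SchurKernel μ K R) (hK : ∀ p q, (starRingEnd ℂ) (K p q) = K q p)
    (u v : Lp ℂ 2 μ) : ⟪h.formula.op u, v⟫_ℂ = ⟪u, h.formula.op v⟫_ℂ := by
  have hu := Lp.aestronglyMeasurable u
  have hv := Lp.aestronglyMeasurable v
  set G : X × X → ℂ := fun z => (starRingEnd ℂ) (K z.1 z.2 * u z.2) * v z.1
  have hG : Integrable G (μ.prod μ) := by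
    refine ⟨(continuous_star.comp_aestronglyMeasurable (h.meas.aestronglyMeasurable.mul
      (hu.comp_quasiMeasurePreserving Measure.quasiMeasurePreserving_snd))).mul
      (hv.comp_quasiMeasurePreserving Measure.quasiMeasurePreserving_fst), ?_⟩
    rw [hasFiniteIntegral_iff_enorm, lintegral_prod _
      (((h.meas.aestronglyMeasurable.mul
      (hu.comp_quasiMeasurePreserving Measure.quasiMeasurePreserving_snd)).enorm.mul
      (hv.comp_quasiMeasurePreserving Measure.quasiMeasurePreserving_fst).enorm).congr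
      (Eventually.of_forall fun z => by simp [G, enorm_mul, Function.uncurry]))]
    have hH := ENNReal.lintegral_mul_le_Lp_mul_Lq μ (p := 2) (q := 2) ⟨by norm_num, by norm_num,
      by norm_num⟩ ((h.meas.aestronglyMeasurable.mul
      (hu.comp_quasiMeasurePreserving Measure.quasiMeasurePreserving_snd)).enorm.lintegral_prod_right')
      hv.enorm
    refine lt_of_le_of_lt ?_ (lt_of_le_of_lt hH ?_)
    · refine le_of_eq (lintegral_congr fun p => ?_)
      simp only [G, enorm_mul, RCLike.enorm_conj, Pi.mul_apply, Function.comp_apply]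
      rw [lintegral_mul_const' _ _ enorm_ne_top]
      rfl
    · have e1 : (∫⁻ p, (∫⁻ q, ‖K p q * u q‖ₑ ∂μ) ^ (2 : ℝ) ∂μ) ^ (1 / 2 : ℝ) < ⊤ := by
        refine ENNReal.rpow_lt_top_of_nonneg (by norm_num) (ne_top_of_le_ne_top ?_
          (le_of_eq_of_le (lintegral_congr fun p => ENNReal.rpow_two _) (h.lintegral_bound u hu)))
        have := Lp.enorm_def u ▸ (enorm_lt_top : (‖u‖ₑ : ℝ≥0∞) < ⊤)
        rw [eLpNorm_two_eq] at this
        exact ENNReal.mul_ne_top (ENNReal.pow_ne_top ENNReal.ofReal_ne_top)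
          ((ENNReal.rpow_lt_top_iff_of_pos (by norm_num)).1 this).ne
      have e2 : (∫⁻ p, ‖v p‖ₑ ^ (2 : ℝ) ∂μ) ^ (1 / 2 : ℝ) < ⊤ := by
        have := Lp.enorm_def v ▸ (enorm_lt_top : (‖v‖ₑ : ℝ≥0∞) < ⊤)
        rw [eLpNorm_two_eq] at this
        simpa only [ENNReal.rpow_two] using this
      exact ENNReal.mul_lt_top e1 e2
  calc ⟪h.formula.op u, v⟫_ℂ = ∫ p, ∫ q, G (p, q) ∂μ ∂μ := by
        rw [inner_Lp_two]
        refine integral_congr_ae ?_
        filter_upwards [h.formula.op_ae u] with p hp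
        rw [hp, intOp, ← integral_conj, ← integral_mul_const]
    _ = ∫ q, ∫ p, G (p, q) ∂μ ∂μ := integral_integral_swap hG
    _ = ⟪u, h.formula.op v⟫_ℂ := by
        rw [inner_Lp_two]
        refine integral_congr_ae ?_
        filter_upwards [h.formula.op_ae v] with q hq
        rw [hq, intOp, ← integral_const_mul]
        refine integral_congr_ae (Eventually.of_forall fun p => ?_)
        simp only [G, map_mul, hK]
        ring

end FLTAgent.LT
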