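import Fermat.Agent.LT.TF.Action
import Fermat.Agent.LT.TF.Schur

/-!
Unfolding over `PGL₂(F)`: the kernel of a test is an unconditional sum of translates of one function,
hence measurable, a Schur kernel for the quotient measure, and the operator `testOp`.
-/

set_option autoImplicit false
set_option linter.unusedSectionVars false
set_option linter.unusedSimpArgs false
set_option linter.deprecated false
set_option synthInstance.maxHeartbeats 200000

noncomputable section

namespace FLTAgent.LT

open NumberField IsDedekindDomain MeasureTheory Filter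
open scoped ENNReal

/-- Countable unconditional sums of measurable complex functions are measurable. -/
lemma measurable_complex_tsum {α ι : Type*} [MeasurableSpace α] [Countable ι] {f : ι → α → ℂ}
    (hf : ∀ i, Measurable (f i)) : Measurable fun x => ∑' i, f i x := by
  classical
  set S : Set α := {x | ∑' i, ‖f i x‖ₑ < ⊤}
  have hS : MeasurableSet S :=
    measurableSet_lt (Measurable.ennreal_tsum fun i => (hf i).enorm) measurable_const
  have key : ∀ x, (x ∈ S → Summable fun i => f i x) ∧ (x ∉ S → ¬ Summable fun i => f i x) := by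
    refine fun x => ⟨fun hx => ?_, fun hx hs => hx ?_⟩
    · refine Summable.of_nnnorm (ENNReal.tsum_coe_ne_top_iff_summable.1 ?_)
      simpa [S, enorm_eq_nnnorm] using (Set.mem_setOf.1 hx).ne
    · have := (summable_norm_iff.2 hs)
      show ∑' i, ‖f i x‖ₑ < ⊤
      simpa [lt_top_iff_ne_top, enorm_eq_nnnorm, ENNReal.tsum_coe_ne_top_iff_summable,
        ← NNReal.summable_coe] using this
  have heq : (fun x => ∑' i, f i x) = fun x => ∑' i, S.indicator (f i) x := by
    funext x
    by_cases hx : x ∈ S
    · simp [hx]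
    · rw [tsum_eq_zero_of_not_summable ((key x).2 hx)]
      simp [hx]
  rw [heq]
  refine measurable_of_tendsto_metrizable' atTop
    (f := fun (s : Finset ι) x => ∑ i ∈ s, S.indicator (f i) x)
    (fun s => Finset.measurable_sum _ fun i _ => (hf i).indicator hS) (tendsto_pi_nhds.2 fun x => ?_)
  have hs : Summable fun i => S.indicator (f i) x := by
    by_cases hx : x ∈ S
    · simpa [hx] using (key x).1 hx
    · simp [hx, summable_zero]
  exact hs.hasSum

lemma measurable_hdist : Measurable fun x : H3 × H3 => hdist x.1 x.2 := by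
  have h := Hyp.continuous_coshDist.measurable
  unfold hdist Real.arcosh
  exact Real.measurable_log.comp
    (h.add (((h.pow_const 2).sub_const 1).sqrt))

lemma hdist_act (g : GL (Fin 2) ℂ) (p q : H3) : hdist (act g p) (act g q) = hdist p q := by
  rw [hdist, hdist, Hyp.coshDist_act]

lemma hdist_comm (p q : H3) : hdist p q = hdist q p := by
  rw [hdist, hdist, Hyp.coshDist_comm]

variable {F : Type*} [Field F] [NumberField F] {N : ℕ}

/-- The representative of a translate differs by an element of `U Z`. -/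
lemma toFin_smul_out (γ : GL (Fin 2) F) (c : Cos F N) :
    ∃ u ∈ UZ F N, (toFin γ • c).out = toFin γ * c.out * u := by
  refine ⟨(toFin γ * c.out)⁻¹ * (toFin γ • c).out, QuotientGroup.eq.1 ?_, by group⟩
  rw [QuotientGroup.out_eq']
  conv_rhs => rw [← QuotientGroup.out_eq' c]
  rfl

/-- One term of the kernel before translating. -/
def kTerm (t : Test F) (p q : Pt F N) : ℂ :=
  t.fin (p.2.out⁻¹ * q.2.out) * t.inf fun w => hdist (p.1 w) (q.1 w)

lemma term_eq_kTerm {t : Test F} (ht : t.Ok N) (γ : GL (Fin 2) F) (p q : Pt F N) :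
    t.fin (p.2.out⁻¹ * toFin γ * q.2.out) * t.inf (fun w => hdist (p.1 w) (actInf γ q.1 w)) =
      kTerm t p (smulPt γ q) := by
  obtain ⟨u, hu, e⟩ := toFin_smul_out γ q.2
  simp only [kTerm, smulPt, e]
  rw [show p.2.out⁻¹ * (toFin γ * q.2.out * u) = p.2.out⁻¹ * toFin γ * q.2.out * u by group,
    ht.right_inv u hu]

lemma kern_eq_tsum {t : Test F} (ht : t.Ok N) (p q : Pt F N) :
    kern t p q = ∑' γ : PG F, kTerm t p (γ • q) :=
  tsum_congr fun γ => term_eq_kTerm ht γ.out p q

lemma kTerm_smul {t : Test F} (ht : t.Ok N) (γ : PG F) (p q : Pt F N) :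
    kTerm t (γ • p) (γ • q) = kTerm t p q := by
  obtain ⟨γ, rfl⟩ := QuotientGroup.mk_surjective γ
  rw [mk_smul, mk_smul]
  obtain ⟨u, hu, e⟩ := toFin_smul_out γ p.2
  obtain ⟨u', hu', e'⟩ := toFin_smul_out γ q.2
  simp only [kTerm, smulPt, e, e', actInf, hdist_act]
  rw [show (toFin γ * p.2.out * u)⁻¹ * (toFin γ * q.2.out * u') =
      u⁻¹ * (p.2.out⁻¹ * q.2.out) * u' by group,
    ht.right_inv u' hu', ht.left_inv _ (inv_mem hu)]

/-- The kernel is invariant in the second variable. -/
lemma kern_smul_right {t : Test F} (ht : t.Ok N) (γ : PG F) (p q : Pt F N) :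
    kern t p (γ • q) = kern t p q := by
  rw [kern_eq_tsum ht, kern_eq_tsum ht]
  simp only [← mul_smul]
  exact (Equiv.mulRight γ).tsum_eq fun δ => kTerm t p (δ • q)

/-- The kernel is invariant in the first variable. -/
lemma kern_smul_left {t : Test F} (ht : t.Ok N) (γ : PG F) (p q : Pt F N) :
    kern t (γ • p) q = kern t p q := by
  rw [kern_eq_tsum ht, kern_eq_tsum ht, ← (Equiv.mulLeft γ).tsum_eq]
  refine tsum_congr fun δ => ?_
  rw [Equiv.coe_mulLeft, mul_smul, kTerm_smul ht]

section measure

variable [Countable (Cos F N)]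

lemma measurable_cos_comp {α β : Type*} [MeasurableSpace α] [MeasurableSpace β]
    {φ : α → Cos F N} (hφ : Measurable φ) (f : Cos F N → β) : Measurable fun a => f (φ a) :=
  measurable_from_top.comp hφ

instance instMeasurableSingletonClassCos : MeasurableSingletonClass (Cos F N) :=
  ⟨fun _ => trivial⟩

lemma measurable_finPart (f : Cos F N → Cos F N → ℂ) :
    Measurable fun x : Pt F N × Pt F N => f x.1.2 x.2.2 :=
  Measurable.comp (g := fun y : Cos F N × Cos F N => f y.1 y.2) (measurable_of_countable _)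
    (Measurable.prodMk (f := fun x : Pt F N × Pt F N => x.1.2)
      (g := fun x : Pt F N × Pt F N => x.2.2) measurable_fst.snd measurable_snd.snd)

lemma measurable_pairwise (hd : H3 → H3 → ℝ) (hm : Measurable fun x : H3 × H3 => hd x.1 x.2)
    (h : (InfinitePlace F → ℝ) → ℂ) (hh : Measurable h) :
    Measurable fun x : Xinf F × Xinf F => h fun v => hd (x.1 v) (x.2 v) := by
  refine hh.comp (measurable_pi_lambda _ fun v => ?_)
  have h1 : Measurable fun x : Xinf F × Xinf F => ((x.1 v, x.2 v) : H3 × H3) :=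
    ((measurable_pi_apply v).comp measurable_fst).prodMk
      ((measurable_pi_apply v).comp measurable_snd)
  exact hm.comp h1

lemma measurable_lift_inf (G : Xinf F → Xinf F → ℂ)
    (hG : Measurable fun x : Xinf F × Xinf F => G x.1 x.2) :
    Measurable fun x : Pt F N × Pt F N => G x.1.1 x.2.1 := by
  have h1 : Measurable fun x : Pt F N × Pt F N => ((x.1.1, x.2.1) : Xinf F × Xinf F) :=
    (measurable_fst.comp measurable_fst).prodMk (measurable_fst.comp measurable_snd)
  exact hG.comp h1

lemma measurable_termLike (f : Cos F N → Cos F N → ℂ) (G : Xinf F → Xinf F → ℂ)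
    (hG : Measurable fun x : Xinf F × Xinf F => G x.1 x.2) :
    Measurable fun x : Pt F N × Pt F N => f x.1.2 x.2.2 * G x.1.1 x.2.1 :=
  (measurable_finPart f).mul (measurable_lift_inf G hG)

lemma measurable_infTerm {t : Test F} (ht : t.Ok N) :
    Measurable fun x : Xinf F × Xinf F => t.inf fun v => hdist (x.1 v) (x.2 v) := by
  obtain ⟨C, hC⟩ := ht.lipschitz
  exact measurable_pairwise (F := F) hdist measurable_hdist t.inf hC.continuous.measurable

lemma measurable_distTerm (hd : H3 → H3 → ℝ) (f : Cos F N → Cos F N → ℂ)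
    (h : (InfinitePlace F → ℝ) → ℂ)
    (hh : Measurable fun x : Xinf F × Xinf F => h fun v => hd (x.1 v) (x.2 v)) :
    Measurable fun x : Pt F N × Pt F N => f x.1.2 x.2.2 * h fun v => hd (x.1.1 v) (x.2.1 v) :=
  measurable_termLike f (fun x y => h fun v => hd (x v) (y v)) hh

lemma measurable_kTerm_expanded {t : Test F} (ht : t.Ok N) :
    Measurable fun x : Pt F N × Pt F N =>
      t.fin (x.1.2.out⁻¹ * x.2.2.out) * t.inf fun v => hdist (x.1.1 v) (x.2.1 v) :=
  measurable_distTerm hdist (fun c c' => t.fin (c.out⁻¹ * c'.out)) t.inf (measurable_infTerm ht)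

lemma measurable_kTerm {t : Test F} (ht : t.Ok N) :
    Measurable fun x : Pt F N × Pt F N => kTerm t x.1 x.2 :=
  measurable_kTerm_expanded ht

lemma measurable_tsum_smul (G : Pt F N → Pt F N → ℂ)
    (hG : Measurable fun x : Pt F N × Pt F N => G x.1 x.2) :
    Measurable fun x : Pt F N × Pt F N => ∑' γ : PG F, G x.1 (γ • x.2) := by
  refine measurable_complex_tsum fun γ => ?_
  have h1 : Measurable fun x : Pt F N × Pt F N => ((x.1, γ • x.2) : Pt F N × Pt F N) :=
    measurable_fst.prodMk ((measurable_const_smul γ).comp measurable_snd)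
  exact hG.comp h1

lemma measurable_kern {t : Test F} (ht : t.Ok N) :
    Measurable fun x : Pt F N × Pt F N => kern t x.1 x.2 := by
  rw [show (fun x : Pt F N × Pt F N => kern t x.1 x.2) = fun x => ∑' γ : PG F, kTerm t x.1 (γ • x.2)
    from funext fun x => kern_eq_tsum ht x.1 x.2]
  exact measurable_tsum_smul (kTerm t) (measurable_kTerm ht)

variable {w : Pt F N → ℝ≥0∞} (hw : IsPtWeight w)

include hw

instance sFinite_quotMeasure_aux : SFinite (ptMeasure F N) := by
  unfold ptMeasure
  infer_instance

lemma lintegral_quotMeasure {f : Pt F N → ℝ≥0∞} (hf : Measurable f) :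
    ∫⁻ p, f p ∂quotMeasure w = ∫⁻ p, w p * f p ∂ptMeasure F N :=
  RS.lintegral_wMeasure hw.1 hf

/-- **Unfolding.** -/
lemma lintegral_unfold {g : Pt F N → ℝ≥0∞} (hg : Measurable g) :
    ∫⁻ q, ∑' γ : PG F, g (γ • q) ∂quotMeasure w = ∫⁻ q, g q ∂ptMeasure F N := by
  have hW := (isPtWeight_iff w).1 hw
  have hm : ∀ γ : PG F, Measurable fun q => w q * g (γ • q) := fun γ =>
    hw.1.mul (hg.comp (measurable_const_smul γ))
  have hm' : ∀ γ : PG F, Measurable fun q => w (γ • q) * g q := fun γ =>
    (hw.1.comp (measurable_const_smul γ)).mul hg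
  rw [lintegral_quotMeasure hw (f := fun q => ∑' γ : PG F, g (γ • q))
    (Measurable.ennreal_tsum fun γ => hg.comp (measurable_const_smul γ))]
  simp only [← ENNReal.tsum_mul_left]
  rw [lintegral_tsum fun γ => (hm γ).aemeasurable, ← (Equiv.inv (PG F)).tsum_eq]
  have e : ∀ γ : PG F, ∫⁻ q, w q * g (γ⁻¹ • q) ∂ptMeasure F N
      = ∫⁻ q, w (γ • q) * g q ∂ptMeasure F N := fun γ => by
    rw [← RS.lintegral_comp_smul (μ := ptMeasure F N) γ (hm γ⁻¹)]
    simp only [inv_smul_smul]
  simp only [Equiv.inv_apply, e]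
  rw [← lintegral_tsum fun γ => (hm' γ).aemeasurable]
  refine lintegral_congr fun q => ?_
  rw [ENNReal.tsum_mul_right, hW.sum_one, one_mul]

omit hw in
/-- The unfolded size of a test. -/
def Test.size (t : Test F) (N : ℕ) (x : Xinf F) : ℝ≥0∞ :=
  (∑' c : Cos F N, ‖t.fin c.out‖ₑ) *
    ∫⁻ y, ‖t.inf fun v => hdist (x v) (y v)‖ₑ ∂Measure.pi fun _ : InfinitePlace F => hypMeasure

lemma lintegral_kern_le {t : Test F} (ht : t.Ok N) (p : Pt F N) :
    ∫⁻ q, ‖kern t p q‖ₑ ∂quotMeasure w ≤ t.size N p.1 := by
  have hm : Measurable fun q => ‖kTerm t p q‖ₑ :=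
    ((measurable_kTerm ht).comp measurable_prodMk_left).enorm
  calc ∫⁻ q, ‖kern t p q‖ₑ ∂quotMeasure w
      ≤ ∫⁻ q, ∑' γ : PG F, ‖kTerm t p (γ • q)‖ₑ ∂quotMeasure w :=
        lintegral_mono fun q => by
          rw [kern_eq_tsum ht]
          exact enorm_tsum_le_tsum_enorm
    _ = ∫⁻ q, ‖kTerm t p q‖ₑ ∂ptMeasure F N := lintegral_unfold hw hm
    _ = t.size N p.1 := by
        have hy : Measurable fun y : Xinf F => ‖t.inf fun v => hdist (p.1 v) (y v)‖ₑ := by
          obtain ⟨C, hC⟩ := ht.lipschitz
          have hp := measurable_pairwise (F := F) hdist measurable_hdist t.inf hC.continuous.measurable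
          have h1 : Measurable fun y : Xinf F => ((p.1, y) : Xinf F × Xinf F) :=
            measurable_const.prodMk measurable_id
          exact (hp.comp h1).enorm
        have e : ∀ q : Pt F N, ‖kTerm t p q‖ₑ =
            ‖t.inf fun v => hdist (p.1 v) (q.1 v)‖ₑ * ‖t.fin (p.2.out⁻¹ * q.2.out)‖ₑ := fun q => by
          rw [kTerm, enorm_mul, mul_comm]
        simp only [e, ptMeasure]
        rw [lintegral_prod_mul (f := fun y : Xinf F => ‖t.inf fun v => hdist (p.1 v) (y v)‖ₑ)
            (g := fun c : Cos F N => ‖t.fin (p.2.out⁻¹ * c.out)‖ₑ)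
            hy.aemeasurable (measurable_of_countable _).aemeasurable, lintegral_count,
          Test.size, mul_comm]
        congr 1
        -- translate the cosets
        rw [← (MulAction.toPerm p.2.out : Cos F N ≃ Cos F N).tsum_eq]
        refine tsum_congr fun c => congrArg _ ?_
        obtain ⟨u, hu, hc⟩ : ∃ u ∈ UZ F N, (p.2.out • c).out = p.2.out * c.out * u := by
          refine ⟨(p.2.out * c.out)⁻¹ * (p.2.out • c).out, QuotientGroup.eq.1 ?_, by group⟩
          rw [QuotientGroup.out_eq']
          conv_rhs => rw [← QuotientGroup.out_eq' c]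
          rfl
        rw [MulAction.toPerm_apply, hc,
          show p.2.out⁻¹ * (p.2.out * c.out * u) = c.out * u by group, ht.right_inv u hu]

end measure

end FLTAgent.LT
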