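import Fermat.Agent.LT.TF.RadDefs
import Fermat.Agent.LT.TF.Unfold
import Fermat.Agent.LT.Hyp.AbelKernel
import Fermat.Agent.LT.Hyp.Moments
import Mathlib.MeasureTheory.Integral.Pi

/-!
Radial kernels of one place: two point homogeneity, the convolution algebra, the action on forms
with spectral parameter zero, and the converse by approximation.
-/

set_option autoImplicit false
set_option linter.unusedSectionVars false
set_option linter.unusedVariables false

noncomputable section

namespace FLTAgent.LT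

open MeasureTheory NumberField Real Set Filter
open scoped Topology ComplexConjugate

/-! ### The distance -/

lemma continuous_hdist_pair : Continuous fun p : H3 × H3 => hdist p.1 p.2 :=
  Real.continuousOn_arcosh.comp_continuous Hyp.continuous_coshDist fun _ =>
    Hyp.one_le_coshDist _ _

lemma continuous_hdist_left (x : H3) : Continuous fun y : H3 => hdist x y :=
  continuous_hdist_pair.comp (continuous_const.prodMk continuous_id)

lemma continuous_hdist_right (z : H3) : Continuous fun y : H3 => hdist y z :=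
  continuous_hdist_pair.comp (continuous_id.prodMk continuous_const)

lemma hdist_nonneg (p q : H3) : 0 ≤ hdist p q := Real.arcosh_nonneg (Hyp.one_le_coshDist p q)

lemma cosh_hdist (p q : H3) : Real.cosh (hdist p q) = coshDist p q :=
  Real.cosh_arcosh (Hyp.one_le_coshDist p q)

lemma hdist_le_of_coshDist_le {p q : H3} {d : ℝ} (hd : 0 ≤ d)
    (h : coshDist p q ≤ Real.cosh d) : hdist p q ≤ d := by
  rw [← cosh_hdist, Real.cosh_le_cosh, abs_of_nonneg (hdist_nonneg p q), abs_of_nonneg hd] at h
  exact h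

lemma coshDist_axisPt (y : H3) (r : ℝ) : coshDist y (axisPt r) =
    (Complex.normSq y.1 + (y.2 : ℝ) ^ 2) / (2 * (y.2 : ℝ)) * Real.exp (-r) +
      Real.exp r / (2 * (y.2 : ℝ)) := by
  have ht : (0 : ℝ) < y.2 := y.2.2
  have he := Real.exp_pos r
  simp only [coshDist, axisPt, sub_zero, Real.exp_neg]
  field_simp
  ring

lemma hdist_org_axisPt (r : ℝ) : hdist Hyp.org (axisPt r) = |r| := by
  have h : coshDist Hyp.org (axisPt r) = Real.cosh |r| := by
    rw [coshDist_axisPt, Real.cosh_abs, Real.cosh_eq]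
    simp [Hyp.org]
    ring
  rw [hdist, h, Real.arcosh_cosh (abs_nonneg r)]

lemma axisPt_zero : axisPt 0 = Hyp.org := by
  simp [axisPt, Hyp.org]

/-- Moving along the axis changes the distance by at most the step. -/
lemma hdist_axisPt_le (y : H3) (r d : ℝ) :
    hdist y (axisPt (r + d)) ≤ hdist y (axisPt r) + |d| := by
  refine hdist_le_of_coshDist_le (add_nonneg (hdist_nonneg _ _) (abs_nonneg d)) ?_
  have ht : (0 : ℝ) < y.2 := y.2.2
  set g := hdist y (axisPt r)
  have hg : Real.cosh g = coshDist y (axisPt r) := cosh_hdist _ _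
  have hg0 : 0 ≤ g := hdist_nonneg _ _
  set A := (Complex.normSq y.1 + (y.2 : ℝ) ^ 2) / (2 * (y.2 : ℝ)) * Real.exp (-r) with hA
  set B := Real.exp r / (2 * (y.2 : ℝ)) with hB
  have hf : Real.cosh g = A + B := by rw [hg, coshDist_axisPt]
  have hAB : 1 ≤ 4 * (A * B) := by
    have e : 4 * (A * B) = (Complex.normSq y.1 + (y.2 : ℝ) ^ 2) / (y.2 : ℝ) ^ 2 := by
      rw [hA, hB, Real.exp_neg]
      field_simp
      ring
    rw [e, le_div_iff₀ (by positivity), one_mul]
    exact le_add_of_nonneg_left (Complex.normSq_nonneg _)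
  have hsl : |B - A| ≤ Real.sinh g := by
    refine abs_le_of_sq_le_sq ?_ (Real.sinh_nonneg_iff.2 hg0)
    rw [Real.sinh_sq, hf]
    nlinarith
  have e : coshDist y (axisPt (r + d)) = (A + B) * Real.cosh d + (B - A) * Real.sinh d := by
    rw [coshDist_axisPt, hA, hB, neg_add, Real.exp_add, Real.exp_add, ← Real.cosh_add_sinh d,
      ← Real.cosh_sub_sinh d]
    ring
  rw [e, Real.cosh_add, hf, Real.cosh_abs]
  refine add_le_add le_rfl ((le_abs_self _).trans ?_)
  rw [abs_mul, Real.abs_sinh]
  exact mul_le_mul_of_nonneg_right hsl (Real.sinh_nonneg_iff.2 (abs_nonneg d))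

lemma abs_hdist_axisPt_sub (y : H3) (r r' : ℝ) :
    |hdist y (axisPt r) - hdist y (axisPt r')| ≤ |r - r'| := by
  have h1 := hdist_axisPt_le y r (r' - r)
  have h2 := hdist_axisPt_le y r' (r - r')
  rw [add_sub_cancel] at h1 h2
  rw [abs_sub_comm r' r] at h1
  exact abs_sub_le_iff.2 ⟨by linarith, by linarith⟩

/-- The logarithms of the heights differ by at most the distance. -/
lemma abs_log_sub_le_hdist (p q : H3) :
    |Real.log (p.2 : ℝ) - Real.log (q.2 : ℝ)| ≤ hdist p q := by
  have hp : (0 : ℝ) < p.2 := p.2.2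
  have hq : (0 : ℝ) < q.2 := q.2.2
  have h : Real.cosh (Real.log ((p.2 : ℝ) / q.2)) ≤ Real.cosh (hdist p q) := by
    rw [cosh_hdist, Real.cosh_log (div_pos hp hq), coshDist, inv_div]
    have e : ((p.2 : ℝ) / q.2 + (q.2 : ℝ) / p.2) / 2 =
        1 + (0 + ((p.2 : ℝ) - q.2) ^ 2) / (2 * p.2 * q.2) := by
      field_simp
      ring
    rw [e]
    gcongr
    exact Complex.normSq_nonneg _
  rw [Real.cosh_le_cosh, Real.log_div hp.ne' hq.ne', abs_of_nonneg (hdist_nonneg p q)] at h
  exact h

lemma exists_act_axisPt_org (q : H3) :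
    ∃ k : GL (Fin 2) ℂ, act k Hyp.org = Hyp.org ∧ act k (axisPt (hdist Hyp.org q)) = q := by
  have ht : (0 : ℝ) < q.2 := q.2.2
  set d := hdist Hyp.org q
  set T := Real.exp d with hT
  have hT0 : 0 < T := Real.exp_pos d
  set n := Complex.normSq q.1 with hn
  set a := (n + (q.2 : ℝ) ^ 2) / q.2 with ha
  set c := ((q.2 : ℝ))⁻¹ with hc
  have hrel : T ^ 2 + 1 = (a + c) * T := by
    have h1 : Real.cosh d = coshDist Hyp.org q := cosh_hdist _ _
    have h2 := Hyp.rho_eq q
    rw [Hyp.rho, ← h1, Real.cosh_eq, Real.exp_neg, ← hT] at h2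
    rw [show q.1.re ^ 2 + q.1.im ^ 2 = n by rw [hn, Complex.normSq_apply]; ring] at h2
    rw [ha, hc]
    field_simp at h2 ⊢
    linarith
  have hn2 : n / (q.2 : ℝ) ^ 2 = a * c - 1 := by
    rw [ha, hc]
    field_simp
    ring
  by_cases hμ : T - a = 0
  · refine ⟨1, Hyp.act_one _, ?_⟩
    have hTa : T = a := by linarith
    have hn0 : n = 0 := by
      rw [hTa] at hrel
      have : a * c = 1 := by nlinarith
      rw [this, sub_self, div_eq_zero_iff] at hn2
      exact hn2.resolve_right (by positivity)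
    rw [Hyp.act_one]
    refine Prod.ext ?_ (Subtype.ext ?_)
    · exact (Complex.normSq_eq_zero.1 hn0).symm
    · show Real.exp d = q.2
      rw [← hT, hTa, ha, hn0]
      field_simp
      ring
  · set μ := T - a with hμd
    set b : ℂ := q.1 / ((q.2 : ℝ) : ℂ) with hb
    have hbn : Complex.normSq b = n / (q.2 : ℝ) ^ 2 := by
      rw [hb, Complex.normSq_div, Complex.normSq_ofReal, hn, sq]
    have hN : 0 < Complex.normSq b + μ ^ 2 :=
      add_pos_of_nonneg_of_pos (Complex.normSq_nonneg b) (by positivity)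
    have hdet : (!![b, -(μ : ℂ); (μ : ℂ), conj b] : Matrix (Fin 2) (Fin 2) ℂ).det =
        ((Complex.normSq b + μ ^ 2 : ℝ) : ℂ) := by
      rw [Matrix.det_fin_two]
      simp [← Complex.mul_conj]
      ring
    set k : GL (Fin 2) ℂ := Matrix.GeneralLinearGroup.mkOfDetNeZero
      !![b, -(μ : ℂ); (μ : ℂ), conj b] (by rw [hdet]; exact_mod_cast hN.ne')
    have key : ∀ (S : ℝ) (hS : 0 < S), Hyp.emb (act k (0, ⟨S, hS⟩)) =
        ((μ : ℂ) * b * (((S ^ 2 - 1) / (Complex.normSq b + μ ^ 2 * S ^ 2) : ℝ) : ℂ),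
          (Complex.normSq b + μ ^ 2) * S / (Complex.normSq b + μ ^ 2 * S ^ 2)) := by
      intro S hS
      have hD : den k (0, ⟨S, hS⟩) = Complex.normSq b + μ ^ 2 * S ^ 2 := by
        simp [den, k, Complex.normSq_ofReal, sq]
      refine Prod.ext ?_ ?_
      · show (act k (0, ⟨S, hS⟩)).1 = _
        rw [Hyp.coe_act_fst, hD]
        simp [k]
        ring
      · show ((act k (0, ⟨S, hS⟩)).2 : ℝ) = _
        rw [Hyp.coe_act_snd, hD]
        congr 2
        show ‖(Matrix.GeneralLinearGroup.det k : ℂ)‖ = _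
        rw [Matrix.GeneralLinearGroup.val_det_apply]
        show ‖(!![b, -(μ : ℂ); (μ : ℂ), conj b] : Matrix (Fin 2) (Fin 2) ℂ).det‖ = _
        rw [hdet, Complex.norm_real, Real.norm_eq_abs, abs_of_pos hN]
    refine ⟨k, Hyp.measurableEmbedding_emb.injective ?_,
      Hyp.measurableEmbedding_emb.injective ?_⟩
    · refine (key 1 one_pos).trans ?_
      simp [Hyp.emb, Hyp.org, hN.ne']
    · refine (key T hT0).trans ?_
      have h1 : (q.2 : ℝ) * (Complex.normSq b + μ ^ 2 * T ^ 2) = μ * (T ^ 2 - 1) := by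
        have e : Complex.normSq b + μ ^ 2 * T ^ 2 = c * (μ * (T ^ 2 - 1)) := by
          rw [hbn, hn2, hμd]
          linear_combination (T ^ 2 - a * T - 1) * hrel
        rw [e, ← mul_assoc, hc, mul_inv_cancel₀ ht.ne', one_mul]
      have h2 : (Complex.normSq b + μ ^ 2) * T = μ * (T ^ 2 - 1) := by
        rw [hbn, hn2, hμd]
        linear_combination (-a) * hrel
      have hD : 0 < Complex.normSq b + μ ^ 2 * T ^ 2 :=
        add_pos_of_nonneg_of_pos (Complex.normSq_nonneg b) (by positivity)
      refine Prod.ext ?_ ?_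
      · show _ = q.1
        rw [mul_comm (μ : ℂ) b, mul_assoc, ← Complex.ofReal_mul, mul_div_assoc', ← h1, hb,
          mul_div_assoc, div_self hD.ne', mul_one, div_mul_cancel₀ _ (Complex.ofReal_ne_zero.2 ht.ne')]
      · show _ = (q.2 : ℝ)
        rw [h2, ← h1, mul_div_assoc, div_self hD.ne', mul_one]

/-- Two point homogeneity. -/
theorem exists_act_axisPt (p q : H3) :
    ∃ g : GL (Fin 2) ℂ, act g Hyp.org = p ∧ act g (axisPt (hdist p q)) = q := by
  obtain ⟨k, hk1, hk2⟩ := exists_act_axisPt_org (act (Hyp.toPt p)⁻¹ q)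
  have e : hdist Hyp.org (act (Hyp.toPt p)⁻¹ q) = hdist p q := by
    conv_rhs => rw [← hdist_act (Hyp.toPt p)⁻¹ p q]
    congr 1
    exact (Hyp.act_inv_act _ _).symm.trans (congrArg (act (Hyp.toPt p)⁻¹) (Hyp.act_toPt_org p))
  refine ⟨Hyp.toPt p * k, by rw [Hyp.act_mul, hk1, Hyp.act_toPt_org], ?_⟩
  rw [Hyp.act_mul, ← e, hk2, Hyp.act_act_inv]

/-- The triangle inequality. -/
theorem hdist_triangle (x y z : H3) : hdist x z ≤ hdist x y + hdist y z := by
  obtain ⟨g, hg1, hg2⟩ := exists_act_axisPt y z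
  have h := hdist_axisPt_le (act g⁻¹ x) 0 (hdist y z)
  rw [zero_add, axisPt_zero, ← hdist_act g, ← hdist_act g (act g⁻¹ x) Hyp.org,
    Hyp.act_act_inv, hg1, hg2, abs_of_nonneg (hdist_nonneg y z)] at h
  exact h

/-! ### Admissible kernels -/

variable {H G K : ℝ → ℝ}

theorem Rad1.continuous (hH : Rad1 H) : Continuous H :=
  hH.lipschitz.choose_spec.continuous

theorem Rad1.exists_radius (hH : Rad1 H) : ∃ R, 0 < R ∧ ∀ r, R < |r| → H r = 0 := by
  obtain ⟨R, hR⟩ := (Metric.isBounded_iff_subset_closedBall (0 : ℝ)).1 hH.compact.isBounded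
  refine ⟨max R 0 + 1, by positivity, fun r hr => image_eq_zero_of_notMem_tsupport fun hm => ?_⟩
  have := hR hm
  rw [Metric.mem_closedBall, dist_zero_right, Real.norm_eq_abs] at this
  linarith [le_max_left R 0]

theorem Rad1.exists_bound (hH : Rad1 H) : ∃ C, 0 ≤ C ∧ ∀ r, |H r| ≤ C := by
  obtain ⟨C, hC⟩ := hH.compact.exists_bound_of_continuous hH.continuous
  exact ⟨C, (norm_nonneg _).trans (hC 0), hC⟩

/-- A continuous bounded function supported in a ball is integrable. -/
theorem integrable_of_hdist_support {E : Type*} [NormedAddCommGroup E] [SecondCountableTopology E]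
    {f : H3 → E} (hf : Continuous f) (x : H3) {R C : ℝ} (hR : ∀ q, R < hdist x q → f q = 0)
    (hC : ∀ q, ‖f q‖ ≤ C) : Integrable f hypMeasure := by
  refine ((Hyp.measurePreserving_act (Hyp.toPt x)).integrable_comp_emb
    (Hyp.measurableEmbedding_act _)).1 ?_
  refine Hyp.integrable_of_rho_support (hf.comp (Hyp.continuous_act _)) (R := Real.cosh (max R 0))
    (C := C) (fun q hq => hR _ ?_) fun q _ => hC _
  have e : hdist x (act (Hyp.toPt x) q) = hdist Hyp.org q := by
    rw [← hdist_act (Hyp.toPt x) Hyp.org q, Hyp.act_toPt_org]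
  rw [e]
  by_contra hle
  refine absurd hq (not_lt.2 ?_)
  rw [Hyp.rho, ← cosh_hdist, Real.cosh_le_cosh, abs_of_nonneg (hdist_nonneg _ _),
    abs_of_nonneg (le_max_right _ _)]
  exact (not_lt.1 hle).trans (le_max_left _ _)

theorem Rad1.integrable_hdist (hH : Rad1 H) (x : H3) :
    Integrable (fun y => H (hdist x y)) hypMeasure := by
  obtain ⟨R, -, hR⟩ := hH.exists_radius
  obtain ⟨C, -, hC⟩ := hH.exists_bound
  exact integrable_of_hdist_support (hH.continuous.comp (continuous_hdist_left x)) x
    (fun q hq => hR _ (hq.trans_le (le_abs_self _))) fun q => hC _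

theorem Rad1.integrable_hdist' (hH : Rad1 H) (z : H3) :
    Integrable (fun y => H (hdist y z)) hypMeasure := by
  simp only [hdist_comm _ z]
  exact hH.integrable_hdist z

theorem Rad1.integrable_mul (hH : Rad1 H) (hG : Rad1 G) (x z : H3) :
    Integrable (fun y => H (hdist x y) * G (hdist y z)) hypMeasure := by
  obtain ⟨C, -, hC⟩ := hG.exists_bound
  exact (hH.integrable_hdist x).mul_bdd
    (hG.continuous.comp (continuous_hdist_right z)).aestronglyMeasurable
    (ae_of_all _ fun y => hC _)

lemma conv1_eq (H G : ℝ → ℝ) (x z : H3) :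
    ∫ y, H (hdist x y) * G (hdist y z) ∂hypMeasure = conv1 H G (hdist x z) := by
  obtain ⟨g, hg1, hg2⟩ := exists_act_axisPt x z
  rw [conv1, ← Hyp.integral_act g fun y => H (hdist x y) * G (hdist y z)]
  refine integral_congr_ae (ae_of_all _ fun y => ?_)
  show H (hdist x (act g y)) * G (hdist (act g y) z) = _
  have e1 : hdist x (act g y) = hdist Hyp.org y := by rw [← hdist_act g Hyp.org y, hg1]
  have e2 : hdist (act g y) z = hdist y (axisPt (hdist x z)) := by rw [← hdist_act g y, hg2]
  rw [e1, e2]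

/-- **The convolution depends on the distance only.** -/
theorem conv1_spec (hH : Rad1 H) (hG : Rad1 G) (x z : H3) :
    ∫ y, H (hdist x y) * G (hdist y z) ∂hypMeasure = conv1 H G (hdist x z) :=
  conv1_eq H G x z

lemma conv1_abs (H G : ℝ → ℝ) (r : ℝ) : conv1 H G |r| = conv1 H G r := by
  rw [← hdist_org_axisPt, ← conv1_eq]
  rfl

theorem Rad1.conv1 (hH : Rad1 H) (hG : Rad1 G) : Rad1 (conv1 H G) := by
  obtain ⟨L, hL⟩ := hG.lipschitz
  refine ⟨⟨((L : ℝ) * ∫ y, |H (hdist Hyp.org y)| ∂hypMeasure).toNNReal,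
    LipschitzWith.of_dist_le_mul fun a b => ?_⟩, ?_⟩
  · have h0 : 0 ≤ ∫ y, |H (hdist Hyp.org y)| ∂hypMeasure :=
      integral_nonneg fun y => abs_nonneg _
    rw [Real.dist_eq, Real.dist_eq, Real.coe_toNNReal _ (mul_nonneg L.coe_nonneg h0),
      FLTAgent.LT.conv1, FLTAgent.LT.conv1, ← integral_sub (hH.integrable_mul hG _ _)
        (hH.integrable_mul hG _ _), ← Real.norm_eq_abs, mul_comm (L : ℝ), mul_assoc]
    calc _ ≤ ∫ y, |H (hdist Hyp.org y)| * ((L : ℝ) * |a - b|) ∂hypMeasure := by
          refine norm_integral_le_of_norm_le ((hH.integrable_hdist _).abs.mul_const _)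
            (ae_of_all _ fun y => ?_)
          rw [Real.norm_eq_abs, ← mul_sub, abs_mul]
          refine mul_le_mul_of_nonneg_left ?_ (abs_nonneg _)
          have := hL.norm_sub_le (hdist y (axisPt a)) (hdist y (axisPt b))
          rw [Real.norm_eq_abs, Real.norm_eq_abs] at this
          exact this.trans (mul_le_mul_of_nonneg_left (abs_hdist_axisPt_sub _ _ _) L.coe_nonneg)
      _ = _ := integral_mul_const _ _
  · obtain ⟨A, -, hA⟩ := hH.exists_radius
    obtain ⟨B, -, hB⟩ := hG.exists_radius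
    refine HasCompactSupport.intro (K := Icc (-(A + B)) (A + B)) isCompact_Icc fun r hr => ?_
    refine (integral_congr_ae (ae_of_all _ fun y => ?_)).trans (integral_zero _ _)
    by_contra hne
    obtain ⟨h1, h2⟩ := mul_ne_zero_iff.1 hne
    have a1 : |hdist Hyp.org y| ≤ A := not_lt.1 fun h => h1 (hA _ h)
    have b1 : |hdist y (axisPt r)| ≤ B := not_lt.1 fun h => h2 (hB _ h)
    rw [abs_of_nonneg (hdist_nonneg _ _)] at a1 b1
    have a2 := (abs_log_sub_le_hdist Hyp.org y).trans a1
    have b2 := (abs_log_sub_le_hdist y (axisPt r)).trans b1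
    simp only [Hyp.org, axisPt, Real.log_one, Real.log_exp, zero_sub, abs_neg] at a2 b2
    obtain ⟨a3, a4⟩ := abs_le.1 a2
    obtain ⟨b3, b4⟩ := abs_le.1 b2
    exact hr ⟨by linarith, by linarith⟩

theorem conv1_comm (hH : Rad1 H) (hG : Rad1 G) : conv1 H G = conv1 G H := by
  funext r
  rw [← conv1_abs G H r, ← hdist_org_axisPt, hdist_comm, ← conv1_eq, FLTAgent.LT.conv1]
  refine integral_congr_ae (ae_of_all _ fun y => ?_)
  show H (hdist Hyp.org y) * G (hdist y (axisPt r)) =
    G (hdist (axisPt r) y) * H (hdist y Hyp.org)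
  rw [mul_comm, hdist_comm y, hdist_comm Hyp.org]

theorem conv1_assoc (hH : Rad1 H) (hG : Rad1 G) (hK : Rad1 K) :
    conv1 (conv1 H G) K = conv1 H (conv1 G K) := by
  funext r
  obtain ⟨C, -, hC⟩ := hG.exists_bound
  have hi : Integrable (fun p : H3 × H3 =>
      H (hdist Hyp.org p.1) * (G (hdist p.1 p.2) * K (hdist p.2 (axisPt r))))
      (hypMeasure.prod hypMeasure) := by
    refine ((((hH.integrable_hdist Hyp.org).abs).mul_prod
      ((hK.integrable_hdist' (axisPt r)).abs)).const_mul C).mono' ?_ (ae_of_all _ fun p => ?_)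
    · exact ((hH.continuous.comp ((continuous_hdist_left _).comp continuous_fst)).mul
        ((hG.continuous.comp continuous_hdist_pair).mul
          (hK.continuous.comp ((continuous_hdist_right _).comp continuous_snd)))).aestronglyMeasurable
    · rw [Real.norm_eq_abs, abs_mul, abs_mul, mul_left_comm]
      exact mul_le_mul_of_nonneg_right (hC _) (mul_nonneg (abs_nonneg _) (abs_nonneg _))
  show ∫ y, conv1 H G (hdist Hyp.org y) * K (hdist y (axisPt r)) ∂hypMeasure =
    ∫ u, H (hdist Hyp.org u) * conv1 G K (hdist u (axisPt r)) ∂hypMeasure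
  simp only [← conv1_eq, ← integral_const_mul, ← integral_mul_const, mul_assoc]
  exact (integral_integral_swap
    (f := fun u y => H (hdist Hyp.org u) * (G (hdist u y) * K (hdist y (axisPt r)))) hi).symm

/-! ### Products over the places -/

variable {F : Type*} [Field F] [NumberField F]

/-- Composition of products of radial kernels. -/
theorem radFun_conv {h h' : InfinitePlace F → ℝ → ℝ} (hh : ∀ w, Rad1 (h w))
    (hh' : ∀ w, Rad1 (h' w)) (x z : Xinf F) :
    ∫ y, radFun h (fun w => hdist (x w) (y w)) * radFun h' (fun w => hdist (y w) (z w))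
        ∂(Measure.pi fun _ : InfinitePlace F => hypMeasure) =
      radFun (fun w => conv1 (h w) (h' w)) fun w => hdist (x w) (z w) := by
  simp only [radFun, ← Finset.prod_mul_distrib, ← Complex.ofReal_mul]
  rw [integral_fintype_prod_eq_prod (𝕜 := ℂ)
    fun w q => ((h w (hdist (x w) q) * h' w (hdist q (z w)) : ℝ) : ℂ)]
  refine Finset.prod_congr rfl fun w _ => ?_
  rw [integral_complex_ofReal, conv1_eq]

theorem lipschitz_radFun {h : InfinitePlace F → ℝ → ℝ} (hh : ∀ w, Rad1 (h w)) :
    ∃ C, LipschitzWith C (radFun h) := by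
  classical
  suffices ∀ s : Finset (InfinitePlace F), ∃ C M : ℝ, 0 ≤ C ∧ 0 ≤ M ∧
      (∀ r : InfinitePlace F → ℝ, ‖∏ w ∈ s, ((h w (r w) : ℝ) : ℂ)‖ ≤ M) ∧ ∀ r r' : InfinitePlace F → ℝ,
        ‖∏ w ∈ s, ((h w (r w) : ℝ) : ℂ) - ∏ w ∈ s, ((h w (r' w) : ℝ) : ℂ)‖ ≤ C * ‖r - r'‖ by
    obtain ⟨C, -, hC, -, -, hl⟩ := this Finset.univ
    refine ⟨C.toNNReal, LipschitzWith.of_dist_le_mul fun r r' => ?_⟩
    rw [dist_eq_norm, dist_eq_norm, Real.coe_toNNReal _ hC]
    exact hl r r'
  intro s
  induction s using Finset.induction with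
  | empty => exact ⟨0, 1, le_rfl, zero_le_one, fun r => by simp, fun r r' => by simp⟩
  | insert a s ha ih =>
    obtain ⟨C, M, hC, hM, hb, hl⟩ := ih
    obtain ⟨L, hL⟩ := (hh a).lipschitz
    obtain ⟨B, hB0, hB⟩ := (hh a).exists_bound
    refine ⟨(L : ℝ) * M + B * C, B * M, by positivity, by positivity, fun r => ?_, fun r r' => ?_⟩
    · rw [Finset.prod_insert ha, norm_mul, Complex.norm_real]
      exact mul_le_mul (hB _) (hb r) (norm_nonneg _) hB0
    · rw [Finset.prod_insert ha, Finset.prod_insert ha, add_mul]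
      generalize hP : ∏ w ∈ s, ((h w (r w) : ℝ) : ℂ) = P
      generalize hP' : ∏ w ∈ s, ((h w (r' w) : ℝ) : ℂ) = P'
      have e : ((h a (r a) : ℝ) : ℂ) * P - ((h a (r' a) : ℝ) : ℂ) * P' =
          ((h a (r a) - h a (r' a) : ℝ) : ℂ) * P + ((h a (r' a) : ℝ) : ℂ) * (P - P') := by
        push_cast; ring
      rw [e]
      refine (norm_add_le _ _).trans (add_le_add ?_ ?_)
      · rw [norm_mul, Complex.norm_real, mul_right_comm]
        refine mul_le_mul ((hL.norm_sub_le _ _).trans (mul_le_mul_of_nonneg_left ?_ L.coe_nonneg))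
          (hP ▸ hb r) (norm_nonneg _) (by positivity)
        exact norm_le_pi_norm (r - r') a
      · rw [norm_mul, Complex.norm_real, mul_assoc]
        exact mul_le_mul (hB _) (hP ▸ hP' ▸ hl r r') (norm_nonneg _) hB0

theorem hasCompactSupport_radFun {h : InfinitePlace F → ℝ → ℝ} (hh : ∀ w, Rad1 (h w)) :
    HasCompactSupport (radFun h) := by
  choose R _ hR using fun w => (hh w).exists_radius
  refine HasCompactSupport.intro (K := Set.pi Set.univ fun w => Icc (-R w) (R w))
    (isCompact_univ_pi fun _ => isCompact_Icc) fun r hr => ?_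
  simp only [Set.mem_univ_pi, not_forall] at hr
  obtain ⟨w, hw⟩ := hr
  refine Finset.prod_eq_zero (Finset.mem_univ w) ?_
  rw [hR w (r w) (not_le.1 fun hle => hw (abs_le.1 hle)), Complex.ofReal_zero]

theorem continuous_radFun {h : InfinitePlace F → ℝ → ℝ} (hh : ∀ w, Rad1 (h w)) :
    Continuous (radFun h) :=
  (lipschitz_radFun hh).choose_spec.continuous

theorem integrable_radFun_hdist {h : InfinitePlace F → ℝ → ℝ} (hh : ∀ w, Rad1 (h w))
    (x : Xinf F) : Integrable (fun y : Xinf F => radFun h fun w => hdist (x w) (y w))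
      (Measure.pi fun _ : InfinitePlace F => hypMeasure) :=
  Integrable.fintype_prod (f := fun w q => ((h w (hdist (x w) q) : ℝ) : ℂ))
    fun w => ((hh w).integrable_hdist (x w)).ofReal

/-! ### Forms with spectral parameter zero -/

variable {φ : Form F}

open Classical in
/-- **Radial kernels act by their value at parameter zero.** -/
theorem ZeroEigen.apply1 (hφ : ZeroEigen φ) (hH : Rad1 H) (w : InfinitePlace F) (x : Xinf F)
    (g : GF F) :
    ∫ q, ((H (hdist (x w) q) : ℝ) : ℂ) * φ (Function.update x w q) g ∂hypMeasure =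
      ((lam0 H : ℝ) : ℂ) * φ x g := by
  set Hc : ℝ → ℂ := fun ρ => ((max 0 (min 1 ρ) * H (Real.arcosh (max 1 ρ)) : ℝ) : ℂ) with hHc
  have hc : Continuous Hc := Complex.continuous_ofReal.comp
    (((continuous_const.max (continuous_const.min continuous_id))).mul
      (hH.continuous.comp (Real.continuousOn_arcosh.comp_continuous
        (continuous_const.max continuous_id) fun ρ => Set.mem_Ici.2 (le_max_left _ _))))
  have hs : HasCompactSupport Hc := by
    obtain ⟨R, hR0, hR⟩ := hH.exists_radius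
    refine HasCompactSupport.intro (K := Icc 0 (Real.cosh R)) isCompact_Icc fun ρ hρ => ?_
    rcases lt_or_ge ρ 0 with h0 | h0
    · simp [Hc, min_eq_right (h0.le.trans zero_le_one), max_eq_left h0.le]
    · have h1 : Real.cosh R < ρ := not_le.1 fun h => hρ ⟨h0, h⟩
      have h2 : 1 ≤ ρ := (Real.one_le_cosh R).trans h1.le
      have h3 : R < |Real.arcosh ρ| := by
        rw [← abs_of_pos hR0]
        exact Real.cosh_lt_cosh.1 (by rwa [Real.cosh_arcosh h2])
      simp [Hc, max_eq_right h2, hR _ h3]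
  have hval : ∀ ρ, 1 ≤ ρ → Hc ρ = ((H (Real.arcosh ρ) : ℝ) : ℂ) := fun ρ hρ => by
    simp [Hc, min_eq_left hρ, max_eq_right hρ]
  have := hφ w x g Hc hc hs
  simp only [hval _ (Hyp.one_le_coshDist _ _)] at this
  refine this.trans ?_
  congr 1
  rw [lam0, ← integral_complex_ofReal]
  refine setIntegral_congr_fun measurableSet_Ioi fun r hr => ?_
  show Hc (Real.cosh r) * _ = _
  rw [hval _ (Real.one_le_cosh r), Real.arcosh_cosh (le_of_lt hr)]
  push_cast
  ring

/-- Iterating eigen equations over finitely many variables. -/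
lemma integral_pi_kernel_fin : ∀ (n : ℕ) (K : Fin n → H3 → H3 → ℂ) (c : Fin n → ℂ)
    (f : (Fin n → H3) → ℂ) (C : ℝ), (∀ i p, Integrable (K i p) hypMeasure) → Continuous f →
    (∀ y, ‖f y‖ ≤ C) →
    (∀ i x, ∫ q, K i (x i) q * f (Function.update x i q) ∂hypMeasure = c i * f x) →
    ∀ x : Fin n → H3, ∫ y, (∏ i, K i (x i) (y i)) * f y ∂(Measure.pi fun _ : Fin n => hypMeasure) =
      (∏ i, c i) * f x
  | 0, K, c, f, C, hK, hf, hb, h, x => by
    rw [Measure.pi_of_empty (fun _ : Fin 0 => hypMeasure) x, integral_dirac]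
    simp
  | n + 1, K, c, f, C, hK, hf, hb, h, x => by
    have mp := (measurePreserving_piFinSuccAbove (fun _ : Fin (n + 1) => hypMeasure) 0).symm
    have hint : Integrable (fun y => (∏ i, K i (x i) (y i)) * f y)
        (Measure.pi fun _ : Fin (n + 1) => hypMeasure) :=
      (Integrable.fintype_prod (f := fun i q => K i (x i) q) fun i => hK i (x i)).mul_bdd
        hf.aestronglyMeasurable (ae_of_all _ hb)
    have hint' := (mp.integrable_comp_emb (MeasurableEquiv.measurableEmbedding _)).2 hint
    have hh : ∀ p : H3 × (Fin n → H3),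
        (MeasurableEquiv.piFinSuccAbove (fun _ : Fin (n + 1) => H3) 0).symm p =
          Fin.cons p.1 p.2 := fun p => by
      simp [MeasurableEquiv.piFinSuccAbove_symm_apply, Fin.insertNthEquiv]
    rw [← mp.integral_comp']
    simp only [Function.comp_def, hh, Fin.prod_univ_succ, Fin.cons_zero, Fin.cons_succ] at hint' ⊢
    rw [integral_prod_symm _ hint']
    have inner : ∀ y : Fin n → H3,
        ∫ q, K 0 (x 0) q * (∏ i : Fin n, K i.succ (x i.succ) (y i)) * f (Fin.cons q y)
          ∂hypMeasure = c 0 * ((∏ i : Fin n, K i.succ (x i.succ) (y i)) * f (Fin.cons (x 0) y)) := by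
      intro y
      have h0 := h 0 (Fin.cons (x 0) y)
      simp only [Fin.cons_zero, Fin.update_cons_zero] at h0
      rw [mul_left_comm, ← h0, ← integral_const_mul]
      exact integral_congr_ae (ae_of_all _ fun q => by ring)
    simp only [inner]
    rw [integral_const_mul, integral_pi_kernel_fin n (fun i => K i.succ) (fun i => c i.succ)
      (fun y => f (Fin.cons (x 0) y)) C (fun i p => hK i.succ p)
      (hf.comp (continuous_const.finCons continuous_id))
      (fun y => hb _) (fun i y => by
        have h1 := h i.succ (Fin.cons (x 0) y)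
        simpa only [Fin.cons_succ, Fin.cons_update] using h1) (fun i => x i.succ), mul_assoc]
    congr 3
    exact Fin.cons_self_tail x

/-- Iterating eigen equations over a finite family of variables. -/
lemma integral_pi_kernel {ι : Type*} [Fintype ι] [DecidableEq ι] (K : ι → H3 → H3 → ℂ) (c : ι → ℂ)
    (f : (ι → H3) → ℂ) {C : ℝ} (hK : ∀ i p, Integrable (K i p) hypMeasure) (hf : Continuous f)
    (hb : ∀ y, ‖f y‖ ≤ C)
    (h : ∀ i x, ∫ q, K i (x i) q * f (Function.update x i q) ∂hypMeasure = c i * f x)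
    (x : ι → H3) :
    ∫ y, (∏ i, K i (x i) (y i)) * f y ∂(Measure.pi fun _ : ι => hypMeasure) =
      (∏ i, c i) * f x := by
  set e := Fintype.equivFin ι
  have mp := measurePreserving_piCongrLeft (fun _ : ι => hypMeasure) e.symm
  have he : ∀ (y : Fin (Fintype.card ι) → H3),
      MeasurableEquiv.piCongrLeft (fun _ : ι => H3) e.symm y = y ∘ e := fun y => funext fun i => by
    conv_lhs => rw [← e.symm_apply_apply i]
    rw [MeasurableEquiv.piCongrLeft_apply_apply]
    rfl
  rw [← mp.integral_comp']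
  simp only [he]
  have := integral_pi_kernel_fin _ (fun i => K (e.symm i)) (fun i => c (e.symm i))
    (fun y => f (y ∘ e)) C (fun i p => hK _ p)
    (hf.comp (continuous_pi fun i => continuous_apply (e i))) (fun y => hb _) (fun i y => by
      have h1 := h (e.symm i) (y ∘ e)
      simp only [Function.comp_apply, Equiv.apply_symm_apply] at h1
      rw [← h1]
      simp only [Function.update_comp_equiv]) (x ∘ e.symm)
  simp only [Function.comp_apply, Function.comp_assoc, Equiv.symm_comp_self,
    Function.comp_id] at this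
  rw [e.symm.prod_comp fun i => c i] at this
  rw [← this]
  refine integral_congr_ae (ae_of_all _ fun y => ?_)
  simp only [Function.comp_apply]
  congr 1
  rw [← e.symm.prod_comp fun i => K i (x i) (y (e i))]
  simp

/-- **Products of radial kernels act by the product of their values at parameter zero.** -/
theorem ZeroEigen.applyProd (hφ : ZeroEigen φ) {h : InfinitePlace F → ℝ → ℝ}
    (hh : ∀ w, Rad1 (h w)) (x : Xinf F) (g : GF F) (hc : Continuous fun y => φ y g)
    (hb : ∃ C : ℝ, ∀ y, ‖φ y g‖ ≤ C) :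
    ∫ y, radFun h (fun w => hdist (x w) (y w)) * φ y g
        ∂(Measure.pi fun _ : InfinitePlace F => hypMeasure) =
      (∏ w, ((lam0 (h w) : ℝ) : ℂ)) * φ x g := by
  classical
  obtain ⟨C, hC⟩ := hb
  exact integral_pi_kernel (fun w p q => ((h w (hdist p q) : ℝ) : ℂ))
    (fun w => ((lam0 (h w) : ℝ) : ℂ)) (fun y => φ y g)
    (fun w p => ((hh w).integrable_hdist p).ofReal) hc hC
    (fun w y => by convert hφ.apply1 (hh w) w y g) x

/-! ### Approximation -/

/-- The cut off `1` on `[-R, R]`, `0` outside `[-R - 1, R + 1]`. -/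
def cutRad (R r : ℝ) : ℝ := max 0 (min 1 (R + 1 - |r|))

theorem rad1_cutRad (R : ℝ) : Rad1 (cutRad R) := by
  refine ⟨⟨1, LipschitzWith.of_dist_le_mul fun a b => ?_⟩, ?_⟩
  · simp only [Real.dist_eq, NNReal.coe_one, one_mul, cutRad]
    refine (abs_max_sub_max_le_max _ _ _ _).trans ?_
    simp only [sub_self, abs_zero]
    refine max_le (abs_nonneg _) ((abs_min_sub_min_le_max _ _ _ _).trans ?_)
    simp only [sub_self, abs_zero]
    refine max_le (abs_nonneg _) ?_
    rw [show R + 1 - |a| - (R + 1 - |b|) = |b| - |a| by ring, abs_sub_comm a b]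
    exact abs_abs_sub_abs_le_abs_sub b a
  · refine HasCompactSupport.intro (K := Icc (-(R + 1)) (R + 1)) isCompact_Icc fun r hr => ?_
    have : R + 1 < |r| := not_le.1 fun hle => hr (abs_le.1 hle)
    exact max_eq_left ((min_le_right _ _).trans (by linarith))

theorem cutRad_nonneg (R r : ℝ) : 0 ≤ cutRad R r := le_max_left _ _

theorem cutRad_eq_one {R r : ℝ} (h : |r| ≤ R) : cutRad R r = 1 := by
  rw [cutRad, min_eq_left (by linarith), max_eq_right zero_le_one]

/-- An equation for admissible kernels extends to continuous compactly supported ones. -/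
lemma radial_approx {p : H3} {f : H3 → ℂ} (hf : Continuous f) {B : ℝ} (hB : ∀ q, ‖f q‖ ≤ B)
    {c : ℂ}
    (h : ∀ H, Rad1 H → ∫ q, ((H (hdist p q) : ℝ) : ℂ) * f q ∂hypMeasure = ((lam0 H : ℝ) : ℂ) * c)
    {u : ℝ → ℝ} (hu : Continuous u) (hs : HasCompactSupport u) :
    ∫ q, ((u (hdist p q) : ℝ) : ℂ) * f q ∂hypMeasure = ((lam0 u : ℝ) : ℂ) * c := by
  obtain ⟨M, hM⟩ := hs.exists_bound_of_continuous hu
  obtain ⟨R, hR⟩ := (Metric.isBounded_iff_subset_closedBall (0 : ℝ)).1 hs.isBounded
  have hR' : ∀ r, R < |r| → u r = 0 := fun r hr => image_eq_zero_of_notMem_tsupport fun hm => by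
    have := hR hm
    rw [Metric.mem_closedBall, dist_zero_right, Real.norm_eq_abs] at this
    linarith
  have hM0 : 0 ≤ M := (norm_nonneg _).trans (hM 0)
  set U : ℝ → ℝ := fun r => ∫ s in (0 : ℝ)..r, u s with hU
  have hUd : ∀ r, HasDerivAt U (u r) r := fun r => (hu.integral_hasStrictDerivAt 0 r).hasDerivAt
  have hsub : ∀ a b, U b - U a = ∫ s in a..b, u s := fun a b =>
    intervalIntegral.integral_interval_sub_left (hu.intervalIntegrable _ _)
      (hu.intervalIntegrable _ _)
  set v : ℕ → ℝ → ℝ := fun m r => ((m : ℝ) + 1) * (U (r + 1 / ((m : ℝ) + 1)) - U r) with hv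
  have hδ : ∀ m : ℕ, 0 < 1 / ((m : ℝ) + 1) ∧ 1 / ((m : ℝ) + 1) ≤ 1 := fun m =>
    ⟨by positivity, (div_le_one (by positivity)).2 (by linarith [(Nat.cast_nonneg m : (0 : ℝ) ≤ m)])⟩
  have hvb : ∀ m r, |v m r| ≤ M * cutRad (R + 1) r := fun m r => by
    by_cases hr : |r| ≤ R + 1
    · rw [cutRad_eq_one hr, mul_one, hv]
      simp only [hsub, abs_mul]
      have hb := intervalIntegral.norm_integral_le_of_norm_le_const (a := r)
        (b := r + 1 / ((m : ℝ) + 1)) (C := M) fun s _ => hM s
      rw [add_sub_cancel_left, abs_of_pos (hδ m).1, Real.norm_eq_abs] at hb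
      rw [abs_of_pos (by positivity : (0 : ℝ) < (m : ℝ) + 1)]
      refine (mul_le_mul_of_nonneg_left hb (by positivity)).trans (le_of_eq ?_)
      field_simp
    · have hz : v m r = 0 := by
        simp only [hv, hsub]
        refine mul_eq_zero_of_right _ ((intervalIntegral.integral_congr fun s hs' => hR' s ?_).trans
          intervalIntegral.integral_zero)
        rw [uIcc_of_le (by linarith [(hδ m).1])] at hs'
        rcases abs_choice r with e | e <;> rw [e] at hr
        · exact lt_of_lt_of_le (by linarith [hs'.1]) (le_abs_self s)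
        · exact lt_of_lt_of_le (by linarith [hs'.2, (hδ m).2]) (neg_le_abs s)
      rw [hz, abs_zero]
      exact mul_nonneg hM0 (cutRad_nonneg _ _)
  have hvR : ∀ m, Rad1 (v m) := fun m => by
    refine ⟨⟨(((m : ℝ) + 1) * (2 * M)).toNNReal, LipschitzWith.of_dist_le_mul fun a b => ?_⟩, ?_⟩
    · rw [Real.dist_eq, Real.dist_eq, Real.coe_toNNReal _ (by positivity), hv]
      simp only
      rw [← mul_sub, abs_mul, abs_of_pos (by positivity : (0 : ℝ) < (m : ℝ) + 1), mul_assoc]
      refine mul_le_mul_of_nonneg_left ?_ (by positivity)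
      have hl : ∀ a b : ℝ, |U a - U b| ≤ M * |a - b| := fun a b => by
        rw [hsub]
        exact intervalIntegral.norm_integral_le_of_norm_le_const fun s _ => hM s
      have h1 := hl (a + 1 / ((m : ℝ) + 1)) (b + 1 / ((m : ℝ) + 1))
      rw [add_sub_add_right_eq_sub] at h1
      have h2 := hl a b
      calc |U (a + 1 / ((m : ℝ) + 1)) - U a - (U (b + 1 / ((m : ℝ) + 1)) - U b)|
          = |U (a + 1 / ((m : ℝ) + 1)) - U (b + 1 / ((m : ℝ) + 1)) - (U a - U b)| := by
            congr 1; ring
        _ ≤ _ := abs_sub _ _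
        _ ≤ _ := by linarith
    · obtain ⟨R', -, hR''⟩ := (rad1_cutRad (R + 1)).exists_radius
      refine HasCompactSupport.intro (K := Icc (-R') R') isCompact_Icc fun r hr => ?_
      have := hvb m r
      rw [hR'' r (not_le.1 fun hle => hr (abs_le.1 hle)), mul_zero] at this
      exact abs_eq_zero.1 (le_antisymm this (abs_nonneg _))
  have hlim : ∀ r, Tendsto (fun m => v m r) atTop (𝓝 (u r)) := fun r => by
    have hd : Tendsto (fun m : ℕ => 1 / ((m : ℝ) + 1)) atTop (𝓝[≠] 0) :=
      tendsto_nhdsWithin_iff.2 ⟨tendsto_one_div_add_atTop_nhds_zero_nat,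
        Eventually.of_forall fun m => (hδ m).1.ne'⟩
    refine ((hUd r).tendsto_slope_zero.comp hd).congr fun m => ?_
    simp [v]
  have hl : Tendsto (fun m => ∫ q, ((v m (hdist p q) : ℝ) : ℂ) * f q ∂hypMeasure) atTop
      (𝓝 (∫ q, ((u (hdist p q) : ℝ) : ℂ) * f q ∂hypMeasure)) := by
    refine tendsto_integral_of_dominated_convergence
      (fun q => M * cutRad (R + 1) (hdist p q) * B) (fun m => ?_) ?_ (fun m => ae_of_all _ fun q => ?_)
      (ae_of_all _ fun q => ?_)
    · exact ((Complex.continuous_ofReal.comp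
        ((hvR m).continuous.comp (continuous_hdist_left p))).mul hf).aestronglyMeasurable
    · exact (((rad1_cutRad (R + 1)).integrable_hdist p).const_mul M).mul_const B
    · rw [norm_mul, Complex.norm_real]
      exact mul_le_mul (hvb m _) (hB q) (norm_nonneg _) (mul_nonneg hM0 (cutRad_nonneg _ _))
    · exact ((Complex.continuous_ofReal.tendsto _).comp (hlim _)).mul_const _
  have hr : Tendsto (fun m => lam0 (v m)) atTop (𝓝 (lam0 u)) := by
    refine tendsto_integral_of_dominated_convergence
      (fun r => M * cutRad (R + 1) r * |4 * π * r * Real.sinh r|) (fun m => ?_) ?_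
      (fun m => ae_of_all _ fun r => ?_) (ae_of_all _ fun r => ?_)
    · exact ((hvR m).continuous.mul (by fun_prop)).aestronglyMeasurable
    · refine (Continuous.integrable_of_hasCompactSupport ?_ ?_).integrableOn
      · exact ((continuous_const.mul (rad1_cutRad (R + 1)).continuous)).mul (by fun_prop)
      · exact ((rad1_cutRad (R + 1)).compact.mul_left).mul_right
    · rw [Real.norm_eq_abs, abs_mul]
      exact mul_le_mul_of_nonneg_right (hvb m r) (abs_nonneg _)
    · exact (hlim r).mul_const _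
  refine tendsto_nhds_unique hl ?_
  simp only [h _ (hvR _)]
  exact (((Complex.continuous_ofReal.tendsto _).comp hr).mul_const c)

open Classical in
/-- **The equation for admissible kernels gives spectral parameter zero.** -/
theorem zeroEigen_of_rad1 (hc : ∀ g, Continuous fun x => φ x g)
    (hb : ∀ g, ∃ C : ℝ, ∀ x, ‖φ x g‖ ≤ C)
    (h : ∀ H, Rad1 H → ∀ (w : InfinitePlace F) (x : Xinf F) (g : GF F),
      ∫ q, ((H (hdist (x w) q) : ℝ) : ℂ) * φ (Function.update x w q) g ∂hypMeasure =
        ((lam0 H : ℝ) : ℂ) * φ x g) : ZeroEigen φ := by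
  intro w x g Hc hHc hs
  obtain ⟨C, hC⟩ := hb g
  have hf : Continuous fun q => φ (Function.update x w q) g :=
    (hc g).comp (continuous_const.update w continuous_id)
  obtain ⟨R, hR⟩ := (Metric.isBounded_iff_subset_closedBall (0 : ℝ)).1 hs.isBounded
  have hz : ∀ r : ℝ, 2 * |R| < |r| → Hc (Real.cosh r) = 0 := fun r hr =>
    image_eq_zero_of_notMem_tsupport fun hm => by
      have h1 := hR hm
      rw [Metric.mem_closedBall, dist_zero_right, Real.norm_eq_abs,
        abs_of_pos (Real.cosh_pos r)] at h1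
      rw [← Real.cosh_abs, Real.cosh_eq] at h1
      linarith [Real.add_one_le_exp |r|, Real.exp_pos (-|r|), le_abs_self R]
  have hcs : ∀ P : ℂ → ℝ, P 0 = 0 → HasCompactSupport fun r => P (Hc (Real.cosh r)) := fun P hP =>
    HasCompactSupport.intro (K := Icc (-(2 * |R|)) (2 * |R|)) isCompact_Icc fun r hr => by
      rw [hz r (not_le.1 fun hle => hr (abs_le.1 hle)), hP]
  have e1 := radial_approx hf (fun q => hC _) (fun H hH => h H hH w x g)
    (Complex.continuous_re.comp (hHc.comp Real.continuous_cosh)) (hcs _ Complex.zero_re)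
  have e2 := radial_approx hf (fun q => hC _) (fun H hH => h H hH w x g)
    (Complex.continuous_im.comp (hHc.comp Real.continuous_cosh)) (hcs _ Complex.zero_im)
  simp only [Function.comp_apply, cosh_hdist] at e1 e2
  set u1 : ℝ → ℝ := Complex.re ∘ Hc ∘ Real.cosh
  set u2 : ℝ → ℝ := Complex.im ∘ Hc ∘ Real.cosh
  have hi : ∀ P : ℂ → ℝ, Continuous P → P 0 = 0 → Integrable
      (fun q => ((P (Hc (coshDist (x w) q)) : ℝ) : ℂ) * φ (Function.update x w q) g)
      hypMeasure := fun P hP hP0 => by
    have hPc : Continuous fun r => P (Hc (Real.cosh r)) :=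
      hP.comp (hHc.comp Real.continuous_cosh)
    obtain ⟨B, hB⟩ := (hcs P hP0).exists_bound_of_continuous hPc
    have h2 : ∀ q, P (Hc (coshDist (x w) q)) = P (Hc (Real.cosh (hdist (x w) q))) := fun q => by
      rw [cosh_hdist]
    simp only [h2]
    refine integrable_of_hdist_support ((Complex.continuous_ofReal.comp
      (hPc.comp (continuous_hdist_left _))).mul hf) (x w) (R := 2 * |R|) (C := B * C)
      (fun q hq => ?_) fun q => ?_
    · rw [hz _ (hq.trans_le (le_abs_self _)), hP0, Complex.ofReal_zero, zero_mul]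
    · rw [norm_mul, Complex.norm_real]
      exact mul_le_mul (hB _) (hC _) (norm_nonneg _) ((norm_nonneg _).trans (hB 0))
  have hi1 := hi _ Complex.continuous_re Complex.zero_re
  have hi2 := hi _ Complex.continuous_im Complex.zero_im
  have hlam : (∫ r in Set.Ioi (0 : ℝ), Hc (Real.cosh r) *
      ((4 * Real.pi * r * Real.sinh r : ℝ) : ℂ)) =
      ((lam0 u1 : ℝ) : ℂ) + Complex.I * ((lam0 u2 : ℝ) : ℂ) := by
    have hl : ∀ P : ℂ → ℝ, Continuous P → P 0 = 0 → IntegrableOn
        (fun r => ((P (Hc (Real.cosh r)) * (4 * π * r * Real.sinh r) : ℝ) : ℂ)) (Ioi 0) :=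
      fun P hP hP0 => ((Continuous.integrable_of_hasCompactSupport
        ((hP.comp (hHc.comp Real.continuous_cosh)).mul (by fun_prop))
        (hcs P hP0).mul_right).integrableOn).ofReal
    rw [lam0, lam0, ← integral_complex_ofReal, ← integral_complex_ofReal, ← integral_const_mul]
    simp only [u1, u2, Function.comp_apply]
    rw [← integral_add (hl _ Complex.continuous_re Complex.zero_re)
        ((hl _ Complex.continuous_im Complex.zero_im).const_mul _)]
    refine integral_congr_ae (ae_of_all _ fun r => ?_)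
    simp only [Complex.ofReal_mul]
    conv_lhs => rw [← Complex.re_add_im (Hc (Real.cosh r))]
    ring
  rw [hlam, add_mul, mul_assoc, ← e1, ← e2, ← integral_const_mul,
    ← integral_add hi1 (hi2.const_mul _)]
  refine integral_congr_ae (ae_of_all _ fun q => ?_)
  show Hc (coshDist (x w) q) * φ (Function.update x w q) g = _
  conv_lhs => rw [← Complex.re_add_im (Hc (coshDist (x w) q))]
  ring

/-! ### Examples -/

theorem rad1_radKer {h : ℝ → ℝ} (hh : Hyp.AbelDatum h) : Rad1 (Hyp.radKer h) := by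
  obtain ⟨R, -, hR⟩ := hh.exists_bound
  refine ⟨hh.exists_lipschitz, HasCompactSupport.intro (K := Icc (-R) R) isCompact_Icc
    fun r hr => ?_⟩
  exact (hR r (le_of_not_ge fun hle => hr (abs_le.1 hle))).2.2

/-- The value at parameter zero of the kernel with horospherical integrals `e^{-l} h(l)`. -/
theorem lam0_radKer {h : ℝ → ℝ} (hh : Hyp.AbelDatum h) : lam0 (Hyp.radKer h) = ∫ l, h l := by
  have hd : Continuous (deriv h) := hh.contDiff_deriv.continuous
  have i1 : Integrable h := hh.diff.continuous.integrable_of_hasCompactSupport hh.compact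
  have i2 : Integrable fun r => r * deriv h r :=
    (continuous_id.mul hd).integrable_of_hasCompactSupport hh.compact.deriv.mul_left
  have h1 : lam0 (Hyp.radKer h) = -2 * ∫ r in Ioi (0 : ℝ), r * deriv h r := by
    rw [lam0, ← integral_const_mul]
    refine setIntegral_congr_fun measurableSet_Ioi fun r hr => ?_
    have hs : 0 < Real.sinh r := Real.sinh_pos_iff.2 hr
    show Hyp.radKer h r * _ = _
    rw [hh.radKer_eq hr]
    field_simp
    ring
  have h2 : ∫ r in Ioi (0 : ℝ), (h r + r * deriv h r) = 0 := by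
    obtain ⟨R, -, hR⟩ := hh.exists_bound
    have hlim : Tendsto (fun r => r * h r) atTop (𝓝 0) :=
      tendsto_const_nhds.congr' (eventually_atTop.2 ⟨R, fun r hr => by
        simp [(hR r (hr.trans (le_abs_self r))).1]⟩)
    rw [integral_Ioi_of_hasDerivAt_of_tendsto (f := fun r => r * h r)
      (f' := fun r => h r + r * deriv h r) (m := 0)
      (continuous_id.mul hh.diff.continuous).continuousWithinAt
      (fun r _ => ((hasDerivAt_id r).mul (hh.diff r).hasDerivAt).congr_deriv (by simp))
      (i1.add i2).integrableOn hlim]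
    simp
  rw [integral_add i1.integrableOn i2.integrableOn] at h2
  have h3 : ∫ l, h l = 2 * ∫ r in Ioi (0 : ℝ), h r := by
    rw [← integral_comp_abs (f := h)]
    refine integral_congr_ae (ae_of_all _ fun l => ?_)
    rcases abs_choice l with e | e <;> simp [e, hh.even]
  rw [h1, h3]
  linarith

/-- Nonnegative kernels with arbitrarily small support and positive value at parameter zero. -/
theorem exists_bump {ε : ℝ} (hε : 0 < ε) :
    ∃ H, Rad1 H ∧ (∀ r, 0 ≤ H r) ∧ (∀ r, ε ≤ |r| → H r = 0) ∧ 0 < lam0 H := by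
  set H : ℝ → ℝ := fun r => max 0 (ε - |r|) with hH
  have hl : LipschitzWith 1 H := LipschitzWith.of_dist_le_mul fun a b => by
    simp only [Real.dist_eq, NNReal.coe_one, one_mul, hH]
    refine (abs_max_sub_max_le_max _ _ _ _).trans ?_
    simp only [sub_self, abs_zero]
    refine max_le (abs_nonneg _) ?_
    rw [show ε - |a| - (ε - |b|) = |b| - |a| by ring, abs_sub_comm a b]
    exact abs_abs_sub_abs_le_abs_sub b a
  have hz : ∀ r, ε ≤ |r| → H r = 0 := fun r hr => max_eq_left (by linarith)
  have hs : HasCompactSupport H := HasCompactSupport.intro (K := Icc (-ε) ε) isCompact_Icc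
    fun r hr => hz r (le_of_not_ge fun hle => hr (abs_le.1 hle))
  refine ⟨H, ⟨⟨1, hl⟩, hs⟩, fun r => le_max_left _ _, hz, ?_⟩
  have hp : ∀ r ∈ Ioi (0 : ℝ), 0 ≤ H r * (4 * π * r * Real.sinh r) := fun r hr =>
    mul_nonneg (le_max_left _ _) (mul_nonneg (mul_nonneg (by positivity) (le_of_lt hr))
      (Real.sinh_nonneg_iff.2 (le_of_lt hr)))
  rw [lam0, setIntegral_pos_iff_support_of_nonneg_ae
    (ae_restrict_of_forall_mem measurableSet_Ioi hp)
    ((hl.continuous.mul (by fun_prop)).integrable_of_hasCompactSupport hs.mul_right).integrableOn]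
  refine lt_of_lt_of_le (by simp [hε] : (0 : ENNReal) < volume (Ioo (0 : ℝ) ε))
    (measure_mono fun r hr => ⟨?_, hr.1⟩)
  have h1 : 0 < H r := lt_max_of_lt_right (by rw [abs_of_pos hr.1]; linarith [hr.2])
  exact ne_of_gt (mul_pos h1 (mul_pos (mul_pos (by positivity) hr.1) (Real.sinh_pos_iff.2 hr.1)))

end FLTAgent.LT
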