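import Fermat.Agent.LT.TF.EllipticAlg
import Fermat.Agent.LT.TF.Unfold
import Fermat.Agent.LT.Red.Level

/-!
Terms of the twisted kernel on classes modulo the centre: twisted conjugation permutes them
equivariantly, hence the elliptic part is an invariant function.
-/

set_option autoImplicit false
set_option linter.unusedSectionVars false
set_option synthInstance.maxHeartbeats 200000

noncomputable section

namespace FLTAgent.LT.Ell

open NumberField IsDedekindDomain MeasureTheory Matrix
open scoped ENNReal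

variable {F E : Type*} [Field F] [NumberField F] [Field E] [NumberField E]

/-! ### Field maps at the finite places -/

theorem gfMap_scalarGF (i : F →+* E) (a : (Af F)ˣ) :
    gfMap i (scalarGF a) = scalarGF (Units.map (afMap i).toMonoidHom a) :=
  Units.ext (by
    ext p q
    fin_cases p <;> fin_cases q <;> simp [gfMap, scalarGF])

theorem valued_complMap_le (i : F →+* E) (w : HeightOneSpectrum (𝓞 E))
    (x : (placeBelow i w).adicCompletion F) {N : ℕ} (hN : 0 < N)
    (hx : Valued.v x ≤ Valued.v ((N : Af F) (placeBelow i w))) :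
    Valued.v (complMap i w x) ≤ Valued.v ((N : Af E) w) := by
  set u := (N : Af F) (placeBelow i w) with hu
  have h0 : u ≠ 0 := fun h => Red.valued_natCast_ne_zero hN (placeBelow i w) (by
    show Valued.v u = 0
    rw [h, map_zero])
  have he : x = u * (x / u) := by rw [mul_div_cancel₀ _ h0]
  have hint : x / u ∈ (placeBelow i w).adicCompletionIntegers F := by
    rw [HeightOneSpectrum.mem_adicCompletionIntegers, map_div₀, div_le_one₀ (by
      exact zero_lt_iff.2 ((map_ne_zero _).2 h0))]
    exact hx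
  have hm : complMap i w u = (N : Af E) w := by
    rw [hu, ← afMap_apply, map_natCast]
  rw [he, map_mul, map_mul, hm]
  exact mul_le_of_le_one_right' ((HeightOneSpectrum.mem_adicCompletionIntegers ..).1
    (complMap_integer i w _ hint))

theorem entry_gfMap (i : F →+* E) (k : GF F) (w : HeightOneSpectrum (𝓞 E)) (p q : Fin 2) :
    Red.loc w ((gfMap i k : GF E) : Matrix (Fin 2) (Fin 2) (Af E)) p q =
      complMap i w (Red.loc (placeBelow i w) (k : Matrix (Fin 2) (Fin 2) (Af F)) p q) := rfl

theorem entLe_gfMap (i : F →+* E) {N : ℕ} (hN : 0 < N) (k : GF F)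
    (w : HeightOneSpectrum (𝓞 E))
    (h : Red.EntLe (placeBelow i w) (Valued.v ((N : Af F) (placeBelow i w)))
      (Red.loc (placeBelow i w) (k : Matrix (Fin 2) (Fin 2) (Af F)) - 1)) :
    Red.EntLe w (Valued.v ((N : Af E) w))
      (Red.loc w ((gfMap i k : GF E) : Matrix (Fin 2) (Fin 2) (Af E)) - 1) := fun p q => by
  have e : (Red.loc w ((gfMap i k : GF E) : Matrix (Fin 2) (Fin 2) (Af E)) - 1) p q =
      complMap i w ((Red.loc (placeBelow i w) (k : Matrix (Fin 2) (Fin 2) (Af F)) - 1) p q) := by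
    rw [Matrix.sub_apply, Matrix.sub_apply, map_sub, entry_gfMap]
    fin_cases p <;> fin_cases q <;> simp
  rw [e]
  exact valued_complMap_le i w _ hN (h p q)

theorem inLevel_gfMap (i : F →+* E) {N : ℕ} (hN : 0 < N) {k : GF F} (hk : InLevel N k) :
    InLevel N (gfMap i k) := Red.inLevel_iff.2 fun w => by
  refine ⟨entLe_gfMap i hN k w (Red.inLevel_iff.1 hk _).1, ?_⟩
  rw [← map_inv]
  exact entLe_gfMap i hN k⁻¹ w (Red.inLevel_iff.1 hk _).2

theorem gfMap_mem_UZ (i : F →+* E) {N : ℕ} (hN : 0 < N) {u : GF F} (hu : u ∈ UZ F N) :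
    gfMap i u ∈ UZ E N := by
  obtain ⟨k, hk, c, rfl⟩ := Red.mem_UZ.1 hu
  rw [map_mul, gfMap_scalarGF]
  exact Red.mem_UZ.2 ⟨_, inLevel_gfMap i hN hk, _, rfl⟩

/-! ### Field maps at infinity -/

theorem conjH3_act (g : GL (Fin 2) ℂ) (p : H3) :
    conjH3 (act g p) = act (GeneralLinearGroup.map (starRingEnd ℂ) g) (conjH3 p) := by
  have hd : den (GeneralLinearGroup.map (starRingEnd ℂ) g) (conjH3 p) = den g p := by
    simp [den, conjH3, ← map_mul, ← map_add, Complex.normSq_conj]
  refine Prod.ext ?_ (Subtype.ext ?_)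
  · show (starRingEnd ℂ) (act g p).1 = _
    rw [Hyp.coe_act_fst, Hyp.coe_act_fst, hd]
    simp [conjH3, map_div₀, Complex.conj_ofReal]
  · show ((act g p).2 : ℝ) = _
    rw [Hyp.coe_act_snd, Hyp.coe_act_snd, hd]
    have e : (GeneralLinearGroup.det (GeneralLinearGroup.map (starRingEnd ℂ) g) : ℂ) =
        (starRingEnd ℂ) (GeneralLinearGroup.det g : ℂ) := by
      simp [Matrix.det_fin_two]
    rw [e, RCLike.norm_conj]
    rfl

theorem infMap_actInf (i : F →+* E) (g : GL (Fin 2) F) (x : Xinf F) :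
    infMap i (actInf g x) = actInf (GeneralLinearGroup.map i g) (infMap i x) := by
  funext w
  have hcase : (w.comap i).embedding = w.embedding.comp i ∨
      (w.comap i).embedding = ComplexEmbedding.conjugate (w.embedding.comp i) := by
    conv_lhs => rw [← w.mk_embedding, InfinitePlace.comap_mk]
    conv_rhs => rw [← w.mk_embedding, InfinitePlace.comap_mk]
    rw [InfinitePlace.mk_embedding]
    exact InfinitePlace.embedding_mk_eq _
  simp only [infMap, actInf]
  by_cases h : (w.comap i).embedding = w.embedding.comp i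
  · rw [if_pos h, if_pos h, h]
    rfl
  · rw [if_neg h, if_neg h, conjH3_act, hcase.resolve_left h]
    congr 1
    exact Units.ext (Matrix.ext fun p q => by simp [ComplexEmbedding.conjugate])

theorem measurable_infMap (i : F →+* E) : Measurable (infMap i) := by
  refine measurable_pi_lambda _ fun w => ?_
  have hc : Measurable conjH3 :=
    (Complex.continuous_conj.measurable.comp measurable_fst).prodMk measurable_snd
  by_cases h : (w.comap i).embedding = w.embedding.comp i
  · simp only [infMap, if_pos h]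
    exact measurable_pi_apply _
  · simp only [infMap, if_neg h]
    exact hc.comp (measurable_pi_apply _)

theorem actInf_sc (a : Eˣ) (x : Xinf E) : actInf (sc a) x = x := funext fun w => by
  show act _ (x w) = x w
  convert act_scalar (Units.map w.embedding.toMonoidHom a) (x w) using 2
  apply Units.ext
  ext p q
  rcases eq_or_ne p q with rfl | h <;> simp_all [sc, GeneralLinearGroup.scalar]

/-! ### Terms -/

variable {N : ℕ} {τ : E →+* E} {f : Test E}

theorem term_sc_mul (hf : f.Ok N) (a : Eˣ) (γ : GL (Fin 2) E) (p : Pt E N) :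
    term τ f (sc a * γ) p = term τ f γ p := by
  have e : ∀ X Y : GF E, Y⁻¹ * toFin (sc a * γ) * X =
      scalarGF (Units.map (algebraMap E (Af E)).toMonoidHom a) * (Y⁻¹ * toFin γ * X) := fun X Y => by
    rw [map_mul, ← toFin_scalar]
    show Y⁻¹ * (toFin (sc a) * toFin γ) * X = _
    rw [toFin_scalar, ← mul_assoc Y⁻¹, ← Red.scalarGF_comm _ Y⁻¹]
    simp only [mul_assoc]
  simp only [term, e, actInf_mul, actInf_sc]
  rw [hf.left_inv _ (Subgroup.subset_closure (Or.inr ⟨_, rfl⟩))]

theorem term_congr (hf : f.Ok N) {γ γ' : GL (Fin 2) E}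
    (h : (QuotientGroup.mk γ : PG E) = QuotientGroup.mk γ') (p : Pt E N) :
    term τ f γ p = term τ f γ' p := by
  obtain ⟨a, ha⟩ := (mem_center_iff_scalar _).1 (QuotientGroup.eq.1 h)
  have e : γ' = sc a * γ := by
    rw [(sc_comm a γ).eq]
    show γ' = γ * GeneralLinearGroup.scalar (Fin 2) a
    rw [ha, mul_inv_cancel_left]
  rw [e, term_sc_mul hf]

theorem term_twist (hN : 0 < N) (hf : f.Ok N) (g γ : GL (Fin 2) E) (p : Pt E N) :
    term τ f (g * γ * (tmap τ g)⁻¹) (smulPt g p) = term τ f γ p := by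
  obtain ⟨u, hu, e⟩ := toFin_smul_out g p.2
  have e1 : gfMap τ (toFin g • p.2).out = toFin (tmap τ g) * gfMap τ p.2.out * gfMap τ u := by
    rw [e, map_mul, map_mul, gfMap_toFin]
  simp only [term, smulPt, e1]
  rw [e, infMap_actInf]
  rw [show (toFin g * p.2.out * u)⁻¹ * toFin (g * γ * (tmap τ g)⁻¹) *
      (toFin (tmap τ g) * gfMap τ p.2.out * gfMap τ u) =
      u⁻¹ * (p.2.out⁻¹ * toFin γ * gfMap τ p.2.out * gfMap τ u) by
    simp only [map_mul, map_inv]; group,
    hf.left_inv _ (inv_mem hu), hf.right_inv _ (gfMap_mem_UZ τ hN hu)]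
  congr 2
  funext w
  rw [← actInf_mul, mul_assoc, inv_mul_cancel, mul_one, actInf_mul]
  exact hdist_act _ _ _

/-- A term on a class modulo the centre. -/
def tm (τ : E →+* E) (f : Test E) (γ : PG E) (p : Pt E N) : ℂ := term τ f γ.out p

theorem tm_mk (hf : f.Ok N) (γ : GL (Fin 2) E) (p : Pt E N) :
    tm τ f (QuotientGroup.mk γ) p = term τ f γ p :=
  term_congr hf (QuotientGroup.out_eq' _) p

variable (i : F →+* E)

/-- The map on classes. -/
def pgMap : PG F →* PG E :=
  QuotientGroup.map _ _ (GeneralLinearGroup.map i) fun g hg => by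
    obtain ⟨a, rfl⟩ := (mem_center_iff_scalar g).1 hg
    exact (mem_center_iff_scalar _).2 ⟨Units.map i.toMonoidHom a, Units.ext (by
      ext p q
      fin_cases p <;> fin_cases q <;> simp [GeneralLinearGroup.scalar])⟩

theorem pgMap_mk (g : GL (Fin 2) F) :
    pgMap i (QuotientGroup.mk g : PG F) = QuotientGroup.mk (GeneralLinearGroup.map i g) := rfl

variable (τ) in
/-- Twisted conjugation on classes. -/
def tw (g γ : PG E) : PG E := g * γ * (pgMap τ g)⁻¹

theorem tw_mk (g γ : GL (Fin 2) E) :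
    tw τ (QuotientGroup.mk g) (QuotientGroup.mk γ) = QuotientGroup.mk (g * γ * (tmap τ g)⁻¹) := by
  rw [QuotientGroup.mk_mul, QuotientGroup.mk_mul, QuotientGroup.mk_inv]
  rfl

theorem tw_one (γ : PG E) : tw τ 1 γ = γ := by simp [tw]

theorem tw_mul (g h γ : PG E) : tw τ (g * h) γ = tw τ g (tw τ h γ) := by
  simp only [tw, map_mul]
  group

variable (τ) in
/-- Twisted conjugation as a permutation. -/
def twEquiv (g : PG E) : PG E ≃ PG E where
  toFun := tw τ g
  invFun := tw τ g⁻¹
  left_inv γ := by rw [← tw_mul, inv_mul_cancel, tw_one]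
  right_inv γ := by rw [← tw_mul, mul_inv_cancel, tw_one]

theorem tm_tw (hN : 0 < N) (hf : f.Ok N) (g γ : PG E) (p : Pt E N) :
    tm τ f (tw τ g γ) (g • p) = tm τ f γ p := by
  obtain ⟨g, rfl⟩ := QuotientGroup.mk_surjective g
  obtain ⟨γ, rfl⟩ := QuotientGroup.mk_surjective γ
  rw [tw_mk, tm_mk hf, mk_smul, tm_mk hf, term_twist hN hf]

/-! ### Elliptic classes -/

/-- The norm of the class is elliptic. -/
def EllP (τ : E →+* E) (n : ℕ) (γ : PG E) : Prop := EllElem (twNorm τ n γ.out)

theorem ellP_mk {n : ℕ} (γ : GL (Fin 2) E) :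
    EllP τ n (QuotientGroup.mk γ : PG E) ↔ EllElem (twNorm τ n γ) := by
  obtain ⟨a, ha⟩ := (mem_center_iff_scalar _).1
    (QuotientGroup.eq.1 (QuotientGroup.out_eq' (QuotientGroup.mk γ : PG E)))
  set g := (QuotientGroup.mk γ : PG E).out
  have e : γ = g * sc a := by
    show γ = g * GeneralLinearGroup.scalar (Fin 2) a
    rw [ha, mul_inv_cancel_left]
  rw [EllP, show twNorm τ n γ = sc (nrm τ n a) * twNorm τ n g by
    rw [e, twNorm_mul_sc, (sc_comm _ _).eq]]
  refine ⟨fun h => ellElem_sc_mul h, fun h => ?_⟩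
  have h' := ellElem_sc_mul (a := (nrm τ n a)⁻¹) h
  rwa [← mul_assoc, ← sc_mul, inv_mul_cancel, sc_one, one_mul] at h'

theorem CycGen.ellP_tw {i : F →+* E} {n : ℕ} (h : CycGen i τ n) (g γ : PG E) :
    EllP τ n (tw τ g γ) ↔ EllP τ n γ := by
  obtain ⟨g, rfl⟩ := QuotientGroup.mk_surjective g
  obtain ⟨γ, rfl⟩ := QuotientGroup.mk_surjective γ
  rw [tw_mk, ellP_mk, ellP_mk, h.twNorm_twConj']
  refine ⟨fun he => ?_, fun he => ellElem_conj he⟩
  have h' := ellElem_conj (g := g⁻¹) he
  rwa [inv_inv, mul_assoc g, inv_mul_cancel_left, inv_mul_cancel_right] at h'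

theorem ellTw_eq (n : ℕ) (p : Pt E N) :
    ellTw τ n f p = ∑' γ : PG E, {γ | EllP τ n γ}.indicator (fun γ => tm τ f γ p) γ := rfl

theorem measurable_finTerm (γ : GL (Fin 2) E) : Measurable fun p : Pt E N => f.fin (p.2.out⁻¹ * toFin γ * gfMap τ p.2.out) :=
  Measurable.comp (g := fun c : Cos E N => f.fin (c.out⁻¹ * toFin γ * gfMap τ c.out)) measurable_from_top measurable_snd
theorem measurable_infPair (γ : GL (Fin 2) E) : Measurable fun p : Pt E N => (p.1, actInf γ (infMap τ p.1)) :=
  measurable_fst.prodMk (((measurable_actInf γ).comp (measurable_infMap τ)).comp measurable_fst)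
theorem measurable_infFun (hf : f.Ok N) : Measurable fun x : Xinf E × Xinf E => f.inf fun w => hdist (x.1 w) (x.2 w) := by
  obtain ⟨C, hC⟩ := hf.lipschitz
  exact measurable_pairwise (F := E) hdist measurable_hdist f.inf hC.continuous.measurable
theorem measurable_infPart (hf : f.Ok N) (γ : GL (Fin 2) E) : Measurable fun p : Pt E N =>
      f.inf fun w => hdist (p.1 w) (actInf γ (infMap τ p.1) w) :=
  Measurable.comp (g := fun x : Xinf E × Xinf E => f.inf fun w => hdist (x.1 w) (x.2 w))
    (f := fun p : Pt E N => (p.1, actInf γ (infMap τ p.1))) (measurable_infFun hf) (measurable_infPair γ)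
theorem measurable_term (hf : f.Ok N) (γ : GL (Fin 2) E) : Measurable fun p : Pt E N => term τ f γ p := (measurable_finTerm γ).mul (measurable_infPart hf γ)

/-- The norms of the elliptic terms, summed. -/
def ellBound (τ : E →+* E) (n : ℕ) (f : Test E) (p : Pt E N) : ℝ≥0∞ :=
  ∑' γ : PG E, {γ | EllP τ n γ}.indicator (fun γ => ‖tm τ f γ p‖ₑ) γ

theorem measurable_ellBound (hf : f.Ok N) (n : ℕ) : Measurable (ellBound (N := N) τ n f) := by
  refine Measurable.tsum fun γ => ?_
  by_cases hγ : EllP τ n γ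
  · simp only [Set.indicator, Set.mem_ofPred, hγ, if_true]
    exact (measurable_term hf γ.out).enorm
  · simp only [Set.indicator, Set.mem_ofPred, hγ, if_false]
    exact measurable_const

theorem CycGen.ellBound_smul {i : F →+* E} {n : ℕ} (h : CycGen i τ n) (hN : 0 < N) (hf : f.Ok N)
    (g : PG E) (p : Pt E N) : ellBound τ n f (g • p) = ellBound τ n f p := by
  rw [ellBound, ← (twEquiv τ g).tsum_eq]
  refine tsum_congr fun γ => ?_
  show Set.indicator _ _ (tw τ g γ) = _
  by_cases hγ : EllP τ n γ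
  · rw [Set.indicator_of_mem (show γ ∈ {γ | EllP τ n γ} from hγ),
      Set.indicator_of_mem (show tw τ g γ ∈ {γ | EllP τ n γ} from (h.ellP_tw g γ).2 hγ)]
    simp only [tm_tw hN hf]
  · rw [Set.indicator_of_notMem (show γ ∉ {γ | EllP τ n γ} from hγ),
      Set.indicator_of_notMem (show tw τ g γ ∉ {γ | EllP τ n γ} from mt (h.ellP_tw g γ).1 hγ)]

end FLTAgent.LT.Ell
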