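import Fermat.Agent.LT.TF.Height.Basic
import Fermat.Agent.LT.TF.EllipticTerm
import Fermat.Agent.LT.Red.Main

/-!
The set of points of bounded height: it is invariant, finitely many translates of a compact box
cover it, and the twisted kernel of a test is bounded on it.
-/

set_option autoImplicit false
set_option linter.style.haveILetI false
set_option linter.unusedSectionVars false
set_option synthInstance.maxHeartbeats 200000

noncomputable section

namespace FLTAgent.LT.Ht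

open NumberField IsDedekindDomain Matrix MeasureTheory
open scoped ENNReal

variable {F : Type*} [Field F] [NumberField F] {N : ℕ}

local notation "M2F" => Matrix (Fin 2) (Fin 2) F

variable (F N) in
/-- Points where every row has height at most `T`. -/
def lowSet (T : ℝ) : Set (Pt F N) := {p | ∀ r : Fin 2 → F, r ≠ 0 → ht r p ≤ T}

lemma smulPt_mem_lowSet {T : ℝ} (g : GL (Fin 2) F) {p : Pt F N} (hp : p ∈ lowSet F N T) :
    smulPt g p ∈ lowSet F N T := fun r hr => by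
  rw [ht_smulPt hr]
  exact hp _ (vecMul_ne_zero hr g)

lemma smul_mem_lowSet_iff {T : ℝ} (g : PG F) (p : Pt F N) :
    g • p ∈ lowSet F N T ↔ p ∈ lowSet F N T := by
  refine ⟨fun h => ?_, fun h => smulPt_mem_lowSet g.out h⟩
  have h1 := smulPt_mem_lowSet (g⁻¹).out h
  change g⁻¹ • (g • p) ∈ lowSet F N T at h1
  rwa [inv_smul_smul] at h1

lemma measurable_ht (r : Fin 2 → F) : Measurable fun p : Pt F N => ht r p := by
  have hq : ∀ a b : ℂ, Measurable (qf a b) := fun a b => by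
    unfold qf Red.rowForm
    exact Measurable.div (by fun_prop) measurable_snd.subtype_val
  unfold ht infHt
  refine Measurable.mul (Measurable.comp (g := fun c : Cos F N => finHt r c.out) measurable_from_top
    measurable_snd) (Finset.measurable_prod _ fun (w : InfinitePlace F) _ => ?_)
  have h1 : Measurable fun p : Pt F N => p.1 w := (measurable_pi_apply w).comp measurable_fst
  exact (Measurable.inv (Measurable.comp (g := qf (w.embedding (r 0)) (w.embedding (r 1)))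
    (hq _ _) h1)).pow_const _

lemma measurableSet_lowSet (T : ℝ) : MeasurableSet (lowSet F N T) := by
  haveI : Countable F := (Module.finBasis ℚ F).equivFun.toEquiv.countable_iff.2 inferInstance
  rw [show lowSet F N T = ⋂ r : {r : Fin 2 → F // r ≠ 0}, {p | ht r.1 p ≤ T} by
    ext p; simp [lowSet]]
  exact MeasurableSet.iInter fun r => measurableSet_le (measurable_ht _) measurable_const

/-- A compact box of points. -/
def boxPts (T : Set (Cos F N)) (R c B : ℝ) : Set (Pt F N) :=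
  {q | q.2 ∈ T ∧ ∀ w, ‖(q.1 w).1‖ ≤ R ∧ c ≤ ((q.1 w).2 : ℝ) ∧ ((q.1 w).2 : ℝ) ≤ B}

lemma boxPts_subset_siegelSet (T : Set (Cos F N)) (R c B : ℝ) :
    boxPts T R c B ⊆ Red.siegelSet T R c := fun _ hq => ⟨hq.1, fun w => ⟨(hq.2 w).1, (hq.2 w).2.1⟩⟩

lemma qf_zero_one (x : H3) : qf 0 1 x = ((x.2 : ℝ))⁻¹ := by
  simp [qf, Red.rowForm, one_div]

/-- Finitely many translates of a box cover the points of bounded height. -/
lemma exists_box_cover [IsTotallyComplex F] (hN : 0 < N) (T : ℝ) :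
    ∃ (S : Set (Cos F N)) (R c B : ℝ), S.Finite ∧ 0 < c ∧
      ∀ p ∈ lowSet F N T, ∃ g : PG F, g • p ∈ boxPts S R c B := by
  classical
  obtain ⟨S, R, c, hS, hc, hcover⟩ := Red.exists_cover (F := F) hN
  have hr : (![0, 1] : Fin 2 → F) ≠ 0 := fun h => one_ne_zero (congrFun h 1)
  set G : Cos F N → ℝ := fun s => (finHt (![0, 1] : Fin 2 → F) s.out)⁻¹
  set A : ℝ := max 0 T * ∑ s ∈ hS.toFinset, G s
  refine ⟨S, R, c, ∑ w : InfinitePlace F, max 1 (A /
    ∏ w' ∈ Finset.univ.erase w, c ^ w'.mult), hS, hc, fun p hp => ?_⟩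
  obtain ⟨g, hg⟩ := hcover p
  refine ⟨g, hg.1, fun w => ⟨(hg.2 w).1, (hg.2 w).2, ?_⟩⟩
  set q := g • p
  have hq := (smul_mem_lowSet_iff g p).2 hp _ hr
  have he : infHt (![0, 1] : Fin 2 → F) q.1 = ∏ w : InfinitePlace F, ((q.1 w).2 : ℝ) ^ w.mult :=
    Finset.prod_congr rfl fun w _ => by simp [qf_zero_one]
  rw [ht, he] at hq
  have hG : ∀ s, 0 ≤ G s := fun s => inv_nonneg.2 (finHt_pos hr _).le
  have hA : (∏ w : InfinitePlace F, ((q.1 w).2 : ℝ) ^ w.mult) ≤ A := by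
    calc (∏ w : InfinitePlace F, ((q.1 w).2 : ℝ) ^ w.mult) ≤ T * G q.2 := by
          rw [← div_eq_mul_inv, le_div_iff₀ (finHt_pos hr _), mul_comm]; exact hq
      _ ≤ max 0 T * G q.2 := mul_le_mul_of_nonneg_right (le_max_right _ _) (hG _)
      _ ≤ A := mul_le_mul_of_nonneg_left
        (Finset.single_le_sum (fun i _ => hG i) (hS.mem_toFinset.2 hg.1)) (le_max_left _ _)
  set P := ∏ w' ∈ Finset.univ.erase w, c ^ w'.mult
  have hP : 0 < P := Finset.prod_pos fun _ _ => pow_pos hc _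
  have hw : ((q.1 w).2 : ℝ) ^ w.mult ≤ A / P := by
    rw [le_div_iff₀ hP]
    refine le_trans (mul_le_mul_of_nonneg_left (Finset.prod_le_prod (fun _ _ => (pow_pos hc _).le)
      fun w' _ => pow_le_pow_left₀ hc.le (hg.2 w').2 _) (pow_nonneg (q.1 w).2.2.le _)) ?_
    rw [Finset.mul_prod_erase Finset.univ (fun w' => ((q.1 w').2 : ℝ) ^ w'.mult) (Finset.mem_univ w)]
    exact hA
  refine le_trans ?_ (Finset.single_le_sum
    (f := fun w : InfinitePlace F => max 1 (A / ∏ w' ∈ Finset.univ.erase w, c ^ w'.mult))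
    (fun i _ => zero_le_one.trans (le_max_left _ _)) (Finset.mem_univ w))
  rcases le_total ((q.1 w).2 : ℝ) 1 with h | h
  · exact h.trans (le_max_left _ _)
  · exact le_max_of_le_right ((le_self_pow₀ h InfinitePlace.mult_ne_zero).trans hw)

/-- Points near a box stay in a box. -/
lemma box_of_coshDist {x y : H3} {K R c B : ℝ} (hd : coshDist x y ≤ K) (hR : ‖x.1‖ ≤ R)
    (hc : c ≤ (x.2 : ℝ)) (hB : (x.2 : ℝ) ≤ B) :
    ‖y.1‖ ≤ R + 2 * K * B ∧ c / (2 * K) ≤ (y.2 : ℝ) ∧ (y.2 : ℝ) ≤ 2 * K * B := by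
  have hK : 1 ≤ K := (Hyp.one_le_coshDist x y).trans hd
  have hx : (0 : ℝ) < x.2 := x.2.2
  have hy : (0 : ℝ) < y.2 := y.2.2
  rw [coshDist, ← le_sub_iff_add_le', div_le_iff₀ (by positivity), Complex.normSq_eq_norm_sq] at hd
  have hz : ‖x.1 - y.1‖ ^ 2 ≤ 2 * K * x.2 * y.2 := by nlinarith [sq_nonneg ((x.2 : ℝ) - y.2)]
  have h1 : (x.2 : ℝ) ≤ 2 * K * y.2 := by nlinarith [sq_nonneg ‖x.1 - y.1‖]
  have h2 : (y.2 : ℝ) ≤ 2 * K * x.2 := by nlinarith [sq_nonneg ‖x.1 - y.1‖]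
  have h3 : ‖x.1 - y.1‖ ≤ 2 * K * x.2 := by
    refine (pow_le_pow_iff_left₀ (norm_nonneg _) (by positivity) two_ne_zero).1 ?_
    nlinarith [mul_le_mul_of_nonneg_left h2 (show (0 : ℝ) ≤ 2 * K * x.2 by positivity)]
  have h4 : 2 * K * (x.2 : ℝ) ≤ 2 * K * B := mul_le_mul_of_nonneg_left hB (by positivity)
  refine ⟨?_, by rw [div_le_iff₀ (by positivity), mul_comm]; exact hc.trans h1, h2.trans h4⟩
  calc ‖y.1‖ = ‖x.1 - (x.1 - y.1)‖ := by rw [sub_sub_cancel]
    _ ≤ ‖x.1‖ + ‖x.1 - y.1‖ := norm_sub_le _ _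
    _ ≤ R + 2 * K * B := add_le_add hR (h3.trans h4)

/-- A point of the box is near the base point. -/
lemma coshDist_base_le {x : H3} {R c B : ℝ} (hc0 : 0 < c) (hR : ‖x.1‖ ≤ R) (hc : c ≤ (x.2 : ℝ))
    (hB : (x.2 : ℝ) ≤ B) :
    coshDist x ((0, ⟨1, Set.mem_Ioi.2 one_pos⟩) : H3) ≤ 1 + (R ^ 2 + (B + 1) ^ 2) / (2 * c) := by
  rw [coshDist, Complex.normSq_eq_norm_sq]
  simp only [sub_zero, mul_one]
  refine add_le_add le_rfl (div_le_div₀ (by positivity) (add_le_add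
    (pow_le_pow_left₀ (norm_nonneg _) hR 2) (by nlinarith [(x.2.2 : (0 : ℝ) < x.2)])) (by positivity)
    (by linarith))

lemma infMap_mem {R c B : ℝ} (τ : F →+* F) {x : Xinf F}
    (hx : ∀ w, ‖(x w).1‖ ≤ R ∧ c ≤ ((x w).2 : ℝ) ∧ ((x w).2 : ℝ) ≤ B) (w : InfinitePlace F) :
    ‖(infMap τ x w).1‖ ≤ R ∧ c ≤ ((infMap τ x w).2 : ℝ) ∧ ((infMap τ x w).2 : ℝ) ≤ B := by
  simp only [infMap]
  split_ifs with h
  · exact hx _
  · simpa [conjH3] using hx (w.comap τ)

/-- Only finitely many classes have a term that does not vanish on a box. -/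
lemma exists_finite_classes {t : Test F} (ht' : t.Ok N) (τ : F →+* F)
    {S : Set (Cos F N)} (hS : S.Finite) (R : ℝ) {c : ℝ} (hc : 0 < c) (B : ℝ) :
    ∃ Γ : Finset (PG F), ∀ p ∈ boxPts S R c B, ∀ γ, Ell.tm τ t γ p ≠ 0 → γ ∈ Γ := by
  classical
  obtain ⟨S₁, K, hS₁, hK, hnear⟩ := exists_near ht' τ
  set R₁ := R + 2 * K * B
  set c₁ := c / (2 * K)
  set B₁ := 2 * K * B
  set K₂ := 1 + (R ^ 2 + (B + 1) ^ 2) / (2 * c)
  set base : Xinf F := fun _ => (0, ⟨1, Set.mem_Ioi.2 one_pos⟩)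
  set T₂ : Set (Cos F N) :=
    Set.image2 (fun s s₁ : Cos F N => (QuotientGroup.mk (s.out * s₁.out) : Cos F N)) S S₁
  have hfin : (⋃ s ∈ S, {γ : PG F | γ • ((base, QuotientGroup.mk (gfMap τ s.out)) : Pt F N) ∈
      Red.siegelSet T₂ (R₁ + 2 * K₂ * B₁) (c₁ / (2 * K₂))}).Finite := by
    refine hS.biUnion fun s hs => Red.finite_meets (hS.image2 _ hS₁) _ ?_ _
    rcases le_or_gt 0 R with hR | hR
    · have : 0 ≤ (R ^ 2 + (B + 1) ^ 2) / (2 * c) := by positivity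
      have : 0 < K₂ := by simp only [K₂]; linarith
      positivity
    · have : 0 ≤ (R ^ 2 + (B + 1) ^ 2) / (2 * c) := by positivity
      have : 0 < K₂ := by simp only [K₂]; linarith
      positivity
  refine ⟨hfin.toFinset, fun p hp γ hγ => hfin.mem_toFinset.2 ?_⟩
  obtain ⟨⟨s₁, hs₁, e⟩, hd⟩ := hnear γ.out p hγ
  refine Set.mem_iUnion₂.2 ⟨p.2, hp.1, ?_⟩
  show smulPt γ.out ((base, QuotientGroup.mk (gfMap τ p.2.out)) : Pt F N) ∈ Red.siegelSet _ _ _
  refine ⟨⟨p.2, hp.1, s₁, hs₁, e.symm⟩, fun w => ?_⟩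
  have hy := box_of_coshDist (hd w) (hp.2 w).1 (hp.2 w).2.1 (hp.2 w).2.2
  have hx := infMap_mem τ hp.2 w
  have hd2 : coshDist ((smulPt γ.out (ptMap (N' := N) τ p)).1 w)
      (actInf γ.out base w) ≤ K₂ := by
    show coshDist (act _ (infMap τ p.1 w)) (act _ (base w)) ≤ K₂
    rw [Hyp.coshDist_act]
    exact coshDist_base_le hc hx.1 hx.2.1 hx.2.2
  have := box_of_coshDist hd2 hy.1 hy.2.1 hy.2.2
  exact ⟨this.1, this.2.1⟩

/-- A test is bounded. -/
lemma exists_bound_term {t : Test F} (ht' : t.Ok N) (τ : F →+* F) :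
    ∃ B : ℝ≥0∞, B < ⊤ ∧ ∀ (γ : PG F) (p : Pt F N), ‖Ell.tm τ t γ p‖ₑ ≤ B := by
  obtain ⟨C, hC⟩ := ht'.lipschitz
  obtain ⟨D, hD⟩ := ht'.compact.exists_bound_of_continuous hC.continuous
  refine ⟨(∑ c ∈ ht'.finite.toFinset, ‖t.fin c.out‖ₑ) * ENNReal.ofReal D,
    ENNReal.mul_lt_top (ENNReal.sum_lt_top.2 fun _ _ => enorm_lt_top) ENNReal.ofReal_lt_top,
    fun γ p => ?_⟩
  rw [Ell.tm, term, enorm_mul]
  refine mul_le_mul' ?_ (by rw [← ofReal_norm]; exact ENNReal.ofReal_le_ofReal (hD _))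
  set g := p.2.out⁻¹ * toFin γ.out * gfMap τ p.2.out
  by_cases hg : t.fin g = 0
  · simp [hg]
  · obtain ⟨u, hu, e⟩ : ∃ u ∈ UZ F N, (QuotientGroup.mk g : Cos F N).out = g * u :=
      ⟨_, QuotientGroup.eq.1 (QuotientGroup.out_eq' _).symm, (mul_inv_cancel_left _ _).symm⟩
    refine le_trans (le_of_eq ?_) (Finset.single_le_sum (fun c _ => zero_le)
      (ht'.finite.mem_toFinset.2 ⟨g, hg, rfl⟩))
    rw [e, ht'.right_inv _ hu]

/-- The absolute kernel is invariant. -/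
lemma tsum_enorm_tm_smul (hN : 0 < N) {t : Test F} (ht' : t.Ok N) (τ : F →+* F) (g : PG F)
    (p : Pt F N) : ∑' γ : PG F, ‖Ell.tm τ t γ (g • p)‖ₑ = ∑' γ : PG F, ‖Ell.tm τ t γ p‖ₑ := by
  rw [← (Ell.twEquiv τ g).tsum_eq]
  exact tsum_congr fun γ => congrArg _ (Ell.tm_tw hN ht' g γ p)

/-- The twisted kernel is bounded where the height is. -/
theorem exists_bound_lowSet [IsTotallyComplex F] (hN : 0 < N) {t : Test F} (ht' : t.Ok N)
    (τ : F →+* F) (T : ℝ) :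
    ∃ M : ℝ≥0∞, M < ⊤ ∧ ∀ p ∈ lowSet F N T, ∑' γ : PG F, ‖term τ t γ.out p‖ₑ ≤ M := by
  obtain ⟨S, R, c, B, hS, hc, hcover⟩ := exists_box_cover (F := F) hN T
  obtain ⟨Γ, hΓ⟩ := exists_finite_classes ht' τ hS R hc B
  obtain ⟨M, hM, hbd⟩ := exists_bound_term ht' τ
  refine ⟨Γ.card * M, ENNReal.mul_lt_top (ENNReal.natCast_lt_top _) hM, fun p hp => ?_⟩
  obtain ⟨g, hg⟩ := hcover p hp
  show ∑' γ : PG F, ‖Ell.tm τ t γ p‖ₑ ≤ _
  rw [← tsum_enorm_tm_smul hN ht' τ g p, tsum_eq_sum (s := Γ) fun γ hγ => by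
    rw [enorm_eq_zero]
    by_contra h
    exact hγ (hΓ _ hg γ h)]
  exact (Finset.sum_le_card_nsmul _ _ M fun γ _ => hbd γ _).trans_eq (nsmul_eq_mul _ _)

/-- The quotient has finite measure for every weight. -/
theorem quotMeasure_univ_lt_top [IsTotallyComplex F] (hN : 0 < N) {w : Pt F N → ℝ≥0∞}
    (hw : IsPtWeight w) : quotMeasure w Set.univ < ⊤ := by
  haveI := Red.countable_cos (F := F) hN
  obtain ⟨w', hw', hfin⟩ := reduction F N hN
  refine lt_of_le_of_lt (le_of_eq ?_) hfin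
  rw [quotMeasure, quotMeasure, ← lintegral_one, ← lintegral_one,
    RS.lintegral_wMeasure hw.1 measurable_const, RS.lintegral_wMeasure hw'.1 measurable_const]
  exact ((isPtWeight_iff w).1 hw).lintegral_eq ((isPtWeight_iff w').1 hw') measurable_const
    fun _ _ => rfl

end FLTAgent.LT.Ht
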