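import Fermat.Agent.LT.TF.Vec
import Fermat.Agent.LT.TF.RadialOne
import Fermat.Agent.LT.TF.Aleph.Value
import Fermat.Agent.LT.TF.Height
import Fermat.Agent.LT.ThetaM.Bessel
import Fermat.Agent.LT.RS.Bessel

/-!
Regularity of joint eigenvectors in `L²` of the radial and Hecke operators: forms with spectral
parameter zero give eigenvectors, and eigenvectors come from cusp forms with parameter zero.
-/

set_option autoImplicit false
set_option linter.unusedSectionVars false
set_option linter.unusedVariables false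
set_option linter.unusedSimpArgs false
set_option linter.style.haveILetI false
set_option linter.deprecated false
set_option synthInstance.maxHeartbeats 200000

noncomputable section

namespace FLTAgent.LT

open NumberField IsDedekindDomain MeasureTheory Filter
open scoped ENNReal Topology

instance isOpenPosMeasure_hypMeasure : Measure.IsOpenPosMeasure hypMeasure := by
  haveI : Measure.IsOpenPosMeasure ((volume : Measure (ℂ × ℝ)).comap Hyp.emb) := by
    refine ⟨fun U hU hne => ?_⟩
    rw [Hyp.measurableEmbedding_emb.comap_apply]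
    have ho : IsOpenMap Hyp.emb :=
      (IsOpenMap.id.prodMap (isOpen_Ioi (a := (0 : ℝ))).isOpenMap_subtype_val)
    exact (ho U hU).measure_ne_zero _ (hne.image _)
  refine Measure.AbsolutelyContinuous.isOpenPosMeasure
    (μ := (volume : Measure (ℂ × ℝ)).comap Hyp.emb) ?_
  rw [Hyp.hypMeasure_eq]
  refine withDensity_absolutelyContinuous' (by fun_prop) (Eventually.of_forall fun p => ?_)
  exact (ENNReal.ofReal_pos.2 (inv_pos.2 (pow_pos p.2.2 3))).ne'

/-! ### The value of a convolution -/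

/-- A kernel of one place as a function of `cosh` of the distance. -/
theorem Rad1.exists_coshFun {H : ℝ → ℝ} (hH : Rad1 H) :
    ∃ Hc : ℝ → ℂ, Continuous Hc ∧ HasCompactSupport Hc ∧
      (∀ p q, Hc (coshDist p q) = ((H (hdist p q) : ℝ) : ℂ)) ∧
      (∫ r in Set.Ioi (0 : ℝ), Hc (Real.cosh r) * ((4 * Real.pi * r * Real.sinh r : ℝ) : ℂ)) =
        ((lam0 H : ℝ) : ℂ) := by
  set Hc : ℝ → ℂ := fun ρ => ((max 0 (min 1 ρ) * H (Real.arcosh (max 1 ρ)) : ℝ) : ℂ) with hHc
  have hval : ∀ ρ, 1 ≤ ρ → Hc ρ = ((H (Real.arcosh ρ) : ℝ) : ℂ) := fun ρ hρ => by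
    simp [Hc, min_eq_left hρ, max_eq_right hρ]
  refine ⟨Hc, ?_, ?_, fun p q => hval _ (Hyp.one_le_coshDist p q), ?_⟩
  · exact Complex.continuous_ofReal.comp
      (((continuous_const.max (continuous_const.min continuous_id))).mul
        (hH.continuous.comp (Real.continuousOn_arcosh.comp_continuous
          (continuous_const.max continuous_id) fun ρ => Set.mem_Ici.2 (le_max_left _ _))))
  · obtain ⟨R, hR0, hR⟩ := hH.exists_radius
    refine HasCompactSupport.intro (K := Set.Icc 0 (Real.cosh R)) isCompact_Icc fun ρ hρ => ?_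
    rcases lt_or_ge ρ 0 with h0 | h0
    · simp [Hc, min_eq_right (h0.le.trans zero_le_one), max_eq_left h0.le]
    · have h1 : Real.cosh R < ρ := not_le.1 fun h => hρ ⟨h0, h⟩
      have h2 : 1 ≤ ρ := (Real.one_le_cosh R).trans h1.le
      have h3 : R < |Real.arcosh ρ| := by
        rw [← abs_of_pos hR0]
        exact Real.cosh_lt_cosh.1 (by rwa [Real.cosh_arcosh h2])
      simp [Hc, max_eq_right h2, hR _ h3]
  · rw [lam0, ← integral_complex_ofReal]
    refine setIntegral_congr_fun measurableSet_Ioi fun r hr => ?_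
    show Hc (Real.cosh r) * _ = _
    rw [hval _ (Real.one_le_cosh r), Real.arcosh_cosh (le_of_lt hr)]
    push_cast
    ring

theorem continuous_wTerm_left (ξ : ℂ) (hξ : ξ ≠ 0) : Continuous fun p => ThetaM.wTerm p ξ := by
  have h1 : Continuous fun p : H3 => ((p.2 : ℝ)) := continuous_subtype_val.comp continuous_snd
  have h2 : Continuous fun p : H3 => ThetaM.bK ((p.2 : ℝ) * ‖ξ‖) :=
    ThetaM.continuousOn_bK.comp_continuous (h1.mul continuous_const)
      fun p => mul_pos p.2.2 (norm_pos_iff.2 hξ)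
  unfold ThetaM.wTerm
  exact (Complex.continuous_ofReal.comp (h1.mul h2)).mul (by fun_prop)

/-- **The value at parameter zero is multiplicative.** -/
theorem lam0_conv1 {H G : ℝ → ℝ} (hH : Rad1 H) (hG : Rad1 G) :
    lam0 (conv1 H G) = lam0 H * lam0 G := by
  have key : ∀ {K : ℝ → ℝ}, Rad1 K → ∀ p, ∫ z, ((K (hdist p z) : ℝ) : ℂ) * ThetaM.wTerm z 1
      ∂hypMeasure = ((lam0 K : ℝ) : ℂ) * ThetaM.wTerm p 1 := by
    intro K hK p
    obtain ⟨Kc, hc, hs, hval, hlam⟩ := hK.exists_coshFun
    rw [← hlam, ← ThetaM.mean_value Kc hc hs p one_ne_zero]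
    simp only [hval]
  have hw : ThetaM.wTerm Hyp.org 1 ≠ 0 := by
    rw [← norm_pos_iff, ThetaM.norm_wTerm]
    simpa [Hyp.org] using ThetaM.bK_pos one_pos
  obtain ⟨A, hA0, hA⟩ := hH.exists_radius
  obtain ⟨B, hB0, hB⟩ := hG.exists_radius
  set Z : H3 × H3 → ℂ := fun x =>
    ((H (hdist Hyp.org x.1) : ℝ) : ℂ) * (((G (hdist x.1 x.2) : ℝ) : ℂ) * ThetaM.wTerm x.2 1)
  have hZ : Integrable Z (hypMeasure.prod hypMeasure) := by
    refine Continuous.integrable_of_hasCompactSupport ?_ ?_
    · exact (Complex.continuous_ofReal.comp (hH.continuous.comp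
        ((continuous_hdist_left _).comp continuous_fst))).mul ((Complex.continuous_ofReal.comp
          (hG.continuous.comp continuous_hdist_pair)).mul
            ((continuous_wTerm_left 1 one_ne_zero).comp continuous_snd))
    · refine HasCompactSupport.intro ((RS.isCompact_coshBall Hyp.org (Real.cosh A)).prod
        (RS.isCompact_coshBall Hyp.org (Real.cosh (A + B)))) fun x hx => ?_
      by_contra hne
      obtain ⟨h1, h2⟩ := mul_ne_zero_iff.1 hne
      have a : hdist Hyp.org x.1 ≤ A := (le_abs_self _).trans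
        (not_lt.1 fun h => h1 (by simp [hA _ h]))
      have b : hdist x.1 x.2 ≤ B := (le_abs_self _).trans
        (not_lt.1 fun h => left_ne_zero_of_mul h2 (by simp [hB _ h]))
      have hle : ∀ {p q : H3} {d : ℝ}, hdist p q ≤ d → coshDist p q ≤ Real.cosh d :=
        fun {p q d} h => by
          rw [← cosh_hdist, Real.cosh_le_cosh, abs_of_nonneg (hdist_nonneg p q)]
          exact h.trans (le_abs_self _)
      exact hx ⟨hle a, hle ((hdist_triangle _ _ _).trans (add_le_add a b))⟩
  have e : ((lam0 (conv1 H G) : ℝ) : ℂ) * ThetaM.wTerm Hyp.org 1 =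
      ((lam0 H * lam0 G : ℝ) : ℂ) * ThetaM.wTerm Hyp.org 1 := by
    rw [← key (hH.conv1 hG)]
    calc ∫ z, ((conv1 H G (hdist Hyp.org z) : ℝ) : ℂ) * ThetaM.wTerm z 1 ∂hypMeasure
        = ∫ z, ∫ y, Z (y, z) ∂hypMeasure ∂hypMeasure := by
          refine integral_congr_ae (Eventually.of_forall fun z => ?_)
          simp only [Z, ← conv1_eq, ← integral_complex_ofReal, ← integral_mul_const]
          exact integral_congr_ae (Eventually.of_forall fun y => by push_cast; ring)
      _ = ∫ y, ∫ z, Z (y, z) ∂hypMeasure ∂hypMeasure := (integral_integral_swap (f := fun y z => Z (y, z)) hZ).symm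
      _ = _ := by
          simp only [Z, integral_const_mul, key hG, mul_left_comm _ ((lam0 G : ℝ) : ℂ),
            key hH]
          push_cast
          ring
  exact_mod_cast mul_right_cancel₀ hw e

/-! ### Functions on points and forms -/

variable {F : Type*} [Field F] [NumberField F] {N : ℕ} {Φ : Form F}

theorem Automorphic.mul_UZ (ha : Automorphic N Φ) (x : Xinf F) (g : GF F) {u : GF F}
    (hu : u ∈ UZ F N) : Φ x (g * u) = Φ x g := by
  obtain ⟨k, hk, c, rfl⟩ := Red.mem_UZ.1 hu
  rw [← mul_assoc, ha.central, ha.right_inv k hk]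

variable (N) in
/-- A form as a function on points. -/
def ptFun (Φ : Form F) (q : Pt F N) : ℂ := Φ q.1 q.2.out

theorem ptFun_mk (hr : ∀ x, Aleph.RightInv N (Φ x)) (x : Xinf F) (g : GF F) :
    ptFun N Φ (x, (g : Cos F N)) = Φ x g := by
  have hu : g⁻¹ * (g : Cos F N).out ∈ UZ F N := QuotientGroup.eq.1 (QuotientGroup.out_eq' _).symm
  rw [ptFun, ← hr x g _ hu, mul_inv_cancel_left]

theorem formOf_ptFun (hr : ∀ x, Aleph.RightInv N (Φ x)) : Aleph.formOf (ptFun N Φ) = Φ :=
  funext fun x => funext fun g => ptFun_mk hr x g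

theorem ptFun_smul (hl : ∀ γ x g, Φ (actInf γ x) (toFin γ * g) = Φ x g)
    (hr : ∀ x, Aleph.RightInv N (Φ x)) (γ : PG F) (q : Pt F N) :
    ptFun N Φ (γ • q) = ptFun N Φ q := by
  obtain ⟨γ, rfl⟩ := QuotientGroup.mk_surjective γ
  obtain ⟨u, hu, e⟩ := toFin_smul_out γ q.2
  rw [mk_smul]
  show Φ (actInf γ q.1) (toFin γ • q.2).out = _
  rw [e, hr _ _ u hu, hl]
  rfl

section points

variable [Countable (Cos F N)]

theorem measurable_ptFun (h : ∀ g, Measurable fun x => Φ x g) : Measurable (ptFun N Φ) :=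
  measurable_from_prod_countable_left fun c => h c.out

end points

variable (N) in
/-- The test of a product of radial kernels. -/
abbrev radTest (h : InfinitePlace F → ℝ → ℝ) : Test F := ⟨Aleph.wordFin N [], radFun h⟩

theorem radTest_ok {h : InfinitePlace F → ℝ → ℝ} (hh : ∀ w, Rad1 (h w)) : (radTest N h).Ok N :=
  Aleph.wordFin_ok (fun v hv => absurd hv List.not_mem_nil) _ (lipschitz_radFun hh)
    (hasCompactSupport_radFun hh)

theorem kTerm_wordNil (K : (InfinitePlace F → ℝ) → ℂ) (p q : Pt F N) :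
    kTerm (⟨Aleph.wordFin N [], K⟩ : Test F) p q =
      Set.indicator {r : Pt F N | r.2 = p.2} (fun r => K fun w => hdist (p.1 w) (r.1 w)) q := by
  have hiff : p.2.out⁻¹ * q.2.out ∈ UZ F N ↔ q.2 = p.2 := by
    rw [← QuotientGroup.eq, QuotientGroup.out_eq', QuotientGroup.out_eq', eq_comm]
  show (UZ F N : Set (GF F)).indicator 1 _ * _ = _
  by_cases h : q.2 = p.2
  · rw [Set.indicator_of_mem (s := {r : Pt F N | r.2 = p.2}) h,
      Set.indicator_of_mem (SetLike.mem_coe.2 (hiff.2 h)), Pi.one_apply, one_mul]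
  · rw [Set.indicator_of_notMem (s := {r : Pt F N | r.2 = p.2}) h,
      Set.indicator_of_notMem (fun h' => h (hiff.1 (SetLike.mem_coe.1 h'))), zero_mul]

/-- The points at distance at most `R` at every place. -/
def distBox (x : Xinf F) (R : ℝ) : Set (Xinf F) := {y | ∀ w, hdist (x w) (y w) ≤ R}

section slices

variable [Countable (Cos F N)]

theorem measurableEmbedding_slice (c : Cos F N) :
    MeasurableEmbedding fun y : Xinf F => ((y, c) : Pt F N) :=
  measurableEmbedding_prod_mk_right c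

theorem restrict_slice (c : Cos F N) :
    (ptMeasure F N).restrict {r : Pt F N | r.2 = c} =
      (Aleph.infMeasure F).map fun y => ((y, c) : Pt F N) := by
  rw [show {r : Pt F N | r.2 = c} = Set.univ ×ˢ {c} by ext r; simp, ptMeasure,
    ← Measure.prod_restrict, Measure.restrict_univ, Measure.restrict_singleton,
    Measure.count_singleton, one_smul, Measure.prod_dirac]

theorem measurableSet_slice (c : Cos F N) : MeasurableSet {r : Pt F N | r.2 = c} :=
  measurable_snd (measurableSet_singleton c)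

theorem integral_kTerm_wordNil (K : (InfinitePlace F → ℝ) → ℂ) (u : Pt F N → ℂ) (p : Pt F N) :
    ∫ r, kTerm (⟨Aleph.wordFin N [], K⟩ : Test F) p r * u r ∂ptMeasure F N =
      ∫ y, K (fun w => hdist (p.1 w) (y w)) * u (y, p.2) ∂Aleph.infMeasure F := by
  simp only [kTerm_wordNil, ← Set.indicator_mul_left]
  rw [integral_indicator (measurableSet_slice p.2), restrict_slice,
    (measurableEmbedding_slice p.2).integral_map]

theorem lintegral_kTerm_wordNil (K : (InfinitePlace F → ℝ) → ℂ) (u : Pt F N → ℂ) (p : Pt F N) :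
    ∫⁻ r, ‖kTerm (⟨Aleph.wordFin N [], K⟩ : Test F) p r * u r‖ₑ ∂ptMeasure F N =
      ∫⁻ y, ‖K (fun w => hdist (p.1 w) (y w)) * u (y, p.2)‖ₑ ∂Aleph.infMeasure F := by
  simp only [kTerm_wordNil, ← Set.indicator_mul_left, enorm_indicator_eq_indicator_enorm]
  rw [lintegral_indicator (measurableSet_slice p.2), restrict_slice,
    (measurableEmbedding_slice p.2).lintegral_map]

omit [Countable (Cos F N)] in
theorem measurableSet_distBox (x : Xinf F) (R : ℝ) : MeasurableSet (distBox x R) := by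
  rw [show distBox x R = ⋂ w, (fun y : Xinf F => y w) ⁻¹' {q : H3 | hdist (x w) q ≤ R} by
    ext y; simp [distBox]]
  exact MeasurableSet.iInter fun w => measurable_pi_apply w
    (measurableSet_le (continuous_hdist_left (x w)).measurable measurable_const)

variable {w : Pt F N → ℝ≥0∞}

/-- Integrable invariant functions are locally integrable at infinity. -/
theorem locForm_of_integrable (hw : IsPtWeight w) {v : Pt F N → ℂ} (hv : Measurable v)
    (hinv : ∀ (γ : PG F) p, v (γ • p) = v p) (hi : ∫⁻ p, ‖v p‖ₑ ∂quotMeasure w ≠ ⊤) :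
    Aleph.LocForm (Aleph.formOf v) := by
  classical
  refine ⟨fun g => hv.comp (measurable_id.prodMk measurable_const), fun g => ?_⟩
  haveI : LocallyCompactSpace (Set.Ioi (0 : ℝ)) := isOpen_Ioi.locallyCompactSpace
  refine locallyIntegrable_iff.2 fun A hA => ?_
  set c : Cos F N := (g : Cos F N)
  set q₀ : Pt F N := (basePoint, c)
  obtain ⟨R, hR⟩ : ∃ R, ∀ y ∈ A, ∀ w, hdist (basePoint w) (y w) ≤ R := by
    have hd : Continuous fun y : Xinf F => fun w => hdist (basePoint w) (y w) :=
      continuous_pi fun w => (continuous_hdist_left _).comp (continuous_apply w)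
    obtain ⟨R, hR⟩ := (hA.image hd).isBounded.exists_norm_le
    exact ⟨R, fun y hy w => (le_abs_self _).trans
      ((norm_le_pi_norm (fun w => hdist (basePoint w) (y w)) w).trans (hR _ ⟨y, hy, rfl⟩))⟩
  set S : Set (Pt F N) := {r | r.2 = c ∧ ∀ w, hdist (basePoint w) (r.1 w) ≤ R}
  have hS : MeasurableSet S := by
    have e : S = {r : Pt F N | r.2 = c} ∩ Prod.fst ⁻¹' distBox basePoint R :=
      Set.ext fun r => ⟨fun h => ⟨h.1, h.2⟩, fun h => ⟨h.1, h.2⟩⟩
    rw [e]
    exact (measurableSet_slice c).inter (measurable_fst (measurableSet_distBox basePoint R))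
  have hok := radTest_ok (N := N) (F := F) (h := fun _ => cutRad (2 * R)) fun _ => rad1_cutRad _
  set Γ := (finite_kTerm hok q₀ q₀).toFinset
  have hmult : ∀ q, ∑' γ : PG F, S.indicator (fun r => ‖v r‖ₑ) (γ • q) ≤ Γ.card * ‖v q‖ₑ := by
    intro q
    by_cases h : ∀ γ : PG F, γ • q ∉ S
    · simp [Set.indicator_of_notMem (h _)]
    push Not at h
    obtain ⟨γ₀, hγ₀⟩ := h
    have hmem : ∀ γ : PG F, γ • q ∈ S → γ * γ₀⁻¹ ∈ Γ := by
      intro γ hγ
      refine (finite_kTerm hok q₀ q₀).mem_toFinset.2 ?_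
      obtain ⟨δ, hδ⟩ : ∃ δ, δ = γ * γ₀⁻¹ := ⟨_, rfl⟩
      rw [← hδ]
      have hq : δ • (γ₀ • q) = γ • q := by rw [hδ, ← mul_smul, inv_mul_cancel_right]
      have h2 : (δ • q₀).2 = q₀.2 := by
        rw [smul_cos_eq, show q₀.2 = (γ₀ • q).2 from hγ₀.1.symm, ← smul_cos_eq, hq]
        exact hγ.1.trans hγ₀.1.symm
      show kTerm _ q₀ (δ • q₀) ≠ 0
      rw [kTerm_wordNil, Set.indicator_of_mem (s := {r : Pt F N | r.2 = q₀.2}) h2]
      refine Finset.prod_ne_zero_iff.2 fun w _ => Complex.ofReal_ne_zero.2 ?_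
      show cutRad (2 * R) (hdist (basePoint w) ((δ • q₀).1 w)) ≠ 0
      rw [cutRad_eq_one]
      · exact one_ne_zero
      rw [abs_of_nonneg (hdist_nonneg _ _), two_mul]
      refine (hdist_triangle _ ((δ • (γ₀ • q)).1 w) _).trans (add_le_add ?_ ?_)
      · rw [hq]; exact hγ.2 w
      · show hdist (act _ _) (act _ _) ≤ R
        rw [hdist_act, hdist_comm]
        exact hγ₀.2 w
    rw [tsum_eq_sum (s := Γ.image (· * γ₀)) fun γ hγ => Set.indicator_of_notMem (fun h' =>
      hγ (Finset.mem_image.2 ⟨_, hmem γ h', inv_mul_cancel_right _ _⟩)) _]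
    refine (Finset.sum_le_card_nsmul _ _ ‖v q‖ₑ fun γ _ => ?_).trans ?_
    · exact (Set.indicator_le_self _ _ _).trans_eq (by rw [hinv])
    · rw [nsmul_eq_mul]
      exact mul_le_mul' (Nat.cast_le.2 Finset.card_image_le) le_rfl
  have hfin : ∫⁻ r, S.indicator (fun r => ‖v r‖ₑ) r ∂ptMeasure F N ≠ ⊤ := by
    rw [← lintegral_unfold hw (hv.enorm.indicator hS)]
    refine ne_top_of_le_ne_top ?_ (lintegral_mono hmult)
    rw [lintegral_const_mul _ hv.enorm]
    exact ENNReal.mul_ne_top (ENNReal.natCast_ne_top _) hi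
  refine ⟨(hv.comp (measurable_id.prodMk measurable_const)).aestronglyMeasurable, ?_⟩
  rw [hasFiniteIntegral_iff_enorm]
  refine lt_of_le_of_lt ?_ hfin.lt_top
  rw [← lintegral_indicator hA.measurableSet]
  have e : (S.indicator fun r => ‖v r‖ₑ) =
      {r : Pt F N | r.2 = c}.indicator (S.indicator fun r => ‖v r‖ₑ) := by
    rw [Set.indicator_indicator, Set.inter_eq_right.2 fun r hr => hr.1]
  rw [e, lintegral_indicator (measurableSet_slice c), restrict_slice,
    (measurableEmbedding_slice c).lintegral_map]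
  refine lintegral_mono fun y => ?_
  by_cases hy : y ∈ A
  · rw [Set.indicator_of_mem hy,
      Set.indicator_of_mem (show ((y, c) : Pt F N) ∈ S from ⟨rfl, hR y hy⟩)]
    rfl
  · rw [Set.indicator_of_notMem hy]; exact zero_le

end slices

/-- Convolutions of locally integrable forms are continuous. -/
theorem continuous_conv (hl : Aleph.LocForm Φ) {K : (InfinitePlace F → ℝ) → ℂ}
    (hKc : Continuous K) (hKs : HasCompactSupport K) (g : GF F) :
    Continuous fun x => Aleph.conv K Φ x g := by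
  refine continuous_iff_continuousAt.2 fun x₀ => ?_
  obtain ⟨R, hR⟩ := hKs.isCompact.isBounded.subset_closedBall 0
  obtain ⟨M, hM⟩ := hKc.bounded_above_of_compact_support hKs
  obtain ⟨W, hW, hWy⟩ := Aleph.exists_compact_dist x₀ (R + 1)
  have hd : ∀ y : Xinf F, Continuous fun x : Xinf F => fun w => hdist (x w) (y w) := fun y =>
    continuous_pi fun w => (continuous_hdist_right _).comp (continuous_apply w)
  have hnh : ∀ᶠ x in 𝓝 x₀, ∀ w, hdist (x₀ w) (x w) < 1 := eventually_all.2 fun w =>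
    (((continuous_hdist_left (x₀ w)).comp (continuous_apply w)).tendsto x₀).eventually
      (gt_mem_nhds (by
        show hdist (x₀ w) (x₀ w) < 1
        simp [hdist, coshDist]))
  refine continuousAt_of_dominated
    (bound := W.indicator fun y => M * ‖Φ y g‖) (Eventually.of_forall fun x =>
      ((hKc.comp (continuous_pi fun w => (continuous_hdist_left _).comp
        (continuous_apply w))).measurable.mul (hl.meas g)).aestronglyMeasurable) ?_ ?_
    (Eventually.of_forall fun y => ((hKc.comp (hd y)).continuousAt.mul continuousAt_const))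
  · filter_upwards [hnh] with x hx
    refine Eventually.of_forall fun y => ?_
    by_cases hy : y ∈ W
    · rw [Set.indicator_of_mem hy, norm_mul]
      exact mul_le_mul_of_nonneg_right (hM _) (norm_nonneg _)
    · rw [Set.indicator_of_notMem hy]
      by_contra hne
      refine hy (hWy y fun w => ?_)
      have h0 : K (fun w => hdist (x w) (y w)) ≠ 0 := fun h => hne (by simp [h])
      have h1 := hR (subset_tsupport _ h0)
      rw [Metric.mem_closedBall, dist_zero_right] at h1
      have h2 := (le_abs_self _).trans ((norm_le_pi_norm (fun w => hdist (x w) (y w)) w).trans h1)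
      linarith [hdist_triangle (x₀ w) (x w) (y w), hx w]
  · exact (integrable_indicator_iff hW.measurableSet).2
      ((((hl.locInt g).integrableOn_isCompact hW).norm).const_mul M)

theorem continuous_hecke {v : HeightOneSpectrum (𝓞 F)} (hc : ∀ g, Continuous fun x => Φ x g)
    (g : GF F) : Continuous fun x => hecke v Φ x g := by
  simp only [Aleph.hecke_eq_hOp, Aleph.hOp]
  exact continuous_finsetSum _ fun r _ => hc _

/-- The one place equations follow from the equations for products. -/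
theorem zeroEigen_of_conv (hc : ∀ g, Continuous fun x => Φ x g)
    (hb : ∀ g, ∃ C : ℝ, ∀ x, ‖Φ x g‖ ≤ C)
    (hrad : ∀ h : InfinitePlace F → ℝ → ℝ, (∀ w, Rad1 (h w)) → ∀ x g,
      Aleph.conv (radFun h) Φ x g = (∏ w, ((lam0 (h w) : ℝ) : ℂ)) * Φ x g) :
    ZeroEigen Φ := by
  classical
  refine zeroEigen_of_rad1 hc hb fun H hH w x g => ?_
  obtain ⟨b, hb1, -, -, hbpos⟩ := exists_bump one_pos
  set h₀ : InfinitePlace F → ℝ → ℝ := fun _ => b
  have hh₀ : ∀ w, Rad1 (h₀ w) := fun _ => hb1
  set cst : ℂ := ∏ _w : InfinitePlace F, ((lam0 b : ℝ) : ℂ)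
  have hcst : cst ≠ 0 := Finset.prod_ne_zero_iff.2 fun _ _ =>
    Complex.ofReal_ne_zero.2 hbpos.ne'
  obtain ⟨A, hA0, hA⟩ := hH.exists_radius
  obtain ⟨B, hB0, hB⟩ := hb1.exists_radius
  obtain ⟨C, hC⟩ := hb g
  have hC0 : 0 ≤ C := (norm_nonneg _).trans (hC x)
  obtain ⟨Mb, hMb0, hMb⟩ := hb1.exists_bound
  set h₁ : InfinitePlace F → ℝ → ℝ := Function.update h₀ w (cutRad (A + B))
  have hh₁ : ∀ v, Rad1 (h₁ v) := fun v => by
    rcases eq_or_ne v w with rfl | hv
    · simp [h₁, rad1_cutRad]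
    · simp [h₁, hv, h₀, hb1]
  set h₂ : InfinitePlace F → ℝ → ℝ := Function.update h₀ w (conv1 H b)
  have hh₂ : ∀ v, Rad1 (h₂ v) := fun v => by
    rcases eq_or_ne v w with rfl | hv
    · simp [h₂, hH.conv1 hb1]
    · simp [h₂, hv, h₀, hb1]
  set Pe : Xinf F → ℂ := fun y =>
    ∏ v ∈ Finset.univ.erase w, ((b (hdist (x v) (y v)) : ℝ) : ℂ)
  have hsplit : ∀ (h : InfinitePlace F → ℝ → ℝ), (∀ v ≠ w, h v = b) → ∀ y : Xinf F,
      radFun h (fun v => hdist (x v) (y v)) = ((h w (hdist (x w) (y w)) : ℝ) : ℂ) * Pe y := by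
    intro h hh y
    rw [radFun, ← Finset.mul_prod_erase Finset.univ _ (Finset.mem_univ w)]
    congr 1
    exact Finset.prod_congr rfl fun v hv => by rw [hh v (Finset.ne_of_mem_erase hv)]
  set Z : H3 × Xinf F → ℂ := fun z => ((H (hdist (x w) z.1) : ℝ) : ℂ) *
    (((b (hdist z.1 (z.2 w)) : ℝ) : ℂ) * (Pe z.2 * Φ z.2 g))
  have hPec : Continuous Pe := continuous_finsetProd _ fun v _ => Complex.continuous_ofReal.comp
    (hb1.continuous.comp ((continuous_hdist_left _).comp (continuous_apply v)))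
  have hZ : Integrable Z (hypMeasure.prod (Aleph.infMeasure F)) := by
    refine ((((hH.integrable_hdist (x w)).abs).mul_prod
      ((integrable_radFun_hdist hh₁ x).norm)).const_mul (Mb * C)).mono' ?_
      (Eventually.of_forall fun z => ?_)
    · exact ((Complex.continuous_ofReal.comp (hH.continuous.comp
        ((continuous_hdist_left _).comp continuous_fst))).mul ((Complex.continuous_ofReal.comp
          (hb1.continuous.comp (continuous_hdist_pair.comp
            (continuous_fst.prodMk ((continuous_apply w).comp continuous_snd))))).mul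
              ((hPec.comp continuous_snd).mul ((hc g).comp continuous_snd)))).aestronglyMeasurable
    · by_cases hz : H (hdist (x w) z.1) = 0 ∨ b (hdist z.1 (z.2 w)) = 0
      · rcases hz with hz | hz <;> simp [Z, hz] <;> positivity
      · push Not at hz
        have a : hdist (x w) z.1 ≤ A := (le_abs_self _).trans (not_lt.1 fun h => hz.1 (hA _ h))
        have b' : hdist z.1 (z.2 w) ≤ B := (le_abs_self _).trans (not_lt.1 fun h => hz.2 (hB _ h))
        have hcut : cutRad (A + B) (hdist (x w) (z.2 w)) = 1 := cutRad_eq_one (by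
          rw [abs_of_nonneg (hdist_nonneg _ _)]
          exact (hdist_triangle _ _ _).trans (add_le_add a b'))
        rw [hsplit h₁ (fun v hv => by simp [h₁, hv, h₀]) z.2]
        simp only [Z, h₁, Function.update_self, hcut, Complex.ofReal_one, one_mul, norm_mul,
          Complex.norm_real, Real.norm_eq_abs]
        have h1 : |b (hdist z.1 (z.2 w))| * (‖Pe z.2‖ * ‖Φ z.2 g‖) ≤ Mb * (‖Pe z.2‖ * C) :=
          mul_le_mul (hMb _) (mul_le_mul_of_nonneg_left (hC _) (norm_nonneg _))
            (by positivity) hMb0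
        calc _ ≤ |H (hdist (x w) z.1)| * (Mb * (‖Pe z.2‖ * C)) :=
              mul_le_mul_of_nonneg_left h1 (abs_nonneg _)
          _ = _ := by ring
  have e1 : ∀ q, ((H (hdist (x w) q) : ℝ) : ℂ) * Φ (Function.update x w q) g =
      cst⁻¹ * ∫ y, Z (q, y) ∂Aleph.infMeasure F := fun q => by
    have h := hrad h₀ hh₀ (Function.update x w q) g
    rw [show Φ (Function.update x w q) g =
      cst⁻¹ * Aleph.conv (radFun h₀) Φ (Function.update x w q) g by
        rw [h, ← mul_assoc, inv_mul_cancel₀ hcst, one_mul], mul_left_comm, Aleph.conv,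
      ← integral_const_mul]
    congr 1
    refine integral_congr_ae (Eventually.of_forall fun y => ?_)
    simp only [Z]
    rw [radFun, ← Finset.mul_prod_erase Finset.univ _ (Finset.mem_univ w), Function.update_self,
      mul_assoc]
    congr 3
    exact Finset.prod_congr rfl fun v hv => by
      rw [Function.update_of_ne (Finset.ne_of_mem_erase hv)]
  simp only [e1]
  rw [integral_const_mul, integral_integral_swap (f := fun q y => Z (q, y)) hZ]
  have e2 : ∫ y, ∫ q, Z (q, y) ∂hypMeasure ∂Aleph.infMeasure F = Aleph.conv (radFun h₂) Φ x g := by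
    refine integral_congr_ae (Eventually.of_forall fun y => ?_)
    simp only [Z, ← mul_assoc, ← Complex.ofReal_mul]
    rw [integral_mul_const, integral_mul_const, integral_complex_ofReal, conv1_eq,
      hsplit h₂ (fun v hv => by simp [h₂, hv, h₀]) y]
    simp [h₂]
  rw [e2, hrad h₂ hh₂, ← Finset.mul_prod_erase Finset.univ _ (Finset.mem_univ w)]
  rw [show ∏ v ∈ Finset.univ.erase w, ((lam0 (h₂ v) : ℝ) : ℂ) =
    ∏ v ∈ Finset.univ.erase w, ((lam0 b : ℝ) : ℂ) from Finset.prod_congr rfl fun v hv => by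
      simp [h₂, Finset.ne_of_mem_erase hv, h₀]]
  have hcw : cst = ((lam0 b : ℝ) : ℂ) * ∏ v ∈ Finset.univ.erase w, ((lam0 b : ℝ) : ℂ) :=
    (Finset.mul_prod_erase Finset.univ (fun _ => ((lam0 b : ℝ) : ℂ)) (Finset.mem_univ w)).symm
  simp only [h₂, Function.update_self, lam0_conv1 hH hb1, Complex.ofReal_mul]
  field_simp
  rw [hcw]
  ring

section operators

variable [Countable (Cos F N)] {w : Pt F N → ℝ≥0∞} (hN : 0 < N) (hw : IsPtWeight w)

include hw

theorem measurable_intOp {t : Test F} (ht : t.Ok N) {v : Pt F N → ℂ} (hv : Measurable v) :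
    Measurable (intOp (quotMeasure w) (kern t) v) := by
  haveI := sFinite_quotMeasure hw
  exact (((measurable_kern ht).mul (hv.comp measurable_snd)).stronglyMeasurable.integral_prod_right'
    (ν := quotMeasure w)).measurable

omit hw in
theorem intOp_smul {t : Test F} (ht : t.Ok N) (v : Pt F N → ℂ) (γ : PG F) (p : Pt F N) :
    intOp (quotMeasure w) (kern t) v (γ • p) = intOp (quotMeasure w) (kern t) v p := by
  simp only [intOp, kern_smul_left ht]

/-- A radial test on an invariant locally integrable function is the convolution. -/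
theorem intOp_radTest {h : InfinitePlace F → ℝ → ℝ} (hh : ∀ w, Rad1 (h w)) {v : Pt F N → ℂ}
    (hv : Measurable v) (hinv : ∀ (γ : PG F) p, v (γ • p) = v p)
    (hl : Aleph.LocForm (Aleph.formOf v)) (p : Pt F N) :
    intOp (quotMeasure w) (kern (radTest N h)) v p =
      Aleph.conv (radFun h) (Aleph.formOf v) p.1 p.2.out := by
  haveI : LocallyCompactSpace (Set.Ioi (0 : ℝ)) := isOpen_Ioi.locallyCompactSpace
  have e : ∀ y, Aleph.formOf v y p.2.out = v (y, p.2) := fun y => by
    rw [Aleph.formOf, QuotientGroup.out_eq']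
  have hi := hl.integrable_conv (continuous_radFun hh) (hasCompactSupport_radFun hh) p.1 p.2.out
  simp only [e] at hi
  rw [intOp_kern_eq hw (radTest_ok hh) hv hinv p, integral_kTerm_wordNil, Aleph.conv]
  · simp only [e]
  · rw [lintegral_kTerm_wordNil]
    exact hi.2.ne

/-- Invariant functions equal almost everywhere on the quotient are so on the points. -/
theorem ae_pt_of_ae_quot {f g : Pt F N → ℂ} (hf : Measurable f) (hg : Measurable g)
    (hfi : ∀ (γ : PG F) p, f (γ • p) = f p) (hgi : ∀ (γ : PG F) p, g (γ • p) = g p)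
    (h : f =ᵐ[quotMeasure w] g) : f =ᵐ[ptMeasure F N] g := by
  set S : Set (Pt F N) := {p | f p ≠ g p}
  have hS : MeasurableSet S := (measurableSet_eq_fun hf hg).compl
  have h0 := lintegral_unfold hw (g := S.indicator fun _ => (1 : ℝ≥0∞))
    (measurable_const.indicator hS)
  rw [lintegral_congr_ae (g := fun _ => (0 : ℝ≥0∞)) ?_, lintegral_zero,
    lintegral_indicator_const hS, one_mul] at h0
  · exact h0.symm
  · filter_upwards [h] with p hp
    refine ENNReal.tsum_eq_zero.2 fun γ => Set.indicator_of_notMem ?_ _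
    simp [S, hfi, hgi, hp]

/-- Continuous invariant functions equal almost everywhere are equal. -/
theorem eq_of_ae_quot {f g : Pt F N → ℂ} (hf : Measurable f) (hg : Measurable g)
    (hfi : ∀ (γ : PG F) p, f (γ • p) = f p) (hgi : ∀ (γ : PG F) p, g (γ • p) = g p)
    (hfc : ∀ c, Continuous fun y => f (y, c)) (hgc : ∀ c, Continuous fun y => g (y, c))
    (h : f =ᵐ[quotMeasure w] g) (p : Pt F N) : f p = g p := by
  have h1 := Measure.ae_ae_of_ae_prod (ae_pt_of_ae_quot hw hf hg hfi hgi h)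
  have h2 : (fun y => f (y, p.2)) =ᵐ[Aleph.infMeasure F] fun y => g (y, p.2) := by
    filter_upwards [h1] with y hy
    by_contra hne
    rw [ae_iff, Measure.count_eq_zero_iff] at hy
    exact (Set.eq_empty_iff_forall_notMem.1 hy p.2) hne
  exact congrFun (Measure.eq_of_ae_eq h2 (hfc p.2) (hgc p.2)) p.1

include hN

theorem lintegral_Lp_lt_top [IsTotallyComplex F] (u : Lp ℂ 2 (quotMeasure w)) :
    ∫⁻ p, ‖u p‖ₑ ∂quotMeasure w ≠ ⊤ := by
  haveI : IsFiniteMeasure (quotMeasure w) := ⟨Ht.quotMeasure_univ_lt_top hN hw⟩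
  exact ((Lp.memLp u).integrable one_le_two).2.ne

/-- The representative of a joint eigenvector which is continuous at infinity. -/
theorem exists_rep [IsTotallyComplex F] (u : Lp ℂ 2 (quotMeasure w))
    (hu : ∀ (h : InfinitePlace F → ℝ → ℝ) (hh : ∀ w, Rad1 (h w)),
      kernCLM hN hw (radTest_ok (N := N) hh) u = (∏ v, ((lam0 (h v) : ℝ) : ℂ)) • u) :
    ∃ ψ : Pt F N → ℂ, Measurable ψ ∧ (∀ (γ : PG F) p, ψ (γ • p) = ψ p) ∧
      (∀ g, Continuous fun x => Aleph.formOf ψ x g) ∧ ψ =ᵐ[quotMeasure w] u ∧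
      Aleph.LocForm (Aleph.formOf ψ) ∧
      ∀ (h : InfinitePlace F → ℝ → ℝ), (∀ w, Rad1 (h w)) → ∀ x g,
        Aleph.conv (radFun h) (Aleph.formOf ψ) x g =
          (∏ v, ((lam0 (h v) : ℝ) : ℂ)) * Aleph.formOf ψ x g := by
  haveI := sFinite_quotMeasure hw
  haveI : LocallyCompactSpace (Set.Ioi (0 : ℝ)) := isOpen_Ioi.locallyCompactSpace
  obtain ⟨b, hb1, -, -, hbpos⟩ := exists_bump one_pos
  set h₀ : InfinitePlace F → ℝ → ℝ := fun _ => b
  have hh₀ : ∀ v, Rad1 (h₀ v) := fun _ => hb1
  have hok := radTest_ok (N := N) hh₀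
  set cst : ℂ := ∏ v : InfinitePlace F, ((lam0 (h₀ v) : ℝ) : ℂ)
  have hcst : cst ≠ 0 := Finset.prod_ne_zero_iff.2 fun _ _ =>
    Complex.ofReal_ne_zero.2 hbpos.ne'
  have hae : ∀ v : Pt F N → ℂ, v =ᵐ[quotMeasure w] u →
      (fun p => cst⁻¹ * intOp (quotMeasure w) (kern (radTest N h₀)) v p) =ᵐ[quotMeasure w] u := by
    intro v hv
    filter_upwards [(schurKernel hN hw hok).formula.op_ae u, Lp.coeFn_smul cst u,
      Lp.ext_iff.1 (hu h₀ hh₀)] with p hp hs he
    rw [intOp_congr hN hw hv p, ← hp]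
    show cst⁻¹ * kernCLM hN hw hok u p = u p
    rw [he, hs, Pi.smul_apply, smul_eq_mul, ← mul_assoc, inv_mul_cancel₀ hcst, one_mul]
  set v₀ : Pt F N → ℂ := fun p => cst⁻¹ * intOp (quotMeasure w) (kern (radTest N h₀)) u p
  have hv₀ : v₀ =ᵐ[quotMeasure w] u := hae _ (EventuallyEq.refl _ _)
  have hv₀m : Measurable v₀ :=
    (measurable_intOp hw hok (Lp.stronglyMeasurable u).measurable).const_mul _
  have hv₀i : ∀ (γ : PG F) p, v₀ (γ • p) = v₀ p := fun γ p => by
    simp only [v₀, intOp_smul hok]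
  have hfin : ∀ v : Pt F N → ℂ, v =ᵐ[quotMeasure w] u → ∫⁻ p, ‖v p‖ₑ ∂quotMeasure w ≠ ⊤ :=
    fun v hv => by
      rw [lintegral_congr_ae (g := fun p => ‖u p‖ₑ) (hv.mono fun p hp => by simp only [hp])]
      exact lintegral_Lp_lt_top hN hw u
  have hl₀ := locForm_of_integrable hw hv₀m hv₀i (hfin _ hv₀)
  set ψ : Pt F N → ℂ := fun p => cst⁻¹ * intOp (quotMeasure w) (kern (radTest N h₀)) v₀ p
  have hψ : ψ =ᵐ[quotMeasure w] u := hae _ hv₀
  have hψm : Measurable ψ := (measurable_intOp hw hok hv₀m).const_mul _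
  have hψi : ∀ (γ : PG F) p, ψ (γ • p) = ψ p := fun γ p => by simp only [ψ, intOp_smul hok]
  have hψl := locForm_of_integrable hw hψm hψi (hfin _ hψ)
  have hslice : ∀ c : Cos F N, Continuous fun y => ψ (y, c) := fun c => by
    simp only [ψ, intOp_radTest hw hh₀ hv₀m hv₀i hl₀]
    exact continuous_const.mul
      (continuous_conv hl₀ (continuous_radFun hh₀) (hasCompactSupport_radFun hh₀) c.out)
  refine ⟨ψ, hψm, hψi, fun g => hslice _, hψ, hψl, fun h hh x g => ?_⟩
  have hk := radTest_ok (N := N) hh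
  have key := eq_of_ae_quot hw
    (f := intOp (quotMeasure w) (kern (radTest N h)) ψ)
    (g := fun p => (∏ v, ((lam0 (h v) : ℝ) : ℂ)) * ψ p)
    (measurable_intOp hw hk hψm) (hψm.const_mul _) (fun γ p => intOp_smul hk ψ γ p)
    (fun γ p => by simp only [hψi]) (fun c => by
      simp only [intOp_radTest hw hh hψm hψi hψl]
      exact continuous_conv hψl (continuous_radFun hh) (hasCompactSupport_radFun hh) c.out)
    (fun c => continuous_const.mul (hslice c)) ?_ (x, (g : Cos F N))
  · rw [intOp_radTest hw hh hψm hψi hψl] at key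
    refine Eq.trans ?_ key
    have hu' : g⁻¹ * (g : Cos F N).out ∈ UZ F N := QuotientGroup.eq.1 (QuotientGroup.out_eq' _).symm
    show _ = Aleph.conv (radFun h) (Aleph.formOf ψ) x (g : Cos F N).out
    unfold Aleph.conv
    simp only [Aleph.formOf, QuotientGroup.out_eq']
  · filter_upwards [(schurKernel hN hw hk).formula.op_ae u,
      Lp.coeFn_smul (∏ v, ((lam0 (h v) : ℝ) : ℂ)) u, Lp.ext_iff.1 (hu h hh), hψ] with p hp hs he hq
    rw [intOp_congr hN hw hψ p, ← hp]
    show kernCLM hN hw hk u p = _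
    rw [he, hs, Pi.smul_apply, smul_eq_mul, hq]

/-- Hecke eigenvalues pass to the representative. -/
theorem hecke_rep {v : HeightOneSpectrum (𝓞 F)} (hv : (N : 𝓞 F) ∉ v.asIdeal) {c : ℂ}
    {u : Lp ℂ 2 (quotMeasure w)} (hu : heckeCLM hN hw hv u = c • u) {ψ : Pt F N → ℂ}
    (hψm : Measurable ψ) (hψi : ∀ (γ : PG F) p, ψ (γ • p) = ψ p)
    (hψc : ∀ g, Continuous fun x => Aleph.formOf ψ x g) (hψ : ψ =ᵐ[quotMeasure w] u)
    (x : Xinf F) (g : GF F) :
    hecke v (Aleph.formOf ψ) x g = c * Aleph.formOf ψ x g := by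
  set Φ := Aleph.formOf ψ
  have ha : Automorphic N Φ := Aleph.automorphic_formOf fun γ p => by
    rw [← mk_smul, hψi]
  have hr : ∀ x, Aleph.RightInv N (Φ x) := fun x g u hu => Aleph.formOf_mul_right ψ x g hu
  have hr' : ∀ x, Aleph.RightInv N (hecke v Φ x) := fun x => by
    rw [show hecke v Φ x = Aleph.hOp v (Φ x) from funext fun g => Aleph.hecke_eq_hOp v Φ x g]
    exact (hr x).hOp hv
  have hli : ∀ γ x g, hecke v Φ (actInf γ x) (toFin γ * g) = hecke v Φ x g := fun γ x g => by
    simp only [Aleph.hecke_eq_hOp, Aleph.hOp, mul_assoc, ha.left_inv]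
  have hG : ∀ p, finOp w (Aleph.wordFin N [v]) ψ p = ptFun N (hecke v Φ) p := fun p => by
    rw [finOp_word hw hv hψi, ptFun, Aleph.hecke_eq_hOp]
    rfl
  have key := eq_of_ae_quot hw (f := ptFun N (hecke v Φ)) (g := fun p => c * ψ p)
    (measurable_ptFun fun g => (continuous_hecke hψc g).measurable) (hψm.const_mul _)
    (ptFun_smul hli hr') (fun γ p => by simp only [hψi])
    (fun d => continuous_hecke hψc d.out)
    (fun d => continuous_const.mul (by
      have := hψc d.out
      simpa [Φ, Aleph.formOf] using this)) ?_ (x, (g : Cos F N))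
  · rw [ptFun_mk hr'] at key
    exact key
  · filter_upwards [(finFormula hw (Aleph.isFinKer_word v hv)).op_ae u, Lp.coeFn_smul c u,
      Lp.ext_iff.1 hu, hψ, finOp_congr hN hw (f := Aleph.wordFin N [v]) hψ] with p hp hs he hq hf
    rw [← hG, hf, ← hp]
    show heckeCLM hN hw hv u p = _
    rw [he, hs, Pi.smul_apply, smul_eq_mul, hq]

/-- The scalar of a family on the representative. -/
theorem op_rep {ι : Type*} (A : Aleph.Fam ι (InfinitePlace F)) (hA : A.Reg)
    {pl : ι → HeightOneSpectrum (𝓞 F)} (hpl : ∀ j, (N : 𝓞 F) ∉ (pl j).asIdeal)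
    (hrads : ∀ k, A.word k = [] → ∃ h : InfinitePlace F → ℝ → ℝ, (∀ v, Rad1 (h v)) ∧
      A.rad k = radFun h ∧ (∫ l, A.abel k l) = ∏ v, ((lam0 (h v) : ℝ) : ℂ))
    {u : Lp ℂ 2 (quotMeasure w)} (hT : ∀ j, heckeCLM hN hw (hpl j) u = 0) {ψ : Pt F N → ℂ}
    (hψm : Measurable ψ) (hψi : ∀ (γ : PG F) p, ψ (γ • p) = ψ p)
    (hψc : ∀ g, Continuous fun x => Aleph.formOf ψ x g) (hψ : ψ =ᵐ[quotMeasure w] u)
    (hψl : Aleph.LocForm (Aleph.formOf ψ))
    (hrad : ∀ (h : InfinitePlace F → ℝ → ℝ), (∀ w, Rad1 (h w)) → ∀ x g,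
      Aleph.conv (radFun h) (Aleph.formOf ψ) x g =
        (∏ v, ((lam0 (h v) : ℝ) : ℂ)) * Aleph.formOf ψ x g) (q : Pt F N) :
    A.op pl ψ q = A.value * ψ q := by
  refine Aleph.Fam.op_eigen A hA hpl hψl (fun j y g => ?_) (fun k hk x g => ?_) q
  · rw [hecke_rep hN hw (hpl j) (c := 0) (by rw [hT j, zero_smul]) hψm hψi hψc hψ, zero_mul]
  · obtain ⟨h, hh, e1, e2⟩ := hrads k hk
    rw [e1, e2]
    exact hrad h hh x g

/-- A cusp form with parameter zero as a square integrable function. -/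
theorem memLp_ptFun [IsTotallyComplex F] (hΦ : CuspZero N Φ) :
    MemLp (ptFun N Φ) 2 (quotMeasure w) := by
  haveI : IsFiniteMeasure (quotMeasure w) := ⟨Ht.quotMeasure_univ_lt_top hN hw⟩
  obtain ⟨C, hC⟩ := hΦ.bdd
  exact MemLp.of_bound (measurable_ptFun fun g => (hΦ.cont g).measurable).aestronglyMeasurable C
    (Eventually.of_forall fun q => hC _ _)

/-- Radial operators on the vector of a cusp form with parameter zero. -/
theorem kernCLM_zeroVec [IsTotallyComplex F] (hΦ : CuspZero N Φ) {h : InfinitePlace F → ℝ → ℝ}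
    (hh : ∀ w, Rad1 (h w)) :
    kernCLM hN hw (radTest_ok (N := N) hh) (vecOf w (ptFun N Φ)) =
      (∏ v, ((lam0 (h v) : ℝ) : ℂ)) • vecOf w (ptFun N Φ) := by
  haveI := sFinite_quotMeasure hw
  haveI : LocallyCompactSpace (Set.Ioi (0 : ℝ)) := isOpen_Ioi.locallyCompactSpace
  haveI : IsLocallyFiniteMeasure hypMeasure := isLocallyFiniteMeasure_of_isFiniteMeasureOnCompacts
  have hr : ∀ x, Aleph.RightInv N (Φ x) := fun x g u hu => hΦ.aut.mul_UZ x g hu
  have hm := measurable_ptFun (N := N) fun g => (hΦ.cont g).measurable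
  have hl : Aleph.LocForm (Aleph.formOf (ptFun N Φ)) := by
    rw [formOf_ptFun hr]
    exact ⟨fun g => (hΦ.cont g).measurable, fun g => (hΦ.cont g).locallyIntegrable⟩
  have hu := vecOf_ae (memLp_ptFun hN hw hΦ)
  refine Lp.ext ?_
  filter_upwards [(schurKernel hN hw (radTest_ok (N := N) hh)).formula.op_ae _, hu,
    Lp.coeFn_smul (∏ v, ((lam0 (h v) : ℝ) : ℂ)) (vecOf w (ptFun N Φ))] with p hp hq hs
  rw [hs, Pi.smul_apply, smul_eq_mul, hq]
  refine hp.trans ?_
  rw [intOp_congr hN hw hu p, intOp_radTest hw hh hm (ptFun_smul hΦ.aut.left_inv hr) hl,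
    formOf_ptFun hr]
  obtain ⟨C, hC⟩ := hΦ.bdd
  exact hΦ.eigen.applyProd hh p.1 p.2.out (hΦ.cont _) ⟨C, fun y => hC y _⟩

/-- Hecke operators on the vector of a cusp form with parameter zero. -/
theorem heckeCLM_zeroVec [IsTotallyComplex F] (hΦ : CuspZero N Φ)
    {v : HeightOneSpectrum (𝓞 F)} (hv : (N : 𝓞 F) ∉ v.asIdeal) {c : ℂ}
    (hc : ∀ x g, hecke v Φ x g = c * Φ x g) :
    heckeCLM hN hw hv (vecOf w (ptFun N Φ)) = c • vecOf w (ptFun N Φ) := by
  have hr : ∀ x, Aleph.RightInv N (Φ x) := fun x g u hu => hΦ.aut.mul_UZ x g hu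
  have hu := vecOf_ae (memLp_ptFun hN hw hΦ)
  refine Lp.ext ?_
  filter_upwards [(finFormula hw (Aleph.isFinKer_word v hv)).op_ae (vecOf w (ptFun N Φ)), hu,
    Lp.coeFn_smul c (vecOf w (ptFun N Φ)),
    finOp_congr hN hw (f := Aleph.wordFin N [v]) hu] with p hp hq hs hf
  rw [hs, Pi.smul_apply, smul_eq_mul, hq]
  refine hp.trans ?_
  rw [hf, finOp_word hw hv (ptFun_smul hΦ.aut.left_inv hr)]
  simp only [ptFun_mk hr]
  exact (Aleph.hecke_eq_hOp v Φ p.1 _).symm.trans (hc _ _)

end operators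

end FLTAgent.LT
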