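import Fermat.Agent.LT.TF.Unfold

/-!
The averaging map `u ↦ ∑_γ w(γ p) u(γ p)` onto invariant functions, and the symmetry of the
quotient measure on pairs of cosets over one point at infinity.
-/

set_option autoImplicit false
set_option linter.unusedSectionVars false
set_option linter.unusedSimpArgs false
set_option linter.deprecated false
set_option linter.style.haveILetI false
set_option synthInstance.maxHeartbeats 200000

noncomputable section

namespace FLTAgent.LT

open NumberField IsDedekindDomain MeasureTheory Filter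
open scoped ENNReal InnerProductSpace

variable {F : Type*} [Field F] [NumberField F] {N : ℕ}

/-- Some point at infinity. -/
def basePoint : Xinf F := fun _ => (0, ⟨1, Set.mem_Ioi.2 one_pos⟩)

instance instMulActionPGCos : MulAction (PG F) (Cos F N) where
  smul q c := toFin q.out • c
  one_smul c := congrArg Prod.snd (one_smul (PG F) ((basePoint, c) : Pt F N))
  mul_smul q r c := congrArg Prod.snd (mul_smul q r ((basePoint, c) : Pt F N))

lemma smul_cos_eq (q : PG F) (p : Pt F N) : (q • p).2 = q • p.2 := rfl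

/-- The average of a function over its orbit, with respect to a weight. -/
def avg (w : Pt F N → ℝ≥0∞) (u : Pt F N → ℂ) (p : Pt F N) : ℂ :=
  ∑' γ : PG F, ((w (γ • p)).toReal : ℂ) * u (γ • p)

section

variable [Countable (Cos F N)] {w : Pt F N → ℝ≥0∞} (hw : IsPtWeight w)

include hw

lemma wt_le_one (p : Pt F N) : w p ≤ 1 := ((isPtWeight_iff w).1 hw).le_one p

lemma wt_ne_top (p : Pt F N) : w p ≠ ⊤ := ne_top_of_le_ne_top ENNReal.one_ne_top (wt_le_one hw p)

lemma enorm_wt (p : Pt F N) : ‖((w p).toReal : ℂ)‖ₑ = w p := by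
  rw [← ofReal_norm, Complex.norm_real, Real.norm_eq_abs, abs_of_nonneg ENNReal.toReal_nonneg,
    ENNReal.ofReal_toReal (wt_ne_top hw p)]

lemma measurable_avg {u : Pt F N → ℂ} (hu : Measurable u) : Measurable (avg w u) :=
  measurable_complex_tsum fun γ =>
    ((Complex.measurable_ofReal.comp ((hw.1.comp (measurable_const_smul γ)).ennreal_toReal)).mul
      (hu.comp (measurable_const_smul γ)))

omit hw in
lemma avg_smul (u : Pt F N → ℂ) (γ : PG F) (p : Pt F N) : avg w u (γ • p) = avg w u p := by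
  simp only [avg, ← mul_smul]
  exact (Equiv.mulRight γ).tsum_eq fun δ => ((w (δ • p)).toReal : ℂ) * u (δ • p)

lemma avg_of_invariant {u : Pt F N → ℂ} (hu : ∀ (γ : PG F) p, u (γ • p) = u p) (p : Pt F N) :
    avg w u p = u p := by
  have h1 := ((isPtWeight_iff w).1 hw).sum_one p
  have hr : ∑' γ : PG F, (w (γ • p)).toReal = 1 := by
    rw [← ENNReal.tsum_toReal_eq fun γ => wt_ne_top hw _, h1, ENNReal.toReal_one]
  simp only [avg, hu, tsum_mul_right]
  rw [← Complex.ofReal_tsum, hr, Complex.ofReal_one, one_mul]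

lemma enorm_avg_le (u : Pt F N → ℂ) (p : Pt F N) :
    ‖avg w u p‖ₑ ≤ ∑' γ : PG F, w (γ • p) * ‖u (γ • p)‖ₑ := by
  refine enorm_tsum_le_tsum_enorm.trans_eq (tsum_congr fun γ => ?_)
  rw [enorm_mul, enorm_wt hw]

/-- Jensen: the square of the average is at most the average of the square. -/
lemma sq_tsum_wt_le (g : Pt F N → ℝ≥0∞) (p : Pt F N) :
    (∑' γ : PG F, w (γ • p) * g (γ • p)) ^ 2 ≤ ∑' γ : PG F, w (γ • p) * g (γ • p) ^ 2 := by
  letI : MeasurableSpace (PG F) := ⊤
  haveI : MeasurableSingletonClass (PG F) := ⟨fun _ => trivial⟩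
  set ν : Measure (PG F) := Measure.count.withDensity fun γ => w (γ • p)
  have key : ∀ G : PG F → ℝ≥0∞, ∫⁻ γ, G γ ∂ν = ∑' γ, w (γ • p) * G γ := fun G => by
    rw [lintegral_withDensity_eq_lintegral_mul _ measurable_from_top measurable_from_top,
      lintegral_count]
    rfl
  have h := ENNReal.lintegral_mul_le_Lp_mul_Lq ν (p := 2) (q := 2) ⟨by norm_num, by norm_num,
    by norm_num⟩ (f := fun _ => (1 : ℝ≥0∞)) (g := fun γ => g (γ • p)) measurable_from_top.aemeasurable
    measurable_from_top.aemeasurable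
  simp only [key, Pi.mul_apply, one_mul, ENNReal.one_rpow, mul_one,
    ((isPtWeight_iff w).1 hw).sum_one p] at h
  refine (pow_le_pow_left₀ zero_le h 2).trans_eq ?_
  rw [← ENNReal.rpow_natCast _ 2, ← ENNReal.rpow_mul]
  simp

lemma lintegral_wt_avg {g : Pt F N → ℝ≥0∞} (hg : Measurable g) :
    ∫⁻ p, ∑' γ : PG F, w (γ • p) * g (γ • p) ∂quotMeasure w = ∫⁻ p, g p ∂quotMeasure w := by
  rw [lintegral_unfold hw (g := fun q => w q * g q) (hw.1.mul hg), lintegral_quotMeasure hw hg]

lemma lintegral_sq_avg_le {u : Pt F N → ℂ} (hu : Measurable u) :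
    ∫⁻ p, ‖avg w u p‖ₑ ^ 2 ∂quotMeasure w ≤ ∫⁻ p, ‖u p‖ₑ ^ 2 ∂quotMeasure w := by
  rw [← lintegral_wt_avg hw (g := fun p => ‖u p‖ₑ ^ 2) (hu.enorm.pow_const 2)]
  exact lintegral_mono fun p => (pow_le_pow_left₀ zero_le (enorm_avg_le hw u p) 2).trans
    (sq_tsum_wt_le hw (fun q => ‖u q‖ₑ) p)

/-- Averages do not see null sets. -/
lemma avg_congr {u v : Pt F N → ℂ} (h : u =ᵐ[quotMeasure w] v) :
    ∀ᵐ p ∂ptMeasure F N, avg w u p = avg w v p := by
  haveI : SMulInvariantMeasure (PG F) (Pt F N) (ptMeasure F N) := instSMulInvariantMeasurePG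
  have h0 : ∀ᵐ p ∂ptMeasure F N, w p ≠ 0 → u p = v p :=
    (ae_withDensity_iff hw.1).1 h
  have h1 : ∀ γ : PG F, ∀ᵐ p ∂ptMeasure F N, w (γ • p) ≠ 0 → u (γ • p) = v (γ • p) := fun γ =>
    (measurePreserving_smul γ (ptMeasure F N)).quasiMeasurePreserving.ae h0
  filter_upwards [ae_all_iff.2 h1] with p hp
  refine tsum_congr fun γ => ?_
  rcases eq_or_ne (w (γ • p)) 0 with h' | h'
  · simp [h']
  · rw [hp γ h']

omit hw in
lemma ae_quot_of_ae {P : Pt F N → Prop} (h : ∀ᵐ p ∂ptMeasure F N, P p) :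
    ∀ᵐ p ∂quotMeasure w, P p :=
  (withDensity_absolutelyContinuous _ _).ae_le h

lemma summable_avg {u : Pt F N → ℂ} (hu : Measurable u)
    (hfin : ∫⁻ p, ‖u p‖ₑ ^ 2 ∂quotMeasure w < ⊤) :
    ∀ᵐ p ∂ptMeasure F N, Summable fun γ : PG F => ((w (γ • p)).toReal : ℂ) * u (γ • p) := by
  have hm : Measurable fun p => ∑' γ : PG F, w (γ • p) * ‖u (γ • p)‖ₑ ^ 2 :=
    Measurable.ennreal_tsum fun γ => (hw.1.comp (measurable_const_smul γ)).mul
      ((hu.comp (measurable_const_smul γ)).enorm.pow_const 2)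
  have h1 : ∀ᵐ p ∂quotMeasure w, ∑' γ : PG F, w (γ • p) * ‖u (γ • p)‖ₑ ^ 2 < ⊤ :=
    ae_lt_top hm (by
      rw [lintegral_wt_avg hw (g := fun p => ‖u p‖ₑ ^ 2) (hu.enorm.pow_const 2)]
      exact hfin.ne)
  -- an invariant property true where `w ≠ 0` holds everywhere
  have h2 : ∀ᵐ p ∂ptMeasure F N, ∀ γ : PG F,
      w (γ • p) ≠ 0 → ∑' δ : PG F, w (δ • γ • p) * ‖u (δ • γ • p)‖ₑ ^ 2 < ⊤ :=
    ae_all_iff.2 fun γ => (measurePreserving_smul γ (ptMeasure F N)).quasiMeasurePreserving.ae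
      ((ae_withDensity_iff hw.1).1 h1)
  filter_upwards [h2] with p hp
  obtain ⟨γ, hγ⟩ : ∃ γ : PG F, w (γ • p) ≠ 0 := by
    by_contra! h0
    have := ((isPtWeight_iff w).1 hw).sum_one p
    simp [h0] at this
  have h3 := hp γ hγ
  simp only [← mul_smul] at h3
  have e := (Equiv.mulRight γ).tsum_eq fun δ => w (δ • p) * ‖u (δ • p)‖ₑ ^ 2
  simp only [Equiv.coe_mulRight] at e
  rw [e] at h3
  have h4 : (∑' δ : PG F, w (δ • p) * ‖u (δ • p)‖ₑ) ≠ ⊤ := by
    intro htop
    have := sq_tsum_wt_le hw (fun q => ‖u q‖ₑ) p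
    rw [htop, ENNReal.top_pow two_ne_zero] at this
    exact h3.ne (top_le_iff.1 this)
  refine Summable.of_nnnorm (ENNReal.tsum_coe_ne_top_iff_summable.1 ?_)
  simp only [← enorm_eq_nnnorm, enorm_mul, enorm_wt hw]
  exact h4

/-- Two ways to weight pairs of cosets over a point agree on invariant functions. -/
lemma lintegral_pair_symm {H : Xinf F → Cos F N → Cos F N → ℝ≥0∞}
    (hH : Measurable fun z : Pt F N × Cos F N => H z.1.1 z.1.2 z.2)
    (hinv : ∀ (γ : PG F) (p : Pt F N) (c : Cos F N),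
      H (γ • p).1 (γ • p).2 (γ • c) = H p.1 p.2 c) :
    ∫⁻ z : Pt F N × Cos F N, w z.1 * H z.1.1 z.1.2 z.2 ∂(ptMeasure F N).prod Measure.count =
      ∫⁻ z : Pt F N × Cos F N, w (z.1.1, z.2) * H z.1.1 z.1.2 z.2
        ∂(ptMeasure F N).prod Measure.count := by
  haveI : MeasurableConstSMul (PG F) (Pt F N × Cos F N) :=
    ⟨fun γ => ((measurable_const_smul γ).comp measurable_fst).prodMk
      (measurable_from_top.comp measurable_snd)⟩
  haveI : SMulInvariantMeasure (PG F) (Pt F N × Cos F N)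
      ((ptMeasure F N).prod Measure.count) := ⟨fun γ s hs => by
    have h2 : MeasurePreserving (fun c : Cos F N => γ • c) Measure.count Measure.count :=
      ⟨measurable_from_top, Measure.ext fun t ht => by
        rw [Measure.map_apply measurable_from_top ht, Measure.count_apply (measurable_from_top ht),
          Measure.count_apply ht, Set.encard_preimage_of_bijective (MulAction.bijective _)]⟩
    exact ((measurePreserving_smul γ (ptMeasure F N)).prod h2).measure_preimage hs.nullMeasurableSet⟩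
  have hW := (isPtWeight_iff w).1 hw
  have hl : RS.IsWeight (PG F) (fun z : Pt F N × Cos F N => w z.1) :=
    ⟨hw.1.comp measurable_fst, fun z => hW.sum_one z.1⟩
  have hswap : Measurable fun z : Pt F N × Cos F N => ((z.1.1, z.2) : Pt F N) :=
    (measurable_fst.comp measurable_fst).prodMk measurable_snd
  have hr : RS.IsWeight (PG F) (fun z : Pt F N × Cos F N => w (z.1.1, z.2)) :=
    ⟨hw.1.comp hswap, fun z => hW.sum_one (z.1.1, z.2)⟩
  exact hl.lintegral_eq hr hH fun γ z => hinv γ z.1 z.2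

end

end FLTAgent.LT
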