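import Fermat.Agent.LT.TF.Regular

/-!
A joint eigenvector of the radial operators which the three Hecke operators kill comes from a cusp
form with spectral parameter zero: iterating a killing family lowers the growth at the cusps.
-/

set_option autoImplicit false
set_option linter.unusedSectionVars false
set_option linter.style.haveILetI false
set_option synthInstance.maxHeartbeats 200000

noncomputable section

namespace FLTAgent.LT

open NumberField IsDedekindDomain MeasureTheory Filter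
open scoped ENNReal

variable {F : Type*} [Field F] [NumberField F] {N : ℕ}

/-- A function bounded by a power of a height, reproduced by an operator which lowers the exponent,
is bounded. -/
theorem exists_bound_of_gain {X : Type*} {H f : X → ℝ} (hH : ∀ q, 1 ≤ H q) {s a₀ M₀ : ℝ}
    (hs : 0 < s) (hM₀ : 0 ≤ M₀) (h0 : ∀ q, f q ≤ M₀ * H q ^ a₀)
    (step : ∀ a : ℝ, ∃ C, 0 ≤ C ∧ ∀ M, 0 ≤ M → (∀ q, f q ≤ M * H q ^ a) →
      ∀ q, f q ≤ C * M * H q ^ (a - s)) :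
    ∃ M, ∀ q, f q ≤ M := by
  have iter : ∀ k : ℕ, ∃ M, 0 ≤ M ∧ ∀ q, f q ≤ M * H q ^ (a₀ - k * s) := by
    intro k
    induction k with
    | zero => exact ⟨M₀, hM₀, by simpa using h0⟩
    | succ k ih =>
      obtain ⟨M, hM, hb⟩ := ih
      obtain ⟨C, hC, hstep⟩ := step (a₀ - k * s)
      exact ⟨C * M, mul_nonneg hC hM, fun q => (hstep M hM hb q).trans_eq (by
        push_cast; ring_nf)⟩
  obtain ⟨k, hk⟩ := exists_nat_ge (a₀ / s)
  obtain ⟨M, hM, hb⟩ := iter k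
  refine ⟨M, fun q => (hb q).trans (mul_le_of_le_one_right hM
    (Real.rpow_le_one_of_one_le_of_nonpos (hH q) ?_))⟩
  rw [div_le_iff₀ hs] at hk
  linarith

variable [IsTotallyComplex F] [Countable (Cos F N)] {w : Pt F N → ℝ≥0∞}

/-- Regularity from the two bounds of a killing family. -/
theorem exists_regular_of_bounds (hN : 0 < N) (hw : IsPtWeight w) {ι : Type*} [Fintype ι]
    [DecidableEq ι] {p : ℕ} {pl : ι → HeightOneSpectrum (𝓞 F)} (hP : Aleph.Places N p pl)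
    {A : Aleph.Fam ι (InfinitePlace F)} (hA : A.Reg) (hK : A.Kills (p : ℝ) fun _ => Real.log p)
    (hval : A.value ≠ 0)
    (hrads : ∀ k, A.word k = [] → ∃ h : InfinitePlace F → ℝ → ℝ, (∀ v, Rad1 (h v)) ∧
      A.rad k = radFun h ∧ (∫ l, A.abel k l) = ∏ v, ((lam0 (h v) : ℝ) : ℂ))
    {H : Pt F N → ℝ} (hH : ∀ q, 1 ≤ H q) {s : ℝ} (hs : 0 < s)
    (hL1 : ∃ C, 0 ≤ C ∧ ∀ φ : Pt F N → ℂ, (∀ (γ : PG F) q, φ (γ • q) = φ q) → Measurable φ →
      ∫⁻ q, ‖φ q‖ₑ ∂quotMeasure w ≠ ⊤ →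
        ∀ q, ‖A.op pl φ q‖ ≤ C * H q ^ (1 - s) * (∫⁻ q, ‖φ q‖ₑ ∂quotMeasure w).toReal)
    (hsup : ∀ a : ℝ, ∃ C, 0 ≤ C ∧ ∀ φ : Pt F N → ℂ, (∀ (γ : PG F) q, φ (γ • q) = φ q) →
      Aleph.LocForm (Aleph.formOf φ) → ∀ M, 0 ≤ M → (∀ r, ‖φ r‖ ≤ M * H r ^ a) →
        ∀ q, ‖A.op pl φ q‖ ≤ C * M * H q ^ (a - s))
    (u : Lp ℂ 2 (quotMeasure w))
    (hu : ∀ (h : InfinitePlace F → ℝ → ℝ) (hh : ∀ w, Rad1 (h w)),
      kernCLM hN hw (radTest_ok (N := N) hh) u = (∏ v, ((lam0 (h v) : ℝ) : ℂ)) • u)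
    (hT : ∀ j, heckeCLM hN hw (hP.not_mem j) u = 0) :
    ∃ Φ : Form F, CuspZero N Φ ∧ u =ᵐ[quotMeasure w] ptFun N Φ ∧
      ∀ (v : HeightOneSpectrum (𝓞 F)) (hv : (N : 𝓞 F) ∉ v.asIdeal) (c : ℂ),
        heckeCLM hN hw hv u = c • u → ∀ x g, hecke v Φ x g = c * Φ x g := by
  obtain ⟨ψ, hψm, hψi, hψc, hψ, hψl, hrad⟩ := exists_rep hN hw u hu
  have hop : ∀ q, A.op pl ψ q = A.value * ψ q :=
    op_rep hN hw A hA hP.not_mem hrads hT hψm hψi hψc hψ hψl hrad
  have hv0 : 0 < ‖A.value‖ := norm_pos_iff.2 hval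
  have hdiv : ∀ q {B : ℝ}, ‖A.op pl ψ q‖ ≤ B → ‖ψ q‖ ≤ ‖A.value‖⁻¹ * B := fun q B h => by
    rw [hop, norm_mul] at h
    rwa [inv_mul_eq_div, le_div_iff₀ hv0, mul_comm]
  have hfin : ∫⁻ q, ‖ψ q‖ₑ ∂quotMeasure w ≠ ⊤ := by
    rw [lintegral_congr_ae (g := fun q => ‖u q‖ₑ) (hψ.mono fun q hq => by simp only [hq])]
    exact lintegral_Lp_lt_top hN hw u
  obtain ⟨C₁, hC₁, hb₁⟩ := hL1
  obtain ⟨M, hM⟩ := exists_bound_of_gain (f := fun q => ‖ψ q‖) hH hs (a₀ := 1 - s)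
    (M₀ := ‖A.value‖⁻¹ * C₁ * (∫⁻ q, ‖ψ q‖ₑ ∂quotMeasure w).toReal) (by positivity)
    (fun q => (hdiv q (hb₁ ψ hψi hψm hfin q)).trans_eq (by ring)) fun a => by
      obtain ⟨C, hC, hb⟩ := hsup a
      exact ⟨‖A.value‖⁻¹ * C, by positivity, fun M hM hle q =>
        (hdiv q (hb ψ hψi hψl M hM hle q)).trans_eq (by ring)⟩
  have hinv : ∀ γ q, ψ (smulPt γ q) = ψ q := fun γ q => by rw [← mk_smul, hψi]
  have hcusp : Cusp (Aleph.formOf ψ) := by
    intro g m hm hper x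
    have hc := Aleph.Fam.cusp_op hA hK hP hN hinv hψl g m hm
    have e : Aleph.formOf (A.op pl ψ) = fun x g => A.value * Aleph.formOf ψ x g :=
      funext fun x => funext fun g => hop _
    rw [e] at hc
    have h0 := hc (fun β x => by simp only [hper β x]) x
    rw [integral_const_mul] at h0
    exact (mul_eq_zero.1 h0).resolve_left hval
  refine ⟨Aleph.formOf ψ, ⟨hψc, ⟨M, fun x g => hM _⟩, Aleph.automorphic_formOf hinv, hcusp,
    zeroEigen_of_conv hψc (fun g => ⟨M, fun x => hM _⟩) hrad⟩, ?_,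
    fun v hv c hc => hecke_rep hN hw hv hc hψm hψi hψc hψ⟩
  refine hψ.symm.trans (Eventually.of_forall fun q => ?_)
  show ψ q = Aleph.formOf ψ q.1 q.2.out
  rw [Aleph.formOf, QuotientGroup.out_eq']

section

omit [IsTotallyComplex F] [Countable (Cos F N)]

/-- The radial factors of the family of three places are products of admissible kernels whose
values at parameter zero are the integrals of their transforms. -/
theorem alephFam_rads [DecidableEq (InfinitePlace F)] {g : ℝ → ℝ} (hg : Hyp.AbelDatum g)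
    (l : InfinitePlace F → ℝ) (p : ℝ) (k : (Aleph.alephFam l p g).κ) :
    ∃ h : InfinitePlace F → ℝ → ℝ, (∀ v, Rad1 (h v)) ∧
      (Aleph.alephFam l p g).rad k = radFun h ∧
      (∫ x, (Aleph.alephFam l p g).abel k x) = ∏ v, ((lam0 (h v) : ℝ) : ℂ) := by
  refine ⟨fun v => Hyp.radKer (Aleph.symFun g k.2.1 v),
    fun v => rad1_radKer (Aleph.abelDatum_symFun hg _ v), rfl, ?_⟩
  show ∫ x, Aleph.prodFun (Aleph.symFun g k.2.1) x = _
  simp only [Aleph.prodFun]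
  rw [volume_pi, integral_fintype_prod_eq_prod fun w (x : ℝ) => ((Aleph.symFun g k.2.1 w x : ℝ) : ℂ)]
  exact Finset.prod_congr rfl fun v _ => by
    rw [integral_complex_ofReal, lam0_radKer (Aleph.abelDatum_symFun hg _ v)]

end

end FLTAgent.LT
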