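import Fermat.Agent.LT.TF.Defs

/-!
Twisted conjugacy classes with elliptic norm along a cyclic extension of odd degree: they are
parametrised by `det / trace²` of the norm, each is one twisted orbit, and the twisted centraliser is
the centraliser over the small field times the centre.
-/

set_option autoImplicit false
set_option linter.unusedSectionVars false

noncomputable section

namespace FLTAgent.LT.Ell

open Matrix

variable {F E : Type*} [Field F] [Field E] [CharZero E]

local notation "M2" => Matrix (Fin 2) (Fin 2)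

/-- A generator `τ` of a cyclic extension of odd degree `n` along `i`. -/
structure CycGen (i : F →+* E) (τ : E →+* E) (n : ℕ) : Prop where
  odd : Odd n
  pow : ∀ x, τ^[n] x = x
  ne : ∀ k, 0 < k → k < n → ∃ x, τ^[k] x ≠ x
  fix : ∀ x, τ x = x → ∃ y, i y = x
  fixed : ∀ y, τ (i y) = i y

/-- The trivial extension. -/
theorem CycGen.refl : CycGen (RingHom.id E) (RingHom.id E) 1 where
  odd := odd_one
  pow _ := rfl
  ne k h1 h2 := absurd h2 (by omega)
  fix x _ := ⟨x, rfl⟩
  fixed _ := rfl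

/-- A scalar matrix. -/
abbrev sc (a : Eˣ) : GL (Fin 2) E := GeneralLinearGroup.scalar (Fin 2) a

/-- The field automorphism on matrices. -/
abbrev tmap (τ : E →+* E) : GL (Fin 2) E →* GL (Fin 2) E := GeneralLinearGroup.map τ

theorem coe_sc (a : Eˣ) : (sc a : M2 E) = (a : E) • (1 : M2 E) := by
  ext p q
  fin_cases p <;> fin_cases q <;> simp [sc, GeneralLinearGroup.scalar]

theorem sc_comm (a : Eˣ) (g : GL (Fin 2) E) : Commute (sc a) g :=
  Units.ext (by rw [Units.val_mul, Units.val_mul, coe_sc]; simp)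

theorem sc_mul (a b : Eˣ) : sc (a * b) = sc a * sc b := map_mul _ a b

theorem sc_one : sc (1 : Eˣ) = 1 := map_one _

theorem sc_inv (a : Eˣ) : sc a⁻¹ = (sc a)⁻¹ := map_inv _ a

theorem sc_injective : Function.Injective (sc : Eˣ → GL (Fin 2) E) := fun a b h => by
  refine Units.ext ?_
  have := congrArg (fun g : GL (Fin 2) E => (g : M2 E) 0 0) h
  simpa [coe_sc] using this

theorem trace_sc_mul (a : Eˣ) (g : GL (Fin 2) E) :
    (sc a * g : GL (Fin 2) E).val.trace = (a : E) * g.val.trace := by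
  rw [Units.val_mul, coe_sc]; simp

theorem tmap_sc (τ : E →+* E) (a : Eˣ) : tmap τ (sc a) = sc (Units.map τ.toMonoidHom a) :=
  Units.ext (by
    ext p q
    fin_cases p <;> fin_cases q <;> simp [tmap, sc, GeneralLinearGroup.scalar])

theorem tmap_apply (τ : E →+* E) (g : GL (Fin 2) E) (p q : Fin 2) :
    (tmap τ g : M2 E) p q = τ ((g : M2 E) p q) := rfl

theorem iterate_tmap_apply (τ : E →+* E) (g : GL (Fin 2) E) (p q : Fin 2) (k : ℕ) :
    ((tmap τ)^[k] g : M2 E) p q = τ^[k] ((g : M2 E) p q) := by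
  induction k with
  | zero => rfl
  | succ k ih => rw [Function.iterate_succ_apply', Function.iterate_succ_apply', tmap_apply, ih]

theorem trace_tmap (τ : E →+* E) (g : GL (Fin 2) E) :
    (tmap τ g).val.trace = τ g.val.trace := by
  simp [Matrix.trace_fin_two]

theorem det_tmap (τ : E →+* E) (g : GL (Fin 2) E) : (tmap τ g).val.det = τ g.val.det := by
  simp [Matrix.det_fin_two]

theorem trace_conj' (g h : GL (Fin 2) E) : (g * h * g⁻¹).val.trace = h.val.trace := by
  rw [Units.val_mul, Units.val_mul, Matrix.trace_mul_cycle, ← Units.val_mul, inv_mul_cancel,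
    Units.val_one, one_mul]

theorem det_conj' (g h : GL (Fin 2) E) : (g * h * g⁻¹).val.det = h.val.det := by
  have hg : g.val.det ≠ 0 := (Matrix.GeneralLinearGroup.det g).ne_zero
  have e : g.val.det * (g⁻¹ : GL (Fin 2) E).val.det = 1 := by
    rw [← Matrix.det_mul, ← Units.val_mul, mul_inv_cancel, Units.val_one, Matrix.det_one]
  rw [Units.val_mul, Units.val_mul, Matrix.det_mul, Matrix.det_mul, mul_right_comm, e, one_mul]

/-! ### Norms -/

/-- The norm of a scalar. -/
def nrm (τ : E →+* E) : ℕ → Eˣ → Eˣ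
  | 0, _ => 1
  | n + 1, a => a * Units.map τ.toMonoidHom (nrm τ n a)

variable {i : F →+* E} {τ : E →+* E} {n : ℕ}

theorem twNorm_succ (k : ℕ) (γ : GL (Fin 2) E) :
    twNorm τ (k + 1) γ = γ * tmap τ (twNorm τ k γ) := rfl

theorem twNorm_succ' (k : ℕ) (γ : GL (Fin 2) E) :
    twNorm τ (k + 1) γ = twNorm τ k γ * (tmap τ)^[k] γ := by
  induction k with
  | zero => simp [twNorm]
  | succ k ih =>
    rw [twNorm_succ (k + 1), congrArg (tmap τ) ih, map_mul, ← mul_assoc, ← twNorm_succ,
      Function.iterate_succ_apply' (tmap τ)]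

theorem twNorm_twConj (k : ℕ) (g γ : GL (Fin 2) E) :
    twNorm τ k (g * γ * (tmap τ g)⁻¹) = g * twNorm τ k γ * ((tmap τ)^[k] g)⁻¹ := by
  induction k with
  | zero => simp [twNorm]
  | succ k ih =>
    rw [twNorm_succ, ih, map_mul, map_mul, map_inv, twNorm_succ, Function.iterate_succ_apply']
    group

theorem twNorm_sc (k : ℕ) (a : Eˣ) : twNorm τ k (sc a) = sc (nrm τ k a) := by
  induction k with
  | zero => rw [twNorm, nrm, sc_one]
  | succ k ih => rw [twNorm_succ, ih, tmap_sc, nrm, sc_mul]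

theorem twNorm_mul_sc (k : ℕ) (γ : GL (Fin 2) E) (a : Eˣ) :
    twNorm τ k (γ * sc a) = twNorm τ k γ * sc (nrm τ k a) := by
  induction k with
  | zero => simp [twNorm, nrm]
  | succ k ih =>
    rw [twNorm_succ, ih, map_mul, tmap_sc, twNorm_succ, nrm, sc_mul,
      mul_assoc γ (sc a), ← mul_assoc (sc a), (sc_comm a _).eq]
    simp only [mul_assoc]

theorem nrm_mul (k : ℕ) (a b : Eˣ) : nrm τ k (a * b) = nrm τ k a * nrm τ k b := by
  induction k with
  | zero => simp [nrm]
  | succ k ih => rw [nrm, ih, map_mul, nrm, nrm]; exact mul_mul_mul_comm _ _ _ _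

theorem nrm_pow (k m : ℕ) (a : Eˣ) : nrm τ k (a ^ m) = nrm τ k a ^ m := by
  induction m with
  | zero =>
    simp only [pow_zero]
    induction k with
    | zero => rfl
    | succ k ih => rw [nrm, ih, map_one, one_mul]
  | succ m ih => rw [pow_succ, nrm_mul, ih, pow_succ]

theorem nrm_inv (k : ℕ) (a : Eˣ) : nrm τ k a⁻¹ = (nrm τ k a)⁻¹ := by
  induction k with
  | zero => simp [nrm]
  | succ k ih => rw [nrm, ih, map_inv, nrm, mul_inv]

theorem nrm_fixed (k : ℕ) {a : Eˣ} (ha : τ (a : E) = a) : nrm τ k a = a ^ k := by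
  have h : Units.map τ.toMonoidHom a = a := Units.ext ha
  induction k with
  | zero => simp [nrm]
  | succ k ih => rw [nrm, ih, map_pow, h, pow_succ']

theorem det_twNorm (k : ℕ) (γ : GL (Fin 2) E) :
    GeneralLinearGroup.det (twNorm τ k γ) = nrm τ k (GeneralLinearGroup.det γ) := by
  induction k with
  | zero => simp [twNorm, nrm]
  | succ k ih =>
    rw [twNorm_succ, map_mul, nrm, ← ih]
    congr 1
    exact Units.ext (det_tmap τ _)

variable (h : CycGen i τ n)

include h

theorem CycGen.iterate_tmap (g : GL (Fin 2) E) : (tmap τ)^[n] g = g :=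
  Units.ext (Matrix.ext fun p q => by rw [iterate_tmap_apply, h.pow])

theorem CycGen.tmap_twNorm (γ : GL (Fin 2) E) :
    tmap τ (twNorm τ n γ) = γ⁻¹ * twNorm τ n γ * γ := by
  have e := twNorm_succ' (τ := τ) n γ
  rw [h.iterate_tmap, twNorm_succ] at e
  rw [mul_assoc, ← e, inv_mul_cancel_left]

theorem CycGen.twNorm_twConj' (g γ : GL (Fin 2) E) :
    twNorm τ n (g * γ * (tmap τ g)⁻¹) = g * twNorm τ n γ * g⁻¹ := by
  rw [twNorm_twConj, h.iterate_tmap]

theorem CycGen.isSquare_of_map {x : F} (hx : IsSquare (i x)) : IsSquare x := by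
  obtain ⟨y, hy⟩ := hx
  have h1 : τ y = y ∨ τ y = -y := mul_self_eq_mul_self_iff.1 (by rw [← map_mul, ← hy, h.fixed])
  rcases h1 with h1 | h1
  · obtain ⟨z, rfl⟩ := h.fix y h1
    exact ⟨z, i.injective (by rw [hy, map_mul])⟩
  · have h2 : ∀ k, τ^[k] y = (-1) ^ k * y := by
      intro k
      induction k with
      | zero => simp
      | succ k ih =>
        rw [Function.iterate_succ_apply', ih, map_mul, map_pow, map_neg, map_one, h1, pow_succ]
        ring
    have h3 := h2 n
    rw [h.pow, h.odd.neg_one_pow] at h3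
    have hy0 : y = 0 := by linear_combination (h3 / 2)
    exact ⟨0, i.injective (by rw [hy, hy0]; simp)⟩

/-! ### Invariant and normal form -/

omit h in
/-- `det / trace²`. -/
def inv2 (M : GL (Fin 2) E) : E := M.val.det / M.val.trace ^ 2

omit h in
theorem inv2_conj (g M : GL (Fin 2) E) : inv2 (g * M * g⁻¹) = inv2 M := by
  rw [inv2, inv2, trace_conj', det_conj']

omit h in
theorem inv2_sc_mul (a : Eˣ) (M : GL (Fin 2) E) : inv2 (sc a * M) = inv2 M := by
  rw [inv2, inv2, trace_sc_mul, Units.val_mul, Matrix.det_mul, coe_sc, Matrix.det_smul,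
    Matrix.det_one, mul_one, mul_pow, Fintype.card_fin]
  exact mul_div_mul_left _ _ (pow_ne_zero 2 a.ne_zero)

omit h in
theorem ellElem_sc_mul {a : Eˣ} {M : GL (Fin 2) E} (hM : EllElem M) : EllElem (sc a * M) := by
  refine ⟨by rw [trace_sc_mul]; exact mul_ne_zero a.ne_zero hM.1, fun hs => hM.2 ?_⟩
  obtain ⟨r, hr⟩ := hs
  refine ⟨r / (a : E), ?_⟩
  rw [trace_sc_mul, Units.val_mul, Matrix.det_mul, coe_sc, Matrix.det_smul, Matrix.det_one,
    Fintype.card_fin] at hr
  rw [div_mul_div_comm, eq_div_iff (mul_ne_zero a.ne_zero a.ne_zero)]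
  linear_combination hr

omit h in
theorem ellElem_conj {g M : GL (Fin 2) E} (hM : EllElem M) : EllElem (g * M * g⁻¹) := by
  unfold EllElem at hM ⊢
  rwa [trace_conj', det_conj']

omit h [CharZero E] in
/-- The values of the invariant at elliptic elements. -/
def EllS (s : F) : Prop := s ≠ 0 ∧ ¬ IsSquare (1 - 4 * s)

omit h [CharZero E] in
/-- The normal form. -/
def normalForm (s : F) (hs : s ≠ 0) : GL (Fin 2) F :=
  GeneralLinearGroup.mkOfDetNeZero !![0, -s; 1, 1] (by simp [Matrix.det_fin_two, hs])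

omit h [CharZero E] in
theorem ellElem_normalForm {s : F} (hs : EllS s) : EllElem (normalForm s hs.1) := by
  refine ⟨by simp [normalForm, Matrix.trace_fin_two], ?_⟩
  convert hs.2 using 2
  simp [normalForm, Matrix.trace_fin_two, Matrix.det_fin_two]

omit h in
theorem ne_zero_of_ell {M : GL (Fin 2) E} (hM : EllElem M) : (M : M2 E) 1 0 ≠ 0 := fun h0 =>
  hM.2 ⟨(M : M2 E) 0 0 - (M : M2 E) 1 1, by
    rw [Matrix.trace_fin_two, Matrix.det_fin_two, h0]; ring⟩

theorem CycGen.exists_invariant {γ : GL (Fin 2) E} (hγ : EllElem (twNorm τ n γ)) :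
    ∃ s : F, EllS s ∧ i s = inv2 (twNorm τ n γ) := by
  set M := twNorm τ n γ with hMdef
  have e1 : tmap τ M = γ⁻¹ * M * γ⁻¹⁻¹ := by rw [inv_inv]; exact h.tmap_twNorm γ
  have ht : τ M.val.trace = M.val.trace := by rw [← trace_tmap, e1, trace_conj']
  have hd : τ M.val.det = M.val.det := by rw [← det_tmap, e1, det_conj']
  obtain ⟨s, hs⟩ := h.fix (inv2 M) (by rw [inv2, map_div₀, map_pow, ht, hd])
  refine ⟨s, ⟨fun h0 => ?_, fun hsq => hγ.2 ?_⟩, hs⟩
  · rw [h0, map_zero, inv2] at hs
    exact div_ne_zero (GeneralLinearGroup.det M).ne_zero (pow_ne_zero 2 hγ.1) hs.symm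
  · obtain ⟨r, hr⟩ := hsq
    refine ⟨i r * M.val.trace, ?_⟩
    have h2 : M.val.det = i s * M.val.trace ^ 2 := by
      rw [hs, inv2, div_mul_cancel₀ _ (pow_ne_zero 2 hγ.1)]
    have h3 := congrArg i hr
    simp only [map_sub, map_mul, map_one, map_ofNat] at h3
    rw [h2]
    linear_combination M.val.trace ^ 2 * h3

omit h in
/-- An elliptic element is a scalar times a conjugate of the normal form. -/
theorem exists_conj_normalForm {M : GL (Fin 2) E} (hM : EllElem M) {s : F} (hs : s ≠ 0)
    (hsM : i s = inv2 M) :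
    ∃ (a : Eˣ) (g : GL (Fin 2) E), M = sc a * (g * GeneralLinearGroup.map i (normalForm s hs) * g⁻¹) := by
  have h10 := ne_zero_of_ell hM
  have ht := hM.1
  let a : Eˣ := Units.mk0 _ ht
  let g : GL (Fin 2) E := GeneralLinearGroup.mkOfDetNeZero
    !![1, (M : M2 E) 0 0 / M.val.trace; 0, (M : M2 E) 1 0 / M.val.trace]
    (by simp [Matrix.det_fin_two, h10, ht])
  refine ⟨a, g, ?_⟩
  have hd : i s * M.val.trace ^ 2 = (M : M2 E) 0 0 * (M : M2 E) 1 1 - (M : M2 E) 0 1 * (M : M2 E) 1 0 := by
    rw [hsM, inv2, div_mul_cancel₀ _ (pow_ne_zero 2 ht), Matrix.det_fin_two]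
  rw [← mul_assoc, eq_mul_inv_iff_mul_eq]
  refine Units.ext ?_
  have htr : M.val.trace = (M : M2 E) 0 0 + (M : M2 E) 1 1 := Matrix.trace_fin_two _
  ext p q
  fin_cases p <;> fin_cases q <;>
    simp [a, g, Units.val_mul, normalForm, Matrix.mul_apply, Matrix.vecMul, dotProduct, Fin.sum_univ_two] <;>
    field_simp
  · rw [htr] at hd ⊢
    linear_combination hd
  · rw [htr]

/-! ### The centraliser -/

omit h in
theorem exists_lin {D : GL (Fin 2) E} (h10 : (D : M2 E) 1 0 ≠ 0) {X : M2 E} (hX : Commute X D.val) :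
    ∃ x y : E, X = x • 1 + y • D.val := by
  have e00 := congrFun (congrFun hX.eq 0) 0
  have e10 := congrFun (congrFun hX.eq 1) 0
  simp only [Matrix.mul_apply, Fin.sum_univ_two] at e00 e10
  refine ⟨X 0 0 - X 1 0 / (D : M2 E) 1 0 * (D : M2 E) 0 0, X 1 0 / (D : M2 E) 1 0, ?_⟩
  ext p q
  fin_cases p <;> fin_cases q <;> simp <;> field_simp
  · linear_combination e00
  · linear_combination e10

omit h in
theorem commute_of_commute {D : GL (Fin 2) E} (h10 : (D : M2 E) 1 0 ≠ 0) {g g' : GL (Fin 2) E}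
    (hg : Commute g D) (hg' : Commute g' D) : Commute g g' := by
  obtain ⟨x, y, hx⟩ := exists_lin h10 (X := g.val) (congrArg Units.val hg.eq :)
  have hg'' : g'.val * D.val = D.val * g'.val := congrArg Units.val hg'.eq
  refine Units.ext ?_
  show g.val * g'.val = g'.val * g.val
  rw [hx, add_mul, mul_add, smul_mul_assoc, smul_mul_assoc, mul_smul_comm, mul_smul_comm, one_mul,
    mul_one, hg'']

omit h in
theorem det_ne_zero_of_commute {D : GL (Fin 2) E} (hD : EllElem D) {X : M2 E} (hX : Commute X D.val)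
    (h0 : X ≠ 0) : X.det ≠ 0 := by
  obtain ⟨x, y, rfl⟩ := exists_lin (ne_zero_of_ell hD) hX
  intro hdet
  have e : x ^ 2 + x * y * D.val.trace + y ^ 2 * D.val.det = 0 := by
    rw [← hdet, Matrix.trace_fin_two, Matrix.det_fin_two, Matrix.det_fin_two]
    simp
    ring
  by_cases hy : y = 0
  · subst hy
    have hx : x = 0 := by simpa using e
    exact h0 (by simp [hx])
  · refine hD.2 ⟨2 * x / y + D.val.trace, ?_⟩
    field_simp
    linear_combination -4 * e

theorem CycGen.commute_map {δ : GL (Fin 2) F} {g : GL (Fin 2) E}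
    (hg : Commute g (GeneralLinearGroup.map i δ)) : Commute (tmap τ g) (GeneralLinearGroup.map i δ) := by
  have e : tmap τ (GeneralLinearGroup.map i δ) = GeneralLinearGroup.map i δ :=
    Units.ext (Matrix.ext fun p q => h.fixed _)
  simpa only [e] using hg.map (tmap τ)

theorem CycGen.commute_twNorm {δ : GL (Fin 2) F} {g : GL (Fin 2) E}
    (hg : Commute g (GeneralLinearGroup.map i δ)) (k : ℕ) :
    Commute (twNorm τ k g) (GeneralLinearGroup.map i δ) := by
  induction k with
  | zero => exact Commute.one_left _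
  | succ k ih => rw [twNorm_succ]; exact hg.mul_left (h.commute_map ih)

theorem CycGen.twNorm_mul {δ : GL (Fin 2) F} (hδ : EllElem (GeneralLinearGroup.map i δ))
    {g g' : GL (Fin 2) E} (hg : Commute g (GeneralLinearGroup.map i δ))
    (hg' : Commute g' (GeneralLinearGroup.map i δ)) (k : ℕ) :
    twNorm τ k (g * g') = twNorm τ k g * twNorm τ k g' := by
  induction k with
  | zero => simp [twNorm]
  | succ k ih =>
    rw [twNorm_succ, ih, map_mul, twNorm_succ, twNorm_succ, mul_assoc g g', ← mul_assoc g',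
      (commute_of_commute (ne_zero_of_ell hδ) hg' (h.commute_map (h.commute_twNorm hg k))).eq]
    simp only [mul_assoc]

theorem CycGen.ellElem_map {δ : GL (Fin 2) F} (hδ : EllElem δ) :
    EllElem (GeneralLinearGroup.map i δ) := by
  have e1 : (GeneralLinearGroup.map i δ).val.trace = i δ.val.trace := by
    simp [Matrix.trace_fin_two]
  have e2 : (GeneralLinearGroup.map i δ).val.det = i δ.val.det := by
    simp [Matrix.det_fin_two]
  refine ⟨by rw [e1]; exact (map_ne_zero i).2 hδ.1, fun hs => hδ.2 (h.isSquare_of_map ?_)⟩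
  rw [e1, e2] at hs
  simpa [map_sub, map_mul, map_pow, map_ofNat] using hs

/-- A preimage of a norm commutes with it. -/
theorem CycGen.commute_preimage {δ : GL (Fin 2) F} (hδ : EllElem δ) {γ : GL (Fin 2) E} {a : Eˣ}
    (hγ : twNorm τ n γ = sc a * GeneralLinearGroup.map i δ) :
    τ (a : E) = a ∧ Commute γ (GeneralLinearGroup.map i δ) := by
  set D := GeneralLinearGroup.map i δ with hD
  have e : tmap τ D = D := Units.ext (Matrix.ext fun p q => h.fixed _)
  have e1 := h.tmap_twNorm γ
  rw [hγ, map_mul, tmap_sc, e] at e1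
  have e2 : γ⁻¹ * (sc a * D) * γ = sc a * (γ⁻¹ * D * γ⁻¹⁻¹) := by
    rw [inv_inv, ← mul_assoc γ⁻¹, ← (sc_comm a γ⁻¹).eq]
    simp only [mul_assoc]
  rw [e2] at e1
  have e3 := congrArg (fun g : GL (Fin 2) E => g.val.trace) e1
  rw [trace_sc_mul, trace_sc_mul, trace_conj'] at e3
  have hta : τ (a : E) = a := mul_right_cancel₀ (h.ellElem_map hδ).1 e3
  refine ⟨hta, ?_⟩
  rw [show Units.map τ.toMonoidHom a = a from Units.ext hta] at e1
  have e4 := mul_left_cancel e1
  rw [inv_inv] at e4
  show γ * D = D * γ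
  conv_lhs => rw [e4]
  simp [mul_assoc]

/-- Hilbert's theorem 90 on the centraliser. -/
theorem CycGen.exists_h90 {D : GL (Fin 2) E} (hD : EllElem D) (hτD : tmap τ D = D)
    {y : GL (Fin 2) E} (hy : Commute y D) (hN : twNorm τ n y = 1) :
    ∃ w : GL (Fin 2) E, y * tmap τ w = w ∧ Commute w D ∧
      ∀ X : GL (Fin 2) E, (∀ k, Commute X (twNorm τ k y)) → Commute X w := by
  have hn : 0 < n := h.odd.pos
  let W : E → M2 E := fun θ => ∑ k ∈ Finset.range n, τ^[k] θ • (twNorm τ k y).val
  have hWy : ∀ θ, y.val * (W θ).map τ = W θ := by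
    intro θ
    have e : (W θ).map τ = ∑ k ∈ Finset.range n, τ^[k + 1] θ • (tmap τ (twNorm τ k y)).val := by
      show τ.mapMatrix (W θ) = _
      simp only [W, map_sum]
      refine Finset.sum_congr rfl fun k _ => ?_
      ext p q
      simp [Function.iterate_succ_apply']
    rw [e, Finset.mul_sum]
    simp only [Matrix.mul_smul, ← Units.val_mul, ← twNorm_succ]
    have key := (Finset.sum_range_succ' (fun k => τ^[k] θ • (twNorm τ k y).val) n).symm.trans
      (Finset.sum_range_succ (fun k => τ^[k] θ • (twNorm τ k y).val) n)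
    rw [h.pow, hN, Units.val_one] at key
    simp only [Function.iterate_zero_apply, twNorm, Units.val_one] at key
    exact add_right_cancel key
  have hne : ∃ θ, W θ ≠ 0 := by
    by_contra hall
    push Not at hall
    let f : Fin n → (E →* E) := fun k => ((τ ^ (k : ℕ) : E →+* E)).toMonoidHom
    have hf : ∀ (k : Fin n) (x : E), f k x = τ^[(k : ℕ)] x := fun k x => by
      simp [f, RingHom.coe_pow]
    have hinj : Function.Injective f := by
      intro a b hab
      by_contra hne
      wlog hlt : (a : ℕ) < (b : ℕ) generalizing a b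
      · exact this hab.symm (Ne.symm hne) (lt_of_le_of_ne (not_lt.1 hlt) fun e => hne (Fin.ext e.symm))
      obtain ⟨x, hx⟩ := h.ne ((b : ℕ) - a) (by omega) (by omega)
      refine hx (Function.Injective.iterate τ.injective a ?_)
      rw [← Function.iterate_add_apply, Nat.add_sub_cancel' hlt.le, ← hf, ← hf, hab]
    have hli := (linearIndependent_monoidHom E E).comp f hinj
    rw [Fintype.linearIndependent_iff] at hli
    have h0 := hli (fun k => (twNorm τ (k : ℕ) y).val 0 0) (funext fun θ => by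
      have h1 : W θ 0 0 = 0 := by rw [hall θ]; rfl
      simp only [W, Matrix.sum_apply, Matrix.smul_apply] at h1
      rw [Finset.sum_apply]
      simp only [Pi.smul_apply, Function.comp_apply, smul_eq_mul, hf, Pi.zero_apply]
      rw [Finset.sum_fin_eq_sum_range]
      refine Eq.trans (Finset.sum_congr rfl fun k hk => ?_) h1
      rw [dif_pos (Finset.mem_range.1 hk), smul_eq_mul, mul_comm]) ⟨0, hn⟩
    simp [twNorm] at h0
  obtain ⟨θ, hθ⟩ := hne
  have hc : ∀ X : GL (Fin 2) E, (∀ k, Commute X (twNorm τ k y)) → Commute X.val (W θ) := fun X hX =>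
    Commute.sum_right _ _ _ fun k _ => Commute.smul_right (congrArg Units.val (hX k).eq :) _
  have hwD : Commute (W θ) D.val := (hc D fun k => ?_).symm
  · have hdet := det_ne_zero_of_commute hD hwD hθ
    refine ⟨GeneralLinearGroup.mkOfDetNeZero (W θ) hdet, Units.ext (hWy θ), Units.ext hwD.eq,
      fun X hX => Units.ext (hc X hX).eq⟩
  · have hD' : ∀ k, Commute (twNorm τ k y) D := by
      intro k
      induction k with
      | zero => exact Commute.one_left _
      | succ k ih =>
        rw [twNorm_succ]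
        refine hy.mul_left ?_
        have h2 := ih.map (tmap τ)
        rwa [hτD] at h2
    exact (hD' k).symm

omit h in
theorem CycGen.tmap_map (h : CycGen i τ n) (δ : GL (Fin 2) F) :
    tmap τ (GeneralLinearGroup.map i δ) = GeneralLinearGroup.map i δ :=
  Units.ext (Matrix.ext fun p q => h.fixed _)

omit h in
theorem map_injective_GL {g g' : GL (Fin 2) F}
    (e : GeneralLinearGroup.map i g = GeneralLinearGroup.map i g') : g = g' :=
  Units.ext (Matrix.ext fun p q => i.injective (congrArg (fun M : GL (Fin 2) E => (M : M2 E) p q) e))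

/-- Elements with the same norm up to scalars and conjugation are twisted conjugate up to scalars. -/
theorem CycGen.exists_twConj {δ : GL (Fin 2) F} (hδ : EllElem δ) {γ γ' : GL (Fin 2) E} {a a' : Eˣ}
    (hγ : twNorm τ n γ = sc a * GeneralLinearGroup.map i δ)
    (hγ' : twNorm τ n γ' = sc a' * GeneralLinearGroup.map i δ) :
    ∃ (w : GL (Fin 2) E) (e : Eˣ), γ' = w * γ * (tmap τ w)⁻¹ * sc e := by
  set D := GeneralLinearGroup.map i δ with hDdef
  have hD : EllElem D := h.ellElem_map hδ
  obtain ⟨ha, hcγ⟩ := h.commute_preimage hδ hγ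
  obtain ⟨ha', hcγ'⟩ := h.commute_preimage hδ hγ'
  set z := γ⁻¹ * γ' with hz
  have hcz : Commute z D := hcγ.inv_left.mul_left hcγ'
  set b := a⁻¹ * a' with hb
  have hNz : twNorm τ n z = sc b := by
    have e1 := h.twNorm_mul hD hcγ hcz n
    rw [hz, mul_inv_cancel_left, hγ', hγ, ← hz] at e1
    rw [hb, sc_mul, sc_inv]
    calc twNorm τ n z = (sc a * D)⁻¹ * (sc a * D * twNorm τ n z) := by rw [inv_mul_cancel_left]
      _ = (sc a * D)⁻¹ * (sc a' * D) := by rw [← e1]
      _ = (sc a)⁻¹ * sc a' := by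
        rw [(sc_comm a D).eq, (sc_comm a' D).eq, _root_.mul_inv_rev, mul_assoc, inv_mul_cancel_left]
  have hbfix : τ (b : E) = b := by
    rw [hb, Units.val_mul, map_mul, Units.val_inv_eq_inv_val, map_inv₀, ha, ha']
  have hdet : nrm τ n (GeneralLinearGroup.det z) = b ^ 2 := by
    rw [← det_twNorm, hNz]
    refine Units.ext ?_
    show (sc b).val.det = _
    rw [coe_sc, Matrix.det_smul, Matrix.det_one, mul_one, Fintype.card_fin, Units.val_pow_eq_pow_val]
  obtain ⟨m, hm⟩ := h.odd
  set e : Eˣ := b * (GeneralLinearGroup.det z ^ m)⁻¹ with he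
  have hne : nrm τ n e = b := by
    rw [he, nrm_mul, nrm_inv, nrm_pow, hdet, nrm_fixed n hbfix, ← pow_mul, mul_inv_eq_iff_eq_mul,
      ← pow_succ', hm]
  set y := z * sc e⁻¹ with hy
  have hcy : Commute y D := hcz.mul_left (sc_comm _ _)
  have hNy : twNorm τ n y = 1 := by
    rw [hy, twNorm_mul_sc, hNz, nrm_inv, hne, ← sc_mul, mul_inv_cancel, sc_one]
  obtain ⟨w, hw, hwD, -⟩ := h.exists_h90 hD (CycGen.tmap_map h δ) hcy hNy
  refine ⟨w, e, ?_⟩
  have hzy : z = y * sc e := by
    rw [hy, mul_assoc, ← sc_mul, inv_mul_cancel, sc_one, mul_one]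
  have hyw : y = w * (tmap τ w)⁻¹ := eq_mul_inv_of_mul_eq hw
  rw [(commute_of_commute (ne_zero_of_ell hD) hwD hcγ).eq, mul_assoc γ, ← hyw, mul_assoc, ← hzy,
    hz, mul_inv_cancel_left]

/-- The twisted centraliser of a class is the centraliser over the small field times the centre. -/
theorem CycGen.exists_centraliser {δ : GL (Fin 2) F} (hδ : EllElem δ) {γ g : GL (Fin 2) E} {a e : Eˣ}
    (hγ : twNorm τ n γ = sc a * GeneralLinearGroup.map i δ)
    (hg : g * γ * (tmap τ g)⁻¹ = γ * sc e) :
    ∃ (ξ : GL (Fin 2) F) (u : Eˣ), Commute ξ δ ∧ g = GeneralLinearGroup.map i ξ * sc u := by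
  set D := GeneralLinearGroup.map i δ with hDdef
  have hD : EllElem D := h.ellElem_map hδ
  obtain ⟨-, hcγ⟩ := h.commute_preimage hδ hγ
  have e1 := congrArg (twNorm τ n) hg
  rw [h.twNorm_twConj', twNorm_mul_sc, hγ] at e1
  have e2 : g * (sc a * D) * g⁻¹ = sc a * (g * D * g⁻¹) := by
    rw [← mul_assoc g, ← (sc_comm a g).eq]
    simp only [mul_assoc]
  rw [e2, mul_assoc (sc a) D] at e1
  have e3 := mul_left_cancel e1
  have e4 := congrArg (fun M : GL (Fin 2) E => M.val.trace) e3
  rw [trace_conj', ← (sc_comm (nrm τ n e) D).eq, trace_sc_mul] at e4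
  have hNe : nrm τ n e = 1 := Units.ext (mul_right_cancel₀ hD.1 (by rw [← e4, Units.val_one, one_mul]))
  rw [hNe, sc_one, mul_one, mul_inv_eq_iff_eq_mul] at e3
  have hcg : Commute g D := e3
  rw [(commute_of_commute (ne_zero_of_ell hD) hcg hcγ).eq, mul_assoc, mul_left_cancel_iff] at hg
  obtain ⟨w, hw, -, hcen⟩ := h.exists_h90 hD (CycGen.tmap_map h δ) (sc_comm e D)
    (by rw [twNorm_sc, hNe, sc_one])
  obtain ⟨u, hu⟩ : ∃ u : Eˣ, sc u = w := by
    have hc : w ∈ Subgroup.center (GL (Fin 2) E) := Subgroup.mem_center_iff.2 fun X =>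
      (hcen X fun k => by rw [twNorm_sc]; exact (sc_comm _ X).symm).eq
    rw [GeneralLinearGroup.center_eq_range_scalar] at hc
    exact hc
  set g' := g * sc u⁻¹ with hg'
  have hfix : tmap τ g' = g' := by
    have h1 : tmap τ g = (sc e)⁻¹ * g := by
      rw [← hg]
      group
    have h2 : tmap τ (sc u⁻¹) = sc u⁻¹ * sc e := by
      subst hu
      rw [sc_inv, map_inv]
      have hw' : tmap τ (sc u) = (sc e)⁻¹ * sc u := eq_inv_mul_of_mul_eq hw
      rw [hw', _root_.mul_inv_rev, inv_inv]
    rw [hg', map_mul, h1, h2, mul_assoc, ← mul_assoc g, ← (sc_comm e (g * sc u⁻¹)).eq,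
      inv_mul_cancel_left]
  have hent : ∀ p q, ∃ y, i y = (g' : M2 E) p q := fun p q =>
    h.fix _ (congrArg (fun M : GL (Fin 2) E => (M : M2 E) p q) hfix)
  choose X hX using hent
  have hmap : (Matrix.of X).map i = g'.val := Matrix.ext hX
  have hXdet : (Matrix.of X).det ≠ 0 := fun h0 => (GeneralLinearGroup.det g').ne_zero (by
    show g'.val.det = 0
    rw [← hmap]
    show (i.mapMatrix (Matrix.of X)).det = 0
    rw [← RingHom.map_det, h0, map_zero])
  set ξ := GeneralLinearGroup.mkOfDetNeZero (Matrix.of X) hXdet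
  have hξ : GeneralLinearGroup.map i ξ = g' := Units.ext hmap
  have hcξ : Commute (GeneralLinearGroup.map i ξ) D := by
    rw [hξ]; exact hcg.mul_left (sc_comm _ _)
  refine ⟨ξ, u, map_injective_GL (i := i) ?_, ?_⟩
  · rw [map_mul, map_mul]; exact hcξ.eq
  · rw [hξ, hg', mul_assoc, ← sc_mul, inv_mul_cancel, sc_one, mul_one]

end FLTAgent.LT.Ell
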