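import Fermat.Agent.LT.TF.Aleph.Prime
import Fermat.Agent.LT.TF.EllipticAlg
import Fermat.Agent.LT.ThetaM.Dihedral
import Fermat.Agent.LT.Asai.Places

/-!
The arithmetic of `M/K` consumed by the descent: the cyclic generator, the places of `K` split in
`M` with their eigenvalue, and a place with eigenvalue zero.
-/

set_option autoImplicit false
set_option linter.unusedSectionVars false
set_option linter.style.haveILetI false
set_option synthInstance.maxHeartbeats 400000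

noncomputable section

namespace FLTAgent.LT.Descent

open NumberField IsDedekindDomain
open scoped Pointwise

local notation "M3" => Matrix (Fin 2) (Fin 2) (ZMod 3)

local instance : IsGalois ℚ Qb := Octa.isGalois_Qb

variable (d : Octa)

/-! ### The extension -/

theorem Kf_le_Mf : d.Kf ≤ d.Mf := fun _ hx s => hx ⟨s, Aleph.GM_le_GK d s.2⟩

/-- The inclusion of `K` in `M`. -/
def iKM : d.Kf →+* d.Mf := (IntermediateField.inclusion (Kf_le_Mf d)).toRingHom

theorem coe_iKM (x : d.Kf) : ((iKM d x : d.Mf) : Qb) = x := rfl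

/-- An automorphism over it. -/
def tauQ : Gam := (d.surj g3H).choose

theorem rbar_tauQ : d.rbar (tauQ d) = g3H := (d.surj g3H).choose_spec

theorem tauQ_mem_GK : tauQ d ∈ d.GK := by
  show Matrix.GeneralLinearGroup.det (d.rbar (tauQ d)) = 1
  rw [rbar_tauQ]
  exact Units.ext (by decide)

theorem mem_GM {σ : Gam} : σ ∈ d.GM ↔ (d.rbar σ : M3) = 1 ∨ (d.rbar σ : M3) = -1 ∨
    ((d.rbar σ : M3).det = 1 ∧ (d.rbar σ : M3) * (d.rbar σ : M3) = -1) :=
  Aleph.mem_quat_iff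

theorem GM_normal : d.GM.Normal := Aleph.normal_quat.comap _

theorem tauQ_pow_not_mem {k : ℕ} (h0 : 0 < k) (h3 : k < 3) : tauQ d ^ k ∉ d.GM := by
  rw [mem_GM, map_pow, rbar_tauQ]
  interval_cases k <;> decide

theorem tauQ_cube_mem : tauQ d ^ 3 ∈ d.GM := by
  rw [mem_GM, map_pow, rbar_tauQ]
  exact Or.inl (by decide)

/-- `G_K` is covered by three cosets of `G_M`. -/
theorem exists_pow_of_mem_GK {σ : Gam} (hσ : σ ∈ d.GK) :
    ∃ k : Fin 3, σ * (tauQ d ^ (k : ℕ))⁻¹ ∈ d.GM := by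
  have key : ∀ g : M3, g.det = 1 → ∃ k : Fin 3,
      g * !![1, -1; 0, 1] ^ (k : ℕ) = 1 ∨ g * !![1, -1; 0, 1] ^ (k : ℕ) = -1 ∨
      ((g * !![1, -1; 0, 1] ^ (k : ℕ)).det = 1 ∧
        g * !![1, -1; 0, 1] ^ (k : ℕ) * (g * !![1, -1; 0, 1] ^ (k : ℕ)) = -1) := by
    decide +kernel
  have hd : (d.rbar σ : M3).det = 1 := by
    rw [← Matrix.GeneralLinearGroup.val_det_apply, show Matrix.GeneralLinearGroup.det (d.rbar σ) = 1
      from hσ, Units.val_one]
  obtain ⟨k, hk⟩ := key _ hd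
  refine ⟨k, (mem_GM d).2 ?_⟩
  rw [map_mul, map_inv, map_pow, rbar_tauQ, Units.val_mul, ← inv_pow, Units.val_pow_eq_pow_val]
  exact hk

theorem tauQ_mem_Mf {x : Qb} (hx : x ∈ d.Mf) : tauQ d x ∈ d.Mf := by
  intro s
  show (s : Gam) (tauQ d x) = tauQ d x
  have h : (tauQ d)⁻¹ * (s : Gam) * tauQ d ∈ d.GM := by
    simpa using (GM_normal d).conj_mem _ s.2 (tauQ d)⁻¹
  conv_rhs => rw [← hx ⟨_, h⟩]
  show _ = (tauQ d) (((tauQ d)⁻¹ * (s : Gam) * tauQ d) x)
  rw [← AlgEquiv.mul_apply, ← AlgEquiv.mul_apply]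
  congr 1
  group

/-- The generator of `Gal(M/K)`. -/
def tauM : d.Mf →+* d.Mf :=
  ((tauQ d : Qb →ₐ[ℚ] Qb).toRingHom.comp (algebraMap d.Mf Qb)).codRestrict d.Mf.toSubfield
    fun x => tauQ_mem_Mf d x.2

theorem coe_tauM (x : d.Mf) : ((tauM d x : d.Mf) : Qb) = tauQ d (x : Qb) := rfl

theorem coe_tauM_iterate (k : ℕ) (x : d.Mf) :
    (((tauM d)^[k] x : d.Mf) : Qb) = (tauQ d ^ k) (x : Qb) := by
  induction k with
  | zero => simp
  | succ k ih =>
    rw [Function.iterate_succ_apply', coe_tauM, ih, pow_succ', AlgEquiv.mul_apply]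

theorem cycGen : Ell.CycGen (iKM d) (tauM d) 3 where
  odd := ⟨1, rfl⟩
  pow x := Subtype.ext (by
    rw [coe_tauM_iterate]
    exact x.2 ⟨_, tauQ_cube_mem d⟩)
  ne k h0 h3 := by
    by_contra! h
    refine tauQ_pow_not_mem d h0 h3 ?_
    rw [← d.fixing_Mf, IntermediateField.mem_fixingSubgroup_iff]
    intro y hy
    simpa [coe_tauM_iterate] using congrArg Subtype.val (h ⟨y, hy⟩)
  fix x hx := by
    have hpow : ∀ k : ℕ, (tauQ d ^ k) (x : Qb) = x := fun k => by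
      rw [← coe_tauM_iterate, Function.iterate_fixed hx]
    refine ⟨⟨x, fun s => ?_⟩, Subtype.ext rfl⟩
    obtain ⟨k, hk⟩ := exists_pow_of_mem_GK d s.2
    show (s : Gam) (x : Qb) = x
    conv_lhs => rw [← hpow k, ← AlgEquiv.mul_apply,
      show (s : Gam) * tauQ d ^ (k : ℕ) =
        (s : Gam) * (tauQ d ^ (k : ℕ))⁻¹ * (tauQ d ^ (k : ℕ) * tauQ d ^ (k : ℕ)) by group,
      AlgEquiv.mul_apply, ← pow_add, hpow]
    exact x.2 ⟨_, hk⟩
  fixed y := Subtype.ext (y.2 ⟨_, tauQ_mem_GK d⟩)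

instance isTotallyComplex_Kf : IsTotallyComplex d.Kf := Asai.isTotallyComplex_Kf d

instance isTotallyComplex_Mf : IsTotallyComplex d.Mf := (Aleph.between_Mf d).isTotallyComplex

theorem card_places_Kf : Fintype.card (InfinitePlace d.Kf) = 1 := by
  haveI := Asai.subsingleton_places d
  exact le_antisymm (Fintype.card_le_one_iff_subsingleton.2 this) Fintype.card_pos

theorem card_places_Mf : Fintype.card (InfinitePlace d.Mf) = 3 := by
  classical
  have h1 : InfinitePlace.nrRealPlaces d.Mf = 0 := IsTotallyComplex.nrRealPlaces_eq_zero (K := d.Mf)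
  have h2 := InfinitePlace.card_add_two_mul_card_eq_rank d.Mf
  have h3 := InfinitePlace.card_eq_nrRealPlaces_add_nrComplexPlaces d.Mf
  rw [Aleph.finrank_Mf] at h2
  omega

theorem exists_cubeRoot : ∃ z : d.Kf, IsPrimitiveRoot z 3 := ⟨_, Asai.zK_spec d⟩

/-! ### The split places -/

/-- `A` over `p` induces `v`, and the Frobenius of `v` is the power `σ^f` in `G_M`. -/
structure SplitData (v : HeightOneSpectrum (𝓞 d.Kf)) (p : ℕ) (A : ValuationSubring Qb) (σ : Gam)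
    (f : ℕ) : Prop where
  prime : p.Prime
  lies : A.LiesOverPrime p
  induces : ∀ x : 𝓞 d.Kf, x ∈ v.asIdeal ↔ ((x : d.Kf) : Qb) ∈ A.nonunits
  frob : A.IsFrobeniusAt σ p
  card : Nat.card (𝓞 d.Kf ⧸ v.asIdeal) = p ^ f
  mem : σ ^ f ∈ d.GM

/-- The good places of `K` split in `M`. -/
def SplitGood (N : ℕ) (v : HeightOneSpectrum (𝓞 d.Kf)) : Prop :=
  (N : 𝓞 d.Kf) ∉ v.asIdeal ∧ ∃ p A σ f, SplitData d v p A σ f

open scoped Classical in
/-- The eigenvalue at a split place. -/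
def cOf (v : HeightOneSpectrum (𝓞 d.Kf)) : ℝ :=
  if h : ∃ p A σ f, SplitData d v p A σ f then
    Real.sqrt ((h.choose : ℝ) ^ h.choose_spec.choose_spec.choose_spec.choose) *
      (d.tr0 (h.choose_spec.choose_spec.choose ^
        h.choose_spec.choose_spec.choose_spec.choose)).re
  else 0

variable {d} {v : HeightOneSpectrum (𝓞 d.Kf)} {p : ℕ} {A : ValuationSubring Qb} {σ : Gam}
  {f N : ℕ}

theorem SplitData.natCast_mem (h : SplitData d v p A σ f) : (p : 𝓞 d.Kf) ∈ v.asIdeal := by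
  rw [h.induces]
  simpa [ValuationSubring.LiesOverPrime] using h.lies

theorem SplitData.eq_placeIn (h : SplitData d v p A σ f) :
    v = TW.placeIn d.Kf A h.prime h.lies :=
  HeightOneSpectrum.ext (Ideal.ext fun x => (h.induces x).trans Iff.rfl)

theorem SplitData.not_dvd (h : SplitData d v p A σ f) (hN : (N : 𝓞 d.Kf) ∉ v.asIdeal) :
    ¬ p ∣ N := fun hd => hN (by
  obtain ⟨c, rfl⟩ := hd
  rw [Nat.cast_mul]
  exact v.asIdeal.mul_mem_right _ h.natCast_mem)

theorem rbar_eq (hI : ∀ ι ∈ A.inertiaSubgroupIn ℚ, d.rbar ι = 1) (hp : 0 < p) {σ' : Gam}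
    (h : A.IsFrobeniusAt σ p) (h' : A.IsFrobeniusAt σ' p) : d.rbar σ = d.rbar σ' :=
by
  have := hI _ (Frobenius.inv_mul_mem_inertiaSubgroupIn hp h h')
  rwa [map_mul, map_inv, inv_mul_eq_one] at this

theorem tr0_conj (g s : Gam) : d.tr0 (g * s * g⁻¹) = d.tr0 s := by
  rw [Asai.tr0_eq, Asai.tr0_eq]
  congr 1
  rw [map_mul, map_mul, map_inv, Asai.liftMat_mul, Asai.liftMat_mul, Matrix.trace_mul_comm,
    ← mul_assoc, ← Asai.liftMat_mul, inv_mul_cancel, Asai.liftMat_one, one_mul]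

theorem tr0_congr {s s' : Gam} (h : d.rbar s = d.rbar s') : d.tr0 s = d.tr0 s' := by
  rw [Octa.tr0, Octa.tr0, h]

/-- Two descriptions of a good split place give the same Frobenius class. -/
theorem SplitData.compare (hN : d.Good N) (hv : (N : 𝓞 d.Kf) ∉ v.asIdeal)
    (h : SplitData d v p A σ f) {q : ℕ} {B : ValuationSubring Qb} {s : Gam} (hq : q.Prime)
    (hB : B.LiesOverPrime q) (hBv : ∀ x : 𝓞 d.Kf, x ∈ v.asIdeal ↔ ((x : d.Kf) : Qb) ∈ B.nonunits)
    (hs : B.IsFrobeniusAt s q) {e : ℕ} (he : Nat.card (𝓞 d.Kf ⧸ v.asIdeal) = q ^ e) :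
    q = p ∧ e = f ∧ ∃ g ∈ d.GK, g • A = B ∧ d.rbar (s ^ e) = d.rbar (g * σ ^ f * g⁻¹) := by
  have hpq : q = p := by
    by_contra hne
    have hqm : (q : 𝓞 d.Kf) ∈ v.asIdeal := by
      rw [hBv]; simpa [ValuationSubring.LiesOverPrime] using hB
    exact Asai.natCast_notMem_of_coprime ((Nat.coprime_primes hq h.prime).2 hne) hqm h.natCast_mem
  subst hpq
  have hef : e = f := Nat.pow_right_injective hq.two_le (he.symm.trans h.card)
  subst hef
  have hc : Frobenius.centreIn d.Kf A = Frobenius.centreIn d.Kf B :=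
    Ideal.ext fun x => ((h.induces x).symm.trans (hBv x))
  obtain ⟨g, hg, hgB⟩ := TW.exists_fix_smul_eq d.Kf hc
  rw [d.fixing_Kf] at hg
  refine ⟨rfl, rfl, g, hg, hgB, ?_⟩
  have hfr := Frobenius.isFrobeniusAt_conj hq.pos h.frob g
  rw [hgB] at hfr
  rw [← conj_pow, map_pow, map_pow,
    rbar_eq (fun ι hι => hN.2.2 q hq (h.not_dvd hv) B hB ι hι) hq.pos hs hfr]

theorem SplitData.mem_of_frobenius (hN : d.Good N) (hv : (N : 𝓞 d.Kf) ∉ v.asIdeal)
    (h : SplitData d v p A σ f) {q : ℕ} {B : ValuationSubring Qb} {s : Gam} (hq : q.Prime)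
    (hB : B.LiesOverPrime q) (hBv : ∀ x : 𝓞 d.Kf, x ∈ v.asIdeal ↔ ((x : d.Kf) : Qb) ∈ B.nonunits)
    (hs : B.IsFrobeniusAt s q) {e : ℕ} (he : Nat.card (𝓞 d.Kf ⧸ v.asIdeal) = q ^ e) :
    SplitData d v q B s e := by
  obtain ⟨-, -, g, -, -, hr⟩ := h.compare hN hv hq hB hBv hs he
  refine ⟨hq, hB, hBv, hs, he, ?_⟩
  show d.rbar (s ^ e) ∈ Octa.quat
  rw [hr, map_mul, map_mul, map_inv]
  exact Aleph.normal_quat.conj_mem _ h.mem _

/-- The eigenvalue from any description. -/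
theorem SplitData.cOf_eq (hN : d.Good N) (hv : (N : 𝓞 d.Kf) ∉ v.asIdeal)
    (h : SplitData d v p A σ f) :
    (cOf d v : ℂ) = (Real.sqrt ((p : ℝ) ^ f) : ℂ) * d.tr0 (σ ^ f) := by
  have hex : ∃ p A σ f, SplitData d v p A σ f := ⟨p, A, σ, f, h⟩
  rw [cOf, dif_pos hex]
  set p' := hex.choose
  set σ' := hex.choose_spec.choose_spec.choose
  set f' := hex.choose_spec.choose_spec.choose_spec.choose
  have h' : SplitData d v p' hex.choose_spec.choose σ' f' :=
    hex.choose_spec.choose_spec.choose_spec.choose_spec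
  obtain ⟨e1, e2, g, -, -, hr⟩ :=
    h'.compare hN hv h.prime h.lies h.induces h.frob h.card
  obtain ⟨t, ht, -, -⟩ := Asai.tr0_of_mem_quat d (σ := σ' ^ f') h'.mem
  rw [tr0_congr hr, tr0_conj, e1, e2, ht]
  simp [p']

/-- The three places above a split place. -/
def wAbove (h : SplitData d v p A σ f) (k : Fin 3) : HeightOneSpectrum (𝓞 d.Mf) :=
  TW.placeIn d.Mf (tauQ d ^ (k : ℕ) • A) h.prime (Frobenius.liesOverPrime_smul h.lies _)

theorem placeBelow_placeIn_iKM {l : ℕ} {B : ValuationSubring Qb} (hl : l.Prime)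
    (hB : B.LiesOverPrime l) :
    placeBelow (iKM d) (TW.placeIn d.Mf B hl hB) = TW.placeIn d.Kf B hl hB :=
  HeightOneSpectrum.ext (Ideal.ext fun _ => Iff.rfl)

theorem placeBelow_placeIn_tauM {l : ℕ} {B : ValuationSubring Qb} (hl : l.Prime)
    (hB : B.LiesOverPrime l) :
    placeBelow (tauM d) (TW.placeIn d.Mf B hl hB) =
      TW.placeIn d.Mf ((tauQ d)⁻¹ • B) hl (Frobenius.liesOverPrime_smul hB _) := by
  refine HeightOneSpectrum.ext (Ideal.ext fun x => ?_)
  show (tauQ d ((x : d.Mf) : Qb) ∈ B.nonunits) ↔ ((x : d.Mf) : Qb) ∈ ((tauQ d)⁻¹ • B).nonunits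
  rw [ValuationSubring.mem_nonunits_iff_or, ValuationSubring.mem_nonunits_iff_or,
    ValuationSubring.mem_pointwise_smul_iff_inv_smul_mem, inv_inv, smul_inv'', AlgEquiv.smul_def,
    map_eq_zero]

theorem placeIn_congr {l : ℕ} {B C : ValuationSubring Qb} {hl : l.Prime} {hB : B.LiesOverPrime l}
    {hC : C.LiesOverPrime l} (F : IntermediateField ℚ Qb) [FiniteDimensional ℚ F] {s : Gam}
    (hs : s ∈ F.fixingSubgroup) (e : s • B = C) : TW.placeIn F C hl hC = TW.placeIn F B hl hB := by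
  subst e
  exact TW.placeIn_smul_fix hs

theorem SplitData.decomposition_le (hN : d.Good N) (hv : (N : 𝓞 d.Kf) ∉ v.asIdeal)
    (h : SplitData d v p A σ f) {g : Gam} (hg : g ∈ A.decompositionSubgroup ℚ) (hgK : g ∈ d.GK) :
    g ∈ d.GM := by
  have hI := hN.2.2 p h.prime (h.not_dvd hv) A h.lies
  obtain ⟨hFfix, hFfd⟩ := Octa.fixing_of_open (show IsOpen (d.rbar.ker : Set Gam) from
    d.isOpen_comap ⊥)
  set F := IntermediateField.fixedField d.rbar.ker
  haveI : FiniteDimensional ℚ (d.Kf ⊔ F : IntermediateField ℚ Qb) :=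
    IntermediateField.finiteDimensional_sup _ _
  set L := IntermediateField.normalClosure ℚ (d.Kf ⊔ F : IntermediateField ℚ Qb) Qb
  haveI : FiniteDimensional ℚ L := normalClosure.is_finiteDimensional ℚ _ Qb
  haveI : Normal ℚ L := normalClosure.normal ℚ _ Qb
  have hle : d.Kf ⊔ F ≤ L := IntermediateField.le_normalClosure _
  have hτ : A.IsFrobeniusAt (σ ^ f)
      (Nat.card (𝓞 d.Kf ⧸ (TW.placeIn d.Kf A h.prime h.lies).asIdeal)) := by
    rw [← h.eq_placeIn, h.card]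
    exact ThetaM.isFrobeniusAt_pow h.prime.pos h.frob f
  obtain ⟨m, ι, hι, -, hgι⟩ := Recip.exists_pow_mul_inertia h.prime h.lies hτ
    (by rw [d.fixing_Kf]; exact Aleph.GM_le_GK d h.mem) L (le_sup_left.trans hle) hg
    (by rw [d.fixing_Kf]; exact hgK)
  have hker : ((σ ^ f) ^ m * ι)⁻¹ * g ∈ d.rbar.ker := by
    rw [← hFfix, IntermediateField.mem_fixingSubgroup_iff]
    intro x hx
    rw [AlgEquiv.mul_apply, hgι x (hle (le_sup_right (a := d.Kf) hx)), ← AlgEquiv.mul_apply,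
      inv_mul_cancel]
    rfl
  rw [MonoidHom.mem_ker, map_mul, map_inv, inv_mul_eq_one] at hker
  show d.rbar g ∈ Octa.quat
  rw [← hker, map_mul, map_pow, hI ι hι, mul_one]
  exact pow_mem (show d.rbar (σ ^ f) ∈ Octa.quat from h.mem) m

/-- The places above a good split place of `K`. -/
theorem SplitData.wAbove_spec (hN : d.Good N) (hv : (N : 𝓞 d.Kf) ∉ v.asIdeal)
    (h : SplitData d v p A σ f) :
    Function.Injective (wAbove h) ∧ (∀ k, placeBelow (iKM d) (wAbove h k) = v) ∧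
      (∀ u, placeBelow (iKM d) u = v → ∃ k, u = wAbove h k) ∧
      (∀ k, placeBelow (tauM d) (wAbove h (k + 1)) = wAbove h k) ∧
      (∀ k, Nat.card (𝓞 d.Mf ⧸ (wAbove h k).asIdeal) = p ^ f) ∧
      ∀ k, (N : 𝓞 d.Mf) ∉ (wAbove h k).asIdeal := by
  have hK : ∀ k : ℕ, tauQ d ^ k ∈ d.Kf.fixingSubgroup := fun k => by
    rw [d.fixing_Kf]; exact pow_mem (tauQ_mem_GK d) k
  have hbelow : ∀ k, placeBelow (iKM d) (wAbove h k) = v := fun k => by
    rw [wAbove, placeBelow_placeIn_iKM, TW.placeIn_smul_fix (hA := h.lies) (hK k), ← h.eq_placeIn]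
  refine ⟨fun a b hab => ?_, hbelow, fun u hu => ?_, fun k => ?_, fun k => ?_, fun k hm => hv ?_⟩
  · -- the decomposition group lies in `G_M`
    by_contra hne
    wlog hlt : (a : ℕ) < b generalizing a b
    · exact this b a hab.symm (Ne.symm hne) (lt_of_le_of_ne (not_lt.1 hlt)
        fun e => hne (Fin.ext e.symm))
    obtain ⟨s, hs, hsA⟩ := TW.exists_fix_smul_eq d.Mf (congrArg HeightOneSpectrum.asIdeal hab)
    rw [d.fixing_Mf] at hs
    set g := (tauQ d ^ (b : ℕ))⁻¹ * s * tauQ d ^ (a : ℕ)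
    have hg : g ∈ A.decompositionSubgroup ℚ := MulAction.mem_stabilizer_iff.mpr (by
      rw [mul_smul, mul_smul, hsA, inv_smul_smul])
    have hgK : g ∈ d.GK := mul_mem (mul_mem (inv_mem (pow_mem (tauQ_mem_GK d) _))
      (Aleph.GM_le_GK d hs)) (pow_mem (tauQ_mem_GK d) _)
    have hgM := h.decomposition_le hN hv hg hgK
    have h1 := (GM_normal d).conj_mem _ hgM (tauQ d ^ (b : ℕ))
    have h2 : tauQ d ^ ((b : ℕ) - a) ∈ d.GM := by
      have e : (s⁻¹ * (s * (tauQ d ^ (b : ℕ) * g * (tauQ d ^ (b : ℕ))⁻¹)⁻¹) * s : Gam) =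
          tauQ d ^ ((b : ℕ) - a) := by
        rw [show tauQ d ^ ((b : ℕ) - a) = tauQ d ^ (b : ℕ) * (tauQ d ^ (a : ℕ))⁻¹ from
          eq_mul_inv_of_mul_eq (by rw [← pow_add]; congr 1; omega)]
        simp only [g]
        group
      rw [← e]
      exact mul_mem (mul_mem (inv_mem hs) (mul_mem hs (inv_mem h1))) hs
    exact tauQ_pow_not_mem d (by omega) (by omega) h2
  · obtain ⟨B, hB, rfl⟩ := TW.exists_placeIn d.Mf u h.prime (by
      have := h.natCast_mem
      rw [← hu] at this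
      show (p : 𝓞 d.Mf) ∈ u.asIdeal
      have h' : RingOfIntegers.mapRingHom (iKM d) (p : 𝓞 d.Kf) ∈ u.asIdeal := this
      rwa [map_natCast] at h')
    rw [placeBelow_placeIn_iKM] at hu
    obtain ⟨g, hg, hgB⟩ := TW.exists_fix_smul_eq d.Kf
      (congrArg HeightOneSpectrum.asIdeal (hu.trans h.eq_placeIn).symm)
    rw [d.fixing_Kf] at hg
    obtain ⟨k, hk⟩ := exists_pow_of_mem_GK d hg
    refine ⟨k, placeIn_congr d.Mf (by rw [d.fixing_Mf]; exact hk) ?_⟩
    rw [smul_smul, inv_mul_cancel_right, hgB]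
  · rw [wAbove, placeBelow_placeIn_tauM]
    fin_cases k
    · refine placeIn_congr d.Mf (s := 1) (one_mem _) ?_
      simp [smul_smul]
    · refine placeIn_congr d.Mf (s := 1) (one_mem _) ?_
      simp [smul_smul, pow_two]
    · refine placeIn_congr d.Mf (s := (tauQ d ^ 3)⁻¹)
        (by rw [d.fixing_Mf]; exact inv_mem (tauQ_cube_mem d)) ?_
      simp [smul_smul]
      group
  · set B := tauQ d ^ (k : ℕ) • A
    have hBv : TW.placeIn d.Kf B h.prime (Frobenius.liesOverPrime_smul h.lies _) = v := by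
      rw [TW.placeIn_smul_fix (hA := h.lies) (hK k), ← h.eq_placeIn]
    have hfr : B.IsFrobeniusAt (tauQ d ^ (k : ℕ) * σ ^ f * (tauQ d ^ (k : ℕ))⁻¹) (p ^ f) :=
      Frobenius.isFrobeniusAt_conj (pow_pos h.prime.pos f)
        (ThetaM.isFrobeniusAt_pow h.prime.pos h.frob f) _
    rw [wAbove, Recip.natCard_residue_eq (Kf_le_Mf d) h.prime
      (Frobenius.liesOverPrime_smul h.lies _) (by rw [hBv, h.card]; exact hfr)
      (by rw [d.fixing_Mf]; exact (GM_normal d).conj_mem _ h.mem _), hBv, h.card]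
  · rw [← hbelow k]
    show RingOfIntegers.mapRingHom (iKM d) (N : 𝓞 d.Kf) ∈ (wAbove h k).asIdeal
    rwa [map_natCast]

/-- The eigenvalue of a form of `ρ` on `M` at the places above. -/
theorem eigen_M (hN : d.Good N) (hv : SplitGood d N v) {φ : Form d.Mf}
    (he : EigenRho d d.Mf N φ) (u : HeightOneSpectrum (𝓞 d.Mf)) (hu : placeBelow (iKM d) u = v)
    (x : Xinf d.Mf) (g : GF d.Mf) : hecke u φ x g = (cOf d v : ℂ) * φ x g := by
  obtain ⟨hvN, p, A, σ, f, h⟩ := hv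
  obtain ⟨-, hbelow, hall, -, hcard, -⟩ := h.wAbove_spec hN hvN
  obtain ⟨k, rfl⟩ := hall u hu
  set B := tauQ d ^ (k : ℕ) • A
  set s := tauQ d ^ (k : ℕ) * σ * (tauQ d ^ (k : ℕ))⁻¹
  have hs : B.IsFrobeniusAt s p := Frobenius.isFrobeniusAt_conj h.prime.pos h.frob _
  have hBv : ∀ x : 𝓞 d.Kf, x ∈ v.asIdeal ↔ ((x : d.Kf) : Qb) ∈ B.nonunits := fun x => by
    have e := hbelow k
    rw [wAbove, placeBelow_placeIn_iKM] at e
    rw [← e]
    rfl
  have h' := h.mem_of_frobenius hN hvN h.prime (Frobenius.liesOverPrime_smul h.lies _) hBv hs h.card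
  rw [he p h.prime (h.not_dvd hvN) B h'.lies (wAbove h k) (fun _ => Iff.rfl) s hs f (hcard k)
    h'.mem x g, h'.cOf_eq hN hvN]

/-- The eigenvalues at the split places give `EigenRho` on `K`. -/
theorem eigenRho_K (hN : d.Good N) {ψ : Form d.Kf}
    (h : ∀ v, SplitGood d N v → ∀ x g, hecke v ψ x g = (cOf d v : ℂ) * ψ x g) :
    EigenRho d d.Kf N ψ := fun p hp hpN A hA v hAv σ hσ f hf hmem x g => by
  have hdata : SplitData d v p A σ f := ⟨hp, hA, hAv, hσ, hf, hmem⟩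
  have hv : (N : 𝓞 d.Kf) ∉ v.asIdeal :=
    Asai.natCast_notMem_of_coprime (hp.coprime_iff_not_dvd.2 hpN) hdata.natCast_mem
  rw [h v ⟨hv, p, A, σ, f, hdata⟩ x g, hdata.cOf_eq hN hv]

variable (d) in
/-- A good split place with eigenvalue zero outside any finite set. -/
theorem exists_damp (hN : d.Good N) (S : Finset (HeightOneSpectrum (𝓞 d.Kf))) :
    ∃ v, v ∉ S ∧ SplitGood d N v ∧ cOf d v = 0 := by
  classical
  obtain ⟨hFfix, hFfd⟩ := Octa.fixing_of_open (show IsOpen (d.rbar.ker : Set Gam) from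
    d.isOpen_comap ⊥)
  obtain ⟨s₀, hs₀⟩ := d.surj g3I
  obtain ⟨l, hl, hlS, A, hA, -, φ, hφ, hφσ⟩ := Chebotarev.exists_frobenius_eqOn
    (IntermediateField.fixedField d.rbar.ker) s₀
    (N.primeFactors ∪ S.biUnion fun P => (Ideal.absNorm P.asIdeal).primeFactors)
  have hφI : d.rbar φ = g3I := by
    have hmem : s₀⁻¹ * φ ∈ d.rbar.ker := by
      rw [← hFfix, IntermediateField.mem_fixingSubgroup_iff]
      intro x hx
      rw [AlgEquiv.mul_apply, hφσ x hx]
      exact s₀.symm_apply_apply x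
    rw [MonoidHom.mem_ker, map_mul, map_inv, inv_mul_eq_one, hs₀] at hmem
    exact hmem.symm
  have hφM : φ ∈ d.GM := by
    rw [mem_GM, hφI]
    exact Or.inr (Or.inr (by decide))
  have hnorm : Ideal.absNorm (TW.placeIn d.Kf A hl hA).asIdeal = l :=
    TW.NormChar.absNorm_eq_of_isDegreeOne (TW.NormChar.isDegreeOne_of_frobenius_mem hφ
      (by rw [d.fixing_Kf]; exact Aleph.GM_le_GK d hφM))
  set v := TW.placeIn d.Kf A hl hA
  have hdata : SplitData d v l A φ 1 := ⟨hl, hA, fun _ => Iff.rfl, hφ,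
    by rw [pow_one, ← Submodule.cardQuot_apply, ← Ideal.absNorm_apply, hnorm],
    by rwa [pow_one]⟩
  have hlN : ¬ l ∣ N := fun hd => hlS (Finset.mem_union_left _
    (Nat.mem_primeFactors.mpr ⟨hl, hd, hN.1.ne'⟩))
  have hv : (N : 𝓞 d.Kf) ∉ v.asIdeal :=
    Asai.natCast_notMem_of_coprime (hl.coprime_iff_not_dvd.2 hlN) hdata.natCast_mem
  refine ⟨v, fun hm => hlS (Finset.mem_union_right _ (Finset.mem_biUnion.mpr ⟨v, hm, by
    rw [hnorm, hl.primeFactors]
    exact Finset.mem_singleton_self l⟩)), ⟨hv, l, A, φ, 1, hdata⟩, ?_⟩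
  have h := hdata.cOf_eq hN hv
  rw [pow_one φ, Asai.tr0_eq, hφI, Asai.trace_liftMat_of_sq d (by decide), map_zero, mul_zero] at h
  exact_mod_cast h

end FLTAgent.LT.Descent
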