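import Fermat.Agent.LT.TF.Core
import Fermat.Agent.LT.TF.Setup
import Fermat.Agent.LT.TF.RegularForm
import Fermat.Agent.LT.TF.Match.Local
import Fermat.Agent.LT.TF.Match.Inf

/-!
The concrete data of the descent: the letters at the split places, the radial triples, the family of
the auxiliary prime, the damping place, and the two sides.
-/

set_option autoImplicit false
set_option linter.unusedSectionVars false
set_option linter.style.haveILetI false
set_option linter.deprecated false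
set_option synthInstance.maxHeartbeats 400000

noncomputable section

namespace FLTAgent.LT.Descent

open NumberField IsDedekindDomain MeasureTheory
open scoped ENNReal

variable (d : Octa)

theorem tauM_cube (x : d.Mf) : tauM d (tauM d (tauM d x)) = x := (cycGen d).pow x

/-! ### Letters -/

/-- The good split places of `K`. -/
def SplitPl (N : ℕ) : Type := {v : HeightOneSpectrum (𝓞 d.Kf) // SplitGood d N v}

/-- The letters: a split place and one of the places above it. -/
abbrev Letter (N : ℕ) : Type := SplitPl d N × Fin 3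

variable {d} {N : ℕ}

theorem SplitPl.exists_data (v : SplitPl d N) : ∃ p A σ f, SplitData d v.1 p A σ f := v.2.2

/-- A place above. -/
def SplitPl.up (v : SplitPl d N) (k : Fin 3) : HeightOneSpectrum (𝓞 d.Mf) :=
  wAbove v.exists_data.choose_spec.choose_spec.choose_spec.choose_spec k

theorem SplitPl.up_spec (hN : d.Good N) (v : SplitPl d N) :
    Function.Injective v.up ∧ (∀ k, placeBelow (iKM d) (v.up k) = v.1) ∧
      (∀ u, placeBelow (iKM d) u = v.1 → ∃ k, u = v.up k) ∧
      (∀ k, placeBelow (tauM d) (v.up (k + 1)) = v.up k) ∧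
      (∀ k, Nat.card (𝓞 d.Mf ⧸ (v.up k).asIdeal) = Nat.card (𝓞 d.Kf ⧸ v.1.asIdeal)) ∧
      ∀ k, (N : 𝓞 d.Mf) ∉ (v.up k).asIdeal := by
  set h := v.exists_data.choose_spec.choose_spec.choose_spec.choose_spec
  obtain ⟨h1, h2, h3, h4, h5, h6⟩ := h.wAbove_spec hN v.2.1
  exact ⟨h1, h2, h3, h4, fun k => (h5 k).trans h.card.symm, h6⟩

theorem SplitPl.placeBelow_tau_ne (hN : d.Good N) (v : SplitPl d N) (k : Fin 3) :
    placeBelow (tauM d) (v.up k) ≠ v.up k := by
  obtain ⟨hinj, -, -, hτ, -, -⟩ := v.up_spec hN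
  intro h
  obtain ⟨j, rfl⟩ : ∃ j, k = j + 1 := ⟨k - 1, (sub_add_cancel k 1).symm⟩
  rw [hτ j] at h
  exact absurd (hinj h) (by fin_cases j <;> decide)

/-! ### The auxiliary prime -/

/-- Over an auxiliary prime: one split place of `K` with eigenvalue zero, three above it. -/
theorem exists_alephPlace (hN : d.Good N) {p : ℕ} (h : Aleph.AlephPrime d N p) :
    ∃ v : SplitPl d N, cOf d v.1 = 0 ∧ (p : 𝓞 d.Kf) ∈ v.1.asIdeal ∧
      Aleph.Places N p v.up ∧ Aleph.Places N p fun _ : Fin 1 => v.1 := by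
  classical
  have hK := Aleph.between_Kf d
  have hM := Aleph.between_Mf d
  haveI := (Red.finite_natCast_mem (F := d.Kf) h.prime.pos).to_subtype
  haveI := (Red.finite_natCast_mem (F := d.Mf) h.prime.pos).to_subtype
  have hcK := hK.card_places h
  have hcM := hM.card_places h
  rw [Asai.finrank_Kf] at hcK
  rw [Aleph.finrank_Mf] at hcM
  obtain ⟨v, hv⟩ := Set.ncard_eq_one.1 (show {v : HeightOneSpectrum (𝓞 d.Kf) |
    (p : 𝓞 d.Kf) ∈ v.asIdeal}.ncard = 1 by omega)
  have hpv : (p : 𝓞 d.Kf) ∈ v.asIdeal := hv.ge (Set.mem_singleton v)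
  obtain ⟨A, hA, hAv⟩ := TW.exists_placeIn d.Kf v h.prime hpv
  obtain ⟨σ, hσ⟩ := Frobenius.exists_isFrobeniusAt h.prime hA
  obtain ⟨-, hsq, htr⟩ := h.facts hA hσ
  have hdata : SplitData d v p A σ 2 := ⟨h.prime, hA,
    by rw [← hAv]; exact fun x => TW.mem_placeIn, hσ, (hK.exists_valuation h v hpv).2, hsq⟩
  have hvN : (N : 𝓞 d.Kf) ∉ v.asIdeal :=
    Asai.natCast_notMem_of_coprime (h.prime.coprime_iff_not_dvd.2 h.coprime) hdata.natCast_mem
  set V : SplitPl d N := ⟨v, hvN, p, A, σ, 2, hdata⟩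
  have hc : cOf d v = 0 := by
    have := hdata.cOf_eq hN hvN
    rw [htr, mul_zero] at this
    exact_mod_cast this
  obtain ⟨hinj, hbelow, -, -, -, -⟩ := V.up_spec hN
  have hmem : ∀ k, (p : 𝓞 d.Mf) ∈ (V.up k).asIdeal := fun k => by
    have h' : (p : 𝓞 d.Kf) ∈ (placeBelow (iKM d) (V.up k)).asIdeal := by rw [hbelow k]; exact hpv
    have h'' : RingOfIntegers.mapRingHom (iKM d) (p : 𝓞 d.Kf) ∈ (V.up k).asIdeal := h'
    rwa [map_natCast] at h''
  let f : Fin 3 → {u : HeightOneSpectrum (𝓞 d.Mf) | (p : 𝓞 d.Mf) ∈ u.asIdeal} :=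
    fun k => ⟨V.up k, hmem k⟩
  have hf : Function.Bijective f := by
    refine (Nat.bijective_iff_injective_and_card f).2
      ⟨fun a b e => hinj (congrArg Subtype.val e), ?_⟩
    rw [Nat.card_coe_set_eq, Nat.card_eq_fintype_card, Fintype.card_fin]
    omega
  let g : Fin 1 → {u : HeightOneSpectrum (𝓞 d.Kf) | (p : 𝓞 d.Kf) ∈ u.asIdeal} :=
    fun _ => ⟨v, hpv⟩
  have hg : Function.Bijective g := by
    refine (Nat.bijective_iff_injective_and_card g).2 ⟨fun a b _ => Subsingleton.elim a b, ?_⟩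
    rw [Nat.card_coe_set_eq, Nat.card_eq_fintype_card, Fintype.card_fin]
    omega
  exact ⟨V, hc, hpv, hM.places h (Equiv.ofBijective f hf), hK.places h (Equiv.ofBijective g hg)⟩

/-- A symmetric bump with nonzero integral. -/
theorem exists_abelDatum : ∃ g : ℝ → ℝ, Hyp.AbelDatum g ∧ ∫ x, g x ≠ 0 := by
  let b : ContDiffBump (0 : ℝ) := ⟨1, 2, one_pos, by norm_num⟩
  refine ⟨b, ⟨b.contDiff, fun x => b.neg x, b.hasCompactSupport⟩, ?_⟩
  exact (b.integral_pos (μ := volume)).ne'

variable (d) in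
/-- The fixed choices at a level. -/
structure Choice (N : ℕ) where
  hN : d.Good N
  p : ℕ
  hp : Aleph.AlephPrime d N p
  vp : SplitPl d N
  vp_zero : cOf d vp.1 = 0
  vp_mem : (p : 𝓞 d.Kf) ∈ vp.1.asIdeal
  placesM : Aleph.Places N p vp.up
  placesK : Aleph.Places N p fun _ : Fin 1 => vp.1
  w0 : SplitPl d N
  w0_zero : cOf d w0.1 = 0
  w0_ne : w0 ≠ vp
  bump : ℝ → ℝ
  bump_abel : Hyp.AbelDatum bump
  bump_ne : ∫ x, bump x ≠ 0
  wM : Pt d.Mf N → ℝ≥0∞
  hwM : IsPtWeight wM
  wK : Pt d.Kf N → ℝ≥0∞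
  hwK : IsPtWeight wK

theorem exists_choice (hN : d.Good N) : Nonempty (Choice d N) := by
  obtain ⟨p, hp⟩ := Aleph.exists_alephPrime d hN
  obtain ⟨vp, h1, h2, h3, h4⟩ := exists_alephPlace hN hp
  obtain ⟨v, hv, hsp, hc⟩ := exists_damp d hN {vp.1}
  obtain ⟨g, hg, hg0⟩ := exists_abelDatum
  obtain ⟨wM, hwM, -⟩ := reduction d.Mf N hN.1
  obtain ⟨wK, hwK, -⟩ := reduction d.Kf N hN.1
  exact ⟨⟨hN, p, hp, vp, h1, h2, h3, h4, ⟨v, hsp⟩, hc,
    fun e => hv (Finset.mem_singleton.2 (congrArg Subtype.val e)), g, hg, hg0, wM, hwM, wK, hwK⟩⟩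

/-! ### Radial triples -/

variable (d) in
/-- One radial function at each infinite place of `M`. -/
abbrev Rad3 : Type := {a : InfinitePlace d.Mf → ℝ → ℝ // ∀ w, Rad1 (a w)}

variable (d) in
/-- A base infinite place of `M`. -/
def infBase : InfinitePlace d.Mf := Classical.arbitrary _

variable (d) in
theorem infOrbit_bijective : Function.Bijective
    ![infBase d, (infBase d).comap (tauM d), ((infBase d).comap (tauM d)).comap (tauM d)] := by
  have h1 := Match.comap_tau_ne (cycGen d) (infBase d)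
  obtain ⟨h2, h3⟩ := Match.comap_tau2_ne (cycGen d) (infBase d)
  refine (Fintype.bijective_iff_injective_and_card _).2 ⟨fun a b e => ?_,
    (Fintype.card_fin 3).trans (card_places_Mf d).symm⟩
  fin_cases a <;> fin_cases b <;>
    simp only [Fin.zero_eta, Fin.mk_one, Fin.reduceFinMk, Matrix.cons_val] at e <;>
    first
      | rfl
      | exact absurd e h1 | exact absurd e.symm h1 | exact absurd e h2 | exact absurd e.symm h2
      | exact absurd e h3 | exact absurd e.symm h3

variable (d) in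
/-- The infinite places of `M` along the orbit of the generator. -/
def infIdx : Fin 3 ≃ InfinitePlace d.Mf := Equiv.ofBijective _ (infOrbit_bijective d)

variable (d) in
/-- The hypothesis of the matching at infinity. -/
theorem infIdx_orbit : infIdx d 1 = (infIdx d 0).comap (tauM d) ∧
    infIdx d 2 = ((infIdx d 0).comap (tauM d)).comap (tauM d) :=
  ⟨rfl, rfl⟩

/-- The convolution of the three entries, on `K`. -/
def Rad3.down (a : Rad3 d) : InfinitePlace d.Kf → ℝ → ℝ := fun _ =>
  conv1 (conv1 (a.1 (infIdx d 0)) (a.1 (infIdx d 1))) (a.1 (infIdx d 2))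

theorem Rad3.down_rad1 (a : Rad3 d) (v : InfinitePlace d.Kf) : Rad1 (a.down v) :=
  ((a.2 _).conv1 (a.2 _)).conv1 (a.2 _)

/-- Convolution entry by entry. -/
def Rad3.mul (a b : Rad3 d) : Rad3 d := ⟨fun w => conv1 (a.1 w) (b.1 w), fun w => (a.2 w).conv1 (b.2 w)⟩

theorem conv1_swap {a b c e : ℝ → ℝ} (ha : Rad1 a) (hb : Rad1 b) (hc : Rad1 c) (he : Rad1 e) :
    conv1 (conv1 a b) (conv1 c e) = conv1 (conv1 a c) (conv1 b e) := by
  rw [conv1_assoc ha hb (hc.conv1 he), ← conv1_assoc hb hc he, conv1_comm hb hc,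
    conv1_assoc hc hb he, ← conv1_assoc ha hc (hb.conv1 he)]

theorem Rad3.down_mul (a b : Rad3 d) :
    (a.mul b).down = fun v => conv1 (a.down v) (b.down v) := by
  funext v
  simp only [Rad3.down, Rad3.mul]
  rw [conv1_swap (a.2 _) (b.2 _) (a.2 _) (b.2 _),
    conv1_swap ((a.2 _).conv1 (a.2 _)) ((b.2 _).conv1 (b.2 _)) (a.2 _) (b.2 _)]

/-- The value at parameter zero. -/
def Rad3.lam (a : Rad3 d) : ℝ := ∏ w, lam0 (a.1 w)

theorem Rad3.lam_down (a : Rad3 d) (v : InfinitePlace d.Kf) : lam0 (a.down v) = a.lam := by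
  rw [Rad3.down, lam0_conv1 ((a.2 _).conv1 (a.2 _)) (a.2 _), lam0_conv1 (a.2 _) (a.2 _),
    Rad3.lam, ← (infIdx d).prod_comp fun w => lam0 (a.1 w), Fin.prod_univ_three]

theorem Rad3.prod_lam_down (a : Rad3 d) : ∏ v, lam0 (a.down v) = a.lam := by
  haveI := Asai.subsingleton_places d
  obtain ⟨v⟩ : Nonempty (InfinitePlace d.Kf) := inferInstance
  rw [Fintype.prod_subsingleton _ v, a.lam_down]

/-! ### The combination and the two sides -/

namespace Choice

variable (C : Choice d N)

/-- The height shift of the auxiliary prime. -/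
def shift : InfinitePlace d.Mf → ℝ := fun _ => Real.log C.p

open scoped Classical in
/-- The killing family on `M`. -/
def fam : Aleph.Fam (Fin 3) (InfinitePlace d.Mf) := Aleph.alephFam C.shift C.p C.bump

theorem fam_reg : C.fam.Reg := by classical exact Aleph.alephFam_reg C.bump_abel _ _

theorem fam_kills : C.fam.Kills (C.p : ℝ) fun _ => Real.log C.p := by
  classical
  exact Aleph.alephFam_kills C.bump_abel _ (Nat.cast_ne_zero.2 C.hp.prime.ne_zero)

theorem fam_value_ne : C.fam.value ≠ 0 := by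
  classical
  rw [fam, Aleph.alephFam_value C.bump_abel]
  exact mul_ne_zero (pow_ne_zero _ (by norm_num))
    (pow_ne_zero _ (Complex.ofReal_ne_zero.2 C.bump_ne))

/-- The radial triple of a term. -/
def famRad (k : C.fam.κ) : Rad3 d :=
  ⟨fun v => Hyp.radKer (Aleph.symFun C.bump k.2.1 v),
    fun v => rad1_radKer (Aleph.abelDatum_symFun C.bump_abel _ v)⟩

theorem fam_rad (k : C.fam.κ) : C.fam.rad k = radFun (C.famRad k).1 ∧
    (∫ x, C.fam.abel k x) = ((C.famRad k).lam : ℂ) := by
  classical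
  refine ⟨rfl, ?_⟩
  show ∫ x, Aleph.prodFun (Aleph.symFun C.bump k.2.1) x = _
  simp only [Aleph.prodFun, famRad, Rad3.lam, Complex.ofReal_prod]
  rw [volume_pi, integral_fintype_prod_eq_prod fun w (x : ℝ) =>
    ((Aleph.symFun C.bump k.2.1 w x : ℝ) : ℂ)]
  exact Finset.prod_congr rfl fun v _ => by
    rw [integral_complex_ofReal, lam0_radKer (Aleph.abelDatum_symFun C.bump_abel _ v)]

variable (d) in
/-- A positive radial triple. -/
def unitRad : Rad3 d :=
  ⟨fun _ => (exists_bump one_pos).choose, fun _ => (exists_bump one_pos).choose_spec.1⟩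

theorem unitRad_lam_pos : 0 < (unitRad d).lam :=
  Finset.prod_pos fun _ _ => (exists_bump one_pos).choose_spec.2.2.2

/-- The combination. -/
def data : FamData (Letter d N) (Rad3 d) C.fam.κ where
  c l := cOf d l.1.1
  lam a := a.lam
  mul a b := a.mul b
  coef := C.fam.coef
  aw k := (C.fam.word k).map fun j => (C.vp, j)
  ah := C.famRad
  g := unitRad d

open Match in
/-- The side of `M`, with the local factors at the bad places. -/
def sideM (LM : ∀ w, GL (Fin 2) (Kp d.Mf w) → ℂ) (h : LocFam N LM) : SideData C.data d.Mf where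
  N := N
  hN := C.hN.1
  w := C.wM
  hw := C.hwM
  tau := tauM d
  pl l := l.1.up l.2
  hpl l := (l.1.up_spec C.hN).2.2.2.2.2 l.2
  hh a := a.1
  hhR a := a.2
  hmul _ _ := rfl
  v0 := C.w0.up 0
  hv0 := (C.w0.up_spec C.hN).2.2.2.2.2 0
  bad := prodFun LM
  bad_left _ hu y := h.prod_left_inv hu y
  bad_right _ hu y := h.prod_right_inv hu y
  bad_finite := h.prod_finite C.hN.1

open Match in
/-- The side of `K`. -/
def sideK (LK : ∀ v, GL (Fin 2) (Kp d.Kf v) → ℂ) (h : LocFam N LK) : SideData C.data d.Kf where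
  N := N
  hN := C.hN.1
  w := C.wK
  hw := C.hwK
  tau := RingHom.id _
  pl l := l.1.1
  hpl l := l.1.2.1
  hh a := a.down
  hhR a := a.down_rad1
  hmul a b := a.down_mul b
  v0 := C.w0.1
  hv0 := C.w0.2.1
  bad := prodFun LK
  bad_left _ hu y := h.prod_left_inv hu y
  bad_right _ hu y := h.prod_right_inv hu y
  bad_finite := h.prod_finite C.hN.1

end Choice

end FLTAgent.LT.Descent
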