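import Fermat.Agent.LT.TF.Spectral

/-!
The spectral comparison of two trace formulas, abstractly: a family of pairs of vector valued
kernels, closed under pairs of self adjoint contractions, whose damped pairings have the same
limit, forces the projected pairings to agree exactly.
-/

set_option autoImplicit false
set_option linter.unusedSectionVars false
set_option linter.deprecated false
set_option linter.unusedSimpArgs false

noncomputable section

namespace FLTAgent.LT

open Filter Topology MeasureTheory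
open scoped InnerProductSpace

section

variable {E : Type*} [NormedAddCommGroup E] [InnerProductSpace ℂ E] [CompleteSpace E]

/-- `1 - (Σ Bᵢ²) / n`. -/
def avgDamp {ι : Type*} [Fintype ι] (B : ι → E →L[ℂ] E) : E →L[ℂ] E :=
  1 - ((Fintype.card ι : ℂ))⁻¹ • ∑ i, B i * B i

/-- The common kernel. -/
def jointKer {ι : Type*} (B : ι → E →L[ℂ] E) : Submodule ℂ E := ⨅ i, LinearMap.ker (B i).toLinearMap

lemma mem_jointKer {ι : Type*} {B : ι → E →L[ℂ] E} {u : E} :
    u ∈ jointKer B ↔ ∀ i, B i u = 0 := by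
  simp [jointKer]

lemma isClosed_jointKer {ι : Type*} (B : ι → E →L[ℂ] E) : IsClosed (jointKer B : Set E) := by
  have : (jointKer B : Set E) = ⋂ i, {u | B i u = 0} := by
    ext u; simp [mem_jointKer]
  rw [this]
  exact isClosed_iInter fun i => isClosed_eq (B i).continuous continuous_const

instance jointKer_hasProjection {ι : Type*} (B : ι → E →L[ℂ] E) :
    (jointKer B).HasOrthogonalProjection :=
  haveI := (isClosed_jointKer B).completeSpace_coe
  inferInstance

lemma avgDamp_apply {ι : Type*} [Fintype ι] (B : ι → E →L[ℂ] E) (v : E) :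
    avgDamp B v = v - ((Fintype.card ι : ℂ))⁻¹ • ∑ i, B i (B i v) := by
  simp [avgDamp]

/-- A self adjoint contraction. -/
def IsSAC (B : E →L[ℂ] E) : Prop :=
  (∀ v w, ⟪B v, w⟫_ℂ = ⟪v, B w⟫_ℂ) ∧ ∀ v, ‖B v‖ ≤ ‖v‖

theorem isDamper_avgDamp {ι : Type*} [Fintype ι] [Nonempty ι] (B : ι → E →L[ℂ] E)
    (hB : ∀ i, IsSAC (B i)) :
    IsDamper (avgDamp B) ∧ ∀ u, u ∈ jointKer B ↔ avgDamp B u = u := by
  set n : ℝ := (Fintype.card ι : ℝ) with hn
  have hn0 : 0 < n := by rw [hn]; exact_mod_cast Fintype.card_pos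
  have hD : ∀ v, avgDamp B v = v - ((n⁻¹ : ℝ) : ℂ) • ∑ i, B i (B i v) := fun v => by
    simp [avgDamp, hn]
  have hq : ∀ v, (⟪avgDamp B v, v⟫_ℂ).re = ‖v‖ ^ 2 - n⁻¹ * ∑ i, ‖B i v‖ ^ 2 := fun v => by
    rw [hD, inner_sub_left, inner_smul_left, sum_inner, Complex.conj_ofReal, Complex.sub_re,
      Complex.re_ofReal_mul, Complex.re_sum]
    congr 1
    · rw [inner_self_eq_norm_sq_to_K]; simp [← Complex.ofReal_pow]
    · congr 1
      refine Finset.sum_congr rfl fun i _ => ?_
      rw [(hB i).1, inner_self_eq_norm_sq_to_K]; simp [← Complex.ofReal_pow]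
  have hsum : ∀ v, n⁻¹ * ∑ i, ‖B i v‖ ^ 2 ≤ ‖v‖ ^ 2 := fun v => by
    have : ∑ i, ‖B i v‖ ^ 2 ≤ n * ‖v‖ ^ 2 := by
      calc ∑ i, ‖B i v‖ ^ 2 ≤ ∑ _i : ι, ‖v‖ ^ 2 := Finset.sum_le_sum fun i _ =>
            pow_le_pow_left₀ (norm_nonneg _) ((hB i).2 v) 2
        _ = n * ‖v‖ ^ 2 := by simp [hn]
    rwa [inv_mul_le_iff₀ hn0]
  have hnn : ∀ v, 0 ≤ n⁻¹ * ∑ i, ‖B i v‖ ^ 2 := fun v => by positivity
  have hsymm : ∀ v w, ⟪avgDamp B v, w⟫_ℂ = ⟪v, avgDamp B w⟫_ℂ := fun v w => by
    rw [hD, hD, inner_sub_left, inner_sub_right, inner_smul_left, inner_smul_right, sum_inner,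
      inner_sum, Complex.conj_ofReal]
    congr 2
    exact Finset.sum_congr rfl fun i _ => by rw [(hB i).1, (hB i).1]
  refine ⟨⟨hsymm, fun v => by rw [hq]; linarith [hsum v],
    fun v => by rw [hq]; linarith [hnn v], fun v => ?_⟩, fun u => ⟨fun hu => ?_, fun hu => ?_⟩⟩
  · set S := ∑ i, B i (B i v) with hS
    have h1 : ‖avgDamp B v‖ ^ 2 =
        ‖v‖ ^ 2 - 2 * (n⁻¹ * ∑ i, ‖B i v‖ ^ 2) + n⁻¹ ^ 2 * ‖S‖ ^ 2 := by
      rw [hD, norm_sub_sq (𝕜 := ℂ), norm_smul, mul_pow, inner_smul_right, inner_sum]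
      simp only [RCLike.re_to_complex, Complex.re_ofReal_mul, Complex.re_sum, Complex.norm_real,
        Real.norm_eq_abs, sq_abs]
      congr 3
      congr 1
      refine Finset.sum_congr rfl fun i _ => ?_
      rw [← (hB i).1, inner_self_eq_norm_sq_to_K]; simp [← Complex.ofReal_pow]
    have h2 : ‖S‖ ^ 2 ≤ n * ∑ i, ‖B i v‖ ^ 2 := by
      have a : ‖S‖ ≤ ∑ i, ‖B i v‖ :=
        (norm_sum_le _ _).trans (Finset.sum_le_sum fun i _ => (hB i).2 _)
      calc ‖S‖ ^ 2 ≤ (∑ i, ‖B i v‖) ^ 2 := pow_le_pow_left₀ (norm_nonneg _) a 2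
        _ ≤ _ := by simpa [hn] using sq_sum_le_card_mul_sum_sq (s := Finset.univ)
    have h3 : n⁻¹ ^ 2 * ‖S‖ ^ 2 ≤ n⁻¹ * ∑ i, ‖B i v‖ ^ 2 := by
      calc n⁻¹ ^ 2 * ‖S‖ ^ 2 ≤ n⁻¹ ^ 2 * (n * ∑ i, ‖B i v‖ ^ 2) :=
            mul_le_mul_of_nonneg_left h2 (sq_nonneg _)
        _ = _ := by field_simp
    have : ‖avgDamp B v‖ ^ 2 ≤ ‖v‖ ^ 2 := by rw [h1]; linarith [hnn v]
    exact (pow_le_pow_iff_left₀ (norm_nonneg _) (norm_nonneg _) two_ne_zero).1 this
  · simp [hD, (mem_jointKer.1 hu)]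
  · refine mem_jointKer.2 fun i => ?_
    have h := hq u
    rw [hu, inner_self_eq_norm_sq_to_K] at h
    simp [← Complex.ofReal_pow] at h
    have h0 : ∀ j ∈ (Finset.univ : Finset ι), ‖B j u‖ ^ 2 = 0 :=
      (Finset.sum_eq_zero_iff_of_nonneg fun j _ => sq_nonneg _).1 (by
        rcases mul_eq_zero.1 (show n⁻¹ * ∑ j, ‖B j u‖ ^ 2 = 0 by linarith) with h' | h'
        · exact absurd h' (by positivity)
        · exact h')
    exact norm_eq_zero.1 (pow_eq_zero_iff two_ne_zero |>.1 (h0 i (Finset.mem_univ i)))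

/-- Powers of the averaged damper preserve anything closed under the operators. -/
lemma avgDamp_pow_mem {ι : Type*} [Fintype ι] (B : ι → E →L[ℂ] E) {X : Type*}
    (Fam : Submodule ℂ (X → E)) (hB : ∀ i, ∀ k ∈ Fam, (fun x => B i (k x)) ∈ Fam) (J : ℕ) :
    ∀ k ∈ Fam, (fun x => ((avgDamp B) ^ J) (k x)) ∈ Fam := by
  induction J with
  | zero => intro k hk; simpa using hk
  | succ J ih =>
    intro k hk
    have : (fun x => avgDamp B (((avgDamp B) ^ J) (k x))) =
        (fun x => ((avgDamp B) ^ J) (k x)) - ((Fintype.card ι : ℂ))⁻¹ •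
          ∑ i, fun x => B i (B i (((avgDamp B) ^ J) (k x))) := by
      funext x; simp [avgDamp]
    simp only [damper_pow_succ]
    rw [this]
    exact Fam.sub_mem (ih k hk) (Fam.smul_mem _ (Fam.sum_mem fun i _ => hB i _ (hB i _ (ih k hk))))

/-- Under the projection to `ker T`, damping by `T` and `C` is damping by `C`. -/
lemma inner_proj_damp {ι : Type*} [Fintype ι] (T : E →L[ℂ] E) (hT : IsSAC T) (C : ι → E →L[ℂ] E)
    (hC : ∀ i, Commute (C i) T) (J : ℕ) (u v : E) :
    ⟪(jointKer fun _ : Unit => T).starProjection u,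
        ((avgDamp fun o : Option ι => o.elim T C) ^ J) v⟫_ℂ =
      ⟪u, (jointKer fun _ : Unit => T).starProjection
        (((avgDamp fun o : Option ι => o.elim 0 C) ^ J) v)⟫_ℂ := by
  set Q := (jointKer fun _ : Unit => T).starProjection
  set D₁ := avgDamp fun o : Option ι => o.elim T C
  set D₀ := avgDamp fun o : Option ι => o.elim (0 : E →L[ℂ] E) C
  have hsub : ∀ w, D₁ w = D₀ w - ((Fintype.card (Option ι) : ℂ))⁻¹ • T (T w) := fun w => by
    simp [D₁, D₀, avgDamp, Fintype.sum_option, smul_add]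
    abel
  have hi : ∀ i z, C i (T z) = T (C i z) := fun i z => congrArg (fun S => S z) (hC i).eq
  have hcT : ∀ w, D₀ (T w) = T (D₀ w) := fun w => by
    simp [D₀, avgDamp, Fintype.sum_option, map_sub, map_sum, hi]
  have hQ : ∀ w, Q (T w) = 0 := fun w => by
    refine (Submodule.starProjection_apply_eq_zero_iff _).2 ?_
    refine (Submodule.mem_orthogonal _ _).2 fun z hz => ?_
    rw [← hT.1, (mem_jointKer.1 hz) ()]
    simp
  have hD₀T : ∀ m w, (D₀ ^ m) (T w) = T ((D₀ ^ m) w) := fun m => by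
    induction m with
    | zero => simp
    | succ m ih => intro w; rw [damper_pow_succ, ih, hcT, damper_pow_succ]
  have step : ∀ m n w, Q ((D₀ ^ m) ((D₁ ^ n) w)) = Q ((D₀ ^ (m + n)) w) := by
    intro m n
    induction n generalizing m with
    | zero => simp
    | succ n ih =>
      intro w
      rw [damper_pow_succ, hsub, map_sub, map_sub, map_smul, map_smul, hD₀T, hQ, smul_zero,
        sub_zero, show m + (n + 1) = m + 1 + n by ring, ← ih (m + 1) w]
      rw [pow_succ]
      rfl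
  rw [Submodule.inner_starProjection_left_eq_right]
  have := step 0 J v
  simp only [pow_zero, ContinuousLinearMap.one_apply, Nat.zero_add] at this
  rw [this]

/-- The smaller kernel absorbs the projection to `ker T`. -/
lemma inner_proj_absorb {ι : Type*} (T : E →L[ℂ] E) (C : ι → E →L[ℂ] E) (u v : E) :
    ⟪(jointKer fun _ : Unit => T).starProjection u,
        (jointKer fun o : Option ι => o.elim T C).starProjection v⟫_ℂ =
      ⟪u, (jointKer fun o : Option ι => o.elim T C).starProjection v⟫_ℂ := by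
  rw [Submodule.inner_starProjection_left_eq_right, Submodule.starProjection_eq_self_iff.2]
  refine mem_jointKer.2 fun _ => ?_
  simpa using mem_jointKer.1
    ((jointKer fun o : Option ι => o.elim T C).starProjection_apply_mem v) none

end

variable {E E' : Type*} [NormedAddCommGroup E] [InnerProductSpace ℂ E] [CompleteSpace E]
  [NormedAddCommGroup E'] [InnerProductSpace ℂ E'] [CompleteSpace E']
  {X X' : Type*} [MeasurableSpace X] [MeasurableSpace X']

/-- **Comparison.** If for all pairs in the family the `A`-damped pairings differ by `o(1)`, then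
the pairings projected to the joint kernel of `A` and of finitely many further pairs agree. -/
theorem compare_projected (μ : Measure X) (μ' : Measure X') (c : ℂ) (σ : X → X)
    {k₁ : X → E} {k₁' : X' → E'} (hk₁ : AEStronglyMeasurable k₁ μ)
    (hk₁' : AEStronglyMeasurable k₁' μ')
    (Fam : Submodule ℂ ((X → E) × (X' → E')))
    (hFam : ∀ k ∈ Fam, AEStronglyMeasurable (fun x => k.1 (σ x)) μ ∧ AEStronglyMeasurable k.2 μ' ∧
      Integrable (fun x => ‖k₁ x‖ * ‖k.1 (σ x)‖) μ ∧ Integrable (fun x => ‖k₁' x‖ * ‖k.2 x‖) μ')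
    (A : E →L[ℂ] E) (A' : E' →L[ℂ] E') (hA : IsSAC A) (hA' : IsSAC A')
    (hlim : ∀ k ∈ Fam, Tendsto (fun J => (∫ x, ⟪k₁ x, ((1 - A * A : E →L[ℂ] E) ^ J) (k.1 (σ x))⟫_ℂ ∂μ) -
      c * ∫ x, ⟪k₁' x, ((1 - A' * A' : E' →L[ℂ] E') ^ J) (k.2 x)⟫_ℂ ∂μ') atTop (𝓝 0))
    {ι : Type*} [Fintype ι] (B : ι → E →L[ℂ] E) (B' : ι → E' →L[ℂ] E')
    (hB : ∀ i, IsSAC (B i)) (hB' : ∀ i, IsSAC (B' i))
    (hcomm : ∀ i, Commute (B i) A) (hcomm' : ∀ i, Commute (B' i) A')
    (hFamB : ∀ i, ∀ k ∈ Fam, ((fun x => B i (k.1 x)), fun x => B' i (k.2 x)) ∈ Fam)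
    {k : (X → E) × (X' → E')} (hk : k ∈ Fam) :
    ∫ x, ⟪k₁ x, (jointKer fun o : Option ι => o.elim A B).starProjection (k.1 (σ x))⟫_ℂ ∂μ =
      c * ∫ x, ⟪k₁' x,
        (jointKer fun o : Option ι => o.elim A' B').starProjection (k.2 x)⟫_ℂ ∂μ' := by
  classical
  obtain ⟨hD, hfix⟩ := isDamper_one_sub_sq A hA.1 hA.2
  obtain ⟨hD', hfix'⟩ := isDamper_one_sub_sq A' hA'.1 hA'.2
  set P := (jointKer fun _ : Unit => A).starProjection with hP
  set P' := (jointKer fun _ : Unit => A').starProjection with hP'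
  have hV : ∀ u, u ∈ (jointKer fun _ : Unit => A) ↔ (1 - A * A) u = u := fun u => by
    rw [mem_jointKer, ← hfix]; simp
  have hV' : ∀ u, u ∈ (jointKer fun _ : Unit => A') ↔ (1 - A' * A') u = u := fun u => by
    rw [mem_jointKer, ← hfix']; simp
  -- equality after the first projection
  have h1 : ∀ k ∈ Fam, ∫ x, ⟪k₁ x, P (k.1 (σ x))⟫_ℂ ∂μ =
      c * ∫ x, ⟪k₁' x, P' (k.2 x)⟫_ℂ ∂μ' := fun k hk => by
    obtain ⟨m1, m2, i1, i2⟩ := hFam k hk
    have := (hD.tendsto_integral _ hV hk₁ m1 i1).sub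
      ((hD'.tendsto_integral _ hV' hk₁' m2 i2).const_mul c)
    exact sub_eq_zero.1 (tendsto_nhds_unique this (hlim k hk))
  -- all operators at once
  obtain ⟨hA2, hfix2⟩ := isDamper_avgDamp (fun o : Option ι => o.elim A B)
    (fun o => by cases o <;> simp [hA, hB])
  obtain ⟨hA2', hfix2'⟩ := isDamper_avgDamp (fun o : Option ι => o.elim A' B')
    (fun o => by cases o <;> simp [hA', hB'])
  set D := avgDamp fun o : Option ι => o.elim A B with hDdef
  set D' := avgDamp fun o : Option ι => o.elim A' B' with hD'def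
  obtain ⟨m1, m2, i1, i2⟩ := hFam k hk
  -- `P` turns the damper into one built from `B` alone
  have key : ∀ J, (∫ x, ⟪P (k₁ x), (D ^ J) (k.1 (σ x))⟫_ℂ ∂μ) =
      c * ∫ x, ⟪P' (k₁' x), (D' ^ J) (k.2 x)⟫_ℂ ∂μ' := by
    intro J
    set Bz : Option ι → E →L[ℂ] E := fun o => o.elim 0 B
    set Bz' : Option ι → E' →L[ℂ] E' := fun o => o.elim 0 B'
    rw [integral_congr_ae (Eventually.of_forall fun x => inner_proj_damp A hA B hcomm J (k₁ x) (k.1 (σ x))),
      integral_congr_ae (Eventually.of_forall fun x => inner_proj_damp A' hA' B' hcomm' J (k₁' x) (k.2 x))]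
    refine h1 ((fun x => ((avgDamp Bz) ^ J) (k.1 x)), fun x => ((avgDamp Bz') ^ J) (k.2 x)) ?_
    have closed : ∀ m, ∀ k ∈ Fam, ((fun x => ((avgDamp Bz) ^ m) (k.1 x)),
        fun x => ((avgDamp Bz') ^ m) (k.2 x)) ∈ Fam := by
      intro m
      induction m with
      | zero => intro k hk; simpa using hk
      | succ m ih =>
        intro k hk
        have h0 := ih k hk
        have hsum := Fam.sum_mem (t := Finset.univ) fun i _ => hFamB i _ (hFamB i _ h0)
        convert Fam.sub_mem h0 (Fam.smul_mem ((Fintype.card (Option ι) : ℂ))⁻¹ hsum) using 1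
        ext x <;> simp only [damper_pow_succ, avgDamp_apply] <;>
          simp [Bz, Bz', Fintype.sum_option, Prod.fst_sum, Prod.snd_sum]
    exact closed J k hk
  have hk₁P : AEStronglyMeasurable (fun x => P (k₁ x)) μ := P.continuous.comp_aestronglyMeasurable hk₁
  have hk₁P' : AEStronglyMeasurable (fun x => P' (k₁' x)) μ' :=
    P'.continuous.comp_aestronglyMeasurable hk₁'
  have i1' : Integrable (fun x => ‖P (k₁ x)‖ * ‖k.1 (σ x)‖) μ :=
    i1.mono' (hk₁P.norm.mul m1.norm) (Eventually.of_forall fun x => by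
      rw [norm_mul, norm_norm, norm_norm]
      exact mul_le_mul_of_nonneg_right (Submodule.norm_starProjection_apply_le _ _) (norm_nonneg _))
  have i2' : Integrable (fun x => ‖P' (k₁' x)‖ * ‖k.2 x‖) μ' :=
    i2.mono' (hk₁P'.norm.mul m2.norm) (Eventually.of_forall fun x => by
      rw [norm_mul, norm_norm, norm_norm]
      exact mul_le_mul_of_nonneg_right (Submodule.norm_starProjection_apply_le _ _) (norm_nonneg _))
  have t1 := hA2.tendsto_integral _ hfix2 hk₁P m1 i1'
  have t2 := (hA2'.tendsto_integral _ hfix2' hk₁P' m2 i2').const_mul c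
  simp only [← hDdef, ← hD'def, key] at t1 t2
  have heq := tendsto_nhds_unique t1 t2
  simpa only [hP, hP', inner_proj_absorb] using heq

end FLTAgent.LT
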