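import Fermat.Agent.LT.TF.Side

/-!
One side of the comparison as data: letters (places with prescribed eigenvalues), radial tuples, the
combination paired against the word vectors, and the kernels it produces.
-/

set_option autoImplicit false
set_option linter.unusedSectionVars false
set_option linter.unusedSimpArgs false
set_option linter.deprecated false
set_option linter.style.haveILetI false
set_option synthInstance.maxHeartbeats 200000

noncomputable section

namespace FLTAgent.LT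

open NumberField IsDedekindDomain MeasureTheory
open scoped ENNReal InnerProductSpace

/-! ### Operators normalised by a common constant -/

section

variable {E : Type*} [NormedAddCommGroup E] [InnerProductSpace ℂ E] [CompleteSpace E]

/-- `r⁻¹ (T - c)`. -/
def shiftBy (r : ℝ) (T : E →L[ℂ] E) (c : ℝ) : E →L[ℂ] E :=
  ((r⁻¹ : ℝ) : ℂ) • (T - (c : ℂ) • 1)

theorem shiftBy_apply (r : ℝ) (T : E →L[ℂ] E) (c : ℝ) (v : E) :
    shiftBy r T c v = ((r⁻¹ : ℝ) : ℂ) • (T v - (c : ℂ) • v) := by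
  simp [shiftBy]

theorem isSAC_shiftBy {T : E →L[ℂ] E} (hT : ∀ v w, ⟪T v, w⟫_ℂ = ⟪v, T w⟫_ℂ) {c r : ℝ} (hr : 0 < r)
    (h : ‖T‖ + |c| ≤ r) : IsSAC (shiftBy r T c) := by
  refine ⟨fun v w => ?_, fun v => ?_⟩
  · simp only [shiftBy_apply, inner_smul_left, inner_smul_right, inner_sub_left, inner_sub_right,
      Complex.conj_ofReal, hT]
  · rw [shiftBy_apply, norm_smul, Complex.norm_real, Real.norm_eq_abs, abs_of_pos (inv_pos.2 hr),
      inv_mul_le_iff₀ hr]
    calc ‖T v - (c : ℂ) • v‖ ≤ ‖T v‖ + ‖(c : ℂ) • v‖ := norm_sub_le _ _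
      _ ≤ ‖T‖ * ‖v‖ + |c| * ‖v‖ := add_le_add (T.le_opNorm v) (by simp [norm_smul])
      _ ≤ r * ‖v‖ := by rw [← add_mul]; exact mul_le_mul_of_nonneg_right h (norm_nonneg v)

theorem shiftBy_eq_zero_iff {r : ℝ} (hr : 0 < r) {T : E →L[ℂ] E} {c : ℝ} {v : E} :
    shiftBy r T c v = 0 ↔ T v = (c : ℂ) • v := by
  rw [shiftBy_apply, smul_eq_zero, sub_eq_zero]
  simp [hr.ne']

theorem commute_shiftBy {T S : E →L[ℂ] E} (h : Commute T S) (r c : ℝ) :
    Commute (shiftBy r T c) S :=
  ((h.sub_left ((Commute.one_left S).smul_left _))).smul_left _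

end

/-! ### The data -/

/-- The combination shared by the two sides. -/
structure FamData (L H κ : Type*) where
  /-- The eigenvalues at the letters. -/
  c : L → ℝ
  /-- The values at parameter zero. -/
  lam : H → ℝ
  /-- Convolution of tuples. -/
  mul : H → H → H
  /-- The coefficients. -/
  coef : κ → ℂ
  /-- The words. -/
  aw : κ → List L
  /-- The radial factors. -/
  ah : κ → H
  /-- The radial factor of the test. -/
  g : H

variable {L H κ : Type*} {F : Type*} [Field F] [NumberField F]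

/-- One side: the level, a weight, the twist, letters, tuples, the damping place and the bad test. -/
structure SideData (P : FamData L H κ) (F : Type*) [Field F] [NumberField F] where
  N : ℕ
  hN : 0 < N
  w : Pt F N → ℝ≥0∞
  hw : IsPtWeight w
  tau : F →+* F
  pl : L → HeightOneSpectrum (𝓞 F)
  hpl : ∀ l, (N : 𝓞 F) ∉ (pl l).asIdeal
  hh : H → InfinitePlace F → ℝ → ℝ
  hhR : ∀ a x, Rad1 (hh a x)
  hmul : ∀ a b, hh (P.mul a b) = fun x => conv1 (hh a x) (hh b x)
  v0 : HeightOneSpectrum (𝓞 F)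
  hv0 : (N : 𝓞 F) ∉ v0.asIdeal
  bad : GF F → ℂ
  bad_left : ∀ u ∈ UZ F N, ∀ y, bad (u * y) = bad y
  bad_right : ∀ u ∈ UZ F N, ∀ y, bad (y * u) = bad y
  bad_finite : ((QuotientGroup.mk : GF F → Cos F N) '' Function.support bad).Finite

namespace SideData

variable {P : FamData L H κ} (S : SideData P F)

theorem hplMap (ws : List L) : ∀ x ∈ ws.map S.pl, (S.N : 𝓞 F) ∉ x.asIdeal := fun x hx => by
  obtain ⟨l, -, rfl⟩ := List.mem_map.1 hx
  exact S.hpl l

/-- The test of a bad part, a word on the right and a tuple. -/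
def tst (ws : List L) (a : H) : Test F :=
  ⟨(iterMul (ws.map S.pl) ⟨S.bad, radFun (S.hh P.g)⟩).fin, radFun (S.hh a)⟩

theorem tst_ok (ws : List L) (a : H) : (S.tst ws a).Ok S.N :=
  Test.Ok.of_fin (t := iterMul (ws.map S.pl) ⟨S.bad, radFun (S.hh P.g)⟩)
    (Test.Ok.iterMul S.hN (S.hplMap ws) ⟨S.bad_left, S.bad_right, S.bad_finite,
      lipschitz_radFun (S.hhR P.g), hasCompactSupport_radFun (S.hhR P.g)⟩) rfl
    (lipschitz_radFun (S.hhR a)) (hasCompactSupport_radFun (S.hhR a))

theorem iterMul_fin_congr : ∀ (ws : List (HeightOneSpectrum (𝓞 F))) {t t' : Test F},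
    t.fin = t'.fin → (iterMul ws t).fin = (iterMul ws t').fin
  | [], _, _, h => h
  | v :: ws, _, _, h => iterMul_fin_congr ws (funext fun y => by simp only [Test.mulHecke, h])

theorem iterMul_append : ∀ (us ws : List (HeightOneSpectrum (𝓞 F))) (t : Test F),
    iterMul (us ++ ws) t = iterMul ws (iterMul us t)
  | [], _, _ => rfl
  | v :: us, ws, t => iterMul_append us ws (t.mulHecke v)

/-- The test produced by the term `k` against a word vector. -/
def pairTst (k : κ) (ws : List L) (a : H) : Test F :=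
  S.tst (P.aw k ++ ws) (P.mul (P.mul P.g (P.ah k)) a)

section

variable [Countable (Cos F S.N)]

/-- `T` at a letter. -/
def opT (l : L) : Lp ℂ 2 (quotMeasure S.w) →L[ℂ] Lp ℂ 2 (quotMeasure S.w) :=
  heckeCLM S.hN S.hw (S.hpl l)

/-- The radial operator of a tuple. -/
def opR (a : H) : Lp ℂ 2 (quotMeasure S.w) →L[ℂ] Lp ℂ 2 (quotMeasure S.w) :=
  kernCLM S.hN S.hw (ok_radT (N := S.N) (S.hhR a))

/-- The damping contraction. -/
def opA : Lp ℂ 2 (quotMeasure S.w) →L[ℂ] Lp ℂ 2 (quotMeasure S.w) := dampA S.hN S.hw S.hv0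

/-- All operators with their prescribed values. -/
def op : L ⊕ H → Lp ℂ 2 (quotMeasure S.w) →L[ℂ] Lp ℂ 2 (quotMeasure S.w)
  | .inl l => S.opT l
  | .inr a => S.opR a

theorem op_symm (i : L ⊕ H) (u v : Lp ℂ 2 (quotMeasure S.w)) :
    ⟪S.op i u, v⟫_ℂ = ⟪u, S.op i v⟫_ℂ := by
  cases i with
  | inl l => exact heckeCLM_symm S.hN S.hw (S.hpl l) u v
  | inr a =>
    exact kernCLM_symm S.hN S.hw (ok_radT (S.hhR a)) (herm_word_nil S.hN (conj_radFun (S.hh a))) u v

theorem op_comm (i j : L ⊕ H) : Commute (S.op i) (S.op j) := by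
  cases i with
  | inl l =>
    cases j with
    | inl m => exact heckeCLM_comm S.hN S.hw (S.hpl l) (S.hpl m)
    | inr a => exact hecke_radOp_comm S.hN S.hw (S.hpl l) (S.hhR a)
  | inr a =>
    cases j with
    | inl m => exact (hecke_radOp_comm S.hN S.hw (S.hpl m) (S.hhR a)).symm
    | inr b => exact radOp_comm S.hN S.hw (S.hhR a) (S.hhR b)

theorem hecke_op_comm {v : HeightOneSpectrum (𝓞 F)} (hv : (S.N : 𝓞 F) ∉ v.asIdeal) (i : L ⊕ H) :
    Commute (heckeCLM S.hN S.hw hv) (S.op i) := by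
  cases i with
  | inl l => exact heckeCLM_comm S.hN S.hw hv (S.hpl l)
  | inr a => exact hecke_radOp_comm S.hN S.hw hv (S.hhR a)

theorem op_comm_opA (i : L ⊕ H) : Commute (S.op i) S.opA :=
  ((S.hecke_op_comm S.hv0 i).smul_left _).symm

theorem isSAC_opA : IsSAC S.opA := isSAC_dampA S.hN S.hw S.hv0

/-- The word vectors, read along the twist. -/
def kq (ws : List L) (a : H) (q : Pt F S.N) : Lp ℂ 2 (quotMeasure S.w) :=
  kvec S.w ⟨Aleph.wordFin S.N (ws.map S.pl), radFun (S.hh a)⟩ (ptMap S.tau q)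

theorem opT_kq (l : L) (ws : List L) (a : H) (q : Pt F S.N) :
    S.opT l (S.kq ws a q) = S.kq (l :: ws) a q :=
  heckeCLM_word S.hN S.hw (S.hpl l) (S.hplMap ws) (S.hhR a) _

theorem opR_kq (b : H) (ws : List L) (a : H) (q : Pt F S.N) :
    S.opR b (S.kq ws a q) = S.kq ws (P.mul b a) q := by
  rw [opR, kq, kq, radOp_word S.hN S.hw (S.hplMap ws) (S.hhR b) (S.hhR a), S.hmul]

variable [Fintype κ]

/-- The vector paired against everything. -/
def k1 (p : Pt F S.N) : Lp ℂ 2 (quotMeasure S.w) :=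
  ∑ k, (starRingEnd ℂ) (P.coef k) • covec S.w (S.tst (P.aw k) (P.mul P.g (P.ah k))) p

theorem inner_k1 (p : Pt F S.N) (u : Lp ℂ 2 (quotMeasure S.w)) :
    ⟪S.k1 p, u⟫_ℂ =
      ∑ k, P.coef k * ⟪covec S.w (S.tst (P.aw k) (P.mul P.g (P.ah k))) p, u⟫_ℂ := by
  simp [k1, sum_inner, inner_smul_left]

/-- **The damped pairing as a combination of twisted diagonals.** -/
theorem inner_k1_damped (J : ℕ) (ws : List L) (a : H) (p : Pt F S.N) :
    ⟪S.k1 p, ((1 - S.opA * S.opA) ^ J) (S.kq ws a p)⟫_ℂ =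
      ∑ k, P.coef k * kernTw S.tau ((S.pairTst k ws a).dampPow S.v0 J) p := by
  rw [inner_k1]
  refine Finset.sum_congr rfl fun k _ => congrArg (P.coef k * ·) ?_
  set b := P.mul P.g (P.ah k)
  have hspec := radFun_conv (F := F) (S.hhR b) (S.hhR a)
  have hL := lipschitz_radFun (F := F) fun x => (S.hhR b x).conv1 (S.hhR a x)
  have hK := hasCompactSupport_radFun (F := F) fun x => (S.hhR b x).conv1 (S.hhR a x)
  rw [opA, kq, inner_covec_dampPow_word S.hN S.hw S.hv0 J (S.hhR a) hspec hL hK (S.hplMap ws)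
    (S.tst_ok (P.aw k) b) rfl]
  have e : (⟨(iterMul (ws.map S.pl) (S.tst (P.aw k) b)).fin,
      radFun fun x => conv1 (S.hh b x) (S.hh a x)⟩ : Test F) = S.pairTst k ws a := by
    simp only [pairTst, tst, List.map_append, S.hmul, iterMul_append, b]
    congr 1
    exact iterMul_fin_congr _ rfl
  rw [e]
  have hok := (S.tst_ok (P.aw k ++ ws) (P.mul b a)).dampPow S.hN S.hv0 J
  refine tsum_congr fun γ => ?_
  obtain ⟨u, hu, hout⟩ : ∃ u ∈ UZ F S.N,
      ((gfMap S.tau p.2.out : GF F) : Cos F S.N).out = gfMap S.tau p.2.out * u :=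
    ⟨_, QuotientGroup.eq.1 (QuotientGroup.out_eq' _).symm, (mul_inv_cancel_left _ _).symm⟩
  simp only [ptMap, term, hout, ← mul_assoc]
  rw [show (S.pairTst k ws a) = S.tst (P.aw k ++ ws) (P.mul b a) from rfl, hok.right_inv u hu]

end

end SideData

end FLTAgent.LT
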