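import Fermat.Agent.LT.TF.EllipticClasses
import Fermat.Agent.LT.Red.Main

/-!
On a Siegel set only bounded heights and finitely many classes give elliptic terms: the lower left
entry of such a class is nonzero, of bounded denominator and bounded at every place.
-/

set_option autoImplicit false
set_option linter.unusedSectionVars false
set_option linter.style.haveILetI false
set_option synthInstance.maxHeartbeats 200000

noncomputable section

namespace FLTAgent.LT.Ell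

open NumberField IsDedekindDomain MeasureTheory Matrix Red
open scoped ENNReal

variable {F E : Type*} [Field F] [NumberField F] [Field E] [NumberField E]

/-! ### One place -/

theorem height_sandwich {p q : H3} {L : ℝ} (h : coshDist p q ≤ L) :
    (p.2 : ℝ) ≤ 2 * L * (q.2 : ℝ) ∧ (q.2 : ℝ) ≤ 2 * L * (p.2 : ℝ) ∧
      ‖p.1 - q.1‖ ^ 2 ≤ 2 * L * (p.2 : ℝ) * (q.2 : ℝ) := by
  have hp : (0 : ℝ) < p.2 := p.2.2
  have hq : (0 : ℝ) < q.2 := q.2.2
  rw [coshDist, ← le_sub_iff_add_le', div_le_iff₀ (by positivity), Complex.normSq_eq_norm_sq] at h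
  have h1 := sq_nonneg ‖p.1 - q.1‖
  refine ⟨le_of_mul_le_mul_left ?_ hp, le_of_mul_le_mul_left ?_ hq, ?_⟩ <;> nlinarith

theorem height_lowerLeft {g : GL (Fin 2) ℂ} {p q : H3} {L K c₀ : ℝ}
    (h : coshDist p (act g q) ≤ L) (hK : ‖(GeneralLinearGroup.det g : ℂ)‖ ≤ K)
    (hq : c₀ ≤ (q.2 : ℝ)) :
    (p.2 : ℝ) * (c₀ * ‖g 1 0‖ ^ 2) ≤ 2 * L * K := by
  have hs : (0 : ℝ) < q.2 := q.2.2
  have ht : (0 : ℝ) < (act g q).2 := (act g q).2.2
  have hp : (0 : ℝ) < p.2 := p.2.2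
  obtain ⟨h1, -, -⟩ := height_sandwich h
  have hL : 0 ≤ 2 * L := nonneg_of_mul_nonneg_left (hp.le.trans h1) ht
  have hden : ((act g q).2 : ℝ) * den g q ≤ K * (q.2 : ℝ) := by
    rw [Hyp.coe_act_snd, div_mul_cancel₀ _ (den_pos g q).ne']
    exact mul_le_mul_of_nonneg_right hK hs.le
  have h2 : ((act g q).2 : ℝ) * ((q.2 : ℝ) * ‖g 1 0‖ ^ 2) ≤ K := by
    refine le_of_mul_le_mul_right (le_trans ?_ hden) hs
    rw [den, Complex.normSq_eq_norm_sq, Complex.normSq_eq_norm_sq]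
    nlinarith [mul_nonneg ht.le (sq_nonneg ‖g 1 0 * q.1 + g 1 1‖)]
  calc (p.2 : ℝ) * (c₀ * ‖g 1 0‖ ^ 2) ≤ (p.2 : ℝ) * ((q.2 : ℝ) * ‖g 1 0‖ ^ 2) :=
        mul_le_mul_of_nonneg_left (mul_le_mul_of_nonneg_right hq (sq_nonneg _)) hp.le
    _ ≤ 2 * L * ((act g q).2 : ℝ) * ((q.2 : ℝ) * ‖g 1 0‖ ^ 2) :=
        mul_le_mul_of_nonneg_right h1 (by positivity)
    _ ≤ 2 * L * K := by rw [mul_assoc]; exact mul_le_mul_of_nonneg_left h2 hL

theorem norm_le_of_rowForm {a b : ℂ} {q : H3} {P c₀ R : ℝ} (h : rowForm a b q ≤ P) (hc : 0 < c₀)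
    (hq : c₀ ≤ (q.2 : ℝ)) (hR : ‖q.1‖ ≤ R) :
    ‖a‖ ≤ 1 + P / c₀ ^ 2 ∧ ‖b‖ ≤ 1 + P + (1 + P / c₀ ^ 2) * R := by
  rw [rowForm, Complex.normSq_eq_norm_sq, Complex.normSq_eq_norm_sq] at h
  have hsq : c₀ ^ 2 ≤ (q.2 : ℝ) ^ 2 := pow_le_pow_left₀ hc.le hq 2
  have h1 : ‖a‖ ^ 2 * c₀ ^ 2 ≤ P := by
    nlinarith [mul_le_mul_of_nonneg_left hsq (sq_nonneg ‖a‖), sq_nonneg ‖a * q.1 + b‖]
  have h2 : ‖a * q.1 + b‖ ^ 2 ≤ P := by nlinarith [mul_nonneg (sq_nonneg ‖a‖) (sq_nonneg (q.2 : ℝ))]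
  have ha : ‖a‖ ≤ 1 + P / c₀ ^ 2 := by
    have := (le_div_iff₀ (pow_pos hc 2)).2 h1
    nlinarith [sq_nonneg (‖a‖ - 1)]
  have hab : ‖a * q.1 + b‖ ≤ 1 + P := by nlinarith [sq_nonneg (‖a * q.1 + b‖ - 1)]
  refine ⟨ha, ?_⟩
  calc ‖b‖ = ‖(a * q.1 + b) - a * q.1‖ := by rw [add_sub_cancel_left]
    _ ≤ ‖a * q.1 + b‖ + ‖a‖ * ‖q.1‖ := by rw [← norm_mul]; exact norm_sub_le _ _
    _ ≤ _ := add_le_add hab (mul_le_mul ha hR (norm_nonneg _) ((norm_nonneg _).trans ha))

theorem exists_entry_bound (R : ℝ) {c₀ : ℝ} (hc : 0 < c₀) (T L K : ℝ) :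
    ∃ B : ℝ, ∀ (g : GL (Fin 2) ℂ) (p q : H3), coshDist p (act g q) ≤ L →
      ‖(GeneralLinearGroup.det g : ℂ)‖ ≤ K → ‖p.1‖ ≤ R → c₀ ≤ (p.2 : ℝ) → (p.2 : ℝ) ≤ T →
      ‖q.1‖ ≤ R → c₀ ≤ (q.2 : ℝ) → (q.2 : ℝ) ≤ T → ∀ i j, ‖g i j‖ ≤ B := by
  set P := K * T * (2 * L) / c₀
  set P' := K * T * ((R + 2 * L * T) ^ 2 * (2 * L) / c₀ + 2 * L * T)
  refine ⟨|1 + P / c₀ ^ 2| + |1 + P + (1 + P / c₀ ^ 2) * R| + |1 + P' / c₀ ^ 2| +
    |1 + P' + (1 + P' / c₀ ^ 2) * R|, fun g p q h hK hpR hp hpT hqR hq hqT i j => ?_⟩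
  have hs : (0 : ℝ) < q.2 := q.2.2
  have ht : (0 : ℝ) < (act g q).2 := (act g q).2.2
  obtain ⟨h1, h2, h3⟩ := height_sandwich h
  have hK0 : 0 ≤ K := (norm_nonneg _).trans hK
  have hT : 0 < T := hs.trans_le hqT
  have hL : 0 < 2 * L :=
    pos_of_mul_pos_left ((hc.trans_le hp).trans_le h1) ht.le
  have htlow : c₀ / (2 * L) ≤ ((act g q).2 : ℝ) := by
    rw [div_le_iff₀ hL]; linarith
  have hthigh : ((act g q).2 : ℝ) ≤ 2 * L * T :=
    h2.trans (mul_le_mul_of_nonneg_left hpT hL.le)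
  have hbot : rowForm (g 1 0) (g 1 1) q ≤ P := by
    show den g q ≤ P
    have hd : den g q = ‖(GeneralLinearGroup.det g : ℂ)‖ * (q.2 : ℝ) / ((act g q).2 : ℝ) := by
      rw [eq_div_iff ht.ne', Hyp.coe_act_snd, mul_div_cancel₀ _ (den_pos g q).ne']
    rw [hd]
    refine (div_le_div₀ (by positivity) (mul_le_mul hK hqT hs.le hK0) (by positivity) htlow).trans_eq ?_
    rw [div_div_eq_mul_div]
  have htop : rowForm (g 0 0) (g 0 1) q ≤ P' := by
    have h0 := rowForm_zero_row g q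
    rw [div_eq_iff hs.ne'] at h0
    rw [h0, mul_right_comm]
    refine mul_le_mul (mul_le_mul hK hqT hs.le hK0) ?_ (by positivity) (by positivity)
    rw [add_div]
    refine add_le_add ?_ ?_
    · have hd : ‖p.1 - (act g q).1‖ ≤ 2 * L * T := by
        refine (sq_le_sq₀ (norm_nonneg _) (by positivity)).1 (h3.trans ?_)
        rw [sq]
        exact mul_le_mul (mul_le_mul_of_nonneg_left hpT hL.le) hthigh ht.le (by positivity)
      have hz : ‖(act g q).1‖ ≤ R + 2 * L * T := by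
        calc ‖(act g q).1‖ = ‖p.1 - (p.1 - (act g q).1)‖ := by rw [sub_sub_cancel]
          _ ≤ _ := (norm_sub_le _ _).trans (add_le_add hpR hd)
      refine (div_le_div₀ (sq_nonneg _) (pow_le_pow_left₀ (norm_nonneg _) hz 2) (by positivity)
        htlow).trans_eq ?_
      rw [div_div_eq_mul_div]
    · rwa [sq, mul_div_assoc, div_self ht.ne', mul_one]
  obtain ⟨b1, b2⟩ := norm_le_of_rowForm hbot hc hq hqR
  obtain ⟨t1, t2⟩ := norm_le_of_rowForm htop hc hq hqR
  have a1 := le_abs_self (1 + P / c₀ ^ 2)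
  have a2 := le_abs_self (1 + P + (1 + P / c₀ ^ 2) * R)
  have a3 := le_abs_self (1 + P' / c₀ ^ 2)
  have a4 := le_abs_self (1 + P' + (1 + P' / c₀ ^ 2) * R)
  have n1 := abs_nonneg (1 + P / c₀ ^ 2)
  have n2 := abs_nonneg (1 + P + (1 + P / c₀ ^ 2) * R)
  have n3 := abs_nonneg (1 + P' / c₀ ^ 2)
  have n4 := abs_nonneg (1 + P' + (1 + P' / c₀ ^ 2) * R)
  fin_cases i <;> fin_cases j <;> dsimp <;> linarith

theorem norm_infMap_fst (i : F →+* E) (x : Xinf F) (w : InfinitePlace E) :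
    ‖(infMap i x w).1‖ = ‖(x (w.comap i)).1‖ := by
  by_cases h : (w.comap i).embedding = w.embedding.comp i
  · simp only [infMap, if_pos h]
  · simp only [infMap, if_neg h, conjH3, RCLike.norm_conj]

theorem infMap_snd (i : F →+* E) (x : Xinf F) (w : InfinitePlace E) :
    (infMap i x w).2 = (x (w.comap i)).2 := by
  by_cases h : (w.comap i).embedding = w.embedding.comp i
  · simp only [infMap, if_pos h]
  · simp only [infMap, if_neg h, conjH3]

/-! ### Representatives of bounded denominator -/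

/-- Classes carried between finitely many adelic points have representatives with determinant in a
finite set and bounded denominator. -/
theorem exists_normalise {S : Set (GF E)} (hS : S.Finite) :
    ∃ M : ℕ, 0 < M ∧ ∃ D : Set E, D.Finite ∧
      ∀ (γ : GL (Fin 2) E) (A B k : GF E) (C : (Af E)ˣ), A ∈ S → B ∈ S → InLevel 1 k →
        toFin γ = A * (k * scalarGF C) * B →
        ∃ δ : GL (Fin 2) E, (QuotientGroup.mk δ : PG E) = QuotientGroup.mk γ ∧
          (δ : Matrix (Fin 2) (Fin 2) E).det ∈ D ∧ ∀ i j, IsIntegral ℤ ((M : E) * δ i j) := by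
  classical
  obtain ⟨n, hn, hden⟩ := exists_den hS
  obtain ⟨Rid, hRid, hideles⟩ := exists_finite_ideles (F := E) one_pos
  obtain ⟨m, hm, hmden⟩ := exists_den (hRid.image (scalarGF (F := E)))
  set M := n * n * m
  have hM : 0 < M := Nat.mul_pos (Nat.mul_pos hn hn) hm
  obtain ⟨D, hD, hclass⟩ := exists_finite_sq_classes (F := E) (Nat.mul_pos hM hM)
  refine ⟨M, hM, D, hD, fun γ A B k C hA hB hk hγ => ?_⟩
  obtain ⟨α, r, hr, u, rfl, hu⟩ := hideles C
  have hr' := hmden (scalarGF r) ⟨r, hr, rfl⟩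
  have hu' : InLevel 1 (scalarGF u) := by
    refine inLevel_one_of_intg (fun i j v => ?_) fun i j v => ?_
    · rcases eq_or_ne i j with rfl | hij
      · simpa [scalarGF] using (hu v).1.le
      · simp [scalarGF, hij, show (0 : Af E) v = 0 from rfl]
    · rw [← scalarGF_inv]
      rcases eq_or_ne i j with rfl | hij
      · have : Valued.v (((u⁻¹ : (Af E)ˣ) : Af E) v) ≤ 1 := by rw [valued_inv, (hu v).1, inv_one]
        simpa [scalarGF] using this
      · simp [scalarGF, hij, show (0 : Af E) v = 0 from rfl]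
  set δ₁ := γ * GeneralLinearGroup.scalar (Fin 2) α⁻¹
  have hδ₁ : toFin δ₁ = A * k * scalarGF u * scalarGF r * B := by
    set a := Units.map (algebraMap E (Af E)).toMonoidHom α with ha
    rw [map_mul, toFin_scalar, map_inv, ← ha, scalarGF_inv, hγ,
      show a * r * u = u * r * a by ac_rfl, scalarGF_mul, scalarGF_mul]
    calc A * (k * (scalarGF u * scalarGF r * scalarGF a)) * B * (scalarGF a)⁻¹
        = A * k * scalarGF u * scalarGF r * (scalarGF a * (B * (scalarGF a)⁻¹)) := by group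
      _ = _ := by
        congr 1
        rw [← mul_assoc, scalarGF_comm, mul_inv_cancel_right]
  have hint : ∀ i j, Intg ((M : Af E) * (toFin δ₁ : Matrix (Fin 2) (Fin 2) (Af E)) i j) ∧
      Intg ((M : Af E) * ((toFin δ₁⁻¹ : GF E) : Matrix (Fin 2) (Fin 2) (Af E)) i j) := by
    intro i j
    have key := @intg_mul_five E _ _ n m
    constructor
    · rw [hδ₁]
      simp only [Units.val_mul]
      exact key (fun i j => (hden A hA i j).1) (intg_entry hk) (intg_entry hu')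
        (fun i j => (hr' i j).1) (fun i j => (hden B hB i j).1)
    · rw [map_inv, hδ₁]
      have e : (A * k * scalarGF u * scalarGF r * B)⁻¹ =
          B⁻¹ * (scalarGF u)⁻¹ * k⁻¹ * (scalarGF r)⁻¹ * A⁻¹ := by
        rw [_root_.mul_inv_rev, _root_.mul_inv_rev, _root_.mul_inv_rev, _root_.mul_inv_rev,
          ← scalarGF_inv u, ← scalarGF_inv r]
        have hcomm : ∀ (a : (Af E)ˣ) (g h : GF E), scalarGF a * (g * h) = g * (scalarGF a * h) :=
          fun a g h => by rw [← mul_assoc, scalarGF_comm, mul_assoc]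
        simp only [mul_assoc, hcomm r⁻¹]
      rw [e]
      simp only [Units.val_mul]
      exact key (fun i j => (hden B hB i j).2) (intg_entry (InLevel.inv hu'))
        (intg_entry (InLevel.inv hk)) (fun i j => (hr' i j).2) (fun i j => (hden A hA i j).2)
  have hdet : ∀ g : GL (Fin 2) E,
      (∀ i j, Intg ((M : Af E) * (toFin g : Matrix (Fin 2) (Fin 2) (Af E)) i j)) →
      IsIntegral ℤ (((M * M : ℕ) : E) * (g : Matrix (Fin 2) (Fin 2) E).det) := fun g hg => by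
    refine isIntegral_of_intg ?_
    have e : algebraMap E (Af E) (((M * M : ℕ) : E) * (g : Matrix (Fin 2) (Fin 2) E).det) =
        ((M : Af E) • (toFin g : Matrix (Fin 2) (Fin 2) (Af E))).det := by
      simp [toFin, det_fin_two]
      ring
    rw [e]
    exact intg_det_fin_two fun i j => by simpa using hg i j
  have hd0 : (δ₁ : Matrix (Fin 2) (Fin 2) E).det ≠ 0 := (GeneralLinearGroup.det δ₁).ne_zero
  obtain ⟨ε, hε⟩ := hclass _ hd0 (hdet δ₁ fun i j => (hint i j).1) (by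
    have h := hdet δ₁⁻¹ fun i j => (hint i j).2
    rwa [show ((δ₁⁻¹ : GL (Fin 2) E) : Matrix (Fin 2) (Fin 2) E).det =
      ((δ₁ : Matrix (Fin 2) (Fin 2) E).det)⁻¹ from eq_inv_of_mul_eq_one_left (by
        rw [← det_mul, ← Units.val_mul, inv_mul_cancel, Units.val_one, det_one]),
      ← div_eq_mul_inv] at h)
  set e : Eˣ := Units.map (algebraMap (𝓞 E) E).toMonoidHom ε
  refine ⟨δ₁ * GeneralLinearGroup.scalar (Fin 2) e, ?_, ?_, fun i j => ?_⟩
  · rw [QuotientGroup.mk_mul_of_mem _ ((mem_center_iff_scalar _).2 ⟨e, rfl⟩),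
      QuotientGroup.mk_mul_of_mem _ ((mem_center_iff_scalar _).2 ⟨α⁻¹, rfl⟩)]
  · simpa [GeneralLinearGroup.scalar, det_fin_two, e, sq, mul_mul_mul_comm] using hε
  · have h1 : IsIntegral ℤ ((M : E) * δ₁ i j) := isIntegral_of_intg (by
      rw [map_mul, map_natCast]; exact (hint i j).1)
    have h2 : (M : E) * (δ₁ * GeneralLinearGroup.scalar (Fin 2) e) i j =
        ((M : E) * δ₁ i j) * ((ε : 𝓞 E) : E) := by
      simp [GeneralLinearGroup.scalar, e, mul_assoc]
    rw [h2]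
    exact h1.mul (ε : 𝓞 E).2

theorem twNorm_lowerLeft {τ : E →+* E} {γ : GL (Fin 2) E} (h : γ 1 0 = 0) (k : ℕ) :
    (twNorm τ k γ : Matrix (Fin 2) (Fin 2) E) 1 0 = 0 := by
  induction k with
  | zero => simp [twNorm]
  | succ k ih => simp [twNorm, Matrix.mul_apply, Fin.sum_univ_two, h, ih]

/-! ### The covering set -/

theorem exists_ellCover [IsTotallyComplex E] {N : ℕ} {i : F →+* E} {τ : E →+* E} {n : ℕ}
    (h : CycGen i τ n) {f : Test E} (hN : 0 < N) (hf : f.Ok N) : EllCover τ n N f := by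
  classical
  haveI := Red.countable_cos (F := E) hN
  obtain ⟨T, R, c₀, hT, hc₀, hcover⟩ := Red.exists_cover (F := E) hN
  set S : Set (GF E) :=
    Set.image2 (fun a b : Cos E N => a.out * b.out) T
        ((QuotientGroup.mk : GF E → Cos E N) '' Function.support f.fin) ∪
      (fun a : Cos E N => (gfMap τ a.out)⁻¹) '' T
  have hS : S.Finite := (hT.image2 _ hf.finite).union (hT.image _)
  obtain ⟨M, hM, D, hD, hnorm⟩ := exists_normalise hS
  obtain ⟨Rs, hRs⟩ := (hf.compact.isCompact).isBounded.exists_norm_le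
  set L := Real.cosh Rs
  set K : ℝ := ∑ d ∈ hD.toFinset, ∑ w : InfinitePlace E, w d
  have hK0 : 0 ≤ K := Finset.sum_nonneg fun d _ => Finset.sum_nonneg fun w _ => apply_nonneg w d
  have hK : ∀ d ∈ D, ∀ w : InfinitePlace E, w d ≤ K := fun d hd w =>
    (Finset.single_le_sum (f := fun w : InfinitePlace E => w d) (fun w _ => apply_nonneg w d)
      (Finset.mem_univ w)).trans
      (Finset.single_le_sum (f := fun d : E => ∑ w : InfinitePlace E, w d)
        (fun d _ => Finset.sum_nonneg fun w _ => apply_nonneg w d) (hD.mem_toFinset.2 hd))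
  have hL : 1 ≤ L := Real.one_le_cosh _
  -- what a nonzero term says
  have hterm : ∀ q ∈ siegelSet T R c₀, ∀ γ : PG E, EllP τ n γ → tm τ f γ q ≠ 0 →
      ∃ δ : GL (Fin 2) E, (QuotientGroup.mk δ : PG E) = γ ∧
        (∀ a b, IsIntegral ℤ ((M : E) * δ a b)) ∧ δ 1 0 ≠ 0 ∧ ∀ w : InfinitePlace E,
          coshDist (q.1 w) (act (GeneralLinearGroup.map w.embedding δ) (infMap τ q.1 w)) ≤ L ∧
          ‖(GeneralLinearGroup.det (GeneralLinearGroup.map w.embedding δ) : ℂ)‖ ≤ K := by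
    intro q hq γ hγ hne
    obtain ⟨γ, rfl⟩ := QuotientGroup.mk_surjective γ
    rw [tm_mk hf] at hne
    set x := q.2.out⁻¹ * toFin γ * gfMap τ q.2.out with hx
    have hfin : f.fin x ≠ 0 := left_ne_zero_of_mul hne
    set σ := (QuotientGroup.mk x : Cos E N).out
    obtain ⟨k, hk, C, hC⟩ := mem_UZ.1 (show σ⁻¹ * x ∈ UZ E N from
      QuotientGroup.eq.1 (QuotientGroup.out_eq' _))
    have hγ' : toFin γ = q.2.out * σ * (k * scalarGF C) * (gfMap τ q.2.out)⁻¹ := by
      rw [← hC, hx]; group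
    obtain ⟨δ, hδ, hdet, hint⟩ := hnorm γ _ _ k C
      (Or.inl ⟨q.2, hq.1, _, ⟨x, hfin, rfl⟩, rfl⟩) (Or.inr ⟨q.2, hq.1, rfl⟩)
      (inLevel_one_of_inLevel hk) hγ'
    refine ⟨δ, hδ, hint, fun h0 => ?_, fun w => ⟨?_, ?_⟩⟩
    · rw [← hδ, ellP_mk] at hγ
      exact ne_zero_of_ell hγ (twNorm_lowerLeft h0 n)
    · rw [← term_congr hf hδ] at hne
      have hs : (fun w => hdist (q.1 w) (actInf δ (infMap τ q.1) w)) ∈ tsupport f.inf :=
        subset_tsupport _ (right_ne_zero_of_mul hne)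
      have hw := (le_abs_self _).trans ((norm_le_pi_norm _ w).trans (hRs _ hs))
      have h0 : 0 ≤ hdist (q.1 w) (actInf δ (infMap τ q.1) w) :=
        Real.arcosh_nonneg (Hyp.one_le_coshDist _ _)
      have hcosh := Real.cosh_le_cosh.2 (show |hdist (q.1 w) (actInf δ (infMap τ q.1) w)| ≤ |Rs| by
        rw [abs_of_nonneg h0, abs_of_nonneg (h0.trans hw)]; exact hw)
      rwa [hdist, Real.cosh_arcosh (Hyp.one_le_coshDist _ _)] at hcosh
    · rw [GeneralLinearGroup.val_det_apply]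
      show ‖((δ : Matrix (Fin 2) (Fin 2) E).map w.embedding).det‖ ≤ K
      rw [← RingHom.mapMatrix_apply, ← RingHom.map_det, InfinitePlace.norm_embedding_eq]
      exact hK _ hdet w
  -- heights are bounded
  set U : ℝ := 2 * L * K / (c₀ * c₀)
  set G : ℝ := ∏ w : InfinitePlace E, max 1 ((M : ℝ) ^ 2 * U)
  set T₁ : ℝ := 2 * L * K * (M : ℝ) ^ 2 * G / c₀
  have hheight : ∀ q ∈ siegelSet T R c₀, ∀ γ : PG E, EllP τ n γ → tm τ f γ q ≠ 0 →
      ∀ w, ((q.1 w).2 : ℝ) ≤ T₁ := by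
    intro q hq γ hγ hne w
    obtain ⟨δ, -, hint, h10, hpl⟩ := hterm q hq γ hγ hne
    have hkey : ∀ w : InfinitePlace E,
        ((q.1 w).2 : ℝ) * (c₀ * w (δ 1 0) ^ 2) ≤ 2 * L * K := by
      intro w
      have h1 := height_lowerLeft (c₀ := c₀) (hpl w).1 (hpl w).2
        (by rw [infMap_snd]; exact (hq.2 _).2)
      rwa [show ‖(GeneralLinearGroup.map w.embedding δ) 1 0‖ = w (δ 1 0) from
        InfinitePlace.norm_embedding_eq w _] at h1
    have hU : ∀ w : InfinitePlace E, w (δ 1 0) ^ 2 ≤ U := fun w => by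
      rw [le_div_iff₀ (mul_pos hc₀ hc₀), mul_comm, mul_assoc]
      exact (mul_le_mul_of_nonneg_right (hq.2 w).2 (mul_nonneg hc₀.le (sq_nonneg _))).trans (hkey w)
    have hone := one_le_prod_of_isIntegral
      (mul_ne_zero (Nat.cast_ne_zero.2 hM.ne') h10) (hint 1 0)
    have hf' : ∀ w : InfinitePlace E, w ((M : E) * δ 1 0) ^ w.mult = (M : ℝ) ^ 2 * w (δ 1 0) ^ 2 := by
      intro w
      rw [InfinitePlace.mult_isComplex ⟨w, IsTotallyComplex.isComplex w⟩, map_mul, mul_pow,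
        ← InfinitePlace.norm_embedding_eq w (M : E), map_natCast, Complex.norm_natCast]
    simp only [hf'] at hone
    rw [← Finset.mul_prod_erase Finset.univ _ (Finset.mem_univ w)] at hone
    have hlow : 1 ≤ (M : ℝ) ^ 2 * w (δ 1 0) ^ 2 * G := by
      refine hone.trans (mul_le_mul_of_nonneg_left ?_ (by positivity))
      calc ∏ v ∈ Finset.univ.erase w, (M : ℝ) ^ 2 * v (δ 1 0) ^ 2
          ≤ ∏ v ∈ Finset.univ.erase w, max 1 ((M : ℝ) ^ 2 * U) :=
            Finset.prod_le_prod (fun v _ => by positivity) fun v _ =>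
              le_max_of_le_right (mul_le_mul_of_nonneg_left (hU v) (by positivity))
        _ ≤ G := Finset.prod_le_prod_of_subset_of_one_le (Finset.subset_univ _)
            (fun v _ => by positivity) fun v _ _ => le_max_left _ _
    have hG : 0 ≤ G := Finset.prod_nonneg fun v _ => zero_le_one.trans (le_max_left _ _)
    rw [le_div_iff₀ hc₀]
    calc ((q.1 w).2 : ℝ) * c₀ ≤ ((q.1 w).2 : ℝ) * c₀ * ((M : ℝ) ^ 2 * w (δ 1 0) ^ 2 * G) :=
          le_mul_of_one_le_right (mul_nonneg (q.1 w).2.2.le hc₀.le) hlow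
      _ = ((q.1 w).2 : ℝ) * (c₀ * w (δ 1 0) ^ 2) * ((M : ℝ) ^ 2 * G) := by ring
      _ ≤ 2 * L * K * ((M : ℝ) ^ 2 * G) :=
          mul_le_mul_of_nonneg_right (hkey w) (mul_nonneg (by positivity) hG)
      _ = _ := by ring
  -- finitely many classes
  obtain ⟨B, hB⟩ := exists_entry_bound R hc₀ T₁ L K
  have hfinΓ : {δ : GL (Fin 2) E | ∀ a b, δ a b ∈
      {y : E | IsIntegral ℤ ((M : E) * y) ∧ ∀ w : InfinitePlace E, w y ≤ B}}.Finite :=
    ((Set.Finite.pi' fun _ : Fin 2 => Set.Finite.pi' fun _ : Fin 2 =>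
      finite_bounded (F := E) hM B).preimage (f := fun δ : GL (Fin 2) E =>
        (δ : Matrix (Fin 2) (Fin 2) E)) Units.val_injective.injOn).subset fun δ hδ => hδ
  refine ⟨siegelSet T R c₀ ∩ {q | ∀ w, ((q.1 w).2 : ℝ) ≤ T₁},
    (hfinΓ.image (QuotientGroup.mk : _ → PG E)).toFinset, ?_, ?_, fun p => ?_, ?_⟩
  · refine (measurableSet_siegelSet T R c₀).inter ?_
    rw [Set.ofPred_forall]
    refine MeasurableSet.iInter fun w => measurableSet_le ?_ measurable_const
    have h1 : Measurable fun x : Xinf E => ((x w).2 : ℝ) :=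
      measurable_snd.subtype_val.comp (measurable_pi_apply w)
    exact Measurable.comp (g := fun x : Xinf E => ((x w).2 : ℝ)) (f := fun q : Pt E N => q.1) h1
      measurable_fst
  · exact lt_of_le_of_lt (measure_mono Set.inter_subset_left)
      (ptMeasure_siegelSet_lt_top hT R hc₀)
  · obtain ⟨g, hg⟩ := hcover p
    rw [or_iff_not_imp_left]
    intro h0
    refine ⟨g, hg, fun w => ?_⟩
    rw [← h.ellBound_smul hN hf g p, ellBound, ENNReal.tsum_eq_zero] at h0
    push Not at h0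
    obtain ⟨γ, hγ⟩ := h0
    have hmem := Set.mem_of_indicator_ne_zero hγ
    rw [Set.indicator_of_mem hmem, ne_eq, enorm_eq_zero] at hγ
    exact hheight _ hg γ hmem hγ w
  · rintro q ⟨hq, hqT⟩ γ hγ hne
    obtain ⟨δ, hδ, hint, -, hpl⟩ := hterm q hq γ hγ hne
    rw [Set.Finite.mem_toFinset]
    refine ⟨δ, fun a b => ⟨hint a b, fun w => ?_⟩, hδ⟩
    rw [← InfinitePlace.norm_embedding_eq]
    exact hB _ _ _ (hpl w).1 (hpl w).2 (hq.2 w).1 (hq.2 w).2 (hqT w)
      (by rw [norm_infMap_fst]; exact (hq.2 _).1) (by rw [infMap_snd]; exact (hq.2 _).2)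
      (by rw [infMap_snd]; exact hqT _) a b

/-- **Piece B3a.** Matched tests have equal elliptic parts. -/
theorem ellipticTotal [IsTotallyComplex F] [IsTotallyComplex E] {i : F →+* E} {τ : E →+* E}
    {n : ℕ} (h : CycGen i τ n) : EllipticTotal i τ n := by
  intro N N' f φ c hN hN' hf hφ _ hmat w w' hw hw'
  haveI := Red.countable_cos (F := E) hN
  haveI := Red.countable_cos (F := F) hN'
  exact h.ellipticTotal_of_cover hN hN' hf hφ hmat (exists_ellCover h hN hf)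
    (exists_ellCover (CycGen.refl (E := F)) hN' hφ) hw hw'

end FLTAgent.LT.Ell
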