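import Fermat.Agent.LT.TF.EllipticTerm

/-!
Each class of elliptic norms is one twisted orbit; its sum unfolds to one integral over the quotient
by the centraliser over the small field.
-/

set_option autoImplicit false
set_option linter.unusedSectionVars false
set_option linter.style.haveILetI false
set_option synthInstance.maxHeartbeats 200000

noncomputable section

namespace FLTAgent.LT.Ell

open NumberField IsDedekindDomain MeasureTheory Matrix
open scoped ENNReal

/-! ### Unfolding of complex sums -/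

section general

variable {G X : Type*} [Group G] [MulAction G X] [MeasurableSpace X] [Countable G]
  [MeasurableConstSMul G X] {μ : Measure X} [SMulInvariantMeasure G X μ]

theorem integral_unfold {w : X → ℝ≥0∞} (hw : RS.IsWeight G w) (H : Subgroup G) {wH : X → ℝ≥0∞}
    (hwH : RS.IsWeight H wH) {t : X → ℂ} (ht : Measurable t) (hinv : ∀ (h : H) x, t (h • x) = t x)
    (hfin : ∫⁻ x, w x * ∑' q : G ⧸ H, ‖t (q.out⁻¹ • x)‖ₑ ∂μ < ⊤) :
    Integrable t (RS.wMeasure μ wH) ∧
      Integrable (fun x => ∑' q : G ⧸ H, t (q.out⁻¹ • x)) (RS.wMeasure μ w) ∧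
      ∫ x, ∑' q : G ⧸ H, t (q.out⁻¹ • x) ∂(RS.wMeasure μ w) = ∫ x, t x ∂(RS.wMeasure μ wH) := by
  haveI : SMulInvariantMeasure H X μ :=
    ⟨fun h s _ ↦ measure_preimage_smul μ (h : G) s⟩
  haveI : MeasurableConstSMul H X := ⟨fun h ↦ measurable_const_smul (h : G)⟩
  haveI : Countable (G ⧸ H) := Quotient.countable
  have hm : ∀ q : G ⧸ H, Measurable fun x => t (q.out⁻¹ • x) := fun q =>
    ht.comp (measurable_const_smul _)
  have hiH : Integrable t (RS.wMeasure μ wH) := by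
    refine ⟨ht.aestronglyMeasurable, ?_⟩
    show ∫⁻ x, ‖t x‖ₑ ∂(RS.wMeasure μ wH) < ⊤
    rw [RS.lintegral_wMeasure hwH.measurable ht.enorm]
    have key := hw.lintegral_unfold (μ := μ) H hwH (F := fun _ => 1) measurable_const
      (fun _ _ => rfl) ht.enorm fun h x => by rw [hinv]
    simp only [one_mul] at key
    rwa [← key]
  have hsum : Measurable fun x => ∑' q : G ⧸ H, ‖t (q.out⁻¹ • x)‖ₑ :=
    Measurable.tsum fun q => (hm q).enorm
  have hiw : ∫⁻ x, ∑' q : G ⧸ H, ‖t (q.out⁻¹ • x)‖ₑ ∂(RS.wMeasure μ w) < ⊤ := by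
    rwa [RS.lintegral_wMeasure hw.measurable hsum]
  refine ⟨hiH, ⟨(measurable_complex_tsum hm).aestronglyMeasurable,
    lt_of_le_of_lt (lintegral_mono fun x => enorm_tsum_le_tsum_enorm) hiw⟩, ?_⟩
  rw [integral_tsum (fun q => (hm q).aestronglyMeasurable)
    (by rw [← lintegral_tsum fun q => (hm q).enorm.aemeasurable]; exact hiw.ne)]
  have hcw := hw.cosetWeight H
  obtain ⟨hic, heq⟩ := hcw.integral_eq hwH ht hinv hiH
  rw [← heq]
  have hmu : RS.wMeasure μ (RS.cosetWeight H w) =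
      Measure.sum fun q : G ⧸ H => μ.withDensity fun x => w (q.out • x) := by
    rw [RS.wMeasure, ← withDensity_tsum (f := fun (q : G ⧸ H) (x : X) => w (q.out • x)) fun q =>
      hw.measurable.comp (measurable_const_smul q.out)]
    congr 1
    funext x
    rw [RS.cosetWeight, tsum_apply]
    exact Pi.summable.2 fun _ => ENNReal.summable
  rw [hmu] at hic ⊢
  rw [integral_sum_measure hic]
  refine tsum_congr fun q => ?_
  have htop : ∀ y : X, w y < ⊤ := fun y => lt_of_le_of_lt (hw.le_one y) ENNReal.one_lt_top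
  rw [RS.wMeasure, integral_withDensity_eq_integral_toReal_smul hw.measurable
      (ae_of_all _ htop),
    integral_withDensity_eq_integral_toReal_smul (f := fun x => w (q.out • x))
      (hw.measurable.comp (measurable_const_smul q.out)) (ae_of_all _ fun x => htop _),
    ← (measurePreserving_smul q.out μ).integral_comp
      (measurableEmbedding_const_smul q.out) fun x => (w x).toReal • t (q.out⁻¹ • x)]
  refine integral_congr_ae (ae_of_all _ fun x => ?_)
  simp

/-- Orbit sums matter only on an invariant set. -/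
theorem exists_weight_eqOn {H : Subgroup G} {w : X → ℝ≥0∞} (hw : RS.IsWeight G w) {S : Set X}
    (hS : MeasurableSet S) (hinvS : ∀ (g : H) x, g • x ∈ S ↔ x ∈ S) {u₁ : X → ℝ≥0∞}
    (hu₁ : Measurable u₁) (hsum : ∀ x ∈ S, ∑' g : H, u₁ (g • x) = 1) :
    ∃ u : X → ℝ≥0∞, RS.IsWeight H u ∧ Set.EqOn u u₁ S := by
  classical
  have hcw := hw.cosetWeight H
  refine ⟨S.piecewise u₁ (RS.cosetWeight H w),
    ⟨Measurable.piecewise hS hu₁ hcw.measurable, fun x => ?_⟩, Set.piecewise_eqOn S _ _⟩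
  by_cases hx : x ∈ S
  · refine Eq.trans (tsum_congr fun g : H => ?_) (hsum x hx)
    exact Set.piecewise_eq_of_mem S _ _ ((hinvS g x).2 hx)
  · refine Eq.trans (tsum_congr fun g : H => ?_) (hcw.sum_one x)
    exact Set.piecewise_eq_of_notMem S _ _ (mt (hinvS g x).1 hx)

end general

variable {F E : Type*} [Field F] [NumberField F] [Field E] [NumberField E]
variable {N N' : ℕ} {i : F →+* E} {τ : E →+* E} {n : ℕ} {f : Test E}

/-! ### Classes and centralisers -/

/-- Elliptic classes with invariant `x`. -/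
def classOf (τ : E →+* E) (n : ℕ) (x : E) : Set (PG E) :=
  {γ | EllP τ n γ ∧ inv2 (twNorm τ n γ.out) = x}

theorem inv2_out (γ : GL (Fin 2) E) :
    inv2 (twNorm τ n (QuotientGroup.mk γ : PG E).out) = inv2 (twNorm τ n γ) := by
  obtain ⟨a, ha⟩ := (mem_center_iff_scalar _).1
    (QuotientGroup.eq.1 (QuotientGroup.out_eq' (QuotientGroup.mk γ : PG E)))
  set g := (QuotientGroup.mk γ : PG E).out
  have e : γ = g * sc a := by
    show γ = g * GeneralLinearGroup.scalar (Fin 2) a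
    rw [ha, mul_inv_cancel_left]
  rw [e, twNorm_mul_sc, ← (sc_comm _ _).eq, inv2_sc_mul]

theorem mem_classOf {x : E} (γ : GL (Fin 2) E) :
    (QuotientGroup.mk γ : PG E) ∈ classOf τ n x ↔
      EllElem (twNorm τ n γ) ∧ inv2 (twNorm τ n γ) = x := by
  show EllP τ n _ ∧ _ ↔ _
  rw [ellP_mk, inv2_out]

theorem inv2_map (δ : GL (Fin 2) F) : inv2 (GeneralLinearGroup.map i δ) = i (inv2 δ) := by
  simp [inv2, Matrix.trace_fin_two, Matrix.det_fin_two]

theorem inv2_normalForm {s : F} (hs : s ≠ 0) : inv2 (normalForm s hs) = s := by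
  simp [inv2, normalForm, Matrix.trace_fin_two, Matrix.det_fin_two]

variable (τ) in
/-- The twisted stabiliser of a class. -/
def twStab (γ : PG E) : Subgroup (PG E) where
  carrier := {g | tw τ g γ = γ}
  one_mem' := tw_one γ
  mul_mem' {g g'} (hg : tw τ g γ = γ) (hg' : tw τ g' γ = γ) :=
    show tw τ (g * g') γ = γ by rw [tw_mul, hg', hg]
  inv_mem' {g} (hg : tw τ g γ = γ) :=
    show tw τ g⁻¹ γ = γ by
      conv_lhs => rw [← hg]
      rw [← tw_mul, inv_mul_cancel, tw_one]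

/-- The centraliser of `δ` modulo the centre. -/
def centF (δ : GL (Fin 2) F) : Subgroup (PG F) :=
  (Subgroup.centralizer {δ}).map (QuotientGroup.mk' _)

theorem mem_centF {δ : GL (Fin 2) F} {g : PG F} :
    g ∈ centF δ ↔ ∃ ξ, Commute ξ δ ∧ (QuotientGroup.mk ξ : PG F) = g := by
  simp [centF, Subgroup.mem_map, Subgroup.mem_centralizer_iff, Commute, SemiconjBy, eq_comm]

theorem pgMap_injective : Function.Injective (pgMap i : PG F → PG E) := by
  refine (injective_iff_map_eq_one _).2 fun g hg => ?_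
  obtain ⟨g, rfl⟩ := QuotientGroup.mk_surjective g
  rw [pgMap_mk, QuotientGroup.eq_one_iff, Subgroup.mem_center_iff] at hg
  rw [QuotientGroup.eq_one_iff, Subgroup.mem_center_iff]
  intro η
  refine map_injective_GL (i := i) ?_
  rw [map_mul, map_mul]
  exact hg _

namespace CycGen

variable (h : CycGen i τ n)
include h

theorem classOf_eq_orbit {s : F} (hs : EllS s) {γ₁ : GL (Fin 2) E} {a : Eˣ}
    (hγ₁ : twNorm τ n γ₁ = sc a * GeneralLinearGroup.map i (normalForm s hs.1)) :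
    classOf τ n (i s) = Set.range fun g => tw τ g (QuotientGroup.mk γ₁) := by
  set D := GeneralLinearGroup.map i (normalForm s hs.1) with hD
  ext γ
  obtain ⟨γ, rfl⟩ := QuotientGroup.mk_surjective γ
  rw [mem_classOf]
  constructor
  · rintro ⟨hell, hinv⟩
    obtain ⟨b, g, hg⟩ := exists_conj_normalForm hell hs.1 hinv.symm
    have h' : twNorm τ n (g⁻¹ * γ * (tmap τ g⁻¹)⁻¹) = sc b * D := by
      rw [h.twNorm_twConj', hg, inv_inv, ← hD, ← mul_assoc g⁻¹ (sc b), ← (sc_comm b g⁻¹).eq]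
      group
    obtain ⟨u, e, hu⟩ := h.exists_twConj (ellElem_normalForm hs) hγ₁ h'
    refine ⟨QuotientGroup.mk (g * u), ?_⟩
    show tw τ _ _ = _
    rw [tw_mk, QuotientGroup.eq]
    refine (mem_center_iff_scalar _).2 ⟨e, ?_⟩
    have hγ : γ = g * (u * γ₁ * (tmap τ u)⁻¹ * sc e) * (tmap τ g)⁻¹ := by
      rw [← hu, map_inv]; group
    show sc e = _
    rw [hγ, mul_assoc g (u * γ₁ * (tmap τ u)⁻¹ * sc e), mul_assoc (u * γ₁ * (tmap τ u)⁻¹),
      (sc_comm e (tmap τ g)⁻¹).eq, map_mul]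
    group
  · rintro ⟨g, hg⟩
    obtain ⟨g, rfl⟩ := QuotientGroup.mk_surjective g
    dsimp only at hg
    rw [← mem_classOf, ← hg, tw_mk, mem_classOf, h.twNorm_twConj', hγ₁]
    refine ⟨ellElem_conj (ellElem_sc_mul (h.ellElem_map (ellElem_normalForm hs))), ?_⟩
    rw [inv2_conj, inv2_sc_mul, inv2_map, inv2_normalForm]

theorem twStab_eq {δ : GL (Fin 2) F} (hδ : EllElem δ) {γ₁ : GL (Fin 2) E} {a : Eˣ}
    (hγ₁ : twNorm τ n γ₁ = sc a * GeneralLinearGroup.map i δ) :
    twStab τ (QuotientGroup.mk γ₁) = (centF δ).map (pgMap i) := by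
  ext g
  obtain ⟨g, rfl⟩ := QuotientGroup.mk_surjective g
  show tw τ _ _ = _ ↔ _
  rw [tw_mk, Subgroup.mem_map]
  constructor
  · intro hg
    obtain ⟨e, he⟩ := (mem_center_iff_scalar _).1 (QuotientGroup.eq.1 hg.symm)
    have he' : g * γ₁ * (tmap τ g)⁻¹ = γ₁ * sc e := by
      show _ = γ₁ * GeneralLinearGroup.scalar (Fin 2) e
      rw [he, mul_inv_cancel_left]
    obtain ⟨ξ, u, hξ, rfl⟩ := h.exists_centraliser hδ hγ₁ he'
    refine ⟨QuotientGroup.mk ξ, mem_centF.2 ⟨ξ, hξ, rfl⟩, ?_⟩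
    rw [pgMap_mk, QuotientGroup.eq]
    exact (mem_center_iff_scalar _).2 ⟨u, by rw [inv_mul_cancel_left]⟩
  · rintro ⟨x, hx, hxg⟩
    obtain ⟨ξ, hξ, rfl⟩ := mem_centF.1 hx
    rw [pgMap_mk] at hxg
    have hc : Commute (GeneralLinearGroup.map i ξ) γ₁ :=
      commute_of_commute (ne_zero_of_ell (h.ellElem_map hδ)) (hξ.map _)
        (h.commute_preimage hδ hγ₁).2
    have e : tw τ (QuotientGroup.mk g) (QuotientGroup.mk γ₁) = QuotientGroup.mk γ₁ := by
      rw [← hxg, tw_mk, CycGen.tmap_map h, hc.eq, mul_inv_cancel_right]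
    rwa [tw_mk] at e

variable [Countable (Cos E N)]

/-- The sum over one class, integrated over the quotient. -/
theorem class_integral (hN : 0 < N) (hf : f.Ok N) {s : F} (hs : EllS s) {γ₁ : GL (Fin 2) E}
    {a : Eˣ} (hγ₁ : twNorm τ n γ₁ = sc a * GeneralLinearGroup.map i (normalForm s hs.1))
    (π : Pt E N → Pt F N') (hπm : Measurable π)
    (hπ : ∀ ξ, Commute ξ (normalForm s hs.1) → ∀ p, term τ f γ₁ p ≠ 0 →
      π (smulPt (GeneralLinearGroup.map i ξ) p) = smulPt ξ (π p))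
    {v : Pt F N' → ℝ≥0∞} (hv : RS.IsWeight (centF (normalForm s hs.1)) v)
    {w : Pt E N → ℝ≥0∞} (hw : IsPtWeight w)
    (hfin : ∫⁻ p, w p * (∑' γ : PG E, (classOf τ n (i s)).indicator (fun γ => ‖tm τ f γ p‖ₑ) γ)
      ∂ptMeasure E N < ⊤) :
    Integrable (fun p => ∑' γ : PG E, (classOf τ n (i s)).indicator (fun γ => tm τ f γ p) γ)
        (quotMeasure w) ∧
      Integrable (fun p => term τ f γ₁ p * (((v (π p)).toReal : ℝ) : ℂ)) (ptMeasure E N) ∧
      ∫ p, ∑' γ : PG E, (classOf τ n (i s)).indicator (fun γ => tm τ f γ p) γ ∂quotMeasure w =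
        ∫ p, term τ f γ₁ p * (((v (π p)).toReal : ℝ) : ℂ) ∂ptMeasure E N := by
  set δ := normalForm s hs.1 with hδdef
  set γ₀ : PG E := QuotientGroup.mk γ₁ with hγ₀
  set H := twStab τ γ₀ with hH
  let emb : PG E ⧸ H → PG E := fun q => tw τ q.out γ₀
  have hemb : Function.Injective emb := by
    intro q q' (hq : tw τ q.out γ₀ = tw τ q'.out γ₀)
    rw [← QuotientGroup.out_eq' q, ← QuotientGroup.out_eq' q', QuotientGroup.eq]
    show tw τ _ γ₀ = γ₀
    rw [tw_mul, ← hq, ← tw_mul, inv_mul_cancel, tw_one]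
  have hrange : ∀ γ ∈ classOf τ n (i s), γ ∈ Set.range emb := by
    intro γ hγ
    rw [h.classOf_eq_orbit hs hγ₁] at hγ
    obtain ⟨g, rfl⟩ := hγ
    refine ⟨QuotientGroup.mk g, ?_⟩
    have hq : ((QuotientGroup.mk g : PG E ⧸ H).out)⁻¹ * g ∈ H :=
      QuotientGroup.eq.1 (QuotientGroup.out_eq' _)
    show tw τ _ γ₀ = tw τ g γ₀
    rw [show g = (QuotientGroup.mk g : PG E ⧸ H).out *
      ((QuotientGroup.mk g : PG E ⧸ H).out⁻¹ * g) by group]
    conv_rhs => rw [tw_mul, show tw τ ((QuotientGroup.mk g : PG E ⧸ H).out⁻¹ * g) γ₀ = γ₀ from hq]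
    congr 2
    simp
  have hmem : ∀ q, emb q ∈ classOf τ n (i s) := fun q => by
    rw [h.classOf_eq_orbit hs hγ₁]; exact ⟨_, rfl⟩
  have hterm : ∀ (q : PG E ⧸ H) (p : Pt E N), tm τ f (emb q) p = term τ f γ₁ (q.out⁻¹ • p) := by
    intro q p
    conv_lhs => rw [← smul_inv_smul q.out p]
    rw [tm_tw hN hf, tm_mk hf]
  have e1 : ∀ p, ∑' γ : PG E, (classOf τ n (i s)).indicator (fun γ => tm τ f γ p) γ =
      ∑' q : PG E ⧸ H, term τ f γ₁ (q.out⁻¹ • p) := fun p => by
    rw [← hemb.tsum_eq fun γ hγ => hrange γ (Set.mem_of_indicator_ne_zero hγ)]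
    exact tsum_congr fun q => by rw [Set.indicator_of_mem (hmem q), hterm]
  have e2 : ∀ p, ∑' γ : PG E, (classOf τ n (i s)).indicator (fun γ => ‖tm τ f γ p‖ₑ) γ =
      ∑' q : PG E ⧸ H, ‖term τ f γ₁ (q.out⁻¹ • p)‖ₑ := fun p => by
    rw [← hemb.tsum_eq fun γ hγ => hrange γ (Set.mem_of_indicator_ne_zero hγ)]
    exact tsum_congr fun q => by rw [Set.indicator_of_mem (hmem q), hterm]
  have hinv : ∀ (g : H) (p : Pt E N), term τ f γ₁ (g • p) = term τ f γ₁ p := by
    intro g p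
    rw [← tm_mk hf γ₁, ← tm_mk hf γ₁, ← hγ₀]
    conv_lhs => rw [← g.2, Subgroup.smul_def]
    exact tm_tw hN hf _ _ _
  have hSm : MeasurableSet {p : Pt E N | term τ f γ₁ p ≠ 0} :=
    (measurableSet_eq_fun (measurable_term hf γ₁) measurable_const).compl
  have hinvS : ∀ (g : H) (p : Pt E N),
      g • p ∈ {p : Pt E N | term τ f γ₁ p ≠ 0} ↔ p ∈ {p : Pt E N | term τ f γ₁ p ≠ 0} := fun g p => by
    simp only [Set.mem_ofPred]
    rw [hinv]
  have hHeq : (centF δ).map (pgMap i) = H := (h.twStab_eq (ellElem_normalForm hs) hγ₁).symm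
  let eH : centF δ ≃ H :=
    ((centF δ).equivMapOfInjective (pgMap i) pgMap_injective).toEquiv.trans
      (Equiv.subtypeEquivRight fun x => by rw [hHeq])
  have hsum : ∀ p ∈ {p : Pt E N | term τ f γ₁ p ≠ 0}, ∑' g : H, v (π (g • p)) = 1 := by
    intro p hp
    rw [← eH.tsum_eq]
    refine Eq.trans (tsum_congr fun g => ?_) (hv.sum_one (π p))
    obtain ⟨ξ, hξ, hg⟩ := mem_centF.1 g.2
    show v (π ((eH g : PG E) • p)) = v ((g : PG F) • π p)
    rw [show (eH g : PG E) = pgMap i g from rfl, ← hg, pgMap_mk, mk_smul, hπ ξ hξ p hp, mk_smul]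
  obtain ⟨u, hwH, hu⟩ := exists_weight_eqOn (H := H) ((isPtWeight_iff w).1 hw) hSm hinvS
    (hv.measurable.comp hπm) hsum
  have hfin' : ∫⁻ p, w p * ∑' q : PG E ⧸ H, ‖term τ f γ₁ (q.out⁻¹ • p)‖ₑ ∂ptMeasure E N < ⊤ := by
    simpa only [e2] using hfin
  obtain ⟨hi, hiw, heq⟩ := integral_unfold ((isPtWeight_iff w).1 hw) H hwH
    (measurable_term hf γ₁) hinv hfin'
  have htop : ∀ p, u p < ⊤ := fun p => lt_of_le_of_lt (hwH.le_one _) ENNReal.one_lt_top
  have hpt : ∀ p, (u p).toReal • term τ f γ₁ p =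
      term τ f γ₁ p * (((v (π p)).toReal : ℝ) : ℂ) := by
    intro p
    by_cases h0 : term τ f γ₁ p = 0
    · simp [h0]
    · rw [show u p = v (π p) from hu h0]
      simp [mul_comm]
  have hi' : Integrable (fun p => term τ f γ₁ p * (((v (π p)).toReal : ℝ) : ℂ)) (ptMeasure E N) :=
    ((integrable_withDensity_iff_integrable_smul' hwH.measurable (ae_of_all _ htop)).1 hi).congr
      (ae_of_all _ hpt)
  simp only [e1]
  refine ⟨hiw, hi', heq.trans ?_⟩
  rw [RS.wMeasure, integral_withDensity_eq_integral_toReal_smul hwH.measurable (ae_of_all _ htop)]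
  exact integral_congr_ae (ae_of_all _ hpt)

end CycGen

end FLTAgent.LT.Ell
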