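import Fermat.Agent.LT.TF.Core

/-!
The exact identity of the projected pairings on two sides: matched elliptic parts, vanishing of the
rest under damping, and the abstract comparison applied to the span of the word vectors.
-/

set_option autoImplicit false
set_option linter.unusedSectionVars false
set_option linter.unusedSimpArgs false
set_option linter.deprecated false
set_option linter.style.haveILetI false
set_option synthInstance.maxHeartbeats 200000

noncomputable section

namespace FLTAgent.LT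

open NumberField IsDedekindDomain MeasureTheory Filter Topology
open scoped ENNReal InnerProductSpace

theorem integrable_mul_norm_add {X V W : Type*} [MeasurableSpace X] [NormedAddCommGroup V]
    [NormedAddCommGroup W] {μ : Measure X} {k : X → W} {u v : X → V} (hk : AEStronglyMeasurable k μ)
    (hu : AEStronglyMeasurable u μ) (hv : AEStronglyMeasurable v μ)
    (iu : Integrable (fun p => ‖k p‖ * ‖u p‖) μ) (iv : Integrable (fun p => ‖k p‖ * ‖v p‖) μ) :
    Integrable (fun p => ‖k p‖ * ‖(u + v) p‖) μ :=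
  (iu.add iv).mono' (hk.norm.mul (hu.add hv).norm) (Eventually.of_forall fun p => by
    rw [norm_mul, norm_norm, norm_norm, Pi.add_apply, Pi.add_apply, ← mul_add]
    exact mul_le_mul_of_nonneg_left (norm_add_le _ _) (norm_nonneg _))

theorem starProjection_congr {E : Type*} [NormedAddCommGroup E] [InnerProductSpace ℂ E]
    {K K' : Submodule ℂ E} [K.HasOrthogonalProjection] [K'.HasOrthogonalProjection] (h : K = K') :
    K.starProjection = K'.starProjection := by
  subst h
  rfl

/-- The prescribed values of all operators. -/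
def FamData.val {L H κ : Type*} (P : FamData L H κ) : L ⊕ H → ℝ := Sum.elim P.c P.lam

namespace SideData

variable {L H κ : Type*} [Fintype κ] {P : FamData L H κ}

section one

variable {F : Type*} [Field F] [NumberField F] (S : SideData P F)

/-- The part off the elliptic classes of a damped pairing. -/
def rest (n J : ℕ) (ws : List L) (a : H) (p : Pt F S.N) : ℂ :=
  ∑ k, P.coef k * (kernTw S.tau ((S.pairTst k ws a).dampPow S.v0 J) p -
    ellTw S.tau n ((S.pairTst k ws a).dampPow S.v0 J) p)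

/-- The elliptic part of a damped pairing. -/
def ell (n J : ℕ) (ws : List L) (a : H) (p : Pt F S.N) : ℂ :=
  ∑ k, P.coef k * ellTw S.tau n ((S.pairTst k ws a).dampPow S.v0 J) p

variable [Countable (Cos F S.N)]

/-- The joint eigenspace of the damping operator and finitely many operators. -/
def space {ι : Type*} (ops : ι → L ⊕ H) : Submodule ℂ (Lp ℂ 2 (quotMeasure S.w)) :=
  jointKer fun o : Option ι => o.elim S.opA fun i => S.op (ops i) - (P.val (ops i) : ℂ) • 1

instance space_hasProjection {ι : Type*} (ops : ι → L ⊕ H) :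
    (S.space ops).HasOrthogonalProjection :=
  jointKer_hasProjection _

theorem mem_space {ι : Type*} {ops : ι → L ⊕ H} {u : Lp ℂ 2 (quotMeasure S.w)} :
    u ∈ S.space ops ↔ S.opA u = 0 ∧ ∀ i, S.op (ops i) u = (P.val (ops i) : ℂ) • u := by
  simp [space, mem_jointKer, Option.forall, sub_eq_zero, -Complex.coe_smul]

theorem space_eq_shift {ι : Type*} (ops : ι → L ⊕ H) {r : ι → ℝ} (hr : ∀ i, 0 < r i) :
    (jointKer fun o : Option ι =>
      o.elim S.opA fun i => shiftBy (r i) (S.op (ops i)) (P.val (ops i))) = S.space ops := by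
  ext u
  simp [mem_jointKer, mem_space, Option.forall, shiftBy_eq_zero_iff (hr _)]

/-- The rest of a damped pairing is the damped pairing minus the elliptic part. -/
theorem rest_eq (n J : ℕ) (ws : List L) (a : H) :
    S.rest n J ws a = fun p =>
      ⟪S.k1 p, ((1 - S.opA * S.opA) ^ J) (S.kq ws a p)⟫_ℂ - S.ell n J ws a p :=
  funext fun p => by
    rw [inner_k1_damped]
    simp only [rest, ell, mul_sub, Finset.sum_sub_distrib]

/-- The pairing against a damped vector is dominated. -/
theorem integrable_damped {k : Pt F S.N → Lp ℂ 2 (quotMeasure S.w)}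
    (h1 : AEStronglyMeasurable S.k1 (quotMeasure S.w))
    (hm : AEStronglyMeasurable k (quotMeasure S.w))
    (hi : Integrable (fun p => ‖S.k1 p‖ * ‖k p‖) (quotMeasure S.w)) (J : ℕ) :
    Integrable (fun p => ⟪S.k1 p, ((1 - S.opA * S.opA) ^ J) (k p)⟫_ℂ) (quotMeasure S.w) := by
  have hD := (isDamper_one_sub_sq S.opA S.isSAC_opA.1 S.isSAC_opA.2).1
  exact hi.mono' (h1.inner (((1 - S.opA * S.opA) ^ J).continuous.comp_aestronglyMeasurable hm))
    (Eventually.of_forall fun p => (norm_inner_le_norm _ _).trans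
      (mul_le_mul_of_nonneg_left (hD.pow_norm_le J _) (norm_nonneg _)))

end one

variable {E F : Type*} [Field E] [NumberField E] [Field F] [NumberField F]
  (S : SideData P E) (S' : SideData P F)

/-- What the geometry supplies for the tests of the two sides; `G` holds the letters off the orbit of
the damping place. -/
structure Geom (G : Set L) (i : F →+* E) (n : ℕ) (c : ℂ) : Prop where
  noSing : ∀ k ws a J, NoSing S.tau n S.N ((S.pairTst k ws a).dampPow S.v0 J)
  matched : ∀ k ws a J, Matched i S.tau n (N := S.N) (N' := S'.N)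
    ((S.pairTst k ws a).dampPow S.v0 J) ((S'.pairTst k ws a).dampPow S'.v0 J) c
  total : EllipticTotal i S.tau n
  tau' : S'.tau = RingHom.id F
  vanish : ∀ ws, (∀ l ∈ ws, l ∈ G) → ∀ a, (∀ J, Integrable (S.rest n J ws a) (quotMeasure S.w)) →
    Tendsto (fun J => ∫ p, S.rest n J ws a p ∂quotMeasure S.w) atTop (𝓝 0)
  vanish' : ∀ ws, (∀ l ∈ ws, l ∈ G) → ∀ a, (∀ J, Integrable (S'.rest 1 J ws a) (quotMeasure S'.w)) →
    Tendsto (fun J => ∫ p, S'.rest 1 J ws a p ∂quotMeasure S'.w) atTop (𝓝 0)

/-- What the analysis supplies on one side. -/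
structure Bounded {F : Type*} [Field F] [NumberField F] (S : SideData P F)
    [Countable (Cos F S.N)] : Prop where
  k1_meas : AEStronglyMeasurable S.k1 (quotMeasure S.w)
  kq_meas : ∀ ws a, AEStronglyMeasurable (S.kq ws a) (quotMeasure S.w)
  integrable : ∀ ws a, Integrable (fun p => ‖S.k1 p‖ * ‖S.kq ws a p‖) (quotMeasure S.w)

variable {S S'} {G : Set L} {i : F →+* E} {n : ℕ} {c : ℂ}

theorem Geom.ell_total (g : Geom S S' G i n c) (J : ℕ) (ws : List L) (a : H) :
    Integrable (S.ell n J ws a) (quotMeasure S.w) ∧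
      Integrable (S'.ell 1 J ws a) (quotMeasure S'.w) ∧
      ∫ p, S.ell n J ws a p ∂quotMeasure S.w = c * ∫ q, S'.ell 1 J ws a q ∂quotMeasure S'.w := by
  have h := fun k => g.total S.N S'.N _ _ c S.hN S'.hN
    ((S.tst_ok _ _).dampPow S.hN S.hv0 J) ((S'.tst_ok _ _).dampPow S'.hN S'.hv0 J)
    (g.noSing k ws a J) (g.matched k ws a J) S.w S'.w S.hw S'.hw
  have hi := fun k => (h k).1.const_mul (P.coef k)
  have hi' : ∀ k, Integrable (fun q => P.coef k *
      ellTw S'.tau 1 ((S'.pairTst k ws a).dampPow S'.v0 J) q) (quotMeasure S'.w) := fun k => by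
    rw [g.tau']; exact (h k).2.1.const_mul (P.coef k)
  refine ⟨integrable_finsetSum _ fun k _ => hi k, integrable_finsetSum _ fun k _ => hi' k, ?_⟩
  unfold SideData.ell
  unfold SideData.pairTst at hi' ⊢
  rw [integral_finsetSum _ fun k _ => hi k, integral_finsetSum _ fun k _ => hi' k, Finset.mul_sum]
  refine Finset.sum_congr rfl fun k _ => ?_
  rw [integral_const_mul, integral_const_mul, g.tau']
  erw [(h k).2.2]
  ring

variable [Countable (Cos E S.N)] [Countable (Cos F S'.N)]

/-- **The limit identity for one word vector.** -/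
theorem Geom.tendsto_gen (g : Geom S S' G i n c) (b : Bounded S) (b' : Bounded S') (ws : List L)
    (hws : ∀ l ∈ ws, l ∈ G) (a : H) :
    Tendsto (fun J => (∫ p, ⟪S.k1 p, ((1 - S.opA * S.opA : Lp ℂ 2 (quotMeasure S.w) →L[ℂ] Lp ℂ 2 (quotMeasure S.w)) ^ J)
        (S.kq ws a p)⟫_ℂ ∂quotMeasure S.w) -
      c * ∫ q, ⟪S'.k1 q, ((1 - S'.opA * S'.opA : Lp ℂ 2 (quotMeasure S'.w) →L[ℂ] Lp ℂ 2 (quotMeasure S'.w)) ^ J)
        (S'.kq ws a q)⟫_ℂ ∂quotMeasure S'.w)
      atTop (𝓝 0) := by
  have hP := fun J => S.integrable_damped b.k1_meas (b.kq_meas ws a) (b.integrable ws a) J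
  have hP' := fun J => S'.integrable_damped b'.k1_meas (b'.kq_meas ws a) (b'.integrable ws a) J
  have hR : ∀ J, Integrable (S.rest n J ws a) (quotMeasure S.w) := fun J => by
    rw [rest_eq]; exact (hP J).sub (g.ell_total J ws a).1
  have hR' : ∀ J, Integrable (S'.rest 1 J ws a) (quotMeasure S'.w) := fun J => by
    rw [rest_eq]; exact (hP' J).sub (g.ell_total J ws a).2.1
  have h := (g.vanish ws hws a hR).sub ((g.vanish' ws hws a hR').const_mul c)
  simp only [mul_zero, sub_zero] at h
  refine h.congr fun J => ?_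
  simp only [rest_eq, integral_sub (hP J) (g.ell_total J ws a).1,
    integral_sub (hP' J) (g.ell_total J ws a).2.1, (g.ell_total J ws a).2.2]
  ring

variable (S S' G) in
/-- The span of the pairs of word vectors over the allowed letters. -/
def pairs : Submodule ℂ ((Pt E S.N → Lp ℂ 2 (quotMeasure S.w)) ×
    (Pt F S'.N → Lp ℂ 2 (quotMeasure S'.w))) :=
  Submodule.span ℂ (Set.range fun x : {ws : List L // ∀ l ∈ ws, l ∈ G} × H =>
    (S.kq x.1.1 x.2, S'.kq x.1.1 x.2))

theorem Geom.tendsto_pairs (g : Geom S S' G i n c) (b : Bounded S) (b' : Bounded S')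
    {k : (Pt E S.N → Lp ℂ 2 (quotMeasure S.w)) × (Pt F S'.N → Lp ℂ 2 (quotMeasure S'.w))}
    (hk : k ∈ pairs S S' G) :
    AEStronglyMeasurable k.1 (quotMeasure S.w) ∧ AEStronglyMeasurable k.2 (quotMeasure S'.w) ∧
      Integrable (fun p => ‖S.k1 p‖ * ‖k.1 p‖) (quotMeasure S.w) ∧
      Integrable (fun q => ‖S'.k1 q‖ * ‖k.2 q‖) (quotMeasure S'.w) ∧
      Tendsto (fun J => (∫ p, ⟪S.k1 p, ((1 - S.opA * S.opA : Lp ℂ 2 (quotMeasure S.w) →L[ℂ] Lp ℂ 2 (quotMeasure S.w)) ^ J)
          (k.1 p)⟫_ℂ ∂quotMeasure S.w) -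
        c * ∫ q, ⟪S'.k1 q, ((1 - S'.opA * S'.opA : Lp ℂ 2 (quotMeasure S'.w) →L[ℂ] Lp ℂ 2 (quotMeasure S'.w)) ^ J)
          (k.2 q)⟫_ℂ ∂quotMeasure S'.w)
        atTop (𝓝 0) := by
  induction hk using Submodule.span_induction with
  | mem k hk =>
    obtain ⟨⟨⟨ws, hws⟩, a⟩, rfl⟩ := hk
    exact ⟨b.kq_meas ws a, b'.kq_meas ws a, b.integrable ws a, b'.integrable ws a,
      g.tendsto_gen b b' ws hws a⟩
  | zero =>
    refine ⟨aestronglyMeasurable_const, aestronglyMeasurable_const, ?_, ?_, ?_⟩ <;>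
      simp only [Prod.fst_zero, Prod.snd_zero, Pi.zero_apply, map_zero, inner_zero_right, norm_zero,
        mul_zero, integral_zero, sub_zero] <;>
      first
        | exact integrable_zero _ _ _
        | exact tendsto_const_nhds
  | add u v _ _ hu hv =>
    obtain ⟨mu, mu', iu, iu', tu⟩ := hu
    obtain ⟨mv, mv', iv, iv', tv⟩ := hv
    refine ⟨mu.add mv, mu'.add mv', integrable_mul_norm_add b.k1_meas mu mv iu iv,
      integrable_mul_norm_add b'.k1_meas mu' mv' iu' iv', ?_⟩
    have t := tu.add tv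
    rw [add_zero] at t
    refine t.congr fun J => ?_
    simp only [Prod.fst_add, Prod.snd_add, Pi.add_apply, map_add, inner_add_right]
    rw [integral_add (S.integrable_damped b.k1_meas mu iu J)
        (S.integrable_damped b.k1_meas mv iv J),
      integral_add (S'.integrable_damped b'.k1_meas mu' iu' J)
        (S'.integrable_damped b'.k1_meas mv' iv' J)]
    ring
  | smul z u _ hu =>
    obtain ⟨mu, mu', iu, iu', tu⟩ := hu
    refine ⟨mu.const_smul z, mu'.const_smul z, ?_, ?_, ?_⟩
    · simpa [norm_smul, mul_left_comm] using iu.const_mul ‖z‖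
    · simpa [norm_smul, mul_left_comm] using iu'.const_mul ‖z‖
    · have t := tu.const_mul z
      rw [mul_zero] at t
      refine t.congr fun J => ?_
      simp only [Prod.smul_fst, Prod.smul_snd, Pi.smul_apply, map_smul, inner_smul_right,
        integral_const_mul]
      ring

/-- Applying matched operators keeps the span. -/
theorem map_pairs (x : L ⊕ H) (hx : ∀ l, x = .inl l → l ∈ G) (r val : ℝ)
    {k : (Pt E S.N → Lp ℂ 2 (quotMeasure S.w)) × (Pt F S'.N → Lp ℂ 2 (quotMeasure S'.w))}
    (hk : k ∈ pairs S S' G) :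
    ((fun p => shiftBy r (S.op x) val (k.1 p)), fun q => shiftBy r (S'.op x) val (k.2 q)) ∈
      pairs S S' G := by
  induction hk using Submodule.span_induction with
  | mem k hk =>
    obtain ⟨⟨⟨ws, hws⟩, a⟩, rfl⟩ := hk
    obtain ⟨ws', hws', a', e, e'⟩ : ∃ ws', (∀ l ∈ ws', l ∈ G) ∧ ∃ a', (∀ p, S.op x (S.kq ws a p) = S.kq ws' a' p) ∧
        ∀ q, S'.op x (S'.kq ws a q) = S'.kq ws' a' q := by
      cases x with
      | inl l =>
        exact ⟨l :: ws, List.forall_mem_cons.2 ⟨hx l rfl, hws⟩, a, S.opT_kq l ws a,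
          S'.opT_kq l ws a⟩
      | inr h => exact ⟨ws, hws, P.mul h a, S.opR_kq h ws a, S'.opR_kq h ws a⟩
    have h1 : (S.kq ws' a', S'.kq ws' a') ∈ pairs S S' G := Submodule.subset_span ⟨(⟨ws', hws'⟩, a'), rfl⟩
    have h0 : (S.kq ws a, S'.kq ws a) ∈ pairs S S' G :=
      Submodule.subset_span ⟨(⟨ws, hws⟩, a), rfl⟩
    have h := (pairs S S' G).smul_mem (((r⁻¹ : ℝ)) : ℂ)
      ((pairs S S' G).sub_mem h1 ((pairs S S' G).smul_mem (val : ℂ) h0))
    convert h using 1
    refine Prod.ext (funext fun p => ?_) (funext fun q => ?_) <;>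
      simp only [shiftBy_apply, e, e', Prod.smul_fst, Prod.smul_snd, Prod.fst_sub, Prod.snd_sub,
        Pi.smul_apply, Pi.sub_apply]
  | zero =>
    convert (pairs S S' G).zero_mem using 1
    ext <;> simp
  | add u v _ _ hu hv =>
    convert (pairs S S' G).add_mem hu hv using 1
    ext <;> simp
  | smul z u _ hu =>
    convert (pairs S S' G).smul_mem z hu using 1
    ext <;> simp

/-- **The projected pairings agree exactly.** -/
theorem Geom.compare (g : Geom S S' G i n c) (b : Bounded S) (b' : Bounded S') {ι : Type*}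
    [Fintype ι] (ops : ι → L ⊕ H) (hops : ∀ j l, ops j = .inl l → l ∈ G) (ws : List L)
    (hws : ∀ l ∈ ws, l ∈ G) (a : H) :
    ∫ p, ⟪S.k1 p, (S.space ops).starProjection (S.kq ws a p)⟫_ℂ ∂quotMeasure S.w =
      c * ∫ q, ⟪S'.k1 q, (S'.space ops).starProjection (S'.kq ws a q)⟫_ℂ ∂quotMeasure S'.w := by
  set r : ι → ℝ := fun j => ‖S.op (ops j)‖ + ‖S'.op (ops j)‖ + |P.val (ops j)| + 1 with hr
  have hr0 : ∀ j, 0 < r j := fun j => by positivity
  have hle : ∀ j, ‖S.op (ops j)‖ + |P.val (ops j)| ≤ r j ∧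
      ‖S'.op (ops j)‖ + |P.val (ops j)| ≤ r j := fun j => by
    simp only [hr]
    constructor <;> linarith [norm_nonneg (S.op (ops j)), norm_nonneg (S'.op (ops j))]
  have h := compare_projected (quotMeasure S.w) (quotMeasure S'.w) c id b.k1_meas b'.k1_meas
    (pairs S S' G) (fun k hk => ⟨(g.tendsto_pairs b b' hk).1, (g.tendsto_pairs b b' hk).2.1,
      (g.tendsto_pairs b b' hk).2.2.1, (g.tendsto_pairs b b' hk).2.2.2.1⟩)
    S.opA S'.opA S.isSAC_opA S'.isSAC_opA (fun k hk => (g.tendsto_pairs b b' hk).2.2.2.2)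
    (fun j => shiftBy (r j) (S.op (ops j)) (P.val (ops j)))
    (fun j => shiftBy (r j) (S'.op (ops j)) (P.val (ops j)))
    (fun j => isSAC_shiftBy (S.op_symm _) (hr0 j) (hle j).1)
    (fun j => isSAC_shiftBy (S'.op_symm _) (hr0 j) (hle j).2)
    (fun j => commute_shiftBy (S.op_comm_opA _) _ _)
    (fun j => commute_shiftBy (S'.op_comm_opA _) _ _)
    (fun j k hk => map_pairs _ (hops j) _ _ hk) (Submodule.subset_span ⟨(⟨ws, hws⟩, a), rfl⟩ :
      (S.kq ws a, S'.kq ws a) ∈ pairs S S' G)
  rw [starProjection_congr (S.space_eq_shift ops hr0),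
    starProjection_congr (S'.space_eq_shift ops hr0)] at h
  exact h

end SideData

end FLTAgent.LT
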