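import Fermat.Agent.LT.TF.SlotFam
import Fermat.Agent.LT.TF.Limit
import Fermat.Agent.LT.TF.EllipticCover
import Fermat.Agent.LT.TF.Hyp.Vanish
import Fermat.Agent.LT.TF.Match.Main
import Fermat.Agent.LT.TF.Match.Theta

/-!
What the geometry supplies on the two concrete sides: no singular norms, matching, and vanishing of
the rest under damping, for the words avoiding the damping place.
-/

set_option autoImplicit false
set_option linter.unusedSectionVars false
set_option linter.style.haveILetI false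
set_option linter.deprecated false
set_option synthInstance.maxHeartbeats 400000
set_option maxHeartbeats 800000

noncomputable section

namespace FLTAgent.LT.Match

open NumberField IsDedekindDomain

local notation "Γ₀" => WithZero (Multiplicative ℤ)

variable {F : Type*} [Field F] [NumberField F] {N : ℕ} {L : ∀ v, GL (Fin 2) (Kp F v) → ℂ}

/-- A product whose factor at `x` is the unit is trivial at `x`. -/
theorem LocFam.oneAt_prodTest (hL : LocFam N L) {x : HeightOneSpectrum (𝓞 F)}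
    (hx : L x = unitFn 1) (h : (InfinitePlace F → ℝ) → ℂ) : (prodTest L h).OneAt x := by
  intro g hg
  have hne := hL.prodFun_ne_zero.1 hg x
  rw [hx, unitFn] at hne
  obtain ⟨k, hk, c, e⟩ := Set.mem_of_indicator_ne_zero hne
  have einv : locGF x g⁻¹ = k⁻¹ * scal c⁻¹ := by
    rw [map_inv, e, mul_inv_rev, show (scal c)⁻¹ = scal c⁻¹ from (map_inv _ c).symm, scal_mul_comm]
  have key : ∀ (m : GL (Fin 2) (Kp F x)) (u : (Kp F x)ˣ) (i j : Fin 2),
      ((m * scal u : GL (Fin 2) (Kp F x)) : Matrix (Fin 2) (Fin 2) (Kp F x)) i j =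
        (m : Matrix (Fin 2) (Fin 2) (Kp F x)) i j * (u : Kp F x) := fun m u i j => by
    rw [Units.val_mul]
    simp [scal, Matrix.mul_diagonal]
  refine ⟨c⁻¹, fun i j => ⟨?_, ?_⟩⟩
  · have h1 : ((locGF x g : GL (Fin 2) (Kp F x)) : Matrix (Fin 2) (Fin 2) (Kp F x)) i j *
        ((c⁻¹ : (Kp F x)ˣ) : Kp F x) = (k : Matrix (Fin 2) (Fin 2) (Kp F x)) i j := by
      rw [e, key, mul_assoc, Units.mul_inv, mul_one]
    exact (congrArg Valued.v h1).trans_le (ent_of_mem_lvl hk i j)
  · have h1 : ((locGF x g⁻¹ : GL (Fin 2) (Kp F x)) : Matrix (Fin 2) (Fin 2) (Kp F x)) i j *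
        (((c⁻¹)⁻¹ : (Kp F x)ˣ) : Kp F x) =
          ((k⁻¹ : GL (Fin 2) (Kp F x)) : Matrix (Fin 2) (Fin 2) (Kp F x)) i j := by
      rw [einv, key, mul_assoc, Units.mul_inv, mul_one]
    exact (congrArg Valued.v h1).trans_le (ent_of_mem_lvl (inv_mem hk) i j)

/-- No singular norms meet a test on the base with a contracting class in one slot. -/
theorem noSing_prodTest_one (hN : 0 < N) {j : ℕ} (hj : 0 < j) {v : HeightOneSpectrum (𝓞 F)}
    (hv : (N : 𝓞 F) ∈ v.asIdeal) (hL : LocFam N L) (hLv : L v = dsetAt N j v)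
    (hinf : (InfinitePlace F → ℝ) → ℂ) : NoSing (RingHom.id F) 1 N (prodTest L hinf) := by
  intro γ p hp
  have hne := hL.prodFun_ne_zero.1 (left_ne_zero_of_mul hp) v
  rw [hLv, dsetAt, dsetFn, gfMap_id, map_mul, map_mul, map_inv, locGF_toFin] at hne
  have hmem := Set.mem_of_indicator_ne_zero hne
  have hlt : levN v N < 1 := levN_lt_one hv
  have hϖ : Valued.v (((natU (Kp F v) N ^ j) ^ 3 : (Kp F v)ˣ) : Kp F v) < (1 : Γ₀) := by
    rw [Units.val_pow_eq_pow_val, Units.val_pow_eq_pow_val, map_pow, map_pow, natU_val hN,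
      ← levN_eq]
    exact pow_lt_one₀ zero_le (pow_lt_one₀ zero_le hlt hj.ne') three_ne_zero
  obtain ⟨ht, -, hd⟩ := trace_disc_ne_zero hlt hϖ hmem
  have e : twNorm (RingHom.id F) 1 γ = γ := by
    simp only [twNorm, map_one, mul_one]
  rw [e]
  have htr : ((gl (algebraMap F (Kp F v)) γ : GL (Fin 2) (Kp F v)) :
      Matrix (Fin 2) (Fin 2) (Kp F v)).trace =
        algebraMap F (Kp F v) (γ : Matrix (Fin 2) (Fin 2) F).trace :=
    (AddMonoidHom.map_trace (algebraMap F (Kp F v)).toAddMonoidHom _).symm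
  have hdet : ((gl (algebraMap F (Kp F v)) γ : GL (Fin 2) (Kp F v)) :
      Matrix (Fin 2) (Fin 2) (Kp F v)).det =
        algebraMap F (Kp F v) (γ : Matrix (Fin 2) (Fin 2) F).det :=
    ((algebraMap F (Kp F v)).map_det _).symm
  rw [htr] at ht hd
  rw [hdet, ← map_pow, ← map_ofNat (algebraMap F (Kp F v)) 4, ← map_mul, ← map_sub] at hd
  exact ⟨(map_ne_zero _).1 ht, (map_ne_zero _).1 hd⟩

end FLTAgent.LT.Match

namespace FLTAgent.LT.Descent

open NumberField IsDedekindDomain MeasureTheory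

variable {d : Octa} {N j : ℕ} {LM : ∀ w, GL (Fin 2) (Match.Kp d.Mf w) → ℂ}
  {LK : ∀ v, GL (Fin 2) (Match.Kp d.Kf v) → ℂ}

/-- The letters off the orbit of the damping place. -/
def Choice.good (C : Choice d N) : Set (Letter d N) := {l | l.1 ≠ C.w0}

namespace BadPair

open Match

variable (hB : BadPair d N j LM LK) (C : Choice d N) (k : C.fam.κ) (ws : List (Letter d N))
  (a : Rad3 d)

/-- The radial triple of a pairing test. -/
def pairRad : Rad3 d := ((C.data.g).mul (C.data.ah k)).mul a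

theorem pairTst_M : (C.sideM LM hB.famM).pairTst k ws a =
    prodTest (wordFam LM ((C.data.aw k ++ ws).map fun l => l.1.up l.2))
      (radFun (pairRad C k a).1) := by
  have e := iterMul_prodTest (goodM C (C.data.aw k ++ ws)) hB.famM (radFun (C.data.g).1)
  show (⟨(iterMul _ (prodTest LM (radFun (C.data.g).1))).fin, _⟩ : Test d.Mf) = _
  rw [show (C.data.aw k ++ ws).map (C.sideM LM hB.famM).pl =
    (C.data.aw k ++ ws).map fun l => l.1.up l.2 from rfl, e]
  rfl

theorem pairTst_K : (C.sideK LK hB.famK).pairTst k ws a =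
    prodTest (wordFam LK ((C.data.aw k ++ ws).map fun l => l.1.1))
      (radFun (pairRad C k a).down) := by
  have e := iterMul_prodTest (goodK (C.data.aw k ++ ws)) hB.famK (radFun (C.data.g).down)
  show (⟨(iterMul _ (prodTest LK (radFun (C.data.g).down))).fin, _⟩ : Test d.Kf) = _
  rw [show (C.data.aw k ++ ws).map (C.sideK LK hB.famK).pl =
    (C.data.aw k ++ ws).map fun l => l.1.1 from rfl, e]
  rfl

theorem dampPow_M (J : ℕ) :
    ((C.sideM LM hB.famM).pairTst k ws a).dampPow (C.sideM LM hB.famM).v0 J =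
      prodTest (hB.famMJ C (C.data.aw k ++ ws) J) (radFun (pairRad C k a).1) := by
  classical
  rw [hB.pairTst_M C k ws a]
  exact (wordFam_locFam (goodM C _) hB.famM).dampPow_prodTest (C.w0.up 0) _ J

theorem dampPow_K (J : ℕ) :
    ((C.sideK LK hB.famK).pairTst k ws a).dampPow (C.sideK LK hB.famK).v0 J =
      prodTest (hB.famKJ C (C.data.aw k ++ ws) J) (radFun (pairRad C k a).down) := by
  classical
  rw [hB.pairTst_K C k ws a]
  exact (wordFam_locFam (goodK _) hB.famK).dampPow_prodTest C.w0.1 _ J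

theorem aw_good : ∀ l ∈ C.data.aw k, l.1 ≠ C.w0 := fun l hl => by
  obtain ⟨i, -, rfl⟩ := List.mem_map.1 hl
  exact fun e => C.w0_ne e.symm

theorem oneAt_M (hws : ∀ l ∈ ws, l ∈ C.good) {u : HeightOneSpectrum (𝓞 d.Mf)}
    (hu : placeBelow (iKM d) u = C.w0.1) : ((C.sideM LM hB.famM).pairTst k ws a).OneAt u := by
  classical
  obtain ⟨-, hbelow, habove, -, -, hgood⟩ := C.w0.up_spec C.hN
  obtain ⟨i, rfl⟩ := habove u hu
  rw [hB.pairTst_M C k ws a]
  refine (wordFam_locFam (goodM C _) hB.famM).oneAt_prodTest ?_ _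
  rw [wordFam_apply, List.count_eq_zero_of_not_mem (fun h => ?_)]
  · exact hB.unitM _ (hgood i)
  · obtain ⟨l, hl, e⟩ := List.mem_map.1 h
    have hne : l.1 ≠ C.w0 := (List.mem_append.1 hl).elim (aw_good C k l) (hws l)
    exact hne (Subtype.ext (by rw [← (l.1.up_spec C.hN).2.1 l.2, e, hbelow]))

theorem oneAt_K (hws : ∀ l ∈ ws, l ∈ C.good) :
    ((C.sideK LK hB.famK).pairTst k ws a).OneAt C.w0.1 := by
  classical
  rw [hB.pairTst_K C k ws a]
  refine (wordFam_locFam (goodK _) hB.famK).oneAt_prodTest ?_ _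
  rw [wordFam_apply, List.count_eq_zero_of_not_mem (fun h => ?_)]
  · exact hB.unitK _ C.w0.2.1
  · obtain ⟨l, hl, e⟩ := List.mem_map.1 h
    exact (List.mem_append.1 hl).elim (aw_good C k l) (hws l) (Subtype.ext e)

variable (hj : 0 < j)

include hj

theorem noSing_M (J : ℕ) : NoSing (tauM d) 3 N
    (((C.sideM LM hB.famM).pairTst k ws a).dampPow (C.sideM LM hB.famM).v0 J) := by
  rw [hB.dampPow_M C k ws a J]
  obtain ⟨w₁, hτ₁, hw₁, e, -⟩ := hB.contract
  exact noSing_prodTest (cycGen d) C.hN.1 hj hτ₁ hw₁ (hB.famMJ_locFam C _ J)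
    ((hB.famMJ_fixed_bad C _ J hw₁).1.trans e) _

theorem noSing_K (J : ℕ) : NoSing (RingHom.id d.Kf) 1 N
    (((C.sideK LK hB.famK).pairTst k ws a).dampPow (C.sideK LK hB.famK).v0 J) := by
  rw [hB.dampPow_K C k ws a J]
  obtain ⟨w₁, -, hw₁, -, e⟩ := hB.contract
  exact noSing_prodTest_one C.hN.1 hj ((natCast_mem_below (iKM d) rfl N).2 hw₁)
    (hB.famKJ_locFam C _ J) ((hB.famMJ_fixed_bad C _ J hw₁).2.trans e) _

end BadPair

open Match in
/-- **The geometry of the two sides.** -/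
theorem exists_geom (hN : d.Good N) (hj : 0 < j) {LM : ∀ w, GL (Fin 2) (Kp d.Mf w) → ℂ}
    {LK : ∀ v, GL (Fin 2) (Kp d.Kf v) → ℂ} (hB : BadPair d N j LM LK) :
    ∃ c : ℂ, c ≠ 0 ∧ ∀ C : Choice d N,
      SideData.Geom (C.sideM LM hB.famM) (C.sideK LK hB.famK) C.good (iKM d) 3 c := by
  obtain ⟨ζ, hζ⟩ := exists_cubeRoot d
  obtain ⟨c, hc, hmatch⟩ := matched_of_local (cycGen d) hζ hN.1
    (fun w h1 h2 => exists_theta_inert d hN w h1 h2) LM LK hB.fixed
  refine ⟨c, hc, fun C => ⟨fun k ws a J => hB.noSing_M C k ws a hj J,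
    fun k ws a J => ?_, Ell.ellipticTotal (cycGen d), rfl, fun ws hws a hint => ?_,
    fun ws hws a hint => ?_⟩⟩
  · rw [hB.dampPow_M C k ws a J, hB.dampPow_K C k ws a J]
    refine hmatch _ _ _ _ (hB.famMJ_locFam C _ J) (hB.famKJ_locFam C _ J)
      (BadPair.pairRad C k a).2 (fun v => ⟨infIdx d 0, ?_, ?_⟩)
      (fun w _ h2 => hB.famMJ_fixed_bad C _ J h2)
      (fun w h1 h2 => hB.famMJ_fixed_good C _ J h1 h2) fun v hv => hB.famKJ_moved C _ J v hv
    · haveI := Asai.subsingleton_places d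
      exact Subsingleton.elim _ _
    · rw [Rad3.down, (infIdx_orbit d).1, (infIdx_orbit d).2]
  · have hmv : placeBelow (tauM d) (C.w0.up 0) ≠ C.w0.up 0 := C.w0.placeBelow_tau_ne C.hN 0
    obtain ⟨h, hd⟩ := HypTree.cyc_three (τ := tauM d) (cycGen d).pow hmv
    refine HypTree.tendsto_integral_damped h C.hN.1 (C.sideM LM hB.famM).hv0 hd C.data.coef
      (fun k => (C.sideM LM hB.famM).pairTst k ws a)
      (fun k => (C.sideM LM hB.famM).tst_ok _ _) (fun k m => hB.oneAt_M C k ws a hws ?_)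
      (fun k J => hB.noSing_M C k ws a hj J) C.hwM hint
    induction m with
    | zero => exact (C.w0.up_spec C.hN).2.1 0
    | succ m ih =>
      rw [Function.iterate_succ_apply', placeBelow_i_tau (cycGen d)]
      exact ih
  · refine HypTree.tendsto_integral_damped HypTree.Cyc.one C.hN.1 (C.sideK LK hB.famK).hv0
      (fun m h0 h1 => absurd h1 (by omega)) C.data.coef
      (fun k => (C.sideK LK hB.famK).pairTst k ws a)
      (fun k => (C.sideK LK hB.famK).tst_ok _ _) (fun k m => ?_)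
      (fun k J => hB.noSing_K C k ws a hj J) C.hwK hint
    rw [Function.iterate_fixed (HypTree.placeBelow_id _)]
    exact hB.oneAt_K C k ws a hws

end FLTAgent.LT.Descent
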