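import Fermat.Agent.LT.TF.Unfold
import Fermat.Agent.LT.Red.Level

/-!
An automorphism of the field on the places and the local norms.
-/

set_option autoImplicit false
set_option linter.style.haveILetI false
set_option linter.unusedSectionVars false
set_option synthInstance.maxHeartbeats 200000

noncomputable section

namespace FLTAgent.LT

open NumberField IsDedekindDomain

variable {F : Type*} [Field F] [NumberField F]

local notation "HS" => HeightOneSpectrum (𝓞 F)

/-- An endomorphism of a number field is bijective. -/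
lemma bijective_endo (τ : F →+* F) : Function.Bijective τ :=
  ⟨τ.injective, LinearMap.surjective_of_injective (f := (τ.toRatAlgHom).toLinearMap) τ.injective⟩

/-- The automorphism. -/
def endoEquiv (τ : F →+* F) : F ≃+* F := RingEquiv.ofBijective τ (bijective_endo τ)

lemma endoEquiv_apply (τ : F →+* F) (x : F) : endoEquiv τ x = τ x := rfl

lemma coe_endoEquiv_ring (τ : F →+* F) (y : 𝓞 F) :
    RingOfIntegers.mapRingEquiv (endoEquiv τ) y = RingOfIntegers.mapRingHom τ y :=
  RingOfIntegers.ext rfl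

lemma mem_map_endoSymm (τ : F →+* F) (I : Ideal (𝓞 F)) (x : 𝓞 F) :
    x ∈ I.map ((RingOfIntegers.mapRingEquiv (endoEquiv τ)).symm : 𝓞 F →+* 𝓞 F) ↔
      RingOfIntegers.mapRingHom τ x ∈ I := by
  set e := RingOfIntegers.mapRingEquiv (endoEquiv τ)
  rw [Ideal.mem_map_iff_of_surjective (e.symm : 𝓞 F →+* 𝓞 F) e.symm.surjective, ← coe_endoEquiv_ring]
  exact ⟨fun ⟨y, hy, hyx⟩ => hyx ▸ (e.apply_symm_apply y).symm ▸ hy,
    fun h => ⟨e x, h, e.symm_apply_apply x⟩⟩

lemma asIdeal_placeBelow (τ : F →+* F) (w : HS) :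
    (placeBelow τ w).asIdeal =
      Ideal.map ((RingOfIntegers.mapRingEquiv (endoEquiv τ)).symm : 𝓞 F →+* 𝓞 F) w.asIdeal := by
  ext x
  rw [mem_map_endoSymm]
  rfl

/-- The permutation of the places. -/
def placePerm (τ : F →+* F) : Equiv.Perm HS :=
  Equiv.ofBijective (placeBelow τ) ⟨fun a b h => by
    refine HeightOneSpectrum.ext (Ideal.ext fun x => ?_)
    obtain ⟨y, rfl⟩ := (RingOfIntegers.mapRingEquiv (endoEquiv τ)).surjective x
    have := congrArg (fun v : HS => y ∈ v.asIdeal) h
    simpa [placeBelow, coe_endoEquiv_ring] using this,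
  fun v => by
    set e := RingOfIntegers.mapRingEquiv (endoEquiv τ)
    refine ⟨⟨v.asIdeal.map (e : 𝓞 F →+* 𝓞 F), Ideal.map_isPrime_of_equiv e, ?_⟩,
      HeightOneSpectrum.ext ?_⟩
    · rw [Ne, Ideal.map_eq_bot_iff_of_injective (f := (e : 𝓞 F →+* 𝓞 F)) e.injective]
      exact v.ne_bot
    · rw [asIdeal_placeBelow, Ideal.map_map, ← RingEquiv.coe_ringHom_trans, RingEquiv.self_trans_symm,
        RingEquiv.coe_ringHom_refl, Ideal.map_id]⟩

lemma placePerm_apply (τ : F →+* F) (w : HS) : placePerm τ w = placeBelow τ w := rfl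

lemma absNorm_placeBelow (τ : F →+* F) (w : HS) :
    Ideal.absNorm (placeBelow τ w).asIdeal = Ideal.absNorm w.asIdeal := by
  rw [Ideal.absNorm_apply, Ideal.absNorm_apply, Submodule.cardQuot_apply, Submodule.cardQuot_apply,
    asIdeal_placeBelow]
  exact (Nat.card_congr (Ideal.quotientEquiv w.asIdeal _
    (RingOfIntegers.mapRingEquiv (endoEquiv τ)).symm rfl).toEquiv).symm

lemma intValuation_placeBelow (τ : F →+* F) (w : HS) (x : 𝓞 F) :
    w.intValuation (RingOfIntegers.mapRingHom τ x) = (placeBelow τ w).intValuation x := by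
  set e := RingOfIntegers.mapRingEquiv (endoEquiv τ)
  have hk : ∀ k : ℕ, RingOfIntegers.mapRingHom τ x ∈ w.asIdeal ^ k ↔
      x ∈ (placeBelow τ w).asIdeal ^ k := fun k => by
    rw [asIdeal_placeBelow, ← Ideal.map_pow, mem_map_endoSymm]
  rcases eq_or_ne x 0 with rfl | hx
  · simp
  have hx' : RingOfIntegers.mapRingHom τ x ≠ 0 := by
    rw [← coe_endoEquiv_ring]
    exact (map_ne_zero_iff _ e.injective).2 hx
  have key : ∀ (v : HS) (z : 𝓞 F), z ≠ 0 →
      ∃ k : ℕ, v.intValuation z = WithZero.exp (-(k : ℤ)) := fun v z hz =>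
    ⟨_, v.intValuation_if_neg hz⟩
  obtain ⟨a, ha⟩ := key w _ hx'
  obtain ⟨b, hb⟩ := key (placeBelow τ w) _ hx
  have h1 := (hk a).1 ((w.intValuation_le_pow_iff_mem _ a).1 ha.le)
  have h2 := (hk b).2 (((placeBelow τ w).intValuation_le_pow_iff_mem _ b).1 hb.le)
  rw [← HeightOneSpectrum.intValuation_le_pow_iff_mem] at h1 h2
  rw [hb, WithZero.exp_le_exp] at h1
  rw [ha, WithZero.exp_le_exp] at h2
  rw [ha, hb, show a = b by omega]

lemma valuation_placeBelow (τ : F →+* F) (w : HS) (x : F) :
    w.valuation F (τ x) = (placeBelow τ w).valuation F x := by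
  obtain ⟨a, b, -, rfl⟩ := IsFractionRing.div_surjective (A := 𝓞 F) x
  simp only [map_div₀, show ∀ y : 𝓞 F, τ (algebraMap (𝓞 F) F y) =
    algebraMap (𝓞 F) F (RingOfIntegers.mapRingHom τ y) from fun _ => rfl,
    HeightOneSpectrum.valuation_of_algebraMap, intValuation_placeBelow]

lemma norm_complMap (τ : F →+* F) (w : HS) (y : (placeBelow τ w).adicCompletion F) :
    ‖complMap τ w y‖ = ‖y‖ := by
  have hd : DenseRange (fun x : F => (x : (placeBelow τ w).adicCompletion F)) :=
    HeightOneSpectrum.denseRange_algebraMap F _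
  refine congrFun (hd.equalizer ((continuous_complMap τ w).norm) continuous_norm ?_) y
  funext x
  simp only [Function.comp_apply, complMap_coe, FinitePlace.norm_def,
    HeightOneSpectrum.adicCompletion.valued_coe, valuation_placeBelow, absNorm_placeBelow]

lemma norm_afMap (τ : F →+* F) (a : Af F) (w : HS) : ‖afMap τ a w‖ = ‖a (placeBelow τ w)‖ :=
  norm_complMap τ w _

/-- Valuations and norms compare alike. -/
lemma norm_le_norm_iff_valued {v : HS} {x y : v.adicCompletion F} :
    ‖x‖ ≤ ‖y‖ ↔ Valued.v x ≤ Valued.v y := by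
  rw [FinitePlace.norm_def, FinitePlace.norm_def, NNReal.coe_le_coe]
  exact (WithZeroMulInt.toNNReal_strictMono (HeightOneSpectrum.one_lt_absNorm_nnreal v)).le_iff_le

lemma norm_natCast_afMap (τ : F →+* F) (n : ℕ) (w : HS) :
    ‖(n : Af F) (placeBelow τ w)‖ = ‖(n : Af F) w‖ := by
  rw [← norm_afMap, map_natCast]

lemma embedding_comap_cases {E : Type*} [Field E] [NumberField E] (i : F →+* E)
    (w : InfinitePlace E) :
    (w.comap i).embedding = w.embedding.comp i ∨
      w.embedding.comp i = ComplexEmbedding.conjugate (w.comap i).embedding := by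
  have h : InfinitePlace.mk (w.embedding.comp i) = InfinitePlace.mk (w.comap i).embedding := by
    rw [InfinitePlace.mk_embedding, ← InfinitePlace.comap_mk, InfinitePlace.mk_embedding]
  rcases InfinitePlace.mk_eq_iff.1 h with e | e
  · exact Or.inl e.symm
  · exact Or.inr (by rw [← e]; exact (star_involutive (w.embedding.comp i)).symm)

end FLTAgent.LT
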