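import Fermat.Agent.LT.TF.Trace.Recursion

/-!
An idele of the inverse different which is invariant under an automorphism of order three at the
moved bad places and trivial at the fixed bad places.
-/

set_option autoImplicit false
set_option linter.style.haveILetI false
set_option linter.unusedSectionVars false

noncomputable section

namespace FLTAgent.LT.TraceTheta

open NumberField IsDedekindDomain WithZero
open FLTAgent.LT.RS FLTAgent.LT.Red

variable {F : Type*} [Field F] [NumberField F] [IsTotallyComplex F] {τ : F ≃+* F}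

local notation "HS" => HeightOneSpectrum (𝓞 F)

theorem below_three (h3 : ∀ x, τ (τ (τ x)) = x) (v : HS) :
    below τ (below τ (below τ v)) = v := by
  refine HeightOneSpectrum.ext (Ideal.ext fun z => ?_)
  show RingOfIntegers.mapRingHom (τ : F →+* F) (RingOfIntegers.mapRingHom (τ : F →+* F)
    (RingOfIntegers.mapRingHom (τ : F →+* F) z)) ∈ v.asIdeal ↔ _
  rw [show RingOfIntegers.mapRingHom (τ : F →+* F) (RingOfIntegers.mapRingHom (τ : F →+* F)
    (RingOfIntegers.mapRingHom (τ : F →+* F) z)) = z from RingOfIntegers.ext (h3 _)]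

/-- An integer with prescribed orders at finitely many places. -/
theorem exists_intValuation_eq (S : Finset HS) (n : HS → ℕ) :
    ∃ a : 𝓞 F, a ≠ 0 ∧ ∀ v ∈ S, v.intValuation a = exp (-(n v : ℤ)) := by
  classical
  choose π hπ using fun v : HS => v.intValuation_exists_uniformizer
  obtain ⟨y, hy⟩ := IsDedekindDomain.exists_forall_sub_mem_ideal (s := S)
    (fun v : HS => v.asIdeal) (fun v => n v + 1) (fun v _ => v.prime)
    (fun v _ w _ hvw h => hvw (HeightOneSpectrum.ext h))
    fun v => π v.1 ^ n v.1
  have hval : ∀ v ∈ S, v.intValuation y = exp (-(n v : ℤ)) := fun v hv => by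
    have h1 : v.intValuation (π v ^ n v) = exp (-(n v : ℤ)) := by
      rw [map_pow, hπ, ← exp_nsmul]; simp
    have h2 : v.intValuation (y - π v ^ n v) < v.intValuation (π v ^ n v) := by
      rw [h1]
      refine lt_of_le_of_lt ((v.intValuation_le_pow_iff_mem _ _).2 (hy v hv)) ?_
      rw [exp_lt_exp]; push_cast; omega
    rw [← h1, ← v.intValuation.map_add_eq_of_lt_left h2, add_sub_cancel]
  rcases S.eq_empty_or_nonempty with rfl | ⟨v₀, hv₀⟩
  · exact ⟨1, one_ne_zero, fun v hv => absurd hv (Finset.notMem_empty v)⟩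
  · refine ⟨y, fun h => ?_, hval⟩
    have := hval v₀ hv₀
    rw [h, map_zero] at this
    exact exp_ne_zero this.symm

/-- The classes of the twist at a place are those at its image. -/
theorem fixC_below [PinSel F] (v : HS) : FixC τ (below τ v) ↔ FixC τ v :=
  ⟨fun h => by
    have e := below_injective τ h.1
    rwa [e] at h, fun h => by rw [h.1]; exact h⟩

/-- **The base idele.** -/
theorem exists_x0 [PinSel F] (h3 : ∀ x, τ (τ (τ x)) = x) {N : ℕ} (hN : 0 < N) {M : ℕ} (hM : 0 < M)
    (hpin : ∀ v : HS, PinV v → below τ v = v)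
    (hrad : ∀ v : HS, PinV v → ∃ m : ℕ, exp (3 * (m : ℤ)) * (PinSel.rad v * PinSel.rad v) =
      Valued.v ((diffId (F := F) : Af F) v)) :
    ∃ x₀ : (Af F)ˣ, (∀ v : HS, NsV τ N v → (x₀ : Af F) v = 1) ∧
      (∀ v : HS, (N : 𝓞 F) ∉ v.asIdeal →
        Valued.v ((x₀ : Af F) v) = Valued.v ((diffId (F := F) : Af F) v)) ∧
      (∀ v : HS, SpV τ N v → Valued.v ((x₀ : Af F) v) * (radA M v * radB M v) =
        Valued.v ((diffId (F := F) : Af F) v)) ∧
      ∀ v : HS, SpV τ N v → (Tu τ x₀ : Af F) v = (x₀ : Af F) v := by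
  classical
  letI : LinearOrder HS := linearOrderOfSTO WellOrderingRel
  set e : HS → ℕ := fun v => (log (Valued.v ((diffId (F := F) : Af F) v))).toNat with he
  have hd : ∀ v, Valued.v ((diffId (F := F) : Af F) v) = exp (e v : ℤ) := fun v => by
    have h1 := one_le_diffId (F := F) v
    have h0 : Valued.v ((diffId (F := F) : Af F) v) ≠ 0 :=
      (lt_of_lt_of_le zero_lt_one h1).ne'
    rw [← exp_log h0, ← exp_zero, exp_le_exp] at h1
    rw [he]
    dsimp only
    rw [Int.toNat_of_nonneg h1, exp_log h0]
  have heb : ∀ v, e (below τ v) = e v := fun v => by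
    simp only [he, valued_diffId_below]
  choose! m hm using hrad
  set n : HS → ℕ := fun v =>
    if PinV v then m v else if v < below τ v ∧ v < below τ (below τ v) then e v else 0 with hn
  set S := ((finite_natCast_mem (F := F) hN).subset
    (fun v (hv : v ∈ {v : HS | SpV τ N v}) => hv.1)).toFinset with hS
  obtain ⟨a, ha0, ha⟩ := exists_intValuation_eq S n
  set ζ : F := (a : F)⁻¹ with hζ
  set ξ : F := ζ * τ ζ * τ (τ ζ) with hξdef
  have hζ0 : ζ ≠ 0 := inv_ne_zero (RingOfIntegers.coe_ne_zero_iff.2 ha0)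
  have hξ0 : ξ ≠ 0 := mul_ne_zero (mul_ne_zero hζ0 ((map_ne_zero τ).2 hζ0))
    ((map_ne_zero τ).2 ((map_ne_zero τ).2 hζ0))
  have hξτ : τ ξ = ξ := by
    rw [hξdef, map_mul, map_mul, h3]; ring
  have hSp : ∀ {v}, SpV τ N v → SpV τ N (below τ v) := fun {v} hv =>
    ⟨(natCast_mem_below τ N v).2 hv.1, fun h => hv.2 ((fixC_below v).1 h)⟩
  have hζv : ∀ v, SpV τ N v → v.valuation F ζ = exp (n v : ℤ) := fun v hv => by
    rw [hζ, map_inv₀, show (a : F) = algebraMap (𝓞 F) F a from rfl,
      HeightOneSpectrum.valuation_of_algebraMap,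
      ha v (by rw [hS]; exact (Set.Finite.mem_toFinset _).2 hv), ← exp_neg, neg_neg]
  have hξv : ∀ v, SpV τ N v →
      v.valuation F ξ * (radA M v * radB M v) = exp (e v : ℤ) := fun v hv => by
    rw [hξdef, map_mul, map_mul, valuation_below, valuation_below, valuation_below,
      hζv v hv, hζv _ (hSp hv), hζv _ (hSp (hSp hv)), ← exp_add, ← exp_add]
    by_cases hp : PinV v
    · have hf := hpin v hp
      rw [hf, hf, ← hd v, ← hm v hp, show radA M v = PinSel.rad v from if_pos hp,
        show radB M v = PinSel.rad v from if_pos hp, show n v = m v from if_pos hp]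
      congr 2
      ring
    have hb : below τ v ≠ v := fun h => hv.2 ⟨h, hp⟩
    have hp1 : ¬ PinV (below τ v) := fun h => hb (below_injective τ (hpin _ h))
    have hp2 : ¬ PinV (below τ (below τ v)) := fun h =>
      hb (below_injective τ (below_injective τ (hpin _ h)))
    rw [show radA M v = Valued.v ((M : Af F) v) from if_neg hp,
      show radB M v = (Valued.v ((M : Af F) v))⁻¹ from if_neg hp,
      mul_inv_cancel₀ (valued_natCast_ne_zero hM v), mul_one]
    congr 1
    have h12 : v ≠ below τ v := fun h => hb h.symm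
    have h23 : below τ v ≠ below τ (below τ v) := fun h => hb (below_injective τ h.symm)
    have h31 : below τ (below τ v) ≠ v := fun h =>
      hb (below_injective τ (below_injective τ ((below_three h3 v).trans h.symm).symm)).symm
    simp only [hn, heb, below_three h3 v, if_neg hp, if_neg hp1, if_neg hp2]
    rcases lt_or_gt_of_ne h12 with a1 | a1 <;> rcases lt_or_gt_of_ne h23 with a2 | a2 <;>
      rcases lt_or_gt_of_ne h31 with a3 | a3 <;>
      first
        | exact absurd ((a1.trans a2).trans a3) (lt_irrefl v)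
        | exact absurd ((a1.trans a3).trans a2) (lt_irrefl _)
        | simp [a1, a2, a3, a1.not_gt, a2.not_gt, a3.not_gt]
  set g : (Af F)ˣ := Units.map (algebraMap F (Af F)).toMonoidHom (Units.mk0 ξ hξ0)
  refine ⟨restr (fun v => SpV τ N v) g * restr (fun v => ¬ SpV τ N v ∧ ¬ NsV τ N v) diffId,
    fun v hv => ?_, fun v hv => ?_, fun v hv => ?_, fun v hv => ?_⟩
  · rw [af_unit_mul_apply, restr_apply_of_not fun h => h.2 hv.2,
      restr_apply_of_not fun h => h.2 hv, one_mul]
  · rw [af_unit_mul_apply, restr_apply_of_not fun h => hv h.1,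
      restr_apply_of ⟨fun h => hv h.1, fun h => hv h.1⟩, one_mul]
  · rw [af_unit_mul_apply, restr_apply_of hv, restr_apply_of_not fun h => h.1 hv, mul_one, hd]
    exact (congrArg (· * _) (valued_algebraMap ξ v)).trans (hξv v hv)
  · have key : ∀ {v}, SpV τ N v →
        ((restr (fun v => SpV τ N v) g * restr (fun v => ¬ SpV τ N v ∧ ¬ NsV τ N v) diffId :
          (Af F)ˣ) : Af F) v = algebraMap F (Af F) ξ v := fun {v} hs => by
      rw [af_unit_mul_apply, restr_apply_of hs, restr_apply_of_not fun h => h.1 hs, mul_one]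
      rfl
    show complMap (τ : F →+* F) v _ = _
    rw [key (hSp hv), key hv]
    refine (congrArg (fun y : Af F => y v) ((afMap_algebraMap (τ : F →+* F) ξ).trans ?_) :)
    exact congrArg _ hξτ

end FLTAgent.LT.TraceTheta
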