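import Fermat.Agent.LT.ThetaM.CoefTheta
import Fermat.Agent.LT.TF.Trace.Germ

/-!
The translate of a theta function has coefficients which depend only on the ideal and an unbounded
tail at the fixed bad places off the modulus: the witness of the twisted trace.
-/

set_option autoImplicit false
set_option linter.style.haveILetI false
set_option linter.unusedSectionVars false

noncomputable section

namespace FLTAgent.LT.TraceTheta

open NumberField IsDedekindDomain WithZero
open FLTAgent.LT.RS FLTAgent.LT.Red FLTAgent.LT.ThetaM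

variable {F E : Type} [Field F] [NumberField F] [PinSel F] [IsTotallyComplex F] [Field E] [NumberField E]
  [Algebra F E] {τ : F ≃+* F} {N N' : ℕ}

theorem exists_exp_bound (hN : 0 < N) (S : Finset (HeightOneSpectrum (𝓞 F))) (k : ℕ) :
    ∃ j : ℕ, ∀ v ∈ S, exp (-(j : ℤ)) ≤ Valued.v ((N : Af F) v) ^ k := by
  choose j hj using fun v : HeightOneSpectrum (𝓞 F) =>
    exists_exp_le (pow_ne_zero k (valued_natCast_ne_zero (F := F) hN v))
  exact ⟨S.sup j, fun v hv => le_trans (exp_le_exp.2 (by have := Finset.le_sup (f := j) hv; omega))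
    (hj v)⟩

/-- **The witness.** The translate of the theta function by `u`. -/
theorem exists_theta_tail (D : ThetaM.Data F E) {θ : Form F} (hN' : 0 < N') (hθ : CuspZero N' θ)
    (hexp : HasExpansion D θ) (hN : 0 < N)
    (hns : ∀ v, NsV τ N v → ¬ D.nf ≤ v.asIdeal) (s : Set.Ioi (0 : ℝ)) (x₀ u : (Af F)ˣ)
    (hu : ∀ v, Valued.v (((x₀ * u : (Af F)ˣ) : Af F) v) = 1) :
    (∀ w : (Af F)ˣ, (∀ v, Valued.v ((w : Af F) v) = 1) → ∀ a,
      cf s (Rt (upperGF u 0) θ) (a * w) = cf s (Rt (upperGF u 0) θ) a) ∧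
      ∀ k, ∃ b : nsId τ N, Deep τ N k b ∧
        cf s (Rt (upperGF u 0) θ) (x₀ * (b : (Af F)ˣ)) ≠ 0 := by
  classical
  refine ⟨fun w hw a => ?_, fun k => ?_⟩
  · rw [cf_Rt_diag s hN' hθ, cf_Rt_diag s hN' hθ, cf_of_exp D hN' hθ hexp, cf_of_exp D hN' hθ hexp,
      fId_eq_of_valued (a := a * w * u) (b := a * u) fun v => by
        rw [mul_right_comm, af_unit_mul_apply, map_mul, hw, mul_one]]
  set S := (finite_nsV (τ := τ) hN).toFinset with hS
  have hmem : ∀ v, v ∈ S ↔ NsV τ N v := fun v => by simp [hS]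
  obtain ⟨j, hj⟩ := exists_exp_bound hN S k
  obtain ⟨e, he, hne⟩ := exists_cf_tail_ne_zero D hN' hθ hexp s S
    (fun v hv => hns v ((hmem v).1 hv)) j
  set b := ∏ w ∈ S, unifIdele w ^ e w with hb
  have hbv : ∀ v, Valued.v ((b : Af F) v) = if v ∈ S then exp (-(e v : ℤ)) else 1 := by
    intro v
    rw [hb]
    induction S using Finset.induction_on with
    | empty =>
      rw [Finset.prod_empty, af_unit_one_apply, map_one, if_neg (Finset.notMem_empty v)]
    | insert w T hwT ih =>
      rw [Finset.prod_insert hwT, af_unit_mul_apply, map_mul, ih]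
      have hp : ∀ n : ℕ, Valued.v (((unifIdele w ^ n : (Af F)ˣ) : Af F) v) =
          Valued.v ((unifIdele w : Af F) v) ^ n := fun n => by
        induction n with
        | zero => rw [pow_zero, af_unit_one_apply, map_one, pow_zero]
        | succ n ihn => rw [pow_succ, af_unit_mul_apply, map_mul, ihn, pow_succ]
      rw [hp]
      rcases eq_or_ne v w with rfl | hv
      · rw [valued_unifIdele, if_neg hwT, if_pos (Finset.mem_insert_self v T), mul_one, ← exp_nsmul]
        simp
      · simp [unifIdele_apply_ne hv, hv]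
  have hbns : b ∈ nsId τ N := by
    refine Subgroup.prod_mem _ fun w hw => Subgroup.pow_mem _ ?_ _
    exact fun v hv => unifIdele_apply_ne fun h => hv (h ▸ (hmem w).1 hw)
  refine ⟨⟨b, hbns⟩, fun v hv => ?_, ?_⟩
  · show Valued.v ((b : Af F) v) ≤ _
    rw [hbv, if_pos ((hmem v).2 hv)]
    refine le_trans (exp_le_exp.2 ?_) (hj v ((hmem v).2 hv))
    have := he v ((hmem v).2 hv)
    omega
  · rw [cf_Rt_diag s hN' hθ]
    refine hne _ fun v => ?_
    show Valued.v (((x₀ * b * u : (Af F)ˣ) : Af F) v) = Valued.v ((b : Af F) v)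
    rw [mul_right_comm, af_unit_mul_apply, map_mul, hu, one_mul]

end FLTAgent.LT.TraceTheta
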