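import Fermat.Agent.LT.TF.Setup
import Fermat.Agent.LT.TF.DualTwist
import Fermat.Agent.LT.TF.ThetaTail
import Fermat.Agent.LT.ThetaM.Form
import Fermat.Agent.LT.ThetaM.Units
import Fermat.Agent.LT.TF.Trace.Symm
import Fermat.Agent.LT.OctaLocal

/-!
The arithmetic witness of the twisted trace: fixed places have decomposition groups outside `G_M`,
moved good places are split, and a translate of the theta function is a form with the split
eigenvalues, unit invariant coefficients and an unbounded tail at the fixed bad places.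
-/

set_option autoImplicit false
set_option linter.unusedSectionVars false
set_option linter.style.haveILetI false
set_option synthInstance.maxHeartbeats 400000

noncomputable section

namespace FLTAgent.LT.Descent

open NumberField IsDedekindDomain WithZero
open scoped Pointwise
open FLTAgent.LT.TraceTheta FLTAgent.LT.RS FLTAgent.LT.Red

local instance : IsGalois ℚ Qb := Octa.isGalois_Qb

variable (d : Octa)

theorem tauM_cube' (x : d.Mf) : tauM d (tauM d (tauM d x)) = x := (cycGen d).pow x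

/-- The generator of `Gal(M/K)` as an automorphism. -/
def tauE : d.Mf ≃+* d.Mf :=
  RingEquiv.ofRingHom (tauM d) ((tauM d).comp (tauM d))
    (RingHom.ext fun x => tauM_cube' d x) (RingHom.ext fun x => tauM_cube' d x)

theorem coe_tauE : (tauE d : d.Mf →+* d.Mf) = tauM d := rfl

theorem tauE_apply (x : d.Mf) : tauE d x = tauM d x := rfl

theorem tauE_cube (x : d.Mf) : tauE d (tauE d (tauE d x)) = x := tauM_cube' d x

variable {d}

/-- An element of the decomposition group in `G_K`, outside `G_M`, fixes the place. -/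
theorem below_eq_self_of_not_mem {l : ℕ} {A : ValuationSubring Qb} (hl : l.Prime)
    (hA : A.LiesOverPrime l) {g : Gam} (hg : g ∈ A.decompositionSubgroup ℚ) (hgK : g ∈ d.GK)
    (hgM : g ∉ d.GM) :
    below (tauE d) (TW.placeIn d.Mf A hl hA) = TW.placeIn d.Mf A hl hA := by
  show placeBelow (tauE d : d.Mf →+* d.Mf) _ = _
  rw [coe_tauE, placeBelow_placeIn_tauM]
  suffices h : ∃ g' ∈ A.decompositionSubgroup ℚ, g' * tauQ d ∈ d.GM by
    obtain ⟨g', hg', hm⟩ := h
    refine (placeIn_congr d.Mf (s := g' * tauQ d) (by rw [d.fixing_Mf]; exact hm) ?_).symm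
    rw [mul_smul, smul_inv_smul]
    exact MulAction.mem_stabilizer_iff.1 hg'
  obtain ⟨k, hk⟩ := exists_pow_of_mem_GK d hgK
  have hk3 : (k : ℕ) = 0 ∨ (k : ℕ) = 1 ∨ (k : ℕ) = 2 := by omega
  rcases hk3 with e | e | e <;> rw [e] at hk
  · rw [pow_zero, inv_one, mul_one] at hk
    exact absurd hk hgM
  · refine ⟨g⁻¹, inv_mem hg, ?_⟩
    have h := (GM_normal d).conj_mem _ (inv_mem hk) (tauQ d)⁻¹
    simpa [mul_assoc] using h
  · refine ⟨g, hg, ?_⟩
    have h := mul_mem hk (tauQ_cube_mem d)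
    rwa [show g * (tauQ d ^ 2)⁻¹ * tauQ d ^ 3 = g * tauQ d by group] at h

/-- A fixed place has a decomposition element in `G_K` outside `G_M`. -/
theorem not_decomposition_le {l : ℕ} {A : ValuationSubring Qb} (hl : l.Prime)
    (hA : A.LiesOverPrime l)
    (h : below (tauE d) (TW.placeIn d.Mf A hl hA) = TW.placeIn d.Mf A hl hA) :
    ¬ ∀ σ ∈ A.decompositionSubgroup ℚ, σ ∈ d.GK → σ ∈ d.GM := fun hle => by
  change placeBelow (tauE d : d.Mf →+* d.Mf) _ = _ at h
  rw [coe_tauE, placeBelow_placeIn_tauM] at h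
  obtain ⟨s, hs, hsA⟩ := TW.exists_fix_smul_eq d.Mf (congrArg HeightOneSpectrum.asIdeal h)
  rw [d.fixing_Mf] at hs
  have hg : s * (tauQ d)⁻¹ ∈ A.decompositionSubgroup ℚ :=
    MulAction.mem_stabilizer_iff.2 (by rw [mul_smul, hsA])
  have hM := hle _ hg (mul_mem (Aleph.GM_le_GK d hs) (inv_mem (tauQ_mem_GK d)))
  refine tauQ_pow_not_mem d one_pos (by norm_num) ?_
  rw [pow_one]
  simpa using mul_mem (inv_mem hM) hs

/-- **A good place of `M` moved by the generator lies over a split place.** -/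
theorem splitGood_of_below_ne {N : ℕ} (hN : d.Good N) (w : HeightOneSpectrum (𝓞 d.Mf))
    (hw : (N : 𝓞 d.Mf) ∉ w.asIdeal) (h : below (tauE d) w ≠ w) :
    SplitGood d N (placeBelow (iKM d) w) := by
  obtain ⟨l, hl, hlw⟩ := TW.exists_prime_mem w
  obtain ⟨A, hA, rfl⟩ := TW.exists_placeIn d.Mf w hl hlw
  rw [placeBelow_placeIn_iKM]
  set v := TW.placeIn d.Kf A hl hA with hv
  have hvN : (N : 𝓞 d.Kf) ∉ v.asIdeal := fun hm => hw (by
    have e : placeBelow (iKM d) (TW.placeIn d.Mf A hl hA) = v := placeBelow_placeIn_iKM hl hA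
    rw [← e] at hm
    have h' : RingOfIntegers.mapRingHom (iKM d) (N : 𝓞 d.Kf) ∈
        (TW.placeIn d.Mf A hl hA).asIdeal := hm
    rwa [map_natCast] at h')
  obtain ⟨f, hf, hcard⟩ := Recip.exists_natCard_residue (K := d.Kf) hl hA
  obtain ⟨σ, hσ⟩ := Frobenius.exists_isFrobeniusAt hl hA
  obtain ⟨τ, hτK, hτ⟩ := Recip.exists_frobenius_fixing (K := d.Kf) hl hA
  rw [d.fixing_Kf] at hτK
  rw [hcard] at hτ
  have hlN : ¬ l ∣ N := fun hd => hw (by
    obtain ⟨c, rfl⟩ := hd
    rw [Nat.cast_mul]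
    exact Ideal.mul_mem_right _ _ hlw)
  have hI := hN.2.2 l hl hlN A hA
  have hpow : A.IsFrobeniusAt (σ ^ f) (l ^ f) := ThetaM.isFrobeniusAt_pow hl.pos hσ f
  have hr : d.rbar (σ ^ f) = d.rbar τ := by
    have := hI _ (Frobenius.inv_mul_mem_inertiaSubgroupIn (pow_pos hl.pos f) hpow hτ)
    rwa [map_mul, map_inv, inv_mul_eq_one] at this
  refine ⟨hvN, l, A, σ, f, hl, hA, fun _ => Iff.rfl, hσ, hcard, ?_⟩
  by_contra hM
  refine h (below_eq_self_of_not_mem hl hA hpow.mem_decompositionSubgroup ?_ hM)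
  show Matrix.GeneralLinearGroup.det (d.rbar (σ ^ f)) = 1
  rw [hr]
  exact hτK

theorem good_mul {N : ℕ} (hN : d.Good N) {k : ℕ} (hk : 0 < k) : d.Good (N * k) :=
  ⟨Nat.mul_pos hN.1 hk, hN.2.1.mul_right k,
    fun p hp hpd => hN.2.2 p hp fun h => hpd (h.mul_right k)⟩

/-- An auxiliary fixed place off a given level. -/
theorem exists_fixed_place (d : Octa) {N : ℕ} (hN : 0 < N) : ∃ q : ℕ, q.Prime ∧
    ∃ w : HeightOneSpectrum (𝓞 d.Mf), (q : 𝓞 d.Mf) ∈ w.asIdeal ∧
      (N : 𝓞 d.Mf) ∉ w.asIdeal ∧ below (tauE d) w = w := by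
  obtain ⟨hFfix, hFfd⟩ := Octa.fixing_of_open (show IsOpen (d.rbar.ker : Set Gam) from
    d.isOpen_comap ⊥)
  obtain ⟨l, hl, hlS, A, hA, -, φ, hφ, hφσ⟩ :=
    Chebotarev.exists_frobenius_eqOn (IntermediateField.fixedField d.rbar.ker) (tauQ d)
      N.primeFactors
  have hr : d.rbar φ = d.rbar (tauQ d) := by
    have h1 : (tauQ d)⁻¹ * φ ∈ d.rbar.ker := by
      rw [← hFfix, IntermediateField.mem_fixingSubgroup_iff]
      intro x hx
      rw [AlgEquiv.mul_apply, hφσ x hx, ← AlgEquiv.mul_apply, inv_mul_cancel]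
      rfl
    rw [MonoidHom.mem_ker, map_mul, map_inv, inv_mul_eq_one] at h1
    exact h1.symm
  refine ⟨l, hl, TW.placeIn d.Mf A hl hA, TW.natCast_mem_placeIn,
    Recip.natCast_notMem_placeIn hl hA fun h => hlS (Nat.mem_primeFactors.2 ⟨hl, h, hN.ne'⟩), ?_⟩
  refine below_eq_self_of_not_mem hl hA hφ.mem_decompositionSubgroup ?_ fun hM => ?_
  · show Matrix.GeneralLinearGroup.det (d.rbar φ) = 1
    rw [hr]
    exact tauQ_mem_GK d
  · refine tauQ_pow_not_mem d one_pos (by norm_num) ?_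
    rw [pow_one]
    show d.rbar (tauQ d) ∈ Octa.quat
    rw [← hr]
    exact hM

section translate

variable {F : Type*} [Field F] [NumberField F]

theorem rt_cuspZero {N N' : ℕ} {φ : Form F} (hφ : CuspZero N φ) (g₀ : GF F)
    (hlev : ∀ k, InLevel N' k → InLevel N (g₀⁻¹ * k * g₀)) [IsTotallyComplex F] :
    CuspZero N' (Rt g₀ φ) where
  cont g := hφ.cont (g * g₀)
  bdd := hφ.bdd.imp fun _ hC x g => hC x (g * g₀)
  aut :=
    { left_inv := fun γ x g => by
        simp only [Rt_apply, mul_assoc, hφ.aut.left_inv]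
      right_inv := fun k hk x g => by
        simp only [Rt_apply]
        rw [show g * k * g₀ = g * g₀ * (g₀⁻¹ * k * g₀) by group, hφ.aut.right_inv _ (hlev k hk)]
      central := fun a x g => by
        simp only [Rt_apply]
        rw [mul_assoc, Red.scalarGF_comm, ← mul_assoc, hφ.aut.central] }
  cusp g m hm h x := hφ.cusp (g * g₀) m hm h x
  eigen w x g := hφ.eigen w x (g * g₀)

theorem hecke_Rt_diag [IsTotallyComplex F] (v : HeightOneSpectrum (𝓞 F)) {u : (Af F)ˣ}
    (hu : (u : Af F) v = 1) (φ : Form F) (x : Xinf F) (g : GF F) :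
    hecke v (Rt (upperGF u 0) φ) x g = hecke v φ x (g * upperGF u 0) := by
  have h1 : ∀ y : v.adicCompletion F,
      upperGF (unifIdele v) (adeleSingle v y) * upperGF u 0 =
        upperGF u 0 * upperGF (unifIdele v) (adeleSingle v y) := fun y => by
    have hy : (u : Af F) * adeleSingle v y = adeleSingle v y := by
      rw [mul_comm, adeleSingle_mul, hu, mul_one]
    apply Units.ext
    ext i j
    fin_cases i <;> fin_cases j <;>
      simp [upperGF, Matrix.mul_apply, Fin.sum_univ_two, hy, mul_comm (u : Af F)]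
  have h2 : lowerDiag (unifIdele v) * upperGF u 0 = upperGF u 0 * lowerDiag (unifIdele v) := by
    apply Units.ext
    ext i j
    fin_cases i <;> fin_cases j <;>
      simp [upperGF, lowerDiag, Matrix.mul_apply, Fin.sum_univ_two]
  simp only [hecke, Rt_apply, mul_assoc, h1, h2]

end translate

theorem inLevel_conj_diag {F : Type*} [Field F] [NumberField F] [IsTotallyComplex F] {N N' : ℕ}
    {u : (Af F)ˣ}
    (h : ∀ v, Valued.v ((N' : Af F) v) ≤ Valued.v ((N : Af F) v) ∧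
      Valued.v ((u : Af F) v) * Valued.v ((N' : Af F) v) ≤ Valued.v ((N : Af F) v) ∧
      Valued.v (((u⁻¹ : (Af F)ˣ) : Af F) v) * Valued.v ((N' : Af F) v) ≤ Valued.v ((N : Af F) v))
    {k : GF F} (hk : InLevel N' k) :
    InLevel N ((upperGF u 0)⁻¹ * k * upperGF u 0) := by
  suffices key : ∀ k : GF F, (∀ v (i j : Fin 2),
      Valued.v (((k : Matrix (Fin 2) (Fin 2) (Af F)) - 1) i j v) ≤ Valued.v ((N' : Af F) v)) →
      ∀ v (i j : Fin 2), Valued.v ((((((upperGF u 0)⁻¹ * k * upperGF u 0 : GF F)) :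
        Matrix (Fin 2) (Fin 2) (Af F)) - 1) i j v) ≤ Valued.v ((N : Af F) v) by
    intro v i j
    refine ⟨key k (fun v i j => (hk v i j).1) v i j, ?_⟩
    rw [show ((upperGF u 0)⁻¹ * k * upperGF u 0)⁻¹ = (upperGF u 0)⁻¹ * k⁻¹ * upperGF u 0 by group]
    exact key k⁻¹ (fun v i j => (hk v i j).2) v i j
  intro k hk v i j
  obtain ⟨h1, h2, h3⟩ := h v
  have e : ((((upperGF u 0)⁻¹ * k * upperGF u 0 : GF F)) : Matrix (Fin 2) (Fin 2) (Af F)) - 1 =
      ((upperGF u 0)⁻¹ : GF F).val * ((k : Matrix (Fin 2) (Fin 2) (Af F)) - 1) *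
        (upperGF u 0).val := by
    rw [mul_sub, sub_mul, mul_one, ← Units.val_mul, ← Units.val_mul, ← Units.val_mul,
      inv_mul_cancel, Units.val_one]
  rw [e]
  set A := (k : Matrix (Fin 2) (Fin 2) (Af F)) - 1
  have hA := hk v
  fin_cases i <;> fin_cases j <;>
    simp [upperGF, Units.inv_mk, Matrix.mul_apply, Matrix.vecMul, dotProduct, Fin.sum_univ_two]
  · rw [show ((u⁻¹ : (Af F)ˣ) : Af F) * A 0 0 * (u : Af F) = A 0 0 by
      rw [mul_comm _ (A 0 0), mul_assoc, Units.inv_mul, mul_one]]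
    exact (hA 0 0).trans h1
  · rw [af_mul_apply, map_mul]
    exact (mul_le_mul' le_rfl (hA 0 1)).trans h3
  · rw [af_mul_apply, map_mul, mul_comm]
    exact (mul_le_mul' le_rfl (hA 1 0)).trans h2
  · exact (hA 1 1).trans h1

/-- A theta cusp form of every admissible level. -/
theorem exists_theta_form {M E : Type} [Field M] [NumberField M] [IsTotallyComplex M] [Field E]
    [NumberField E] [Algebra M E] (D : ThetaM.Data M E) {N : ℕ} (hlev : D.IsLev N) :
    ∃ φ : Form M, CuspZero N φ ∧ ThetaM.HasExpansion D φ := by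
  obtain ⟨W, hc, hs, hn, ht⟩ := ThetaM.exists_unitWeight D.toQuad D.f D.f_ne_bot
  have hW : D.IsWeight W := ⟨⟨hc, hs, hn⟩, ht⟩
  have hR : D.IsReps fun c : D.Cl => Quotient.out c := fun c => QuotientGroup.out_eq' c
  obtain ⟨φ, hφ, hd⟩ := D.exists_form hW hR hlev
  refine ⟨φ, hφ, fun a x => ?_⟩
  have h := (D.theta_expansion hW _ hR (ThetaM.fId a) x).2.mul_left
    (ThetaM.cN (ThetaM.fId a : ThetaM.FIM M) : ℂ)
  rw [hd]
  simpa only [ThetaM.Data.thetaN, mul_assoc] using h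

/-- A selection supported at fixed places dividing the level, with bounded radii. -/
theorem exists_pinSel (d : Octa) (P : HeightOneSpectrum (𝓞 d.Mf) → Prop) :
    ∃ S : PinSel d.Mf,
      (∀ v, @PinV d.Mf _ _ S v ↔ P v) ∧ (∀ v, S.rad v ≠ 0) ∧
      ∀ v, P v → (∃ m : ℕ, exp (3 * (m : ℤ)) * (S.rad v * S.rad v) =
          Valued.v ((diffId (F := d.Mf) : Af d.Mf) v)) ∧
        exp (-6 : ℤ) ≤ S.rad v * S.rad v ∧ S.rad v ≤ 1 := by
  classical
  set e : HeightOneSpectrum (𝓞 d.Mf) → ℕ := fun v =>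
    (log (Valued.v ((diffId (F := d.Mf) : Af d.Mf) v))).toNat with he
  have hd : ∀ v, Valued.v ((diffId (F := d.Mf) : Af d.Mf) v) = exp (e v : ℤ) := fun v => by
    have h1 := one_le_diffId (F := d.Mf) v
    have h0 : Valued.v ((diffId (F := d.Mf) : Af d.Mf) v) ≠ 0 :=
      (lt_of_lt_of_le zero_lt_one h1).ne'
    rw [← exp_log h0, ← exp_zero, exp_le_exp] at h1
    rw [he]
    dsimp only
    rw [Int.toNat_of_nonneg h1, exp_log h0]
  let S : PinSel d.Mf :=
    ⟨fun v => if P v then exp (-(((e v + 2) % 3 + 1 : ℕ) : ℤ)) else 1⟩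
  refine ⟨S, fun v => ?_, fun v => ?_, fun v hv => ?_⟩
  · show (if P v then exp (-(((e v + 2) % 3 + 1 : ℕ) : ℤ)) else 1) < 1 ↔ P v
    split_ifs with h
    · refine iff_of_true ?_ h
      rw [← exp_zero, exp_lt_exp]
      omega
    · exact iff_of_false (lt_irrefl _) h
  · show (if P v then exp (-(((e v + 2) % 3 + 1 : ℕ) : ℤ)) else 1) ≠ 0
    split_ifs
    · exact exp_ne_zero
    · exact one_ne_zero
  · have hr : S.rad v = exp (-(((e v + 2) % 3 + 1 : ℕ) : ℤ)) := if_pos hv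
    rw [hr, ← exp_add]
    refine ⟨⟨(e v + 2 * ((e v + 2) % 3 + 1)) / 3, ?_⟩, ?_, ?_⟩
    · rw [hd, ← exp_add]
      congr 1
      have h3 : 3 ∣ e v + 2 * ((e v + 2) % 3 + 1) := by omega
      obtain ⟨t, ht⟩ := h3
      rw [ht, Nat.mul_div_cancel_left _ (by norm_num : 0 < 3)]
      omega
    · rw [exp_le_exp]; omega
    · rw [← exp_zero, exp_le_exp]; omega

/-- The valuation of a natural number at a place containing it. -/
theorem valued_natCast_le_exp {F : Type*} [Field F] [NumberField F] {m : ℕ}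
    {v : HeightOneSpectrum (𝓞 F)} (hv : (m : 𝓞 F) ∈ v.asIdeal) :
    Valued.v ((m : Af F) v) ≤ exp (-1 : ℤ) := by
  have h := lt_of_le_of_lt (le_of_eq (valued_natCast (F := F) m v))
    ((v.intValuation_lt_one_iff_mem _).2 hv)
  rcases eq_or_ne (Valued.v ((m : Af F) v)) 0 with h0 | h0
  · rw [h0]; exact zero_le
  · rw [← exp_log h0, ← exp_zero, exp_lt_exp] at h
    rw [← exp_log h0, exp_le_exp]
    omega

set_option maxHeartbeats 800000 in
/-- **The witness.** A selection of pinned places, a level, a base idele and a form with the split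
eigenvalues, coefficients depending only on the ideal and an unbounded tail at the contracting bad
places. -/
theorem exists_witness (d : Octa) (hrec : CyclicReciprocity) :
    ∃ (_ : PinSel d.Mf) (M : ℕ) (x₀ : (Af d.Mf)ˣ) (φ₀ : Form d.Mf),
      d.Good M ∧ (∃ w, NsV (tauE d).symm (M * M) w) ∧
      (∀ w : HeightOneSpectrum (𝓞 d.Mf), PinV w → ((3 : ℕ) : 𝓞 d.Mf) ∉ w.asIdeal) ∧
      BadSetup (tauE d).symm (M * M) M x₀ (iKM d) ∧
      CuspZero M φ₀ ∧
      (∀ v, SplitGood d M v → ∀ w, placeBelow (iKM d) w = v →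
        ∀ x g, hecke w φ₀ x g = (cOf d v : ℂ) * φ₀ x g) ∧
      (∀ (s : Set.Ioi (0 : ℝ)) (w : (Af d.Mf)ˣ), (∀ v, Valued.v ((w : Af d.Mf) v) = 1) →
        ∀ a, cf s φ₀ (a * w) = cf s φ₀ a) ∧
      ∀ (s : Set.Ioi (0 : ℝ)) (k : ℕ), ∃ b : nsId (tauE d).symm (M * M),
        Deep (tauE d).symm (M * M) k b ∧ cf s φ₀ (x₀ * (b : (Af d.Mf)ˣ)) ≠ 0 := by
  classical
  obtain ⟨-, E, hE, hA', D, N₀, hgood, -, hnf, hclause, hcoef⟩ := ThetaM.exists_data' d hrec
  obtain ⟨Nθ, hdvd, hlev⟩ := ThetaM.exists_isLev D hgood.1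
  obtain ⟨θ, hθ, hexp⟩ := exists_theta_form D hlev
  obtain ⟨c, rfl⟩ := hdvd
  have hc : 0 < c := Nat.pos_of_ne_zero fun h => by simpa [h] using hlev.1
  have hgθ : d.Good (N₀ * c) := good_mul hgood hc
  have hρ : EigenRho d d.Mf (N₀ * c) θ := by
    refine ThetaM.eigenRho_of_exp D hlev hθ.aut hexp fun p hp hpN A hA v hv σ hσ f hf hmem => ?_
    refine hcoef p hp A hA v hv (hnf v ?_) _ hmem (hf ▸ ThetaM.isFrobeniusAt_pow hp.pos hσ f)
    obtain rfl : v = TW.placeIn d.Mf A hp hA :=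
      HeightOneSpectrum.ext (Ideal.ext fun x => (hv x).trans Iff.rfl)
    exact Recip.natCast_notMem_placeIn hp hA fun h => hpN (h.mul_right c)
  -- the pinned places
  obtain ⟨PS, hP, hR0, hR⟩ :=
    exists_pinSel d fun v => below (tauE d).symm v = v ∧ D.nf ≤ v.asIdeal
  letI := PS
  have hfix : ∀ v, below (tauE d).symm v = v → below (tauE d) v = v := fun v h => by
    conv_lhs => rw [← h]
    exact below_below_symm (tauE d) v
  have hpin : ∀ v, PinV v → below (tauE d).symm v = v ∧ (N₀ : 𝓞 d.Mf) ∈ v.asIdeal := fun v h =>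
    ⟨((hP v).1 h).1, by_contra fun h' => hnf v h' ((hP v).1 h).2⟩
  have h3 : ∀ v : HeightOneSpectrum (𝓞 d.Mf), PinV v → ((3 : ℕ) : 𝓞 d.Mf) ∉ v.asIdeal :=
    fun v h hm => by
      obtain ⟨A, hA, rfl⟩ := TW.exists_placeIn d.Mf v Nat.prime_three hm
      obtain ⟨hb, hle⟩ := (hP _).1 h
      have hnd := not_decomposition_le Nat.prime_three hA (hfix _ hb)
      exact hclause 3 Nat.prime_three A hA _ (fun _ => Iff.rfl)
        (d.inertia_quat_three hA hnd) hnd hle
  obtain ⟨n, hn, hden⟩ := exists_den_dual (F := d.Mf)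
  obtain ⟨q, hq, wq, hqw, hqN, hwq⟩ := exists_fixed_place d hgood.1
  set M := N₀ * c * (n * q * N₀ ^ 6) with hM
  have hk : 0 < n * q * N₀ ^ 6 :=
    Nat.mul_pos (Nat.mul_pos hn hq.pos) (Nat.pow_pos hgood.1)
  have hgood₁ : d.Good M := good_mul hgθ hk
  have hN : 0 < M * M := Nat.mul_pos hgood₁.1 hgood₁.1
  have hdM : N₀ * c ∣ M := Dvd.intro _ rfl
  have hρ₁ : EigenRho d d.Mf M θ := fun p hp hpN =>
    hρ p hp fun h => hpN (h.trans hdM)
  have hmemN : ∀ {v : HeightOneSpectrum (𝓞 d.Mf)}, (M : 𝓞 d.Mf) ∈ v.asIdeal →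
      ((M * M : ℕ) : 𝓞 d.Mf) ∈ v.asIdeal := fun h => by
    rw [Nat.cast_mul]; exact Ideal.mul_mem_left _ _ h
  -- the different divides the level
  have hdiff : ∀ v, Valued.v ((n : Af d.Mf) v) *
      Valued.v ((diffId (F := d.Mf) : Af d.Mf) v) ≤ 1 := fun v => by
    have := hden _ ((isDualAd_iff _).2 fun _ => le_rfl) v
    rwa [af_mul_apply, map_mul] at this
  have hsupp : ∀ v : HeightOneSpectrum (𝓞 d.Mf),
      Valued.v ((diffId (F := d.Mf) : Af d.Mf) v) ≠ 1 →
        ((M * M : ℕ) : 𝓞 d.Mf) ∈ v.asIdeal := by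
    intro v hv
    by_contra hM'
    have hn' : (n : 𝓞 d.Mf) ∉ v.asIdeal := fun h => hM' (hmemN (by
      rw [hM, Nat.cast_mul, Nat.cast_mul (n * q), Nat.cast_mul n]
      exact Ideal.mul_mem_left _ _ (Ideal.mul_mem_right _ _ (Ideal.mul_mem_right _ _ h))))
    have h1 := hdiff v
    rw [Red.valued_natCast_eq_one hn', one_mul] at h1
    exact hv (le_antisymm h1 (one_le_diffId v))
  -- the valuation of the level
  have eM : ∀ v, Valued.v ((M : Af d.Mf) v) = Valued.v (((N₀ * c : ℕ) : Af d.Mf) v) *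
      (Valued.v ((n : Af d.Mf) v) * Valued.v ((q : Af d.Mf) v) *
        Valued.v (((N₀ ^ 6 : ℕ) : Af d.Mf) v)) := fun v => by
    rw [hM, Nat.cast_mul, Nat.cast_mul (n * q), Nat.cast_mul n, af_mul_apply, map_mul,
      af_mul_apply, map_mul, af_mul_apply, map_mul]
  have le1 : ∀ (m : ℕ) v, Valued.v ((m : Af d.Mf) v) ≤ 1 := fun m v =>
    Red.valued_natCast_le_one (F := d.Mf) m v
  have h6 : ∀ v, PinV v → Valued.v (((N₀ ^ 6 : ℕ) : Af d.Mf) v) ≤ exp (-6 : ℤ) := fun v h => by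
    have h1 := valued_natCast_le_exp (hpin v h).2
    rw [← Match.evalAf_apply, map_natCast, Nat.cast_pow, map_pow,
      show exp (-6 : ℤ) = (exp (-1 : ℤ)) ^ 6 by rw [← exp_nsmul]; norm_num]
    rw [← Match.evalAf_apply, map_natCast] at h1
    exact pow_le_pow_left₀ zero_le h1 6
  have hrr : ∀ v, Valued.v (((N₀ ^ 6 : ℕ) : Af d.Mf) v) ≤ radA M v * radB M v ∧
      radA M v * radB M v ≤ 1 := fun v => by
    by_cases hp : PinV v
    · rw [radA_of_pin hp, radB_of_pin hp]
      obtain ⟨-, h2, h1⟩ := hR v ((hP v).1 hp)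
      exact ⟨(h6 v hp).trans h2, mul_le_one' h1 h1⟩
    · rw [radA_of_not_pin hp, radB_of_not_pin hp,
        mul_inv_cancel₀ (Match.levN_ne_zero v hgood₁.1)]
      exact ⟨le1 _ v, le_rfl⟩
  -- the base idele
  obtain ⟨x₀, hx1, hx2, hx3, hx4⟩ := exists_x0 (τ := (tauE d).symm) (M := M)
    (fun x => by
      apply (tauE d).injective
      apply (tauE d).injective
      apply (tauE d).injective
      simp only [RingEquiv.apply_symm_apply]
      exact (tauE_cube d x).symm)
    hN hgood₁.1 (fun v h => (hpin v h).1) fun v h => (hR v ((hP v).1 h)).1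
  have S : BadSetup (tauE d).symm (M * M) M x₀ (iKM d) := by
    refine ⟨hgood₁.1, rfl, TraceTheta.cycGen_symm (cycGen d), hx1, hx2, hx3,
      fun v h => ⟨(hpin v h).1, hmemN ?_⟩, fun v h => ?_, hR0, hx4⟩
    · rw [hM, Nat.cast_mul, Nat.cast_mul N₀]
      exact Ideal.mul_mem_right _ _ (Ideal.mul_mem_right _ _ (hpin v h).2)
    · obtain ⟨-, h2, -⟩ := hR v ((hP v).1 h)
      refine le_trans ?_ h2
      show Valued.v (((M * M : ℕ) : Af d.Mf) v) ≤ _
      rw [Nat.cast_mul, af_mul_apply, map_mul]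
      refine (mul_le_of_le_one_left' (le1 M v)).trans ?_
      rw [eM]
      exact ((mul_le_of_le_one_left' (le1 _ v)).trans
        (mul_le_of_le_one_left' (mul_le_one' (le1 _ v) (le1 _ v)))).trans (h6 v h)
  -- the translation
  set u : (Af d.Mf)ˣ := restr (fun v => SpV (tauE d).symm (M * M) v) x₀⁻¹ with hu
  have hx1le : ∀ v, SpV (tauE d).symm (M * M) v → 1 ≤ Valued.v ((x₀ : Af d.Mf) v) := fun v hv =>
    (one_le_diffId v).trans ((hx3 v hv).symm.trans_le (mul_le_of_le_one_right' (hrr v).2))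
  have hlevel : ∀ v,
      Valued.v ((M : Af d.Mf) v) ≤ Valued.v (((N₀ * c : ℕ) : Af d.Mf) v) ∧
      Valued.v ((u : Af d.Mf) v) * Valued.v ((M : Af d.Mf) v) ≤
        Valued.v (((N₀ * c : ℕ) : Af d.Mf) v) ∧
      Valued.v (((u⁻¹ : (Af d.Mf)ˣ) : Af d.Mf) v) * Valued.v ((M : Af d.Mf) v) ≤
        Valued.v (((N₀ * c : ℕ) : Af d.Mf) v) := by
    intro v
    have hMle : Valued.v ((M : Af d.Mf) v) ≤ Valued.v (((N₀ * c : ℕ) : Af d.Mf) v) := by
      rw [eM]
      exact mul_le_of_le_one_right' (mul_le_one' (mul_le_one' (le1 n v) (le1 q v)) (le1 _ v))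
    by_cases hP' : SpV (tauE d).symm (M * M) v
    · refine ⟨hMle, ?_, ?_⟩
      · rw [hu, restr_apply_of hP', valued_inv]
        exact (mul_le_of_le_one_left' (inv_le_one_of_one_le₀ (hx1le v hP'))).trans hMle
      · rw [valued_inv, hu, restr_apply_of hP', valued_inv, inv_inv, eM, mul_left_comm]
        refine mul_le_of_le_one_right' ?_
        calc Valued.v ((x₀ : Af d.Mf) v) * (Valued.v ((n : Af d.Mf) v) *
              Valued.v ((q : Af d.Mf) v) * Valued.v (((N₀ ^ 6 : ℕ) : Af d.Mf) v))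
            ≤ Valued.v ((x₀ : Af d.Mf) v) *
              (Valued.v ((n : Af d.Mf) v) * 1 * (radA M v * radB M v)) :=
              mul_le_mul' le_rfl (mul_le_mul' (mul_le_mul' le_rfl (le1 q v)) (hrr v).1)
          _ = Valued.v ((n : Af d.Mf) v) *
              (Valued.v ((x₀ : Af d.Mf) v) * (radA M v * radB M v)) := by
              rw [mul_one, mul_left_comm]
          _ ≤ 1 := by rw [hx3 v hP']; exact hdiff v
    · rw [valued_inv, hu, restr_apply_of_not hP', map_one, inv_one, one_mul]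
      exact ⟨hMle, hMle, hMle⟩
  have hns : ∀ v, NsV (tauE d).symm (M * M) v → ¬ D.nf ≤ v.asIdeal := fun v hv hle =>
    hv.2.2 ((hP v).2 ⟨hv.2.1, hle⟩)
  have hxu : ∀ v, Valued.v (((x₀ * u : (Af d.Mf)ˣ) : Af d.Mf) v) = 1 := fun v => by
    rw [af_unit_mul_apply, map_mul]
    by_cases hP' : SpV (tauE d).symm (M * M) v
    · rw [hu, restr_apply_of hP', valued_inv, mul_inv_cancel₀
        (lt_of_lt_of_le zero_lt_one (hx1le v hP')).ne']
    · rw [hu, restr_apply_of_not hP', map_one, mul_one]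
      by_cases hN' : ((M * M : ℕ) : 𝓞 d.Mf) ∈ v.asIdeal
      · have hv : NsV (tauE d).symm (M * M) v := ⟨hN', by_contra fun h => hP' ⟨hN', h⟩⟩
        rw [hx1 v hv, map_one]
      · rw [hx2 v hN']
        by_contra hne
        exact hN' (hsupp v hne)
  refine ⟨PS, M, x₀, Rt (upperGF u 0) θ, hgood₁, ⟨wq, hmemN ?_, ?_, fun h => hqN (hpin wq h).2⟩,
    h3, S, rt_cuspZero hθ _ fun k hk => inLevel_conj_diag hlevel hk, ?_,
    fun s => (exists_theta_tail D hlev.1 hθ hexp hN hns s x₀ u hxu).1,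
    fun s => (exists_theta_tail D hlev.1 hθ hexp hN hns s x₀ u hxu).2⟩
  · rw [hM, Nat.cast_mul, Nat.cast_mul (n * q), Nat.cast_mul n]
    exact Ideal.mul_mem_left _ _ (Ideal.mul_mem_right _ _ (Ideal.mul_mem_left _ _ hqw))
  · conv_lhs => rw [← hwq]
    simpa using below_below_symm (tauE d).symm wq
  · intro v hv w hw x g
    have huw : (u : Af d.Mf) w = 1 := by
      refine restr_apply_of_not (fun hP' => hv.1 ?_) _
      have hm := mem_of_mul_self rfl hP'.1
      rw [← hw]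
      show RingOfIntegers.mapRingHom (iKM d) (M : 𝓞 d.Kf) ∈ w.asIdeal
      rwa [map_natCast]
    rw [hecke_Rt_diag w huw, eigen_M hgood₁ hv hρ₁ w hw]
    rfl

end FLTAgent.LT.Descent
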