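import Fermat.Agent.LT.TF.Setup
import Fermat.Agent.LT.TF.Witness
import Fermat.Agent.LT.TF.Trace.Stable
import Fermat.Agent.LT.TF.Match.Split
import Fermat.Agent.LT.TF.Match.Places
import Fermat.Agent.LT.TF.Galois
import Fermat.Agent.LT.ThetaM.HeckeDiag

/-!
The space of cusp forms on `M` with the prescribed eigenvalues at the split places: linearity,
stability under the generator of `Gal(M/K)`, Hecke operators and finite parts of tests.
-/

set_option autoImplicit false
set_option linter.unusedSectionVars false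
set_option linter.style.haveILetI false
set_option synthInstance.maxHeartbeats 400000

noncomputable section

namespace FLTAgent.LT.Descent

open NumberField IsDedekindDomain MeasureTheory
open FLTAgent.LT.TraceTheta FLTAgent.LT.RS FLTAgent.LT.Red

section generic

variable {F : Type} [Field F] [NumberField F] [IsTotallyComplex F] {N : ℕ}

local notation "HS" => HeightOneSpectrum (𝓞 F)

/-- Constant terms of a combination of cusp forms. -/
theorem cusp_lincomb {ι : Type*} (S : Finset ι) (c : ι → ℂ) (φ : ι → Form F)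
    (hN : 0 < N) (hφ : ∀ i, CuspZero N (φ i)) : Cusp (∑ i ∈ S, c i • φ i) := by
  classical
  set ψ := ∑ i ∈ S, c i • φ i with hψ
  intro h m hm hinv x
  have happ : ∀ y, ψ y h = ∑ i ∈ S, c i * φ i y h := fun y => by
    simp [hψ, Finset.sum_apply, Pi.smul_apply]
  have hc : Continuous fun y => ψ y h := by
    simp only [happ]
    exact continuous_finsetSum _ fun i _ => continuous_const.mul ((hφ i).cont _)
  choose p hp using fun i => exists_hasPeriod hN (hφ i).aut h
  set P := ∏ i ∈ S, p i with hP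
  have hP0 : 0 < P := Finset.prod_pos fun i _ => (hp i).pos
  have hpi : ∀ i ∈ S, HasPeriod (φ i) h (m * P) := fun i hi => by
    have hrest : 0 < ∏ k ∈ S.erase i, p k := Finset.prod_pos fun k _ => (hp k).pos
    rw [hP, ← Finset.mul_prod_erase _ _ hi, ← mul_assoc, mul_comm m, mul_assoc]
    exact (hp i).mul (Nat.mul_pos hm hrest)
  set f : (Idx F → ℝ) → ℂ := fun y => ψ (translate (boxVec m y) x) h with hf
  have hft : Continuous fun y : Idx F → ℝ => translate (boxVec m y) x := continuous_pi fun w =>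
    (continuous_const.add ((continuous_apply w).comp (continuous_boxVec m))).prodMk continuous_const
  have hfz : ZPeriodic f := ⟨hc.comp hft, fun y v => by
    show ψ _ h = ψ _ h
    rw [boxVec_add, boxVec_rvec, show translate (boxVec m y + fun w => (m : ℂ) * w.embedding (intOf v : F)) x =
      translate (fun w => (m : ℂ) * w.embedding (intOf v : F)) (translate (boxVec m y) x) from
        funext fun w => Prod.ext (by simp [translate, add_assoc]) rfl, hinv]⟩
  have hdil := fc_dilate hfz hP0 0
  have hz : ∀ u : (Idx F → ℝ) → ℂ, fc u 0 = ∫ y in boxSet (Idx F), u y := fun u => by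
    rw [fc]
    exact setIntegral_congr_fun measurableSet_boxSet fun y _ => by simp [FLTAgent.LT.Theta31.echar]
  rw [smul_zero, hz, hz] at hdil
  show ∫ y in boxSet (Idx F), f y = 0
  rw [← hdil]
  simp only [hf, ← boxVec_smul, happ]
  rw [integral_finsetSum]
  · refine Finset.sum_eq_zero fun i hi => ?_
    rw [integral_const_mul]
    exact mul_eq_zero_of_right _
      ((hφ i).cusp h (m * P) (Nat.mul_pos hm hP0) (hpi i hi).inv x)
  · intro i _
    refine IntegrableOn.mono_set (t := Set.Icc (fun _ => (0 : ℝ)) fun _ => 1) ?_ ?_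
    · refine (continuous_const.mul (((hφ i).cont _).comp ?_)).integrableOn_Icc
      exact continuous_pi fun w => (continuous_const.add
        ((continuous_apply w).comp (continuous_boxVec _))).prodMk continuous_const
    · exact fun y hy => ⟨fun j => (hy j trivial).1, fun j => (hy j trivial).2.le⟩

/-- Cusp forms with parameter zero of one level form a vector space. -/
theorem cuspZero_lincomb {ι : Type*} (S : Finset ι) (c : ι → ℂ) (φ : ι → Form F)
    (hN : 0 < N) (hφ : ∀ i, CuspZero N (φ i)) : CuspZero N (∑ i ∈ S, c i • φ i) := by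
  classical
  have happ : ∀ x h, (∑ i ∈ S, c i • φ i) x h = ∑ i ∈ S, c i * φ i x h :=
    fun x h => by simp [Finset.sum_apply, Pi.smul_apply]
  choose C hC using fun i => (hφ i).bdd
  refine ⟨fun h => ?_, ⟨∑ i ∈ S, ‖c i‖ * C i, fun x h => ?_⟩,
    ⟨fun γ x h => ?_, fun k hk x h => ?_, fun a x h => ?_⟩, cusp_lincomb S c φ hN hφ, ?_⟩
  · simp only [happ]
    exact continuous_finsetSum _ fun i _ => continuous_const.mul ((hφ i).cont _)
  · rw [happ]
    refine (norm_sum_le _ _).trans (Finset.sum_le_sum fun i _ => ?_)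
    rw [norm_mul]
    exact mul_le_mul_of_nonneg_left (hC i _ _) (norm_nonneg _)
  · simp only [happ, (hφ _).aut.left_inv]
  · simp only [happ]
    exact Finset.sum_congr rfl fun i _ => by rw [(hφ i).aut.right_inv k hk]
  · simp only [happ, (hφ _).aut.central]
  · intro w x h H hH hHs
    simp only [happ, Finset.mul_sum]
    rw [integral_finsetSum]
    · refine Finset.sum_congr rfl fun i _ => ?_
      simp only [mul_left_comm _ (c i)]
      rw [integral_const_mul, (hφ i).eigen w x h H hH hHs]
    · intro i _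
      obtain ⟨R, hR⟩ := hHs.isBounded.subset_closedBall 0
      refine (Continuous.integrable_of_hasCompactSupport ?_ ?_)
      · exact (hH.comp (Hyp.continuous_coshDist.comp (continuous_const.prodMk continuous_id))).mul
          (continuous_const.mul (((hφ i).cont _).comp
            (continuous_const.update w continuous_id)))
      · refine HasCompactSupport.intro (isCompact_coshBall (x w) R) fun q hq => ?_
        by_contra hne
        have h1 := hR (subset_tsupport _ (left_ne_zero_of_mul hne))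
        rw [Metric.mem_closedBall, dist_zero_right, Real.norm_eq_abs] at h1
        exact hq ((le_abs_self _).trans h1)

theorem cuspZero_add (hN : 0 < N) {φ ψ : Form F} (h : CuspZero N φ) (h' : CuspZero N ψ) :
    CuspZero N (φ + ψ) := by
  have := cuspZero_lincomb (Finset.univ : Finset (Fin 2)) ![1, 1] ![φ, ψ] hN
    (Fin.forall_fin_two.2 ⟨h, h'⟩)
  simpa [Fin.sum_univ_two] using this

theorem cuspZero_smul (hN : 0 < N) (c : ℂ) {φ : Form F} (h : CuspZero N φ) :
    CuspZero N (c • φ) := by
  simpa using cuspZero_lincomb ({()} : Finset Unit) (fun _ => c) (fun _ => φ) hN fun _ => h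

theorem cuspZero_zero (hN : 0 < N) : CuspZero N (0 : Form F) := by
  simpa using cuspZero_lincomb (∅ : Finset Empty) (fun e => e.elim) (fun e => e.elim) hN
    fun e => e.elim

theorem hecke_lincomb {ι : Type*} (v : HS) (S : Finset ι) (c : ι → ℂ) (φ : ι → Form F) :
    hecke v (∑ i ∈ S, c i • φ i) = ∑ i ∈ S, c i • hecke v (φ i) := by
  funext x g
  simp only [Aleph.hecke_eq_hOp, Aleph.hOp, Finset.sum_apply, Pi.smul_apply, smul_eq_mul,
    Finset.mul_sum]
  rw [Finset.sum_comm]

theorem hecke_smul (v : HS) (c : ℂ) (φ : Form F) : hecke v (c • φ) = c • hecke v φ := by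
  simpa using hecke_lincomb v ({()} : Finset Unit) (fun _ => c) fun _ => φ

theorem hecke_add (v : HS) (φ ψ : Form F) : hecke v (φ + ψ) = hecke v φ + hecke v ψ := by
  simpa [Fin.sum_univ_two] using hecke_lincomb v (Finset.univ : Finset (Fin 2)) ![1, 1] ![φ, ψ]

theorem hecke_eq_sum_Rt (v : HS) (φ : Form F) :
    hecke v φ = ∑ r : Aleph.RIdx v, (1 : ℂ) • Rt (Aleph.hRep v r) φ := by
  funext x g
  simp [Aleph.hecke_eq_hOp, Aleph.hOp, Finset.sum_apply, Rt_apply]

/-- `T_v` preserves cusp forms. -/
theorem cuspZero_hecke (hN : 0 < N) {v : HS} (hv : (N : 𝓞 F) ∉ v.asIdeal) {φ : Form F}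
    (hφ : CuspZero N φ) : CuspZero N (hecke v φ) := by
  rw [hecke_eq_sum_Rt]
  refine cuspZero_sum_Rt _ _ _ hN hφ fun k hk x g => ?_
  rw [← hecke_eq_sum_Rt]
  exact ThetaM.hecke_mul_level hφ.aut hv hk x g

/-- A form of level `M` has every level that `M` divides. -/
theorem cuspZero_of_dvd {M : ℕ} (hd : M ∣ N) {φ : Form F} (hφ : CuspZero M φ) :
    CuspZero N φ := by
  refine ⟨hφ.cont, hφ.bdd, ⟨hφ.aut.left_inv, fun k hk => hφ.aut.right_inv k fun v i j => ?_,
    hφ.aut.central⟩, hφ.cusp, hφ.eigen⟩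
  have hle : Valued.v ((N : Af F) v) ≤ Valued.v ((M : Af F) v) := by
    obtain ⟨c, rfl⟩ := hd
    rw [Nat.cast_mul, af_mul_apply, map_mul]
    exact mul_le_of_le_one_right' (Red.valued_natCast_le_one c v)
  exact ⟨(hk v i j).1.trans hle, (hk v i j).2.trans hle⟩

variable (σ : F ≃+* F)

theorem below_symm_below (w : HS) : below σ.symm (below σ w) = w := by
  simpa using below_below_symm σ.symm w

theorem below_injective : Function.Injective (below σ) :=
  Function.LeftInverse.injective (below_symm_below σ)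

/-- `T_u` of a pullback is `T` at the moved place. -/
theorem hecke_Tform {φ : Form F} (hφ : Automorphic N φ) {u u' : HS} (hu : below σ u' = u)
    (hu' : (N : 𝓞 F) ∉ u'.asIdeal) :
    hecke u (Tform σ φ) = Tform σ (hecke u' φ) := by
  classical
  funext x g
  set x' := infMap (σ : F →+* F) x with hx'
  set A := gfMap (σ : F →+* F) g with hA
  let upd : GL (Fin 2) (Match.Kp F u') → ∀ w : HS, GL (Fin 2) (Match.Kp F w) := fun k =>
    Function.update (fun _ => 1) u' k
  have hex : ∀ k : GL (Fin 2) (Match.Kp F u'),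
      ∃ G : GF F, ∀ w, Match.locGF w G = upd k w := fun k =>
    Match.exists_gf (upd k) (Filter.eventually_cofinite.2 ((Set.finite_singleton u').subset
      fun w hw => by
        by_contra hne
        have e : upd k w = 1 := Function.update_of_ne hne _ _
        exact hw (by rw [e]; exact one_mem _)))
  choose ι hι using hex
  have hι0 : ∀ k, Match.locGF u' (ι k) = k := fun k => by
    rw [hι]; exact Function.update_self _ _ _
  have hι1 : ∀ k w, w ≠ u' → Match.locGF w (ι k) = 1 := fun k w hw => by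
    rw [hι]; exact Function.update_of_ne hw _ _
  -- the map of completions
  have hsymm : placeBelow (σ.symm : F →+* F) u = u' := by
    rw [← hu]; exact below_symm_below σ u'
  set s := Match.cMap (σ : F →+* F) u' u hu with hs
  have hbij : Function.Bijective s := ⟨s.injective, fun y =>
    ⟨Match.cMap (σ.symm : F →+* F) u u' hsymm y,
      congrFun (Match.hom_ext_dense
        ((Match.continuous_cMap (σ : F →+* F) hu).comp
          (Match.continuous_cMap (σ.symm : F →+* F) hsymm)) continuous_id fun z => by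
          simp only [Function.comp_apply, Match.cMap_coe, id]
          exact congrArg (fun a : F => (a : Match.Kp F u')) (σ.apply_symm_apply z)) y⟩⟩
  set f : GL (Fin 2) (Match.Kp F u') → ℂ := fun k => φ x' (A * ι k) with hf
  have hinv : ∀ m ∈ Match.lvlZ (1 : WithZero (Multiplicative ℤ)), ∀ k, f (k * m) = f k :=
    fun m hm k => by
      have hm' : ι m ∈ UZ F N := Match.mem_UZ_iff.2 fun w => by
        rcases eq_or_ne w u' with rfl | hw
        · rw [hι0, Match.levN_eq_one hu']
          exact hm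
        · rw [hι1 _ _ hw]
          exact one_mem _
      have he : ι (k * m) = ι k * ι m := Match.locGF_ext fun w => by
        rcases eq_or_ne w u' with rfl | hw
        · rw [map_mul, hι0, hι0, hι0]
        · rw [map_mul, hι1 _ _ hw, hι1 _ _ hw, hι1 _ _ hw, one_mul]
      show φ x' (A * ι (k * m)) = φ x' (A * ι k)
      rw [he, ← mul_assoc, hφ.mul_UZ _ _ hm']
  have hg : ∀ r : Aleph.RIdx u,
      gfMap (σ : F →+* F) (Aleph.hRep u r) = ι (Match.gl s (Match.hLoc u r)) := fun r =>
    Match.locGF_ext fun w => by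
      rcases eq_or_ne w u' with rfl | hw
      · rw [hι0, Match.locGF_gfMap _ hu]
        rfl
      · rw [hι1 _ _ hw, Match.locGF_gfMap _ rfl,
          Match.locGF_hRep_ne (fun e => hw (below_injective σ (e.trans hu.symm))) r, map_one]
  have hh : ∀ r : Aleph.RIdx u', ι (Match.hLoc u' r) = Aleph.hRep u' r := fun r =>
    Match.locGF_ext fun w => by
      rcases eq_or_ne w u' with rfl | hw
      · rw [hι0]
        rfl
      · rw [hι1 _ _ hw, Match.locGF_hRep_ne hw r]
  have key := Match.heckeFn_transport s hbij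
    (fun y => Match.v_cMap_endo (σ : F →+* F) hu y) hinv 1
  simp only [Match.heckeFn, map_one, one_mul, hf, ← hg, hh, finsum_eq_sum_of_fintype] at key
  show hecke u (Tform σ φ) x g = hecke u' φ x' A
  rw [Aleph.hecke_eq_hOp, Aleph.hecke_eq_hOp]
  simp only [Aleph.hOp, Fintype.sum_option]
  rw [add_comm (φ x' _)]
  refine (add_comm _ _).trans (Eq.trans ?_ key)
  simp only [Tform, LinearMap.coe_mk, AddHom.coe_mk, map_mul]
  rfl

end generic

/-! ### The space -/

variable (d : Octa)

/-- The eigen equations at the split places. -/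
def SplitEigen (N : ℕ) (φ : Form d.Mf) : Prop :=
  ∀ v, SplitGood d N v → ∀ u, placeBelow (iKM d) u = v →
    ∀ x g, hecke u φ x g = (cOf d v : ℂ) * φ x g

theorem SplitEigen.hecke_eq {d : Octa} {N : ℕ} {φ : Form d.Mf} (h : SplitEigen d N φ)
    {v : HeightOneSpectrum (𝓞 d.Kf)} (hv : SplitGood d N v)
    {u : HeightOneSpectrum (𝓞 d.Mf)} (hu : placeBelow (iKM d) u = v) :
    hecke u φ = (cOf d v : ℂ) • φ :=
  funext fun x => funext fun g => h v hv u hu x g

/-- Cusp forms of level `N` with the prescribed eigenvalues at the good split places. -/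
def splitSpace (N : ℕ) : Submodule ℂ (Form d.Mf) where
  carrier := {φ | 0 < N → CuspZero N φ ∧ SplitEigen d N φ}
  add_mem' {φ ψ} h h' hN := ⟨cuspZero_add hN (h hN).1 (h' hN).1, fun v hv u hu x g => by
    rw [hecke_add, Pi.add_apply, Pi.add_apply, (h hN).2 v hv u hu, (h' hN).2 v hv u hu]
    exact (mul_add _ _ _).symm⟩
  zero_mem' hN := ⟨cuspZero_zero hN, fun v _ u _ x g => by
    simp [Aleph.hecke_eq_hOp, Aleph.hOp]⟩
  smul_mem' c φ h hN := ⟨cuspZero_smul hN c (h hN).1, fun v hv u hu x g => by
    rw [hecke_smul, Pi.smul_apply, Pi.smul_apply, (h hN).2 v hv u hu]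
    exact mul_left_comm _ _ _⟩

variable {d} {N : ℕ}

theorem mem_splitSpace (hN : 0 < N) {φ : Form d.Mf} :
    φ ∈ splitSpace d N ↔ CuspZero N φ ∧
      ∀ v, SplitGood d N v → ∀ u, placeBelow (iKM d) u = v →
        ∀ x g, hecke u φ x g = (cOf d v : ℂ) * φ x g :=
  ⟨fun h => h hN, fun h _ => h⟩

theorem natCast_notMem_above {v : HeightOneSpectrum (𝓞 d.Kf)} (hv : (N : 𝓞 d.Kf) ∉ v.asIdeal)
    {u : HeightOneSpectrum (𝓞 d.Mf)} (hu : placeBelow (iKM d) u = v) :
    (N : 𝓞 d.Mf) ∉ u.asIdeal := fun hm => hv (by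
  rw [← hu]
  show RingOfIntegers.mapRingHom (iKM d) (N : 𝓞 d.Kf) ∈ u.asIdeal
  rwa [map_natCast])

theorem fixed_iKM {σ : d.Mf ≃+* d.Mf} (hσ : σ = tauE d ∨ σ = (tauE d).symm) (y : d.Kf) :
    σ (iKM d y) = iKM d y := by
  rcases hσ with rfl | rfl
  · exact (cycGen d).fixed y
  · rw [RingEquiv.symm_apply_eq]
    exact ((cycGen d).fixed y).symm

theorem placeBelow_iKM_below {σ : d.Mf ≃+* d.Mf} (hσ : σ = tauE d ∨ σ = (tauE d).symm)
    (w : HeightOneSpectrum (𝓞 d.Mf)) :
    placeBelow (iKM d) (below σ w) = placeBelow (iKM d) w :=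
  Match.placeBelow_comp_eq (iKM d) (σ : d.Mf →+* d.Mf) (fixed_iKM hσ) w

/-- The space is stable under the generator and its inverse. -/
theorem tform_mem {σ : d.Mf ≃+* d.Mf} (hσ : σ = tauE d ∨ σ = (tauE d).symm) {φ : Form d.Mf}
    (hφ : φ ∈ splitSpace d N) : Tform σ φ ∈ splitSpace d N := fun hN => by
  obtain ⟨hc, he⟩ := hφ hN
  refine ⟨cuspZero_Tform σ hN hc, fun v hv u hu x g => ?_⟩
  have hv' : placeBelow (iKM d) (below σ.symm u) = v := by
    rw [← hu]
    conv_rhs => rw [← below_below_symm σ u, placeBelow_iKM_below hσ]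
  rw [hecke_Tform σ hc.aut (below_below_symm σ u) (natCast_notMem_above hv.1 hv'),
    SplitEigen.hecke_eq he hv hv', map_smul]
  rfl

/-- The space is stable under `T_w` outside the level. -/
theorem hecke_mem (hN : d.Good N) {w : HeightOneSpectrum (𝓞 d.Mf)}
    (hw : (N : 𝓞 d.Mf) ∉ w.asIdeal) {φ : Form d.Mf} (hφ : φ ∈ splitSpace d N) :
    hecke w φ ∈ splitSpace d N := fun _ => by
  obtain ⟨hc, he⟩ := hφ hN.1
  refine ⟨cuspZero_hecke hN.1 hw hc, fun v hv u hu x g => ?_⟩
  suffices h : hecke u (hecke w φ) = (cOf d v : ℂ) • hecke w φ from congrFun (congrFun h x) g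
  rcases eq_or_ne u w with rfl | hne
  · rw [SplitEigen.hecke_eq he hv hu, hecke_smul, SplitEigen.hecke_eq he hv hu]
  · rw [hecke_eq_sum_Rt w φ, hecke_lincomb, Finset.smul_sum]
    refine Finset.sum_congr rfl fun r _ => ?_
    rw [hecke_Rt u (Aleph.loc_hRep_ne w hne r).1, SplitEigen.hecke_eq he hv hu, map_smul,
      smul_comm]

/-- The operators at the conjugates of a good place agree on the space. -/
theorem hecke_below (hN : d.Good N) {σ : d.Mf ≃+* d.Mf}
    (hσ : σ = tauE d ∨ σ = (tauE d).symm) {w : HeightOneSpectrum (𝓞 d.Mf)}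
    (hw : (N : 𝓞 d.Mf) ∉ w.asIdeal) {φ : Form d.Mf} (hφ : φ ∈ splitSpace d N) :
    hecke (below σ w) φ = hecke w φ := by
  obtain ⟨-, he⟩ := hφ hN.1
  by_cases hfix : below (tauE d) w = w
  · have hw' : below σ w = w := by
      rcases hσ with rfl | rfl
      · exact hfix
      · conv_lhs => rw [← hfix]
        exact below_symm_below _ w
    rw [hw']
  · have hv := splitGood_of_below_ne hN w hw hfix
    rw [SplitEigen.hecke_eq he hv (placeBelow_iKM_below hσ w), SplitEigen.hecke_eq he hv rfl]

/-- The space is stable under finite parts of tests trivial outside the level. -/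
theorem finAct_mem {f : GF d.Mf → ℂ}
    (hr : ∀ u ∈ UZ d.Mf N, ∀ g, f (g * u) = f g) (hl : ∀ u ∈ UZ d.Mf N, ∀ g, f (u * g) = f g)
    (hfin : ((QuotientGroup.mk : GF d.Mf → Cos d.Mf N) '' Function.support f).Finite)
    (hloc : ∀ c : Cos d.Mf N, f c.out ≠ 0 → ∃ r : GF d.Mf, (r : Cos d.Mf N) = c ∧
      ∀ v : HeightOneSpectrum (𝓞 d.Mf), (N : 𝓞 d.Mf) ∉ v.asIdeal →
        Red.loc v (r : Matrix (Fin 2) (Fin 2) (Af d.Mf)) = 1)
    {φ : Form d.Mf} (hφ : φ ∈ splitSpace d N) : finAct N f φ ∈ splitSpace d N := fun hN => by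
  classical
  obtain ⟨hc, he⟩ := hφ hN
  refine ⟨cuspZero_finAct hN hr hl hfin hc, fun v hv u hu x g => ?_⟩
  set C := hfin.toFinset.filter fun c => f c.out ≠ 0 with hC
  choose r hr1 hr2 using fun c : {c : Cos d.Mf N // f c.out ≠ 0} => hloc c.1 c.2
  set R : Cos d.Mf N → GF d.Mf := fun c => if h : f c.out ≠ 0 then r ⟨c, h⟩ else c.out with hR
  have e : finAct N f φ = ∑ c ∈ C, f (R c) • Rt (R c) φ := by
    refine finAct_eq_sum hr hc.aut C (fun c h => ?_) R fun c h => ?_
    · exact Finset.mem_filter.2 ⟨hfin.mem_toFinset.2 ⟨c.out, h, QuotientGroup.out_eq' c⟩, h⟩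
    · simp only [hR]
      rw [dif_pos (Finset.mem_filter.1 h).2]
      exact hr1 _
  suffices h : hecke u (finAct N f φ) = (cOf d v : ℂ) • finAct N f φ from congrFun (congrFun h x) g
  rw [e, hecke_lincomb, Finset.smul_sum]
  refine Finset.sum_congr rfl fun c h => ?_
  have hloc' : Red.loc u (R c : Matrix (Fin 2) (Fin 2) (Af d.Mf)) = 1 := by
    simp only [hR]
    rw [dif_pos (Finset.mem_filter.1 h).2]
    exact hr2 _ u (natCast_notMem_above hv.1 hu)
  rw [hecke_Rt u hloc', SplitEigen.hecke_eq he hv hu, map_smul, smul_comm]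

/-- A form of level `M₁` with the split eigenvalues lies in the space of level `M₁²`. -/
theorem mem_of_good_level {M₁ : ℕ} {φ : Form d.Mf} (hc : CuspZero M₁ φ)
    (he : ∀ v, SplitGood d M₁ v → ∀ u, placeBelow (iKM d) u = v →
      ∀ x g, hecke u φ x g = (cOf d v : ℂ) * φ x g)
    (hN : N = M₁ * M₁) : φ ∈ splitSpace d N := fun _ =>
  ⟨cuspZero_of_dvd (hN ▸ dvd_mul_right M₁ M₁) hc, fun v hv => he v ⟨fun hm => hv.1 (by
    rw [hN, Nat.cast_mul]
    exact Ideal.mul_mem_left _ _ hm), hv.2⟩⟩

end FLTAgent.LT.Descent
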