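import Fermat.Agent.LT.TF.Spaces
import Fermat.Agent.LT.TF.SplitSpace
import Fermat.Agent.LT.TF.Geometry

/-!
The cubic descent from its three inputs: the geometric comparison, the bounds, and the nonvanishing
of the twisted trace on the space of forms.
-/

set_option autoImplicit false
set_option linter.unusedSectionVars false
set_option linter.style.haveILetI false
set_option synthInstance.maxHeartbeats 400000

noncomputable section

namespace FLTAgent.LT.Descent.Choice

open NumberField IsDedekindDomain MeasureTheory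

variable {d : Octa} {N : ℕ} (C : Choice d N)
  {LM : ∀ w, GL (Fin 2) (Match.Kp d.Mf w) → ℂ} (hLM : Match.LocFam N LM)
  {LK : ∀ v, GL (Fin 2) (Match.Kp d.Kf v) → ℂ} (hLK : Match.LocFam N LK)

include C hLM in
/-- The space of forms is finite dimensional. -/
theorem finiteDimensional_splitSpace : FiniteDimensional ℂ (splitSpace d N) :=
  haveI := Red.countable_cos (F := d.Mf) C.hN.1
  C.finiteDimensional_forms hLM _ fun _ hφ => (mem_splitSpace C.hN.1).1 hφ

/-- The eigenvalue condition on `M` of a letter or a triple, without reference to the side. -/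
def EigM [Countable (Cos d.Mf N)] (hN : d.Good N) {w : Pt d.Mf N → ENNReal} (hw : IsPtWeight w)
    (u : Lp ℂ 2 (quotMeasure w)) : Letter d N ⊕ Rad3 d → Prop
  | .inl l => heckeCLM hN.1 hw ((l.1.up_spec hN).2.2.2.2.2 l.2) u = (cOf d l.1.1 : ℂ) • u
  | .inr a => kernCLM hN.1 hw (ok_radT (N := N) a.2) u = (a.lam : ℂ) • u

/-- The eigenvalue condition on `K` of a letter or a triple, without reference to the side. -/
def EigK [Countable (Cos d.Kf N)] (hN : d.Good N) {w : Pt d.Kf N → ENNReal} (hw : IsPtWeight w)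
    (u : Lp ℂ 2 (quotMeasure w)) : Letter d N ⊕ Rad3 d → Prop
  | .inl l => heckeCLM hN.1 hw l.1.2.1 u = (cOf d l.1.1 : ℂ) • u
  | .inr a => kernCLM hN.1 hw (ok_radT (N := N) a.down_rad1) u = (a.lam : ℂ) • u

theorem eigM_iff [Countable (Cos d.Mf N)] (u : Lp ℂ 2 (quotMeasure C.wM)) (i : Letter d N ⊕ Rad3 d) :
    haveI : Countable (Cos d.Mf (C.sideM LM hLM).N) := ‹Countable (Cos d.Mf N)›;
    ((C.sideM LM hLM).op i u = (C.data.val i : ℂ) • u) ↔ EigM C.hN C.hwM u i := by
  cases i <;> exact Iff.rfl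

theorem eigK_iff [Countable (Cos d.Kf N)] (u : Lp ℂ 2 (quotMeasure C.wK)) (i : Letter d N ⊕ Rad3 d) :
    haveI : Countable (Cos d.Kf (C.sideK LK hLK).N) := ‹Countable (Cos d.Kf N)›;
    ((C.sideK LK hLK).op i u = (C.data.val i : ℂ) • u) ↔ EigK C.hN C.hwK u i := by
  cases i <;> exact Iff.rfl

open scoped Classical in
/-- Finitely many letters cut out the eigenspaces on both sides; the damping place is moved off
them. -/
theorem exists_choice_avoiding [Countable (Cos d.Mf N)] [Countable (Cos d.Kf N)] (hN : d.Good N) :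
    ∃ (C : Choice d N) (T : Finset (Letter d N ⊕ Rad3 d)),
      (∀ l, Sum.inl l ∈ T → l ∈ C.good) ∧
      (haveI : Countable (Cos d.Mf (C.sideM LM hLM).N) := ‹Countable (Cos d.Mf N)›;
        (C.sideM LM hLM).space (fun i : T => (i : Letter d N ⊕ Rad3 d)) =
          (C.sideM LM hLM).allSpace) ∧
      (haveI : Countable (Cos d.Kf (C.sideK LK hLK).N) := ‹Countable (Cos d.Kf N)›;
        (C.sideK LK hLK).space (fun i : T => (i : Letter d N ⊕ Rad3 d)) =
          (C.sideK LK hLK).allSpace) := by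
  obtain ⟨C₀⟩ := exists_choice hN
  haveI : Countable (Cos d.Mf (C₀.sideM LM hLM).N) := ‹Countable (Cos d.Mf N)›
  haveI : Countable (Cos d.Kf (C₀.sideK LK hLK).N) := ‹Countable (Cos d.Kf N)›
  obtain ⟨S, hS, hS'⟩ := C₀.exists_finset_both hLM hLK
  obtain ⟨T₁, -, h₁⟩ := (C₀.sideM LM hLM).exists_finset_eig S hS
  obtain ⟨T₂, -, h₂⟩ := (C₀.sideK LK hLK).exists_finset_eig S hS'
  obtain ⟨v, hv, hsp, hc⟩ := exists_damp d hN
    (insert C₀.vp.1 ((T₁ ∪ T₂).toLeft.image fun l => l.1.1))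
  rw [Finset.mem_insert, Finset.mem_image, not_or, not_exists] at hv
  have gM : ∀ u : Lp ℂ 2 (quotMeasure C₀.wM), (∀ i ∈ T₁ ∪ T₂, EigM C₀.hN C₀.hwM u i) →
      ∀ i, EigM C₀.hN C₀.hwM u i := fun u hu i => (C₀.eigM_iff hLM u i).1
    (h₁ u (((C₀.sideM LM hLM).mem_eig).2 fun j =>
      (C₀.eigM_iff hLM u j).2 (hu j (Finset.mem_union_left _ j.2))) i)
  have gK : ∀ u : Lp ℂ 2 (quotMeasure C₀.wK), (∀ i ∈ T₁ ∪ T₂, EigK C₀.hN C₀.hwK u i) →
      ∀ i, EigK C₀.hN C₀.hwK u i := fun u hu i => (C₀.eigK_iff hLK u i).1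
    (h₂ u (((C₀.sideK LK hLK).mem_eig).2 fun j =>
      (C₀.eigK_iff hLK u j).2 (hu j (Finset.mem_union_right _ j.2))) i)
  let C : Choice d N :=
    { C₀ with
      w0 := ⟨v, hsp⟩
      w0_zero := hc
      w0_ne := fun e => hv.1 (congrArg Subtype.val e) }
  haveI : Countable (Cos d.Mf (C.sideM LM hLM).N) := ‹Countable (Cos d.Mf N)›
  haveI : Countable (Cos d.Kf (C.sideK LK hLK).N) := ‹Countable (Cos d.Kf N)›
  refine ⟨C, T₁ ∪ T₂, fun l hl e => hv.2 l ⟨Finset.mem_toLeft.2 hl, congrArg Subtype.val e⟩,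
    (C.sideM LM hLM).space_eq_allSpace _ fun u hu i => (C.eigM_iff hLM u i).2
      (gM u (fun j hj => (C.eigM_iff hLM u j).1 (((C.sideM LM hLM).mem_eig).1 hu ⟨j, hj⟩)) i),
    (C.sideK LK hLK).space_eq_allSpace _ fun u hu i => (C.eigK_iff hLK u i).2
      (gK u (fun j hj => (C.eigK_iff hLK u j).1 (((C.sideK LK hLK).mem_eig).1 hu ⟨j, hj⟩)) i)⟩

end FLTAgent.LT.Descent.Choice

namespace FLTAgent.LT.Descent

open NumberField IsDedekindDomain MeasureTheory

/-- **Cubic descent from matched bad families and a nonzero trace.** -/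
theorem cubicDescent_of_trace {d : Octa} {N j : ℕ} (hN : d.Good N) (hj : 0 < j)
    {LM : ∀ w, GL (Fin 2) (Match.Kp d.Mf w) → ℂ} {LK : ∀ v, GL (Fin 2) (Match.Kp d.Kf v) → ℂ}
    (hB : BadPair d N j LM LK) (τ : d.Mf ≃+* d.Mf) (htau : (τ : d.Mf →+* d.Mf) = tauM d)
    (X T : splitSpace d N →ₗ[ℂ] splitSpace d N)
    (hX : ∀ φ : splitSpace d N, ((X φ : splitSpace d N) : Form d.Mf) =
      TraceTheta.finAct N (Match.prodFun LM) (φ : Form d.Mf))
    (hT : ∀ φ : splitSpace d N, ((T φ : splitSpace d N) : Form d.Mf) =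
      TraceTheta.Tform τ.symm (φ : Form d.Mf))
    (htr : LinearMap.trace ℂ (splitSpace d N) (T * X) ≠ 0) : CubicDescent d := by
  haveI : Countable (Cos d.Mf N) := Red.countable_cos hN.1
  haveI : Countable (Cos d.Kf N) := Red.countable_cos hN.1
  obtain ⟨c, -, hg⟩ := exists_geom hN hj hB
  obtain ⟨C, S, hS, hM, hK⟩ := Choice.exists_choice_avoiding hB.famM hB.famK hN
  haveI : Countable (Cos d.Mf (C.sideM LM hB.famM).N) := ‹Countable (Cos d.Mf N)›
  haveI : Countable (Cos d.Kf (C.sideK LK hB.famK).N) := ‹Countable (Cos d.Kf N)›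
  haveI := C.finiteDimensional_splitSpace hB.famM
  have hne := C.pairing_M hB.famM τ htau (splitSpace d N) (fun _ => mem_splitSpace hN.1) X T hX hT
    (Choice.unitRad d)
  obtain ⟨u, hu0, -, hu⟩ := (hg C).exists_vector (C.bounded_M LM hB.famM)
    (C.bounded_K LK hB.famK) S hS hM hK [] (fun _ h => absurd h List.not_mem_nil) (Choice.unitRad d) (by
    rw [hne]
    exact mul_ne_zero (mul_ne_zero C.data_total_ne (Complex.ofReal_ne_zero.2 Choice.unitRad_lam_pos.ne'))
      htr)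
  exact C.cubicDescent_of_vector hB.famK hu0 hu

end FLTAgent.LT.Descent
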