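import Fermat.Agent.LT.TF.Trace.Final
import Fermat.Agent.LT.TF.Finish
import Fermat.Agent.LT.Recip.Main

/-!
# Piece B: the descent to `ℚ(√-3)`
-/

set_option autoImplicit false
set_option linter.style.haveILetI false

noncomputable section

namespace FLTAgent.LT

open Descent

/-- Piece B: the descent of the dihedral theta function to `K = ℚ(√-3)`. -/
theorem cubicDescent (d : Octa) : CubicDescent d := by
  obtain ⟨N, j, LM, LK, hN, hj, hB, X, T, hX, hT, htr⟩ :=
    exists_badPair_trace d cyclicReciprocity
  exact cubicDescent_of_trace hN hj hB (tauE d) (coe_tauE d) X T hX hT htr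

end FLTAgent.LT
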