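import Fermat.Agent.LT.TF.Compare

/-!
Abstract facts about common eigenspaces: finite dimension from an integral bound, finitely many
operators suffice, common eigenvectors, and projections through orthonormal bases.
-/

set_option autoImplicit false
set_option linter.unusedSectionVars false
set_option linter.deprecated false
set_option linter.unusedSimpArgs false
set_option linter.style.haveILetI false

noncomputable section

namespace FLTAgent.LT

open MeasureTheory
open scoped InnerProductSpace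

variable {E : Type*} [NormedAddCommGroup E] [InnerProductSpace ℂ E] [CompleteSpace E]

/-- Normalisation of a symmetric operator shifted by a real number. -/
def shiftNorm (T : E →L[ℂ] E) (c : ℝ) : E →L[ℂ] E :=
  (((‖T‖ + |c| + 1)⁻¹ : ℝ) : ℂ) • (T - (c : ℂ) • 1)

theorem isSAC_shiftNorm {T : E →L[ℂ] E} (hT : ∀ v w, ⟪T v, w⟫_ℂ = ⟪v, T w⟫_ℂ) (c : ℝ) :
    IsSAC (shiftNorm T c) := by
  refine ⟨fun v w => ?_, fun v => ?_⟩
  · simp only [shiftNorm, ContinuousLinearMap.smul_apply, sub_apply, ContinuousLinearMap.sub_apply,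
      ContinuousLinearMap.one_apply, inner_smul_left, inner_smul_right, inner_sub_left,
      inner_sub_right, Complex.conj_ofReal, hT]
  · have hpos : 0 < ‖T‖ + |c| + 1 := by positivity
    simp only [shiftNorm, ContinuousLinearMap.smul_apply, ContinuousLinearMap.sub_apply,
      ContinuousLinearMap.one_apply, norm_smul, Complex.norm_real, Real.norm_eq_abs,
      abs_of_pos (inv_pos.2 hpos)]
    rw [inv_mul_le_iff₀ hpos]
    calc ‖T v - (c : ℂ) • v‖ ≤ ‖T v‖ + ‖(c : ℂ) • v‖ := norm_sub_le _ _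
      _ ≤ ‖T‖ * ‖v‖ + |c| * ‖v‖ := add_le_add (T.le_opNorm v) (by simp [norm_smul])
      _ ≤ (‖T‖ + |c| + 1) * ‖v‖ := by nlinarith [norm_nonneg v]

theorem shiftNorm_eq_zero_iff {T : E →L[ℂ] E} {c : ℝ} {v : E} :
    shiftNorm T c v = 0 ↔ T v = (c : ℂ) • v := by
  have hpos : (0 : ℝ) < ‖T‖ + |c| + 1 := by positivity
  have h' : (((‖T‖ + |c| + 1)⁻¹ : ℝ) : ℂ) ≠ 0 := Complex.ofReal_ne_zero.2 (inv_ne_zero hpos.ne')
  simp [shiftNorm, sub_eq_zero, smul_eq_zero, hpos.ne']
  exact fun h => absurd h (by exact_mod_cast hpos.ne')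

theorem commute_shiftNorm {T S : E →L[ℂ] E} (h : Commute T S) (c c' : ℝ) :
    Commute (shiftNorm T c) (shiftNorm S c') :=
  (((h.sub_left ((Commute.one_left S).smul_left _)).sub_right
    ((Commute.one_right _).smul_right _)).smul_left _).smul_right _

/-- A bound on orthonormal families bounds the dimension. -/
theorem finiteDimensional_of_card_le (V : Submodule ℂ E) (B : ℝ)
    (h : ∀ (n : ℕ) (e : Fin n → E), (∀ i, e i ∈ V) → Orthonormal ℂ e → (n : ℝ) ≤ B) :
    FiniteDimensional ℂ V := by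
  refine Module.rank_lt_aleph0_iff.1
    (lt_of_le_of_lt (b := ((⌊B⌋₊ : ℕ) : Cardinal)) ?_ Cardinal.natCast_lt_aleph0)
  refine rank_le fun s hs => ?_
  classical
  set n := s.card
  set f : Fin n → V := fun i => (s.equivFin.symm i : V)
  have hf : LinearIndependent ℂ f := hs.comp _ s.equivFin.symm.injective
  have hg := InnerProductSpace.gramSchmidtNormed_orthonormal (𝕜 := ℂ) hf
  have := h n (fun i => ((InnerProductSpace.gramSchmidtNormed ℂ f i : V) : E)) (fun i => Subtype.coe_prop _)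
    (hg.comp_linearIsometry V.subtypeₗᵢ)
  exact Nat.le_floor this

/-- Finitely many operators cut out the whole joint kernel. -/
theorem exists_finset_jointKer {ι : Type*} (B : ι → E →L[ℂ] E) (S₀ : Finset ι)
    (h : FiniteDimensional ℂ (jointKer fun i : S₀ => B i)) :
    ∃ S : Finset ι, S₀ ⊆ S ∧ ∀ v, v ∈ (jointKer fun i : S => B i) ↔ ∀ i, B i v = 0 := by
  classical
  have hne : ({m | ∃ S : Finset ι, S₀ ⊆ S ∧
      Module.finrank ℂ (jointKer fun i : S => B i) = m} : Set ℕ).Nonempty :=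
    ⟨_, S₀, subset_rfl, rfl⟩
  obtain ⟨S, hS, hm⟩ := Nat.sInf_mem hne
  refine ⟨S, hS, fun v => ⟨fun hv i => ?_, fun hv => mem_jointKer.2 fun i => hv i⟩⟩
  have hfin : FiniteDimensional ℂ (jointKer fun i : S => B i) :=
    Submodule.finiteDimensional_of_le (S₂ := jointKer fun i : S₀ => B i) fun u hu =>
      mem_jointKer.2 fun j => mem_jointKer.1 hu ⟨j, hS j.2⟩
  have hle : (jointKer fun j : (insert i S : Finset ι) => B j) ≤ jointKer fun j : S => B j :=
    fun u hu => mem_jointKer.2 fun j => mem_jointKer.1 hu ⟨j, Finset.mem_insert_of_mem j.2⟩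
  have heq := Submodule.eq_of_le_of_finrank_le hle (hm.trans_le (Nat.sInf_le
    ⟨insert i S, hS.trans (Finset.subset_insert _ _), rfl⟩))
  rw [← heq] at hv
  exact mem_jointKer.1 hv ⟨i, Finset.mem_insert_self i S⟩

/-- Commuting symmetric operators preserving a nonzero finite dimensional subspace have a common
eigenvector in it, with real eigenvalues. -/
theorem exists_common_eigenvector {ι : Type*} (T : ι → E →L[ℂ] E)
    (hT : ∀ i v w, ⟪T i v, w⟫_ℂ = ⟪v, T i w⟫_ℂ) (hc : ∀ i j, Commute (T i) (T j))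
    (V : Submodule ℂ E) [FiniteDimensional ℂ V] (hV : V ≠ ⊥) (hinv : ∀ i, ∀ v ∈ V, T i v ∈ V) :
    ∃ v ∈ V, v ≠ 0 ∧ ∀ i, ∃ c : ℝ, T i v = (c : ℂ) • v := by
  classical
  -- a minimal stable subspace
  have hne : ({m | ∃ W : Submodule ℂ E, W ≤ V ∧ W ≠ ⊥ ∧ (∀ i, ∀ v ∈ W, T i v ∈ W) ∧
      Module.finrank ℂ W = m} : Set ℕ).Nonempty := ⟨_, V, le_rfl, hV, hinv, rfl⟩
  obtain ⟨W, hWV, hW0, hWinv, hWm⟩ := Nat.sInf_mem hne
  haveI : FiniteDimensional ℂ W := Submodule.finiteDimensional_of_le hWV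
  haveI : Nontrivial W := Submodule.nontrivial_iff_ne_bot.2 hW0
  obtain ⟨v, hvW, hv0⟩ := Submodule.exists_mem_ne_zero_of_ne_bot hW0
  refine ⟨v, hWV hvW, hv0, fun i => ?_⟩
  obtain ⟨μ, hμ⟩ := Module.End.exists_eigenvalue ((T i).toLinearMap.restrict (hWinv i))
  obtain ⟨u, hu⟩ := hμ.exists_hasEigenvector
  have hTu : T i (u : E) = μ • (u : E) := congrArg Subtype.val hu.apply_eq_smul
  set W' : Submodule ℂ E := W ⊓ LinearMap.ker (T i - μ • 1).toLinearMap
  have hW' : W' = W := by
    haveI : FiniteDimensional ℂ W' := Submodule.finiteDimensional_of_le (inf_le_left : W' ≤ W)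
    refine Submodule.eq_of_le_of_finrank_le inf_le_left (hWm.trans_le (Nat.sInf_le
      ⟨W', inf_le_left.trans hWV, fun h => hu.2 (Subtype.ext ?_), fun j w hw => ⟨hWinv j w hw.1, ?_⟩,
        rfl⟩))
    · exact (Submodule.eq_bot_iff _).1 h (u : E) ⟨u.2, by simp [LinearMap.mem_ker, hTu]⟩
    · have hw2 : T i w = μ • w := by
        have := hw.2
        simpa [LinearMap.mem_ker, sub_eq_zero] using this
      have hcom : T i (T j w) = T j (T i w) := congrArg (fun S => S w) (hc i j).eq
      simp [LinearMap.mem_ker, hcom, hw2]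
  have hv' : v ∈ W' := hW'.symm ▸ hvW
  have hTv : T i v = μ • v := by simpa [LinearMap.mem_ker, sub_eq_zero] using hv'.2
  refine ⟨μ.re, ?_⟩
  have h1 := hT i v v
  rw [hTv, inner_smul_left, inner_smul_right] at h1
  rw [hTv, Complex.conj_eq_iff_re.1 (mul_right_cancel₀ (inner_self_ne_zero.2 hv0) h1)]

/-- Projection to a finite dimensional subspace through an orthonormal basis. -/
theorem inner_starProjection_eq_sum (V : Submodule ℂ E) [FiniteDimensional ℂ V] (a b : E) :
    ⟪a, V.starProjection b⟫_ℂ = ∑ i, ⟪a, (stdOrthonormalBasis ℂ V i : E)⟫_ℂ *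
      ⟪(stdOrthonormalBasis ℂ V i : E), b⟫_ℂ := by
  rw [(stdOrthonormalBasis ℂ V).starProjection_eq_sum_rankOne, ContinuousLinearMap.sum_apply,
    inner_sum]
  exact Finset.sum_congr rfl fun i _ => by simp [inner_smul_right, mul_comm]

end FLTAgent.LT
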