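import Fermat.Agent.LT.TF.Aleph.HMax

/-!
The largest height is invariant under the twist of points by an automorphism.
-/

set_option autoImplicit false

noncomputable section

namespace FLTAgent.LT.Aleph

open NumberField
open FLTAgent.LT.Ht

variable {F : Type*} [Field F] [NumberField F] {N : ℕ}

/-- The largest height at a twisted point. -/
theorem hMax_ptMap (τ : F →+* F) (p : Pt F N) : hMax (ptMap (N' := N) τ p) = hMax p := by
  refine eq_of_forall_ge_iff fun T => ?_
  rw [hMax_le_iff, hMax_le_iff]
  refine and_congr_right fun _ => ⟨fun h r hr => ?_, fun h r hr => ?_⟩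
  · rw [← ht_ptMap τ r p]
    exact h _ (row_map_ne_zero τ hr)
  · set r' : Fin 2 → F := fun i => (endoEquiv τ).symm (r i)
    have e : (fun i => τ (r' i)) = r := funext fun i => (endoEquiv τ).apply_symm_apply _
    have hr' : r' ≠ 0 := fun h0 => hr (funext fun i =>
      (RingEquiv.map_eq_zero_iff (endoEquiv τ).symm).1 (congrFun h0 i))
    rw [← e, ht_ptMap]
    exact h r' hr'

end FLTAgent.LT.Aleph
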