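import Fermat.Agent.LT.TF.L2Bound
import Fermat.Agent.LT.TF.HMaxTwist
import Fermat.Agent.LT.TF.Aleph.NearCount
import Fermat.Agent.LT.TF.Aleph.Bound

/-!
The Hilbert–Schmidt bound and the twisted pairing bound for a killing family, with the largest
height as weight.
-/

set_option autoImplicit false
set_option linter.unusedSectionVars false
set_option linter.style.haveILetI false
set_option synthInstance.maxHeartbeats 200000

noncomputable section

namespace FLTAgent.LT

open NumberField IsDedekindDomain MeasureTheory Module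
open scoped ENNReal

variable {F : Type*} [Field F] [NumberField F]

theorem Aleph.gain_le_one : Aleph.gain F ≤ 1 := by
  rw [Aleph.gain]
  exact inv_le_one_of_one_le₀ (Nat.one_le_cast.2 (Nat.one_le_iff_ne_zero.2 Module.finrank_pos.ne'))

variable [IsTotallyComplex F] {N : ℕ} {w : Pt F N → ℝ≥0∞} (hw : IsPtWeight w) (hN : 0 < N)
  {ι : Type*} [Fintype ι] [DecidableEq ι] {A : Aleph.Fam ι (InfinitePlace F)} (hA : A.Reg) {p : ℕ}
  (hK : A.Kills (p : ℝ) fun _ => Real.log p) {pl : ι → HeightOneSpectrum (𝓞 F)}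
  (hP : Aleph.Places N p pl)

include hw hN hA hK hP

/-- **The operator of a killing family on kernel sections is Hilbert–Schmidt.** -/
theorem Aleph.Fam.lintegral_sq_op_kern_lt_top' {t₁ : Test F} (h₁ : t₁.Ok N) :
    ∫⁻ x, ∫⁻ r, ‖A.op pl (fun q => kern t₁ x q) r‖ₑ ^ 2 ∂quotMeasure w ∂quotMeasure w < ⊤ := by
  haveI := Red.countable_cos (F := F) hN
  exact Aleph.Fam.lintegral_sq_op_kern_lt_top hw hN hA hP Aleph.one_le_hMax Aleph.measurable_hMax
    (Aleph.gain_pos (F := F)) (Aleph.Fam.exists_op_le_L1 hA hK hP hN hw)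
    (fun _ hb => Aleph.lintegral_hMax_rpow_lt_top hN hw hb) h₁

/-- **The twisted pairing of the operator of a killing family with a kernel is absolutely
integrable.** -/
theorem Aleph.Fam.lintegral_pair_lt_top' {t₁ t₂ : Test F} (h₁ : t₁.Ok N) (h₂ : t₂.Ok N)
    (τ : F →+* F) :
    ∫⁻ x, (∫⁻ r, ‖A.op pl (fun q => kern t₁ x q) r‖ₑ ^ 2 ∂quotMeasure w) ^ (1 / 2 : ℝ) *
      (∫⁻ r, ‖kern t₂ r (ptMap (N' := N) τ x)‖ₑ ^ 2 ∂quotMeasure w) ^ (1 / 2 : ℝ)
        ∂quotMeasure w < ⊤ := by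
  haveI := Red.countable_cos (F := F) hN
  exact Aleph.Fam.lintegral_pair_lt_top hw hN hA hP Aleph.one_le_hMax Aleph.measurable_hMax
    (Aleph.gain_pos (F := F)) (Aleph.Fam.exists_op_le_L1 hA hK hP hN hw)
    (fun _ hb => Aleph.lintegral_hMax_rpow_lt_top hN hw hb) (Aleph.gain_le_one (F := F)) h₁ h₂ τ
    (Aleph.Fam.exists_op_support hA hP)
    (fun _ ht => Aleph.exists_hMax_kern ht) (fun _ ht => Aleph.exists_norm_kern_le hN ht)
    (fun q => (Aleph.hMax_ptMap τ q).le)

end FLTAgent.LT
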