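import Fermat.Agent.LT.TF.Side
import Fermat.Agent.LT.TF.JointSpace
import Fermat.Agent.LT.TF.L2Pair
import Fermat.Agent.LT.TF.RegularForm
import Fermat.Agent.LT.TF.Setup

/-!
From the limit space to the descended form: the joint eigenspace with parameter zero killed at the
places over the auxiliary prime is finite dimensional, and a nonzero vector with the eigenvalues of
`ρ` at the split places gives a form with all the properties wanted of piece B.
-/

set_option autoImplicit false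
set_option linter.unusedSectionVars false
set_option linter.unusedSimpArgs false
set_option linter.deprecated false
set_option linter.style.haveILetI false
set_option synthInstance.maxHeartbeats 200000

noncomputable section

namespace FLTAgent.LT

open NumberField IsDedekindDomain MeasureTheory
open scoped ENNReal InnerProductSpace

/-- A symmetric operator whose cube has a nonzero real eigenvalue has the cube root as
eigenvalue. -/
theorem eigen_of_cube {E : Type*} [NormedAddCommGroup E] [InnerProductSpace ℂ E]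
    (B : E →L[ℂ] E) (hB : ∀ v w, ⟪B v, w⟫_ℂ = ⟪v, B w⟫_ℂ) {l : ℝ} (hl : l ≠ 0) {u : E}
    (h : B (B (B u)) = ((l : ℂ) ^ 3) • u) : B u = (l : ℂ) • u := by
  set z := B u - (l : ℂ) • u
  have hz : B (B z) + (l : ℂ) • B z + ((l : ℂ) ^ 2) • z = 0 := by
    simp only [z, map_sub, map_smul, smul_sub, smul_smul, h]
    module
  set y := B z + ((l / 2 : ℝ) : ℂ) • z
  have hy : ⟪y, y⟫_ℂ + ((3 * l ^ 2 / 4 : ℝ) : ℂ) * ⟪z, z⟫_ℂ = 0 := by
    have h0 := congrArg (fun t => ⟪t, z⟫_ℂ) hz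
    simp only [inner_add_left, inner_smul_left, inner_zero_left, map_pow, Complex.conj_ofReal,
      hB (B z) z] at h0
    simp only [y, inner_add_left, inner_add_right, inner_smul_left, inner_smul_right,
      Complex.conj_ofReal, ← hB z z]
    push_cast
    linear_combination h0
  have hre := congrArg Complex.re hy
  rw [inner_self_eq_norm_sq_to_K, inner_self_eq_norm_sq_to_K] at hre
  simp [← Complex.ofReal_pow] at hre
  have h3 : 0 < 3 * l ^ 2 / 4 := by positivity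
  have : ‖z‖ ^ 2 = 0 := by nlinarith [sq_nonneg ‖y‖, sq_nonneg ‖z‖]
  exact sub_eq_zero.1 (norm_eq_zero.1 (pow_eq_zero_iff two_ne_zero |>.1 this))

variable {F : Type*} [Field F] [NumberField F] {N : ℕ}

theorem conj_kern_radT (h : InfinitePlace F → ℝ → ℝ) (p q : Pt F N) :
    (starRingEnd ℂ) (kern (radT N h) p q) = kern (radT N h) p q := by
  rw [kern, Complex.conj_tsum]
  refine tsum_congr fun γ => ?_
  rw [map_mul]
  congr 1
  · have e : ∀ y : GF F, (starRingEnd ℂ) ((UZ F N : Set (GF F)).indicator 1 y) =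
        (UZ F N : Set (GF F)).indicator 1 y := fun y => by
      by_cases hy : y ∈ UZ F N <;> simp [hy]
    exact e _
  · exact conj_radFun h _

variable [Countable (Cos F N)] {w : Pt F N → ℝ≥0∞}

/-- The vectors with parameter zero at every infinite place which the given Hecke operators
kill. -/
def zeroSpace (hN : 0 < N) (hw : IsPtWeight w) {ι : Type*} (pl : ι → HeightOneSpectrum (𝓞 F))
    (hpl : ∀ j, (N : 𝓞 F) ∉ (pl j).asIdeal) : Submodule ℂ (Lp ℂ 2 (quotMeasure w)) where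
  carrier := {u | (∀ (h : InfinitePlace F → ℝ → ℝ) (hh : ∀ x, Rad1 (h x)),
      kernCLM hN hw (ok_radT (N := N) hh) u = (∏ x, ((lam0 (h x) : ℝ) : ℂ)) • u) ∧
    ∀ j, heckeCLM hN hw (hpl j) u = 0}
  zero_mem' := ⟨fun _ _ => by simp, fun _ => map_zero _⟩
  add_mem' ha hb := ⟨fun h hh => by rw [map_add, ha.1 h hh, hb.1 h hh, smul_add],
    fun j => by rw [map_add, ha.2 j, hb.2 j, add_zero]⟩
  smul_mem' c _ ha := ⟨fun h hh => by rw [map_smul, ha.1 h hh, smul_comm],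
    fun j => by rw [map_smul, ha.2 j, smul_zero]⟩

variable (hN : 0 < N) (hw : IsPtWeight w)

theorem mem_zeroSpace {ι : Type*} {pl : ι → HeightOneSpectrum (𝓞 F)}
    {hpl : ∀ j, (N : 𝓞 F) ∉ (pl j).asIdeal} {u : Lp ℂ 2 (quotMeasure w)} :
    u ∈ zeroSpace hN hw pl hpl ↔
      (∀ (h : InfinitePlace F → ℝ → ℝ) (hh : ∀ x, Rad1 (h x)),
        kernCLM hN hw (ok_radT (N := N) hh) u = (∏ x, ((lam0 (h x) : ℝ) : ℂ)) • u) ∧
      ∀ j, heckeCLM hN hw (hpl j) u = 0 := Iff.rfl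

/-- Operators commuting with the radial and Hecke operators preserve the space. -/
theorem apply_mem_zeroSpace {ι : Type*} {pl : ι → HeightOneSpectrum (𝓞 F)}
    {hpl : ∀ j, (N : 𝓞 F) ∉ (pl j).asIdeal} {v : HeightOneSpectrum (𝓞 F)}
    (hv : (N : 𝓞 F) ∉ v.asIdeal) {u : Lp ℂ 2 (quotMeasure w)}
    (hu : u ∈ zeroSpace hN hw pl hpl) : heckeCLM hN hw hv u ∈ zeroSpace hN hw pl hpl := by
  refine ⟨fun h hh => ?_, fun j => ?_⟩
  · rw [show kernCLM hN hw (ok_radT (N := N) hh) (heckeCLM hN hw hv u) =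
      heckeCLM hN hw hv (kernCLM hN hw (ok_radT (N := N) hh) u) from
      congrArg (fun T => T u) (hecke_radOp_comm hN hw hv hh).eq.symm, hu.1 h hh, map_smul]
  · rw [show heckeCLM hN hw (hpl j) (heckeCLM hN hw hv u) =
      heckeCLM hN hw hv (heckeCLM hN hw (hpl j) u) from
      congrArg (fun T => T u) (heckeCLM_comm hN hw (hpl j) hv).eq, hu.2 j, map_zero]

include hN hw

/-- Eigenvalues for all triples `h * b * b` give them for all radial tuples. -/
theorem radial_eigen_of_triples {b : InfinitePlace F → ℝ → ℝ} (hb : ∀ x, Rad1 (b x))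
    (hb0 : ∀ x, lam0 (b x) ≠ 0) {u : Lp ℂ 2 (quotMeasure w)}
    (htr : ∀ (h : InfinitePlace F → ℝ → ℝ) (hh : ∀ x, Rad1 (h x)),
      kernCLM hN hw (ok_radT (N := N) fun x => ((hh x).conv1 (hb x)).conv1 (hb x)) u =
        (∏ x, ((lam0 (h x) * lam0 (b x) * lam0 (b x) : ℝ) : ℂ)) • u)
    (h : InfinitePlace F → ℝ → ℝ) (hh : ∀ x, Rad1 (h x)) :
    kernCLM hN hw (ok_radT (N := N) hh) u = (∏ x, ((lam0 (h x) : ℝ) : ℂ)) • u := by
  set B := kernCLM hN hw (ok_radT (N := N) hb)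
  set lb : ℝ := ∏ x, lam0 (b x)
  have hlb : lb ≠ 0 := Finset.prod_ne_zero_iff.2 fun x _ => hb0 x
  have hcomp : ∀ (g : InfinitePlace F → ℝ → ℝ) (hg : ∀ x, Rad1 (g x)),
      kernCLM hN hw (ok_radT (N := N) hg) (B (B u)) =
        ((∏ x, ((lam0 (g x) : ℝ) : ℂ)) * (lb : ℂ) ^ 2) • u := fun g hg => by
    have e1 := radOp_comp hN hw hg hb
    have e2 := radOp_comp hN hw (fun x => (hg x).conv1 (hb x)) hb
    rw [← e1] at e2
    have := congrArg (fun T => T u) e2
    rw [htr g hg] at this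
    refine this.trans ?_
    congr 1
    simp only [lb, Complex.ofReal_mul, Complex.ofReal_prod, Finset.prod_mul_distrib]
    ring
  have hBu : B u = (lb : ℂ) • u := by
    refine eigen_of_cube B (fun v v' => kernCLM_symm hN hw (ok_radT hb)
      (herm_word_nil hN (conj_radFun b)) v v') hlb ?_
    rw [hcomp b hb]
    congr 1
    simp only [lb, Complex.ofReal_prod]
    ring
  have h1 := hcomp h hh
  rw [hBu, map_smul, hBu, smul_smul, map_smul, mul_comm (∏ x, ((lam0 (h x) : ℝ) : ℂ)),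
    mul_smul ((lb : ℂ) ^ 2), ← pow_two] at h1
  exact smul_right_injective _ (pow_ne_zero 2 (Complex.ofReal_ne_zero.2 hlb)) h1

section family

variable {ι : Type*} [Fintype ι] {p₀ : ℕ} {pl : ι → HeightOneSpectrum (𝓞 F)}
  (hP : Aleph.Places N p₀ pl) {A : Aleph.Fam ι (InfinitePlace F)} (hA : A.Reg)
  {hr : A.κ → InfinitePlace F → ℝ → ℝ} (hhr : ∀ k v, Rad1 (hr k v))
  (hrad : ∀ k, A.rad k = radFun (hr k))
  (habel : ∀ k, A.word k = [] → (∫ l, A.abel k l) = ∏ v, ((lam0 (hr k v) : ℝ) : ℂ))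

/-- A word operator on the space. -/
theorem inner_kernCLM_word {u : Lp ℂ 2 (quotMeasure w)} {h : InfinitePlace F → ℝ → ℝ}
    (hh : ∀ v, Rad1 (h v))
    (hu1 : kernCLM hN hw (ok_radT (N := N) hh) u = (∏ v, ((lam0 (h v) : ℝ) : ℂ)) • u)
    (hu2 : ∀ j, heckeCLM hN hw (hP.not_mem j) u = 0) :
    ∀ (js : List ι) (a : Lp ℂ 2 (quotMeasure w)),
      ⟪kernCLM hN hw (ok_word (h := h) (hP.not_mem_map js) hh) a, u⟫_ℂ =
        (if js = [] then ∏ v, ((lam0 (h v) : ℝ) : ℂ) else 0) * ⟪a, u⟫_ℂ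
  | [], a => by
    rw [if_pos rfl, ← inner_smul_right, ← hu1]
    exact kernCLM_symm hN hw (ok_radT hh) (herm_word_nil hN (conj_radFun h)) a u
  | j :: js, a => by
    rw [if_neg (List.cons_ne_nil _ _), zero_mul,
      kernCLM_congr hN hw (ok_word (h := h) (hP.not_mem_map (j :: js)) hh)
        ((ok_word (h := h) (hP.not_mem_map js) hh).heckeL (hP.not_mem j))
        (heckeL_wordFin (pl j) (js.map pl) (radFun h)).symm,
      ← heckeCLM_kernCLM hN hw (hP.not_mem j) (ok_word (h := h) (hP.not_mem_map js) hh),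
      heckeCLM_symm, hu2 j, inner_zero_right]

include hA hhr hrad habel

/-- The operator of a family on a joint eigenvector is its value. -/
theorem inner_famOp {u : Lp ℂ 2 (quotMeasure w)}
    (hu1 : ∀ k, kernCLM hN hw (ok_radT (N := N) (hhr k)) u =
      (∏ v, ((lam0 (hr k v) : ℝ) : ℂ)) • u)
    (hu2 : ∀ j, heckeCLM hN hw (hP.not_mem j) u = 0) (a : Lp ℂ 2 (quotMeasure w)) :
    ⟪∑ k, A.coef k • kernCLM hN hw (A.test_ok hA hP k) a, u⟫_ℂ =
      (starRingEnd ℂ) A.value * ⟪a, u⟫_ℂ := by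
  rw [sum_inner, Aleph.Fam.value, map_sum, Finset.sum_mul]
  refine Finset.sum_congr rfl fun k _ => ?_
  rw [inner_smul_left, kernCLM_congr hN hw (A.test_ok hA hP k)
    (ok_word (h := hr k) (hP.not_mem_map (A.word k)) (hhr k)) (by rw [Aleph.Fam.test, hrad k]),
    inner_kernCLM_word hN hw hP (hhr k) (hu1 k) hu2]
  split_ifs with hk
  · rw [habel k hk, map_mul, ← mul_assoc, map_prod]
    simp only [Complex.conj_ofReal]
  · simp

/-- **Finite dimension.** -/
theorem finiteDimensional_of_eigen (hval : A.value ≠ 0)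
    {h₀ : InfinitePlace F → ℝ → ℝ} (hh₀ : ∀ v, Rad1 (h₀ v)) (hh₀' : ∀ v, lam0 (h₀ v) ≠ 0)
    (hL2 : ∫⁻ p, ∫⁻ r, ‖A.op pl (fun q => kern (radT N h₀) p q) r‖ₑ ^ 2 ∂quotMeasure w
      ∂quotMeasure w < ⊤)
    (V : Submodule ℂ (Lp ℂ 2 (quotMeasure w)))
    (hV0 : ∀ u ∈ V, kernCLM hN hw (ok_radT (N := N) hh₀) u =
      (∏ v, ((lam0 (h₀ v) : ℝ) : ℂ)) • u)
    (hV1 : ∀ u ∈ V, ∀ k, kernCLM hN hw (ok_radT (N := N) (hhr k)) u =
      (∏ v, ((lam0 (hr k v) : ℝ) : ℂ)) • u)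
    (hV2 : ∀ u ∈ V, ∀ j, heckeCLM hN hw (hP.not_mem j) u = 0) :
    FiniteDimensional ℂ V := by
  haveI := sFinite_quotMeasure hw
  have ht₁ := ok_radT (N := N) hh₀
  set l₀ : ℂ := ∏ v, ((lam0 (h₀ v) : ℝ) : ℂ)
  have hl₀ : l₀ ≠ 0 :=
    Finset.prod_ne_zero_iff.2 fun v _ => Complex.ofReal_ne_zero.2 (hh₀' v)
  set k : Pt F N → Lp ℂ 2 (quotMeasure w) :=
    fun p => ∑ i, A.coef i • kernCLM hN hw (A.test_ok hA hP i) (covec w (radT N h₀) p)
  set K1 : Pt F N → Pt F N → ℂ := fun p r => A.op pl (fun q => kern (radT N h₀) p q) r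
  have hk : ∀ p, k p =ᵐ[quotMeasure w] K1 p := fun p => by
    have h1 : ∀ i, ∀ᵐ r ∂quotMeasure w,
        (A.coef i • kernCLM hN hw (A.test_ok hA hP i) (covec w (radT N h₀) p) :
            Lp ℂ 2 (quotMeasure w)) r =
          A.coef i * testOp (A.test pl N i) (fun q => kern (radT N h₀) p q) r := fun i => by
      filter_upwards [(schurKernel hN hw (A.test_ok hA hP i)).formula.op_ae (covec w (radT N h₀) p),
        Lp.coeFn_smul (A.coef i) (kernCLM hN hw (A.test_ok hA hP i) (covec w (radT N h₀) p))]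
        with r hr hs
      rw [hs, Pi.smul_apply, smul_eq_mul]
      congr 1
      refine hr.trans ?_
      rw [intOp_congr hN hw (covec_ae hN hw ht₁ p) r,
        testOp_kern hw hN (A.test_ok hA hP i) ht₁ p r, intOp]
      simp only [conj_kern_radT]
    filter_upwards [Lp.coeFn_finsetSum Finset.univ fun i =>
        A.coef i • kernCLM hN hw (A.test_ok hA hP i) (covec w (radT N h₀) p),
      ae_all_iff.2 h1] with r hs hr
    rw [hs, Finset.sum_apply]
    simp only [hr]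
    rfl
  set G : Pt F N → ℝ≥0∞ := fun p => ∫⁻ r, ‖K1 p r‖ₑ ^ 2 ∂quotMeasure w
  have hGm : Measurable G :=
    ((A.measurable_op_kern hw hN hA hP ht₁).enorm.pow_const 2).lintegral_prod_right'
  have hnorm : ∀ p, ‖k p‖ ^ 2 = (G p).toReal := fun p => by
    have e := enorm_Lp_two (k p)
    rw [lintegral_congr_ae (g := fun r => ‖K1 p r‖ₑ ^ 2) ((hk p).mono fun r hr => by
      simp only [hr])] at e
    show _ = (∫⁻ r, ‖K1 p r‖ₑ ^ 2 ∂quotMeasure w).toReal
    rw [← toReal_enorm (k p), e, ← ENNReal.toReal_pow, ← ENNReal.rpow_natCast,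
      ← ENNReal.rpow_mul]
    norm_num
  have hint : Integrable (fun p => ‖k p‖ ^ 2) (quotMeasure w) := by
    simp only [hnorm]
    exact integrable_toReal_of_lintegral_ne_top hGm.aemeasurable hL2.ne
  set lam : ℂ := (starRingEnd ℂ) A.value * l₀
  have hlam : lam ≠ 0 := mul_ne_zero (by simpa using hval) hl₀
  refine finiteDimensional_of_card_le _ ((∫ p, ‖k p‖ ^ 2 ∂quotMeasure w) / ‖lam‖ ^ 2)
    fun n e he hon => ?_
  rw [le_div_iff₀ (pow_pos (norm_pos_iff.2 hlam) 2)]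
  have hf1 : ∀ i, Integrable (fun p => ‖(e i : Pt F N → ℂ) p‖ ^ 2) (quotMeasure w) := fun i =>
    (Lp.memLp (e i)).integrable_norm_pow two_ne_zero
  refine card_le_of_integral_op hint hon (fun i => (e i : Pt F N → ℂ)) (fun i => ?_) hf1 fun i => ?_
  · filter_upwards [kernCLM_ae hN hw ht₁ (e i),
      Lp.coeFn_smul l₀ (e i), Lp.ext_iff.1 (hV0 _ (he i))] with p hp hs hq
    rw [inner_famOp hN hw hP hA hhr hrad habel (hV1 _ (he i)) (hV2 _ (he i)), ← hp, hq, hs,
      Pi.smul_apply, smul_eq_mul, mul_assoc]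
  · have e1 : ⟪e i, e i⟫_ℂ = 1 := by rw [inner_self_eq_norm_sq_to_K, hon.1 i]; simp
    rw [inner_Lp_two] at e1
    rw [integral_congr_ae (g := fun x => ((‖(e i : Pt F N → ℂ) x‖ ^ 2 : ℝ) : ℂ))
      (Filter.Eventually.of_forall fun x => by
        simp [← Complex.normSq_eq_norm_sq, Complex.normSq_eq_conj_mul_self]),
      integral_complex_ofReal] at e1
    exact_mod_cast e1

omit hhr hrad habel

/-- The zero space is finite dimensional. -/
theorem finiteDimensional_zeroSpace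
    (hrads : ∀ k, ∃ h : InfinitePlace F → ℝ → ℝ, (∀ v, Rad1 (h v)) ∧
      A.rad k = radFun h ∧ (A.word k = [] → (∫ l, A.abel k l) = ∏ v, ((lam0 (h v) : ℝ) : ℂ)))
    (hval : A.value ≠ 0)
    (hL2 : ∀ t₁ : Test F, t₁.Ok N →
      ∫⁻ p, ∫⁻ r, ‖A.op pl (fun q => kern t₁ p q) r‖ₑ ^ 2 ∂quotMeasure w ∂quotMeasure w < ⊤) :
    FiniteDimensional ℂ (zeroSpace hN hw pl hP.not_mem) := by
  obtain ⟨b, hb1, -, -, hbpos⟩ := exists_bump one_pos
  choose hr hhr hrad habel using hrads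
  exact finiteDimensional_of_eigen hN hw hP hA hhr hrad habel hval (h₀ := fun _ => b)
    (fun _ => hb1) (fun _ => hbpos.ne') (hL2 _ (ok_radT fun _ => hb1)) _
    (fun u hu => hu.1 _ fun _ => hb1) (fun u hu k => hu.1 _ (hhr k)) fun u hu => hu.2

end family

end FLTAgent.LT

namespace FLTAgent.LT.Descent

open NumberField IsDedekindDomain MeasureTheory
open scoped ENNReal InnerProductSpace

/-- **The descended form.** -/
theorem exists_descended {d : Octa} {N : ℕ} [Countable (Cos d.Kf N)] (hgood : d.Good N)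
    {w : Pt d.Kf N → ℝ≥0∞} (hN : 0 < N) (hw : IsPtWeight w) {ι : Type*} [Fintype ι]
    [DecidableEq ι] {p₀ : ℕ} {pl : ι → HeightOneSpectrum (𝓞 d.Kf)} (hP : Aleph.Places N p₀ pl)
    {A : Aleph.Fam ι (InfinitePlace d.Kf)} (hA : A.Reg)
    (hK : A.Kills (p₀ : ℝ) fun _ => Real.log p₀) (hval : A.value ≠ 0)
    (hrads : ∀ k, ∃ h : InfinitePlace d.Kf → ℝ → ℝ, (∀ v, Rad1 (h v)) ∧
      A.rad k = radFun h ∧ (A.word k = [] → (∫ l, A.abel k l) = ∏ v, ((lam0 (h v) : ℝ) : ℂ)))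
    {u₀ : Lp ℂ 2 (quotMeasure w)} (hu0 : u₀ ≠ 0) (hu : u₀ ∈ zeroSpace hN hw pl hP.not_mem)
    (hsplit : ∀ v (hv : SplitGood d N v), heckeCLM hN hw hv.1 u₀ = (cOf d v : ℂ) • u₀) :
    ∃ ψ : Form d.Kf, ψ ≠ 0 ∧ CuspZero N ψ ∧ FullEigen N ψ ∧ EigenRho d d.Kf N ψ := by
  haveI := finiteDimensional_zeroSpace hN hw hP hA hrads hval fun t₁ h₁ =>
    Aleph.Fam.lintegral_sq_op_kern_lt_top' hw hN hA hK hP h₁
  set W : Submodule ℂ (Lp ℂ 2 (quotMeasure w)) := zeroSpace hN hw pl hP.not_mem ⊓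
    ⨅ (v) (hv : SplitGood d N v),
      LinearMap.ker ((heckeCLM hN hw hv.1).toLinearMap - (cOf d v : ℂ) • LinearMap.id)
  have hmem : ∀ x, x ∈ W ↔ x ∈ zeroSpace hN hw pl hP.not_mem ∧
      ∀ v (hv : SplitGood d N v), heckeCLM hN hw hv.1 x = (cOf d v : ℂ) • x := fun x => by
    simp only [W, Submodule.mem_inf, Submodule.mem_iInf, LinearMap.mem_ker, LinearMap.sub_apply,
      LinearMap.smul_apply, LinearMap.id_apply, sub_eq_zero, ContinuousLinearMap.coe_coe]
  haveI : FiniteDimensional ℂ W :=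
    Submodule.finiteDimensional_of_le (inf_le_left : W ≤ zeroSpace hN hw pl hP.not_mem)
  obtain ⟨u, huW, hune, heig⟩ := exists_common_eigenvector
    (fun v : {v : HeightOneSpectrum (𝓞 d.Kf) // (N : 𝓞 d.Kf) ∉ v.asIdeal} => heckeCLM hN hw v.2)
    (fun v a b => heckeCLM_symm hN hw v.2 a b) (fun v v' => heckeCLM_comm hN hw v.2 v'.2) W
    (W.ne_bot_iff.2 ⟨u₀, (hmem _).2 ⟨hu, hsplit⟩, hu0⟩) fun v x hx => by
      obtain ⟨h1, h2⟩ := (hmem x).1 hx
      refine (hmem _).2 ⟨apply_mem_zeroSpace hN hw v.2 h1, fun v' hv' => ?_⟩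
      rw [show heckeCLM hN hw hv'.1 (heckeCLM hN hw v.2 x) =
        heckeCLM hN hw v.2 (heckeCLM hN hw hv'.1 x) from
        congrArg (fun T => T x) (heckeCLM_comm hN hw hv'.1 v.2).eq, h2 v' hv', map_smul]
  obtain ⟨hz, hsp⟩ := (hmem u).1 huW
  obtain ⟨Φ, hΦ, hae, htr⟩ := exists_regular_of_bounds hN hw hP hA hK hval
    (fun k hk => by
      obtain ⟨h, hh, e, e'⟩ := hrads k
      exact ⟨h, hh, e, e' hk⟩) Aleph.one_le_hMax (Aleph.gain_pos (F := d.Kf))
    (Aleph.Fam.exists_op_le_L1 hA hK hP hN hw) (Aleph.Fam.exists_op_le_sup hA hK hP hN)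
    u hz.1 hz.2
  refine ⟨Φ, fun h0 => hune (Lp.ext ?_), hΦ, fun v hv => ?_,
    eigenRho_K hgood fun v hv => htr v hv.1 _ (hsp v hv)⟩
  · refine hae.trans (Filter.EventuallyEq.trans ?_ (Lp.coeFn_zero ℂ 2 _).symm)
    subst h0
    rfl
  · obtain ⟨c, hc⟩ := heig ⟨v, hv⟩
    exact ⟨c, htr v hv c hc⟩

end FLTAgent.LT.Descent
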