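import Fermat.Agent.LT.TF.EllipticUnfold

/-!
Matched tests have equal elliptic parts, given that each meets finitely many elliptic classes on a
covering set of finite measure.
-/

set_option autoImplicit false
set_option linter.unusedSectionVars false
set_option linter.style.haveILetI false
set_option synthInstance.maxHeartbeats 200000

noncomputable section

namespace FLTAgent.LT.Ell

open NumberField IsDedekindDomain MeasureTheory Matrix
open scoped ENNReal

variable {F E : Type*} [Field F] [NumberField F] [Field E] [NumberField E]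
variable {N N' : ℕ} {i : F →+* E} {τ : E →+* E} {n : ℕ} {f : Test E}

/-- The elliptic terms live, up to translation, on a set of finite measure where only finitely many
classes meet the test. -/
def EllCover (τ : E →+* E) (n N : ℕ) (f : Test E) : Prop :=
  ∃ (C : Set (Pt E N)) (Γ : Finset (PG E)), MeasurableSet C ∧ ptMeasure E N C < ⊤ ∧
    (∀ p, ellBound τ n f p = 0 ∨ ∃ g : PG E, g • p ∈ C) ∧
    ∀ p ∈ C, ∀ γ, EllP τ n γ → tm τ f γ p ≠ 0 → γ ∈ Γ

/-- A test is bounded. -/
theorem exists_bound_fin (hf : f.Ok N) : ∃ B : ℝ, ∀ g, ‖f.fin g‖ ≤ B := by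
  obtain ⟨B, hB⟩ := ((hf.finite.image fun c : Cos E N => ‖f.fin c.out‖).bddAbove)
  refine ⟨max B 0, fun g => ?_⟩
  by_cases hg : f.fin g = 0
  · simp [hg]
  · refine le_max_of_le_left (hB ⟨_, ⟨g, hg, rfl⟩, ?_⟩)
    have hu : g⁻¹ * (QuotientGroup.mk g : Cos E N).out ∈ UZ E N :=
      QuotientGroup.eq.1 (QuotientGroup.out_eq' _).symm
    show ‖f.fin _‖ = ‖f.fin g‖
    conv_rhs => rw [← hf.right_inv _ hu g, mul_inv_cancel_left]

theorem exists_bound_tm (hf : f.Ok N) : ∃ B : ℝ≥0∞, B < ⊤ ∧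
    ∀ (γ : PG E) (p : Pt E N), ‖tm τ f γ p‖ₑ ≤ B := by
  obtain ⟨B, hB⟩ := exists_bound_fin hf
  obtain ⟨C, hC⟩ := hf.lipschitz
  obtain ⟨D, hD⟩ := hf.compact.exists_bound_of_continuous hC.continuous
  refine ⟨ENNReal.ofReal (B * D), ENNReal.ofReal_lt_top, fun γ p => ?_⟩
  rw [← ofReal_norm, tm, term, norm_mul]
  exact ENNReal.ofReal_le_ofReal (mul_le_mul (hB _) (hD _) (norm_nonneg _)
    ((norm_nonneg _).trans (hB 1)))

variable (h : CycGen i τ n)
include h

theorem CycGen.exists_finite_bound (hN : 0 < N) (hf : f.Ok N) (hc : EllCover τ n N f) :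
    ∃ M : ℝ≥0∞, M < ⊤ ∧ ∀ p : Pt E N, ellBound τ n f p ≤ M := by
  obtain ⟨C, Γ, -, -, hcov, hΓ⟩ := hc
  obtain ⟨B, hB, hbd⟩ := exists_bound_tm (τ := τ) hf
  refine ⟨Γ.card * B, ENNReal.mul_lt_top (ENNReal.natCast_lt_top _) hB, fun p => ?_⟩
  rcases hcov p with h0 | ⟨g, hg⟩
  · simp [h0]
  · rw [← h.ellBound_smul hN hf g p, ellBound]
    rw [tsum_eq_sum (s := Γ) fun γ hγ => by
      by_cases he : EllP τ n γ
      · rw [Set.indicator_of_mem (show γ ∈ {γ | EllP τ n γ} from he), enorm_eq_zero]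
        by_contra h0
        exact hγ (hΓ _ hg γ he h0)
      · rw [Set.indicator_of_notMem (show γ ∉ {γ | EllP τ n γ} from he)]]
    refine (Finset.sum_le_card_nsmul _ _ B fun γ _ => ?_).trans_eq (nsmul_eq_mul _ _)
    exact Set.indicator_le_self' (fun _ _ => zero_le) γ |>.trans (hbd _ _)

theorem CycGen.lintegral_ellBound_lt [Countable (Cos E N)] (hN : 0 < N) (hf : f.Ok N)
    (hc : EllCover τ n N f) {w : Pt E N → ℝ≥0∞} (hw : IsPtWeight w) :
    ∫⁻ p, w p * ellBound τ n f p ∂ptMeasure E N < ⊤ := by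
  obtain ⟨M, hM, hbd⟩ := h.exists_finite_bound hN hf hc
  obtain ⟨C, Γ, hC, hCfin, hcov, -⟩ := hc
  have hm := measurable_ellBound (τ := τ) hf n
  have hC' : MeasurableSet (C ∪ {p | ellBound τ n f p = 0}) :=
    hC.union (measurableSet_eq_fun hm measurable_const)
  refine lt_of_le_of_lt (((isPtWeight_iff w).1 hw).lintegral_le_cover hC' (fun p => ?_) hm
    (h.ellBound_smul hN hf)) ?_
  · rcases hcov p with h0 | ⟨g, hg⟩
    · exact ⟨1, by rw [one_smul]; exact Or.inr h0⟩
    · exact ⟨g, Or.inl hg⟩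
  · rw [← lintegral_indicator hC']
    refine lt_of_le_of_lt (lintegral_mono (g := C.indicator fun _ => M) fun p => ?_) ?_
    · by_cases hp : p ∈ C
      · rw [Set.indicator_of_mem (show p ∈ C ∪ {p | ellBound τ n f p = 0} from Or.inl hp),
          Set.indicator_of_mem hp]
        exact hbd p
      · rw [Set.indicator_of_notMem hp]
        by_cases hp' : p ∈ C ∪ {p | ellBound τ n f p = 0}
        · rw [Set.indicator_of_mem hp']
          exact (hp'.resolve_left hp : ellBound τ n f p = 0).le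
        · rw [Set.indicator_of_notMem hp']
    · rw [lintegral_indicator hC, setLIntegral_const]
      exact ENNReal.mul_lt_top hM hCfin

/-- The finitely many invariants of a test. -/
theorem CycGen.exists_invariants (hN : 0 < N) (hf : f.Ok N) (hc : EllCover τ n N f) :
    ∃ S : Finset F, (∀ s ∈ S, EllS s) ∧ ∀ (γ : PG E) (p : Pt E N), EllP τ n γ → tm τ f γ p ≠ 0 →
      ∃ s ∈ S, γ ∈ classOf τ n (i s) := by
  classical
  obtain ⟨C, Γ, -, -, hcov, hΓ⟩ := hc
  have hch : ∀ γ : PG E, EllP τ n γ → ∃ s : F, EllS s ∧ i s = inv2 (twNorm τ n γ.out) :=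
    fun γ hγ => h.exists_invariant hγ
  choose σ hσ1 hσ2 using hch
  refine ⟨(Γ.filter (EllP τ n)).attach.image fun γ => σ γ.1 (Finset.mem_filter.1 γ.2).2, ?_, ?_⟩
  · intro s hs
    obtain ⟨γ, -, rfl⟩ := Finset.mem_image.1 hs
    exact hσ1 _ _
  intro γ p hγ hne
  rcases hcov p with h0 | ⟨g, hg⟩
  · rw [ellBound, ENNReal.tsum_eq_zero] at h0
    have h1 := h0 γ
    rw [Set.indicator_of_mem (show γ ∈ {γ | EllP τ n γ} from hγ), enorm_eq_zero] at h1
    exact absurd h1 hne
  · have he := (h.ellP_tw g γ).2 hγ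
    have hm : tw τ g γ ∈ Γ.filter (EllP τ n) :=
      Finset.mem_filter.2 ⟨hΓ _ hg _ he (by rwa [tm_tw hN hf]), he⟩
    refine ⟨_, Finset.mem_image.2 ⟨⟨_, hm⟩, Finset.mem_attach _ _, rfl⟩, hγ, ?_⟩
    rw [hσ2 _ he]
    obtain ⟨g, rfl⟩ := QuotientGroup.mk_surjective g
    obtain ⟨γ, rfl⟩ := QuotientGroup.mk_surjective γ
    rw [tw_mk, inv2_out, inv2_out, h.twNorm_twConj', inv2_conj]

theorem CycGen.ellTw_eq_sum (hN : 0 < N) (hf : f.Ok N) (hc : EllCover τ n N f) {S : Finset F}
    (hS : ∀ (γ : PG E) (p : Pt E N), EllP τ n γ → tm τ f γ p ≠ 0 →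
      ∃ s ∈ S, γ ∈ classOf τ n (i s)) (p : Pt E N) :
    ellTw τ n f p =
      ∑ s ∈ S, ∑' γ : PG E, (classOf τ n (i s)).indicator (fun γ => tm τ f γ p) γ := by
  classical
  obtain ⟨M, hM, hbd⟩ := h.exists_finite_bound hN hf hc
  have hsum : ∀ s : F, Summable fun γ : PG E =>
      (classOf τ n (i s)).indicator (fun γ => tm τ f γ p) γ := fun s => by
    refine Summable.of_nnnorm (ENNReal.tsum_coe_ne_top_iff_summable.1
      (ne_top_of_le_ne_top ((hbd p).trans_lt hM).ne (ENNReal.tsum_le_tsum fun γ => ?_)))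
    rw [← enorm_eq_nnnorm, enorm_indicator_eq_indicator_enorm]
    exact Set.indicator_le_indicator_of_subset (fun γ hγ => hγ.1) (fun _ => zero_le) γ
  rw [ellTw_eq, ← Summable.tsum_finsetSum fun s _ => hsum s]
  refine tsum_congr fun γ => ?_
  by_cases hne : EllP τ n γ ∧ tm τ f γ p ≠ 0
  · obtain ⟨s, hs, hγs⟩ := hS γ p hne.1 hne.2
    rw [Finset.sum_eq_single s (fun t _ hts => Set.indicator_of_notMem
        (fun hγt => hts (i.injective (hγt.2.symm.trans hγs.2))) _) (fun h => absurd hs h),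
      Set.indicator_of_mem (show γ ∈ {γ | EllP τ n γ} from hne.1), Set.indicator_of_mem hγs]
  · rw [Finset.sum_eq_zero fun s _ => ?_]
    · by_cases he : EllP τ n γ
      · rw [Set.indicator_of_mem (show γ ∈ {γ | EllP τ n γ} from he)]
        exact not_not.1 fun h0 => hne ⟨he, h0⟩
      · exact Set.indicator_of_notMem (show γ ∉ {γ | EllP τ n γ} from he) _
    · by_cases hγs : γ ∈ classOf τ n (i s)
      · rw [Set.indicator_of_mem hγs]
        exact not_not.1 fun h0 => hne ⟨hγs.1, h0⟩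
      · exact Set.indicator_of_notMem hγs _

omit h in
theorem tmap_id (g : GL (Fin 2) F) : GeneralLinearGroup.map (RingHom.id F) g = g :=
  Units.ext (Matrix.ext fun _ _ => rfl)

/-- **Elliptic parts of matched tests agree.** -/
theorem CycGen.ellipticTotal_of_cover [Countable (Cos E N)] [Countable (Cos F N')]
    {φ : Test F} {c : ℂ} (hN : 0 < N) (hN' : 0 < N') (hf : f.Ok N) (hφ : φ.Ok N')
    (hmat : Matched i τ n (N := N) (N' := N') f φ c) (hc : EllCover τ n N f)
    (hc' : EllCover (RingHom.id F) 1 N' φ) {w : Pt E N → ℝ≥0∞} {w' : Pt F N' → ℝ≥0∞}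
    (hw : IsPtWeight w) (hw' : IsPtWeight w') :
    Integrable (ellTw τ n f) (quotMeasure w) ∧
      Integrable (ellTw (RingHom.id F) 1 φ) (quotMeasure w') ∧
      ∫ p, ellTw τ n f p ∂quotMeasure w =
        c * ∫ q, ellTw (RingHom.id F) 1 φ q ∂quotMeasure w' := by
  classical
  obtain ⟨S₁, hS₁, hS₁'⟩ := h.exists_invariants hN hf hc
  obtain ⟨S₂, hS₂, hS₂'⟩ := (CycGen.refl (E := F)).exists_invariants hN' hφ hc'
  set S := S₁ ∪ S₂
  have hS : ∀ s ∈ S, EllS s := fun s hs => (Finset.mem_union.1 hs).elim (hS₁ s) (hS₂ s)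
  have eE := h.ellTw_eq_sum hN hf hc (S := S) fun γ p h1 h2 =>
    (hS₁' γ p h1 h2).imp fun s hs => ⟨Finset.mem_union_left _ hs.1, hs.2⟩
  have eF := (CycGen.refl (E := F)).ellTw_eq_sum hN' hφ hc' (S := S) fun γ p h1 h2 =>
    (hS₂' γ p h1 h2).imp fun s hs => ⟨Finset.mem_union_right _ hs.1, hs.2⟩
  simp only [RingHom.id_apply] at eF
  have hfinE : ∀ s : F, ∫⁻ p, w p * (∑' γ : PG E,
      (classOf τ n (i s)).indicator (fun γ => ‖tm τ f γ p‖ₑ) γ) ∂ptMeasure E N < ⊤ := fun s =>
    lt_of_le_of_lt (lintegral_mono fun p => mul_le_mul_of_nonneg_left (ENNReal.tsum_le_tsum fun γ =>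
      Set.indicator_le_indicator_of_subset (fun γ hγ => hγ.1) (fun _ => zero_le) γ) zero_le)
      (h.lintegral_ellBound_lt hN hf hc hw)
  have hfinF : ∀ s : F, ∫⁻ q, w' q * (∑' γ : PG F,
      (classOf (RingHom.id F) 1 (RingHom.id F s)).indicator
        (fun γ => ‖tm (RingHom.id F) φ γ q‖ₑ) γ) ∂ptMeasure F N' < ⊤ := fun s =>
    lt_of_le_of_lt (lintegral_mono fun p => mul_le_mul_of_nonneg_left (ENNReal.tsum_le_tsum fun γ =>
      Set.indicator_le_indicator_of_subset (fun γ hγ => hγ.1) (fun _ => zero_le) γ) zero_le)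
      ((CycGen.refl (E := F)).lintegral_ellBound_lt hN' hφ hc' hw')
  have key : ∀ s ∈ S,
      Integrable (fun p => ∑' γ : PG E, (classOf τ n (i s)).indicator (fun γ => tm τ f γ p) γ)
        (quotMeasure w) ∧
      Integrable (fun q => ∑' γ : PG F, (classOf (RingHom.id F) 1 s).indicator
        (fun γ => tm (RingHom.id F) φ γ q) γ) (quotMeasure w') ∧
      ∫ p, ∑' γ : PG E, (classOf τ n (i s)).indicator (fun γ => tm τ f γ p) γ ∂quotMeasure w =
        c * ∫ q, ∑' γ : PG F, (classOf (RingHom.id F) 1 s).indicator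
          (fun γ => tm (RingHom.id F) φ γ q) γ ∂quotMeasure w' := by
    intro s hs
    have hsE := hS s hs
    set δ := normalForm s hsE.1 with hδdef
    have hδ : EllElem δ := ellElem_normalForm hsE
    rcases hmat δ hδ with ⟨h0F, h0E⟩ | ⟨γ₁, a, π, hγ₁, -, hπm, hπ, hint⟩
    · have zE : ∀ p : Pt E N,
          ∑' γ : PG E, (classOf τ n (i s)).indicator (fun γ => tm τ f γ p) γ = 0 := fun p =>
        (tsum_congr fun γ => by
          obtain ⟨γ, rfl⟩ := QuotientGroup.mk_surjective γ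
          by_cases hγ : (QuotientGroup.mk γ : PG E) ∈ classOf τ n (i s)
          · rw [Set.indicator_of_mem hγ, tm_mk hf]
            obtain ⟨hell, hinv⟩ := (mem_classOf γ).1 hγ
            obtain ⟨a, g, hg⟩ := exists_conj_normalForm hell hsE.1 hinv.symm
            refine h0E γ ⟨a, g, ?_⟩ p
            rw [hg, Units.val_mul, coe_sc, smul_mul_assoc, one_mul]
          · exact Set.indicator_of_notMem hγ _).trans tsum_zero
      have zF : ∀ q : Pt F N', ∑' γ : PG F, (classOf (RingHom.id F) 1 s).indicator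
          (fun γ => tm (RingHom.id F) φ γ q) γ = 0 := fun q =>
        (tsum_congr fun γ => by
          obtain ⟨γ, rfl⟩ := QuotientGroup.mk_surjective γ
          by_cases hγ : (QuotientGroup.mk γ : PG F) ∈ classOf (RingHom.id F) 1 s
          · rw [Set.indicator_of_mem hγ, tm_mk hφ]
            obtain ⟨hell, hinv⟩ := (mem_classOf γ).1 hγ
            obtain ⟨a, g, hg⟩ :=
              exists_conj_normalForm (i := RingHom.id F) hell hsE.1 hinv.symm
            rw [show twNorm (RingHom.id F) 1 γ = γ by simp [twNorm]] at hg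
            rw [tmap_id, ← hδdef] at hg
            rw [hg, term_sc_mul hφ]
            have hq : smulPt g (smulPt g⁻¹ q) = q := by
              rw [← smulPt_mul, mul_inv_cancel, center_smul 1 (Subgroup.one_mem _)]
            rw [← hq]
            have ht := term_twist (τ := RingHom.id F) hN' hφ g δ (smulPt g⁻¹ q)
            rw [tmap, tmap_id] at ht
            rw [ht, h0F]
          · exact Set.indicator_of_notMem hγ _).trans tsum_zero
      simp [zE, zF]
    · have hγ₁' : twNorm τ n γ₁ = sc a * GeneralLinearGroup.map i δ :=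
        Units.ext (by rw [hγ₁, Units.val_mul, coe_sc, smul_mul_assoc, one_mul])
      have hv := ((isPtWeight_iff w').1 hw').cosetWeight (centF δ)
      obtain ⟨hE1, hE2, hE3⟩ := h.class_integral hN hf hsE hγ₁' π hπm
        (fun ξ hξ p hp => by first | exact hπ ξ hξ p | exact hπ ξ hξ p hp) hv hw (hfinE s)
      have hF := (CycGen.refl (E := F)).class_integral (N' := N') hN' hφ hsE (γ₁ := δ) (a := 1)
        (by rw [sc_one, one_mul, tmap_id, hδdef]; simp [twNorm]) id measurable_id
        (fun ξ _ p _ => by simp only [tmap_id, id]) hv hw' (hfinF s)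
      simp only [RingHom.id_apply, id] at hF
      obtain ⟨hF1, hF2, hF3⟩ := hF
      refine ⟨hE1, hF1, ?_⟩
      rw [hE3, hF3]
      exact hint (fun q => (((RS.cosetWeight (centF δ) w' q).toReal : ℝ) : ℂ))
        (Complex.measurable_ofReal.comp hv.measurable.ennreal_toReal) hE2 hF2
  have iE : Integrable (ellTw τ n f) (quotMeasure w) :=
    (integrable_finsetSum S fun s hs => (key s hs).1).congr (ae_of_all _ fun p => (eE p).symm)
  have iF : Integrable (ellTw (RingHom.id F) 1 φ) (quotMeasure w') :=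
    (integrable_finsetSum S fun s hs => (key s hs).2.1).congr (ae_of_all _ fun p => (eF p).symm)
  refine ⟨iE, iF, ?_⟩
  rw [integral_congr_ae (ae_of_all _ eE), integral_congr_ae (ae_of_all _ eF),
    integral_finsetSum S fun s hs => (key s hs).1, integral_finsetSum S fun s hs => (key s hs).2.1,
    Finset.mul_sum]
  exact Finset.sum_congr rfl fun s hs => (key s hs).2.2

end FLTAgent.LT.Ell
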