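import Fermat.Agent.LT.TF.Limit
import Fermat.Agent.LT.TF.JointSpace

/-!
From the projected identity to a vector: finitely many operators cut out the whole eigenspace on both
sides, so a nonzero projected pairing on one side gives a vector with all the eigenvalues on the
other.
-/

set_option autoImplicit false
set_option linter.unusedSectionVars false
set_option linter.unusedSimpArgs false
set_option linter.deprecated false
set_option linter.style.haveILetI false
set_option synthInstance.maxHeartbeats 200000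

noncomputable section

namespace FLTAgent.LT

open NumberField IsDedekindDomain MeasureTheory
open scoped ENNReal InnerProductSpace

namespace SideData

variable {L H κ : Type*} [Fintype κ] {P : FamData L H κ}

section one

variable {F : Type*} [Field F] [NumberField F] (S : SideData P F) [Countable (Cos F S.N)]

/-- The vectors with all prescribed values, killed by the damping operator. -/
def allSpace : Submodule ℂ (Lp ℂ 2 (quotMeasure S.w)) :=
  jointKer fun o : Option (L ⊕ H) => o.elim S.opA fun i => S.op i - (P.val i : ℂ) • 1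

instance allSpace_hasProjection : S.allSpace.HasOrthogonalProjection :=
  jointKer_hasProjection _

theorem mem_allSpace {u : Lp ℂ 2 (quotMeasure S.w)} :
    u ∈ S.allSpace ↔ S.opA u = 0 ∧ ∀ i, S.op i u = (P.val i : ℂ) • u := by
  simp [allSpace, mem_jointKer, Option.forall, sub_eq_zero, -Complex.coe_smul]

theorem allSpace_le {ι : Type*} (ops : ι → L ⊕ H) : S.allSpace ≤ S.space ops := fun _ hu =>
  (S.mem_space).2 ⟨((S.mem_allSpace).1 hu).1, fun i => ((S.mem_allSpace).1 hu).2 (ops i)⟩

theorem space_mono {ι ι' : Type*} {ops : ι → L ⊕ H} {ops' : ι' → L ⊕ H}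
    (h : Set.range ops ⊆ Set.range ops') : S.space ops' ≤ S.space ops := fun u hu => by
  refine (S.mem_space).2 ⟨((S.mem_space).1 hu).1, fun i => ?_⟩
  obtain ⟨j, hj⟩ := h ⟨i, rfl⟩
  rw [← hj]
  exact ((S.mem_space).1 hu).2 j

/-- The joint eigenspace of some operators, without the damping operator. -/
def eig {ι : Type*} (ops : ι → L ⊕ H) : Submodule ℂ (Lp ℂ 2 (quotMeasure S.w)) :=
  jointKer fun i => S.op (ops i) - (P.val (ops i) : ℂ) • 1

theorem mem_eig {ι : Type*} {ops : ι → L ⊕ H} {u : Lp ℂ 2 (quotMeasure S.w)} :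
    u ∈ S.eig ops ↔ ∀ i, S.op (ops i) u = (P.val (ops i) : ℂ) • u := by
  simp [eig, mem_jointKer, sub_eq_zero, -Complex.coe_smul]

theorem eig_mono {ι ι' : Type*} {ops : ι → L ⊕ H} {ops' : ι' → L ⊕ H}
    (h : Set.range ops ⊆ Set.range ops') : S.eig ops' ≤ S.eig ops := fun u hu => by
  refine (S.mem_eig).2 fun i => ?_
  obtain ⟨j, hj⟩ := h ⟨i, rfl⟩
  rw [← hj]
  exact (S.mem_eig).1 hu j

theorem finiteDimensional_allSpace {ι : Type*} (ops : ι → L ⊕ H)
    (h : FiniteDimensional ℂ (S.eig ops)) : FiniteDimensional ℂ S.allSpace :=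
  Submodule.finiteDimensional_of_le fun _ hu =>
    (S.mem_eig).2 fun i => ((S.mem_allSpace).1 hu).2 (ops i)

/-- Finitely many operators cut out all eigenvalue conditions. -/
theorem exists_finset_eig (T : Finset (L ⊕ H))
    (h : FiniteDimensional ℂ (S.eig fun i : T => (i : L ⊕ H))) :
    ∃ T' : Finset (L ⊕ H), T ⊆ T' ∧ ∀ u ∈ S.eig (fun i : T' => (i : L ⊕ H)),
      ∀ i, S.op i u = (P.val i : ℂ) • u := by
  haveI : FiniteDimensional ℂ (jointKer fun i : T => S.op i - (P.val i : ℂ) • 1) := h
  obtain ⟨T', hT, hall⟩ := exists_finset_jointKer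
    (fun i : L ⊕ H => S.op i - (P.val i : ℂ) • 1) T inferInstance
  exact ⟨T', hT, fun u hu i => by
    have := (hall u).1 hu i
    simpa [sub_eq_zero, -Complex.coe_smul] using this⟩

/-- With the damping operator such operators cut out everything. -/
theorem space_eq_allSpace {ι : Type*} (ops : ι → L ⊕ H)
    (h : ∀ u ∈ S.eig ops, ∀ i, S.op i u = (P.val i : ℂ) • u) : S.space ops = S.allSpace :=
  le_antisymm (fun u hu => (S.mem_allSpace).2 ⟨((S.mem_space).1 hu).1,
    h u ((S.mem_eig).2 ((S.mem_space).1 hu).2)⟩) (S.allSpace_le ops)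

end one

variable {E F : Type*} [Field E] [NumberField E] [Field F] [NumberField F]
  {S : SideData P E} {S' : SideData P F} [Countable (Cos E S.N)] [Countable (Cos F S'.N)]
  {G : Set L} {i : F →+* E} {n : ℕ} {c : ℂ}

/-- **The identity on the whole eigenspaces.** -/
theorem Geom.compare_all (g : Geom S S' G i n c) (b : Bounded S) (b' : Bounded S')
    (T : Finset (L ⊕ H)) (hT : ∀ l, Sum.inl l ∈ T → l ∈ G)
    (h : S.space (fun i : T => (i : L ⊕ H)) = S.allSpace)
    (h' : S'.space (fun i : T => (i : L ⊕ H)) = S'.allSpace) (ws : List L)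
    (hws : ∀ l ∈ ws, l ∈ G) (a : H) :
    ∫ p, ⟪S.k1 p, S.allSpace.starProjection (S.kq ws a p)⟫_ℂ ∂quotMeasure S.w =
      c * ∫ q, ⟪S'.k1 q, S'.allSpace.starProjection (S'.kq ws a q)⟫_ℂ ∂quotMeasure S'.w := by
  have hc := g.compare b b' (fun i : T => (i : L ⊕ H)) (fun j l e => hT l (e ▸ j.2)) ws hws a
  rwa [starProjection_congr h, starProjection_congr h'] at hc

/-- **A nonzero pairing on one side gives a vector on the other.** -/
theorem Geom.exists_vector (g : Geom S S' G i n c) (b : Bounded S) (b' : Bounded S')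
    (T : Finset (L ⊕ H)) (hT : ∀ l, Sum.inl l ∈ T → l ∈ G)
    (h : S.space (fun i : T => (i : L ⊕ H)) = S.allSpace)
    (h' : S'.space (fun i : T => (i : L ⊕ H)) = S'.allSpace) (ws : List L)
    (hws : ∀ l ∈ ws, l ∈ G) (a : H)
    (hne : ∫ p, ⟪S.k1 p, S.allSpace.starProjection (S.kq ws a p)⟫_ℂ ∂quotMeasure S.w ≠ 0) :
    ∃ u : Lp ℂ 2 (quotMeasure S'.w), u ≠ 0 ∧ S'.opA u = 0 ∧
      ∀ j, S'.op j u = (P.val j : ℂ) • u := by
  by_contra hno
  push Not at hno
  have hbot : ∀ u ∈ S'.allSpace, u = 0 := fun u hu => by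
    by_contra hu0
    obtain ⟨hA, hv⟩ := (S'.mem_allSpace).1 hu
    obtain ⟨j, hj⟩ := hno u hu0 hA
    exact hj (hv j)
  refine hne ?_
  rw [g.compare_all b b' T hT h h' ws hws a]
  simp [hbot _ (Submodule.starProjection_apply_mem _ _)]

end SideData

end FLTAgent.LT
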