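import Fermat.Agent.LT.TF.Average

/-!
A finitely supported hermitian bi-invariant function on `GL₂(A_f)` acts on `L²` of the quotient as
a self adjoint bounded operator (Hecke operators and their combinations).
-/

set_option autoImplicit false
set_option linter.unusedSectionVars false
set_option linter.unusedSimpArgs false
set_option linter.deprecated false
set_option linter.style.haveILetI false
set_option synthInstance.maxHeartbeats 200000

noncomputable section

namespace FLTAgent.LT

open NumberField IsDedekindDomain MeasureTheory Filter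
open scoped ENNReal InnerProductSpace

variable {F : Type*} [Field F] [NumberField F] {N : ℕ}

/-- A finitely supported hermitian bi-invariant function. -/
structure IsFinKer (N : ℕ) (f : GF F → ℂ) : Prop where
  left_inv : ∀ u ∈ UZ F N, ∀ g, f (u * g) = f g
  right_inv : ∀ u ∈ UZ F N, ∀ g, f (g * u) = f g
  finite : ((QuotientGroup.mk : GF F → Cos F N) '' Function.support f).Finite
  herm : ∀ g, (starRingEnd ℂ) (f g) = f g⁻¹

/-- The value on a pair of cosets. -/
def pairVal (f : GF F → ℂ) (c c' : Cos F N) : ℂ := f (c.out⁻¹ * c'.out)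

lemma IsFinKer.pairVal_smul {f : GF F → ℂ} (hf : IsFinKer N f) (γ : PG F) (c c' : Cos F N) :
    pairVal f (γ • c) (γ • c') = pairVal f c c' := by
  obtain ⟨γ, rfl⟩ := QuotientGroup.mk_surjective γ
  have e : ∀ d : Cos F N, (QuotientGroup.mk γ : PG F) • d = toFin γ • d := fun d =>
    congrArg Prod.snd (mk_smul γ ((basePoint, d) : Pt F N))
  obtain ⟨u, hu, e1⟩ := toFin_smul_out γ c
  obtain ⟨u', hu', e2⟩ := toFin_smul_out γ c'
  rw [pairVal, pairVal, e, e, e1, e2,
    show (toFin γ * c.out * u)⁻¹ * (toFin γ * c'.out * u') = u⁻¹ * (c.out⁻¹ * c'.out) * u' by group,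
    hf.right_inv u' hu', hf.left_inv _ (inv_mem hu)]

lemma IsFinKer.pairVal_conj {f : GF F → ℂ} (hf : IsFinKer N f) (c c' : Cos F N) :
    (starRingEnd ℂ) (pairVal f c c') = pairVal f c' c := by
  rw [pairVal, pairVal, hf.herm, mul_inv_rev, inv_inv]

lemma IsFinKer.pairVal_eq_translate {f : GF F → ℂ} (hf : IsFinKer N f) (c d : Cos F N) :
    pairVal f c (c.out • d) = f d.out := by
  obtain ⟨u, hu, hc⟩ : ∃ u ∈ UZ F N, (c.out • d).out = c.out * d.out * u := by
    refine ⟨(c.out * d.out)⁻¹ * (c.out • d).out, QuotientGroup.eq.1 ?_, by group⟩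
    rw [QuotientGroup.out_eq']
    conv_rhs => rw [← QuotientGroup.out_eq' d]
    rfl
  rw [pairVal, hc, show c.out⁻¹ * (c.out * d.out * u) = d.out * u by group, hf.right_inv u hu]

/-- The total mass. -/
def finMass (N : ℕ) (f : GF F → ℂ) : ℝ≥0∞ := ∑' c : Cos F N, ‖f c.out‖ₑ

lemma IsFinKer.finite_support {f : GF F → ℂ} (hf : IsFinKer N f) (c : Cos F N) :
    (Function.support fun c' : Cos F N => pairVal f c c').Finite := by
  refine (hf.finite.image fun d => c.out • d).subset fun c' hc' =>
    ⟨QuotientGroup.mk (c.out⁻¹ * c'.out), ⟨_, hc', rfl⟩, ?_⟩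
  show c.out • (QuotientGroup.mk (c.out⁻¹ * c'.out) : Cos F N) = c'
  rw [MulAction.Quotient.smul_mk, smul_eq_mul, mul_inv_cancel_left, QuotientGroup.out_eq']

lemma IsFinKer.finMass_ne_top {f : GF F → ℂ} (hf : IsFinKer N f) : finMass N f ≠ ⊤ := by
  rw [finMass, tsum_eq_sum (s := hf.finite.toFinset) fun c hc => ?_]
  · exact ENNReal.sum_ne_top.2 fun _ _ => enorm_ne_top
  · rw [Set.Finite.mem_toFinset] at hc
    by_contra h
    exact hc ⟨c.out, fun h0 => h (by simp [h0]), QuotientGroup.out_eq' c⟩

lemma IsFinKer.row_mass {f : GF F → ℂ} (hf : IsFinKer N f) (c : Cos F N) :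
    ∑' c' : Cos F N, ‖pairVal f c c'‖ₑ = finMass N f := by
  rw [finMass, ← (MulAction.toPerm c.out : Cos F N ≃ Cos F N).tsum_eq]
  exact tsum_congr fun d => by rw [MulAction.toPerm_apply, hf.pairVal_eq_translate]

lemma IsFinKer.col_mass {f : GF F → ℂ} (hf : IsFinKer N f) (c' : Cos F N) :
    ∑' c : Cos F N, ‖pairVal f c c'‖ₑ = finMass N f := by
  rw [← hf.row_mass c']
  exact tsum_congr fun c => by rw [← hf.pairVal_conj, RCLike.enorm_conj]

/-- The operator of a finite kernel on functions. -/
def finOp (w : Pt F N → ℝ≥0∞) (f : GF F → ℂ) (u : Pt F N → ℂ) (p : Pt F N) : ℂ :=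
  ∑' c' : Cos F N, pairVal f p.2 c' * avg w u (p.1, c')

variable [Countable (Cos F N)]

/-- Exchange of the last two coordinates. -/
def swapCos : (Pt F N × Cos F N) ≃ᵐ (Pt F N × Cos F N) :=
  MeasurableEquiv.prodAssoc.trans
    (((MeasurableEquiv.refl (Xinf F)).prodCongr MeasurableEquiv.prodComm).trans
      MeasurableEquiv.prodAssoc.symm)

lemma swapCos_apply (z : Pt F N × Cos F N) : swapCos z = ((z.1.1, z.2), z.1.2) := rfl

lemma measurePreserving_swapCos :
    MeasurePreserving (swapCos (F := F) (N := N)) ((ptMeasure F N).prod Measure.count)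
      ((ptMeasure F N).prod Measure.count) := by
  have a := measurePreserving_prodAssoc (Measure.pi fun _ : InfinitePlace F => hypMeasure)
    (Measure.count : Measure (Cos F N)) (Measure.count : Measure (Cos F N))
  exact (a.symm.comp (((MeasurePreserving.id _).prod Measure.measurePreserving_swap).comp a))

lemma measurable_comp_swap {β : Type*} [MeasurableSpace β] {G : Pt F N → β} (hG : Measurable G) :
    Measurable fun z : Pt F N × Cos F N => G (z.1.1, z.2) :=
  hG.comp ((measurable_fst.comp measurable_fst).prodMk measurable_snd)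

lemma measurable_cosPair (h : Cos F N → Cos F N → ℂ) :
    Measurable fun z : Pt F N × Cos F N => h z.1.2 z.2 := by
  have h1 : Measurable fun z : Pt F N × Cos F N => ((z.1.2, z.2) : Cos F N × Cos F N) :=
    (measurable_snd.comp measurable_fst).prodMk measurable_snd
  exact (measurable_of_countable fun y : Cos F N × Cos F N => h y.1 y.2).comp h1

lemma measurable_finOp {w : Pt F N → ℝ≥0∞} (hw : IsPtWeight w) (f : GF F → ℂ) {u : Pt F N → ℂ}
    (hu : Measurable u) : Measurable (finOp w f u) := by
  refine measurable_complex_tsum fun c' => Measurable.mul ?_ ?_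
  · exact (measurable_from_top (f := fun c : Cos F N => pairVal f c c')).comp measurable_snd
  · exact (measurable_avg hw hu).comp (measurable_fst.prodMk measurable_const)

variable {w : Pt F N → ℝ≥0∞} (hw : IsPtWeight w)

include hw

lemma sFinite_quotMeasure : SFinite (quotMeasure w) := by
  unfold quotMeasure RS.wMeasure
  infer_instance

/-- Invariant functions of a pair integrate symmetrically. -/
lemma lintegral_pair_swap {H : Pt F N × Cos F N → ℝ≥0∞} (hH : Measurable H)
    (hinv : ∀ (γ : PG F) (p : Pt F N) (c : Cos F N), H (γ • p, γ • c) = H (p, c)) :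
    ∫⁻ z, H z ∂(quotMeasure w).prod Measure.count =
      ∫⁻ z, H (swapCos z) ∂(quotMeasure w).prod Measure.count := by
  haveI := sFinite_quotMeasure hw
  have e : ∀ G : Pt F N × Cos F N → ℝ≥0∞, Measurable G →
      ∫⁻ z, G z ∂(quotMeasure w).prod Measure.count =
        ∫⁻ z, w z.1 * G z ∂(ptMeasure F N).prod Measure.count := fun G hG => by
    have hm : Measurable fun z : Pt F N × Cos F N => w z.1 * G z :=
      (hw.1.comp measurable_fst).mul hG
    rw [lintegral_prod _ hG.aemeasurable, lintegral_prod _ hm.aemeasurable,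
      lintegral_quotMeasure hw hG.lintegral_prod_right']
    refine lintegral_congr fun p => ?_
    rw [lintegral_const_mul' _ _ (wt_ne_top hw p)]
  rw [e H hH, e (fun z => H (swapCos z)) (hH.comp swapCos.measurable),
    lintegral_pair_symm hw (H := fun x c c' => H ((x, c), c')) hH fun γ p c => hinv γ p c,
    ← measurePreserving_swapCos.lintegral_comp
      (f := fun z : Pt F N × Cos F N => w (z.1.1, z.2) * H z) ((measurable_comp_swap hw.1).mul hH)]
  rfl

variable {f : GF F → ℂ} (hf : IsFinKer N f)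

include hf

lemma sq_finOp_le (u : Pt F N → ℂ) (p : Pt F N) :
    ‖finOp w f u p‖ₑ ^ 2 ≤
      finMass N f * ∑' c' : Cos F N, ‖pairVal f p.2 c'‖ₑ * ‖avg w u (p.1, c')‖ₑ ^ 2 := by
  set ν : Measure (Cos F N) := Measure.count.withDensity fun c' => ‖pairVal f p.2 c'‖ₑ
  have key : ∀ G : Cos F N → ℝ≥0∞, ∫⁻ c', G c' ∂ν = ∑' c', ‖pairVal f p.2 c'‖ₑ * G c' := fun G => by
    rw [lintegral_withDensity_eq_lintegral_mul _ measurable_from_top measurable_from_top,
      lintegral_count]
    rfl
  have h := ENNReal.lintegral_mul_le_Lp_mul_Lq ν (p := 2) (q := 2) ⟨by norm_num, by norm_num,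
    by norm_num⟩ (f := fun _ => (1 : ℝ≥0∞)) (g := fun c' => ‖avg w u (p.1, c')‖ₑ)
    measurable_from_top.aemeasurable measurable_from_top.aemeasurable
  simp only [key, Pi.mul_apply, one_mul, ENNReal.one_rpow, mul_one, hf.row_mass] at h
  have h2 : ‖finOp w f u p‖ₑ ≤ ∑' c', ‖pairVal f p.2 c'‖ₑ * ‖avg w u (p.1, c')‖ₑ :=
    enorm_tsum_le_tsum_enorm.trans_eq (tsum_congr fun c' => enorm_mul _ _)
  refine (pow_le_pow_left₀ zero_le (h2.trans h) 2).trans_eq ?_
  rw [mul_pow, ← ENNReal.rpow_natCast _ 2, ← ENNReal.rpow_mul, ← ENNReal.rpow_natCast _ 2,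
    ← ENNReal.rpow_mul]
  simp

lemma lintegral_sq_finOp_le {u : Pt F N → ℂ} (hu : Measurable u) :
    ∫⁻ p, ‖finOp w f u p‖ₑ ^ 2 ∂quotMeasure w ≤
      finMass N f ^ 2 * ∫⁻ p, ‖u p‖ₑ ^ 2 ∂quotMeasure w := by
  haveI := sFinite_quotMeasure hw
  set g : Pt F N → ℝ≥0∞ := fun q => ‖avg w u q‖ₑ ^ 2 with hg
  have hgm : Measurable g := (measurable_avg hw hu).enorm.pow_const 2
  set H : Pt F N × Cos F N → ℝ≥0∞ := fun z => ‖pairVal f z.1.2 z.2‖ₑ * g (z.1.1, z.2)
  have hH : Measurable H := (measurable_cosPair (fun c c' : Cos F N => pairVal f c c')).enorm.mul (measurable_comp_swap hgm)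
  have hinv : ∀ (γ : PG F) (p : Pt F N) (c : Cos F N), H (γ • p, γ • c) = H (p, c) := fun γ p c => by
    show ‖pairVal f (γ • p).2 (γ • c)‖ₑ * g ((γ • p).1, γ • c) = _
    rw [smul_cos_eq, hf.pairVal_smul, show ((γ • p).1, γ • c) = γ • ((p.1, c) : Pt F N) from rfl,
      hg]
    simp only [avg_smul]
    rfl
  calc ∫⁻ p, ‖finOp w f u p‖ₑ ^ 2 ∂quotMeasure w
      ≤ ∫⁻ p, finMass N f * ∑' c', H (p, c') ∂quotMeasure w :=
        lintegral_mono fun p => sq_finOp_le hw hf u p
    _ = finMass N f * ∫⁻ z, H z ∂(quotMeasure w).prod Measure.count := by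
        rw [lintegral_const_mul' _ _ hf.finMass_ne_top, lintegral_prod _ hH.aemeasurable]
        simp only [lintegral_count]
    _ = finMass N f * ∫⁻ z, H (swapCos z) ∂(quotMeasure w).prod Measure.count := by
        rw [lintegral_pair_swap hw hH hinv]
    _ = finMass N f * ∫⁻ p, g p * finMass N f ∂quotMeasure w := by
        rw [lintegral_prod (fun z => H (swapCos z)) (hH.comp swapCos.measurable).aemeasurable]
        simp only [lintegral_count, swapCos_apply, H, Prod.mk.eta, ENNReal.tsum_mul_right,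
          hf.col_mass, mul_comm]
        congr 1
        refine lintegral_congr fun x => ?_
        rw [ENNReal.tsum_mul_left, hf.col_mass]
    _ ≤ _ := by
        rw [lintegral_mul_const' _ _ hf.finMass_ne_top, sq, mul_comm (∫⁻ p, g p ∂_), ← mul_assoc]
        exact mul_le_mul' le_rfl (lintegral_sq_avg_le hw hu)

omit hf in
/-- A property holding almost everywhere holds almost everywhere after moving the coset. -/
lemma ae_slice {P : Pt F N → Prop} (h : ∀ᵐ p ∂ptMeasure F N, P p) (c' : Cos F N) :
    ∀ᵐ p ∂quotMeasure w, P (p.1, c') := by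
  refine ae_quot_of_ae ?_
  have h1 : ∀ᵐ x ∂Measure.pi (fun _ : InfinitePlace F => hypMeasure), ∀ᵐ c ∂Measure.count, P (x, c) :=
    Measure.ae_ae_of_ae_prod h
  have h2 : ∀ᵐ x ∂Measure.pi (fun _ : InfinitePlace F => hypMeasure), P (x, c') := by
    filter_upwards [h1] with x hx
    by_contra hne
    rw [ae_iff, Measure.count_eq_zero_iff] at hx
    exact (Set.eq_empty_iff_forall_notMem.1 hx c') hne
  exact Measure.quasiMeasurePreserving_fst.ae h2

/-- The formula makes sense on `L²`. -/
theorem finFormula : L2Formula (quotMeasure w) (finOp w f) (finMass N f).toReal where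
  nonneg := ENNReal.toReal_nonneg
  meas u := (measurable_finOp hw f (Lp.stronglyMeasurable u).measurable).aestronglyMeasurable
  bound u := by
    rw [ENNReal.ofReal_toReal hf.finMass_ne_top]
    exact lintegral_sq_finOp_le hw hf (Lp.stronglyMeasurable u).measurable
  add u v := by
    have hfin : ∀ u : Lp ℂ 2 (quotMeasure w), ∫⁻ p, ‖u p‖ₑ ^ 2 ∂quotMeasure w < ⊤ := fun u => by
      have := Lp.enorm_def u ▸ (enorm_lt_top : (‖u‖ₑ : ℝ≥0∞) < ⊤)
      rw [eLpNorm_two_eq] at this
      exact (ENNReal.rpow_lt_top_iff_of_pos (by norm_num)).1 this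
    have h1 := summable_avg hw (Lp.stronglyMeasurable u).measurable (hfin u)
    have h2 := summable_avg hw (Lp.stronglyMeasurable v).measurable (hfin v)
    have h3 := avg_congr hw (Lp.coeFn_add u v)
    have h : ∀ᵐ p ∂ptMeasure F N,
        avg w ((u + v : Lp ℂ 2 (quotMeasure w)) : Pt F N → ℂ) p = avg w u p + avg w v p := by
      filter_upwards [h1, h2, h3] with p a b c
      rw [c, avg, avg, avg, ← a.tsum_add b]
      exact tsum_congr fun γ => by rw [Pi.add_apply, mul_add]
    filter_upwards [ae_all_iff.2 fun c' => ae_slice hw h c'] with p hp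
    have hs : ∀ G : Cos F N → ℂ, Summable fun c' => pairVal f p.2 c' * G c' := fun G =>
      summable_of_hasFiniteSupport ((hf.finite_support p.2).subset fun c' hc' h0 => hc' (by
        simp only at h0; simp [h0]))
    simp only [finOp, Pi.add_apply, hp, mul_add]
    exact (hs _).tsum_add (hs _)
  smul a u := by
    have h : ∀ᵐ p ∂ptMeasure F N,
        avg w ((a • u : Lp ℂ 2 (quotMeasure w)) : Pt F N → ℂ) p = a * avg w u p := by
      filter_upwards [avg_congr hw (Lp.coeFn_smul a u)] with p hp
      rw [hp, avg, avg, ← tsum_mul_left]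
      exact tsum_congr fun γ => by rw [Pi.smul_apply, smul_eq_mul]; ring
    filter_upwards [ae_all_iff.2 fun c' => ae_slice hw h c'] with p hp
    simp only [finOp, Pi.smul_apply, smul_eq_mul, hp, ← tsum_mul_left]
    exact tsum_congr fun c' => by ring

end FLTAgent.LT
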