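import Fermat.Agent.LT.TF.Vec
import Fermat.Agent.LT.TF.Aleph.Kill
import Mathlib.MeasureTheory.Integral.Prod

/-!
The operator of a family on kernel sections: as a sum of kernel operators, jointly measurable,
with uniformly bounded absolute row and column integrals.
-/

set_option autoImplicit false
set_option linter.unusedSectionVars false
set_option linter.unusedSimpArgs false
set_option linter.deprecated false
set_option linter.style.haveILetI false
set_option synthInstance.maxHeartbeats 200000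

noncomputable section

namespace FLTAgent.LT

open NumberField IsDedekindDomain MeasureTheory
open scoped ENNReal

variable {F : Type*} [Field F] [NumberField F] {N : ℕ}

/-- The word of a family at places. -/
def Aleph.Fam.test {ι : Type*} (A : Aleph.Fam ι (InfinitePlace F))
    (pl : ι → HeightOneSpectrum (𝓞 F)) (N : ℕ) (k : A.κ) : Test F :=
  ⟨Aleph.wordFin N ((A.word k).map pl), A.rad k⟩

theorem Aleph.Fam.test_ok {ι : Type*} [Fintype ι] {A : Aleph.Fam ι (InfinitePlace F)}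
    (hA : A.Reg) {p : ℕ} {pl : ι → HeightOneSpectrum (𝓞 F)} (hP : Aleph.Places N p pl) (k : A.κ) :
    (A.test pl N k).Ok N :=
  Aleph.wordFin_ok (hP.not_mem_map _) (A.rad k) (hA.lipschitz k) (hA.compact k)

lemma measurable_int_pair {μ : Measure (Pt F N)} [SFinite μ] (G H : Pt F N → Pt F N → ℂ)
    (hG : Measurable fun x : Pt F N × Pt F N => G x.1 x.2)
    (hH : Measurable fun x : Pt F N × Pt F N => H x.1 x.2) :
    Measurable fun x : Pt F N × Pt F N => ∫ q, G x.2 q * H x.1 q ∂μ := by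
  have h1 : Measurable fun z : (Pt F N × Pt F N) × Pt F N => ((z.1.2, z.2) : Pt F N × Pt F N) :=
    measurable_fst.snd.prodMk measurable_snd
  have h2 : Measurable fun z : (Pt F N × Pt F N) × Pt F N => ((z.1.1, z.2) : Pt F N × Pt F N) :=
    measurable_fst.fst.prodMk measurable_snd
  have e1 : Measurable fun z : (Pt F N × Pt F N) × Pt F N => G z.1.2 z.2 := hG.comp h1
  have e2 : Measurable fun z : (Pt F N × Pt F N) × Pt F N => H z.1.1 z.2 := hH.comp h2
  exact ((e1.mul e2).stronglyMeasurable.integral_prod_right' (ν := μ)).measurable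

section

variable [Countable (Cos F N)] {w : Pt F N → ℝ≥0∞} (hw : IsPtWeight w)

include hw

/-- **The operator of a test is its kernel operator.** -/
theorem testOp_eq_intOp {t : Test F} (ht : t.Ok N) {u : Pt F N → ℂ} (hu : Measurable u)
    (huinv : ∀ (γ : PG F) q, u (γ • q) = u q) (p : Pt F N)
    (hfin : ∫⁻ r, ‖kTerm t p r * u r‖ₑ ∂ptMeasure F N ≠ ⊤) :
    testOp t u p = intOp (quotMeasure w) (kern t) u p := by
  classical
  rw [intOp_kern_eq hw ht hu huinv p hfin]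
  have hm : Measurable fun r => kTerm t p r * u r :=
    ((measurable_kTerm ht).comp measurable_prodMk_left).mul hu
  have hi : Integrable (fun r => kTerm t p r * u r)
      ((Measure.pi fun _ : InfinitePlace F => hypMeasure).prod Measure.count) :=
    ⟨hm.aestronglyMeasurable, (hfin : _).lt_top⟩
  rw [ptMeasure, integral_prod_symm _ hi]
  have hout := hi.integral_prod_right
  rw [integral_countable hout]
  simp only [Measure.real, Measure.count_singleton, ENNReal.toReal_one, one_smul]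
  rw [testOp, ← (MulAction.toPerm p.2.out : Cos F N ≃ Cos F N).tsum_eq]
  have hsupp : (Function.support fun h : Cos F N => t.fin h.out *
      ∫ y, t.inf (fun v => hdist (p.1 v) (y v)) * u (y, QuotientGroup.mk (p.2.out * h.out))
        ∂Measure.pi fun _ : InfinitePlace F => hypMeasure) ⊆ (ht.finite.toFinset : Set (Cos F N)) :=
    fun h hh => by
      rw [Set.Finite.coe_toFinset]
      exact ⟨h.out, left_ne_zero_of_mul hh, QuotientGroup.out_eq' h⟩
  rw [finsum_eq_sum_of_support_subset _ hsupp, ← tsum_eq_sum (L := SummationFilter.unconditional _)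
    fun h hh => by
      by_contra hne
      exact hh (hsupp hne)]
  refine tsum_congr fun c => ?_
  obtain ⟨k, hk, e⟩ := exists_out_mul p.2.out c
  have e2 : (QuotientGroup.mk (p.2.out * c.out) : Cos F N) = p.2.out • c := by
    conv_rhs => rw [← QuotientGroup.out_eq' c]
    rfl
  rw [← integral_const_mul]
  refine integral_congr_ae (Filter.Eventually.of_forall fun y => ?_)
  show _ = kTerm t p (y, p.2.out • c) * u (y, p.2.out • c)
  simp only [kTerm, e, e2]
  rw [show p.2.out⁻¹ * (p.2.out * c.out * k) = c.out * k by group, ht.right_inv k hk, mul_assoc]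

variable (hN : 0 < N)

include hN

theorem lintegral_kTerm_kern_ne_top {t t₁ : Test F} (ht : t.Ok N) (h₁ : t₁.Ok N) (p r : Pt F N) :
    ∫⁻ q, ‖kTerm t r q * kern t₁ p q‖ₑ ∂ptMeasure F N ≠ ⊤ := by
  obtain ⟨C, hC0, hC⟩ := exists_kern_bound (h₁.flip' hN) (by rw [Test.flip_flip]; exact h₁) p
  simp only [kern_flip h₁ (h₁.flip' hN)] at hC
  refine ne_top_of_le_ne_top (b := (∫⁻ q, ‖kTerm t r q‖ₑ ∂ptMeasure F N) * ENNReal.ofReal C)
    (ENNReal.mul_ne_top (lintegral_kTerm_lt_top hw ht r (size_ne_top ht _)) ENNReal.ofReal_ne_top)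
    ?_
  rw [← lintegral_mul_const' _ _ ENNReal.ofReal_ne_top]
  refine lintegral_mono fun q => ?_
  rw [enorm_mul]
  refine mul_le_mul' le_rfl ?_
  rw [← ofReal_norm]
  exact ENNReal.ofReal_le_ofReal (hC q)

/-- The operator of a test on a kernel section. -/
theorem testOp_kern {t t₁ : Test F} (ht : t.Ok N) (h₁ : t₁.Ok N) (p r : Pt F N) :
    testOp t (fun q => kern t₁ p q) r = ∫ q, kern t r q * kern t₁ p q ∂quotMeasure w :=
  testOp_eq_intOp hw ht (measurable_section_right (kern t₁) (measurable_kern h₁) p)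
    (fun γ q => kern_smul_right h₁ γ p q) r (lintegral_kTerm_kern_ne_top hw hN ht h₁ p r)

theorem measurable_testOp_kern {t t₁ : Test F} (ht : t.Ok N) (h₁ : t₁.Ok N) :
    Measurable fun x : Pt F N × Pt F N => testOp t (fun q => kern t₁ x.1 q) x.2 := by
  haveI := sFinite_quotMeasure hw
  rw [funext fun x : Pt F N × Pt F N => testOp_kern hw hN ht h₁ x.1 x.2]
  exact measurable_int_pair (kern t) (kern t₁) (measurable_kern ht) (measurable_kern h₁)

/-- Row and column integrals of the operator of a test on kernel sections. -/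
theorem lintegral_testOp_kern_le {t t₁ : Test F} (ht : t.Ok N) (h₁ : t₁.Ok N) :
    (∀ p, ∫⁻ r, ‖testOp t (fun q => kern t₁ p q) r‖ₑ ∂quotMeasure w ≤
      ENNReal.ofReal (t.opBound N) * ENNReal.ofReal (t₁.opBound N)) ∧
    ∀ r, ∫⁻ p, ‖testOp t (fun q => kern t₁ p q) r‖ₑ ∂quotMeasure w ≤
      ENNReal.ofReal (t.opBound N) * ENNReal.ofReal (t₁.opBound N) := by
  haveI := sFinite_quotMeasure hw
  have S := schurKernel hN hw ht
  have S₁ := schurKernel hN hw h₁
  have hb : ∀ p r, ‖testOp t (fun q => kern t₁ p q) r‖ₑ ≤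
      ∫⁻ q, ‖kern t r q‖ₑ * ‖kern t₁ p q‖ₑ ∂quotMeasure w := fun p r => by
    rw [testOp_kern hw hN ht h₁]
    exact (enorm_integral_le_lintegral_enorm _).trans_eq (lintegral_congr fun q => enorm_mul _ _)
  have hmt := (measurable_kern ht).enorm
  have hm₁ := (measurable_kern h₁).enorm
  refine ⟨fun p => ?_, fun r => ?_⟩
  · refine (lintegral_mono fun r => hb p r).trans ?_
    rw [lintegral_lintegral_swap]
    · calc ∫⁻ q, ∫⁻ r, ‖kern t r q‖ₑ * ‖kern t₁ p q‖ₑ ∂quotMeasure w ∂quotMeasure w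
          ≤ ∫⁻ q, ENNReal.ofReal (t.opBound N) * ‖kern t₁ p q‖ₑ ∂quotMeasure w :=
            lintegral_mono fun q => by
              rw [lintegral_mul_const' _ _ enorm_ne_top]
              exact mul_le_mul' (S.col q) le_rfl
        _ ≤ _ := by
          rw [lintegral_const_mul' _ _ ENNReal.ofReal_ne_top]
          exact mul_le_mul' le_rfl (S₁.row p)
    · exact (hmt.mul (hm₁.comp (measurable_const.prodMk measurable_snd))).aemeasurable
  · refine (lintegral_mono fun p => hb p r).trans ?_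
    rw [lintegral_lintegral_swap]
    · calc ∫⁻ q, ∫⁻ p, ‖kern t r q‖ₑ * ‖kern t₁ p q‖ₑ ∂quotMeasure w ∂quotMeasure w
          ≤ ∫⁻ q, ‖kern t r q‖ₑ * ENNReal.ofReal (t₁.opBound N) ∂quotMeasure w :=
            lintegral_mono fun q => by
              rw [lintegral_const_mul' _ _ enorm_ne_top]
              exact mul_le_mul' le_rfl (S₁.col q)
        _ ≤ _ := by
          rw [lintegral_mul_const' _ _ ENNReal.ofReal_ne_top]
          exact mul_le_mul' (S.row r) le_rfl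
    · exact ((hmt.comp (measurable_const.prodMk measurable_snd)).mul hm₁).aemeasurable

variable {ι : Type*} [Fintype ι] {A : Aleph.Fam ι (InfinitePlace F)} (hA : A.Reg) {p₀ : ℕ}
  {pl : ι → HeightOneSpectrum (𝓞 F)} (hP : Aleph.Places N p₀ pl)

include hA hP

omit hN in
/-- The operator of a family as a combination of kernel operators. -/
theorem Aleph.Fam.op_eq_intOp {u : Pt F N → ℂ} (hu : Measurable u)
    (huinv : ∀ (γ : PG F) q, u (γ • q) = u q) (p : Pt F N)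
    (hfin : ∀ k, ∫⁻ r, ‖kTerm (A.test pl N k) p r * u r‖ₑ ∂ptMeasure F N ≠ ⊤) :
    A.op pl u p = ∑ k, A.coef k * intOp (quotMeasure w) (kern (A.test pl N k)) u p :=
  Finset.sum_congr rfl fun k _ => congrArg _
    (testOp_eq_intOp hw (A.test_ok hA hP k) hu huinv p (hfin k))

/-- The operator on a kernel section is jointly measurable. -/
theorem Aleph.Fam.measurable_op_kern {t₁ : Test F} (h₁ : t₁.Ok N) :
    Measurable fun x : Pt F N × Pt F N => A.op pl (fun q => kern t₁ x.1 q) x.2 :=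
  Finset.measurable_sum _ fun k _ =>
    (measurable_testOp_kern hw hN (A.test_ok hA hP k) h₁).const_mul _

/-- The operator on kernel sections has bounded row and column integrals. -/
theorem Aleph.Fam.exists_lintegral_op_kern_le {t₁ : Test F} (h₁ : t₁.Ok N) :
    ∃ R : ℝ≥0∞, R ≠ ⊤ ∧
      (∀ p, ∫⁻ r, ‖A.op pl (fun q => kern t₁ p q) r‖ₑ ∂quotMeasure w ≤ R) ∧
      ∀ r, ∫⁻ p, ‖A.op pl (fun q => kern t₁ p q) r‖ₑ ∂quotMeasure w ≤ R := by
  set T := fun k => A.test pl N k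
  set R : ℝ≥0∞ := ∑ k, ‖A.coef k‖ₑ *
    (ENNReal.ofReal ((T k).opBound N) * ENNReal.ofReal (t₁.opBound N))
  have hb : ∀ p r, ‖A.op pl (fun q => kern t₁ p q) r‖ₑ ≤
      ∑ k, ‖A.coef k‖ₑ * ‖testOp (T k) (fun q => kern t₁ p q) r‖ₑ := fun p r =>
    (enorm_sum_le _ _).trans_eq (Finset.sum_congr rfl fun k _ => enorm_mul _ _)
  have hm' : ∀ k, (∀ p, Measurable fun r => ‖A.coef k‖ₑ * ‖testOp (T k) (fun q => kern t₁ p q) r‖ₑ) ∧
      ∀ r, Measurable fun p => ‖A.coef k‖ₑ * ‖testOp (T k) (fun q => kern t₁ p q) r‖ₑ := fun k => by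
    have hG := measurable_testOp_kern hw hN (A.test_ok hA hP k) h₁
    exact ⟨fun p => ((measurable_section_right
        (fun p r => testOp (T k) (fun q => kern t₁ p q) r) hG p).enorm).const_mul _,
      fun r => ((measurable_section_left
        (fun p r => testOp (T k) (fun q => kern t₁ p q) r) hG r).enorm).const_mul _⟩
  refine ⟨R, ENNReal.sum_ne_top.2 fun k _ => ENNReal.mul_ne_top enorm_ne_top
    (ENNReal.mul_ne_top ENNReal.ofReal_ne_top ENNReal.ofReal_ne_top), fun p => ?_, fun r => ?_⟩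
  · refine (lintegral_mono fun r => hb p r).trans ?_
    rw [lintegral_finsetSum' (μ := quotMeasure w) Finset.univ
      (f := fun k r => ‖A.coef k‖ₑ * ‖testOp (T k) (fun q => kern t₁ p q) r‖ₑ) fun k _ =>
      ((hm' k).1 p).aemeasurable]
    refine Finset.sum_le_sum fun k _ => ?_
    rw [lintegral_const_mul' _ _ enorm_ne_top]
    exact mul_le_mul' le_rfl ((lintegral_testOp_kern_le hw hN (A.test_ok hA hP k) h₁).1 p)
  · refine (lintegral_mono fun p => hb p r).trans ?_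
    rw [lintegral_finsetSum' (μ := quotMeasure w) Finset.univ
      (f := fun k p => ‖A.coef k‖ₑ * ‖testOp (T k) (fun q => kern t₁ p q) r‖ₑ) fun k _ =>
      ((hm' k).2 r).aemeasurable]
    refine Finset.sum_le_sum fun k _ => ?_
    rw [lintegral_const_mul' _ _ enorm_ne_top]
    exact mul_le_mul' le_rfl ((lintegral_testOp_kern_le hw hN (A.test_ok hA hP k) h₁).2 r)

end

/-- A high weight times a kernel with bounded absolute integrals. -/
lemma lintegral_sq_le_of_bound {X : Type*} [MeasurableSpace X] {μ : Measure X} {f : X → ℂ} {b : X → ℝ≥0∞}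
    {R : ℝ≥0∞} (hle : ∀ x, f x ≠ 0 → ‖f x‖ₑ ≤ b x) {B : ℝ≥0∞} (hb : ∀ x, f x ≠ 0 → b x ≤ B)
    (hB : B ≠ ⊤) (hR : ∫⁻ x, ‖f x‖ₑ ∂μ ≤ R) :
    ∫⁻ x, ‖f x‖ₑ ^ 2 ∂μ ≤ B * R := by
  refine le_trans ?_ (mul_le_mul' le_rfl hR)
  rw [← lintegral_const_mul' _ _ hB]
  refine lintegral_mono fun x => ?_
  rcases eq_or_ne (f x) 0 with h | h
  · simp [h]
  · rw [sq]
    exact mul_le_mul' ((hle x h).trans (hb x h)) le_rfl

section bounds

variable [Countable (Cos F N)] {w : Pt F N → ℝ≥0∞} (hw : IsPtWeight w) (hN : 0 < N)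
  {ι : Type*} [Fintype ι] {A : Aleph.Fam ι (InfinitePlace F)} (hA : A.Reg) {p₀ : ℕ}
  {pl : ι → HeightOneSpectrum (𝓞 F)} (hP : Aleph.Places N p₀ pl)
  {H : Pt F N → ℝ} {s : ℝ}
  (hH : ∀ q, 1 ≤ H q) (hHm : Measurable H) (hs0 : 0 < s)
  (hL1 : ∃ C, 0 ≤ C ∧ ∀ φ : Pt F N → ℂ, (∀ (γ : PG F) q, φ (γ • q) = φ q) → Measurable φ →
    ∫⁻ q, ‖φ q‖ₑ ∂quotMeasure w ≠ ⊤ →
      ∀ q, ‖A.op pl φ q‖ ≤ C * H q ^ (1 - s) * (∫⁻ q, ‖φ q‖ₑ ∂quotMeasure w).toReal)
  (hInt : ∀ b : ℝ, b < 1 → ∫⁻ q, ENNReal.ofReal (H q ^ b) ∂quotMeasure w < ⊤)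

include hw hN hA hP hH hL1

omit hA hP in
theorem Aleph.Fam.exists_norm_op_kern_le {t₁ : Test F} (h₁ : t₁.Ok N) :
    ∃ C, 0 ≤ C ∧ ∀ p r, ‖A.op pl (fun q => kern t₁ p q) r‖ₑ ≤ ENNReal.ofReal (C * H r ^ (1 - s)) := by
  haveI := sFinite_quotMeasure hw
  obtain ⟨C, hC, hb⟩ := hL1
  refine ⟨C * t₁.opBound N, mul_nonneg hC (schurKernel hN hw h₁).nonneg, fun p r => ?_⟩
  have hrow := (schurKernel hN hw h₁).row p
  have h := hb (fun q => kern t₁ p q) (fun γ q => kern_smul_right h₁ γ p q)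
    (measurable_section_right (kern t₁) (measurable_kern h₁) p)
    (ne_top_of_le_ne_top ENNReal.ofReal_ne_top hrow) r
  rw [← ofReal_norm]
  refine ENNReal.ofReal_le_ofReal (h.trans ?_)
  rw [mul_right_comm C]
  refine mul_le_mul_of_nonneg_right ?_ (Real.rpow_nonneg (zero_le_one.trans (hH r)) _)
  refine mul_le_mul_of_nonneg_left ?_ hC
  exact (ENNReal.toReal_mono ENNReal.ofReal_ne_top hrow).trans_eq
    (ENNReal.toReal_ofReal (schurKernel hN hw h₁).nonneg)

include hHm hs0 hInt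

/-- **The operator on kernel sections is Hilbert–Schmidt.** -/
theorem Aleph.Fam.lintegral_sq_op_kern_lt_top {t₁ : Test F} (h₁ : t₁.Ok N) :
    ∫⁻ p, ∫⁻ r, ‖A.op pl (fun q => kern t₁ p q) r‖ₑ ^ 2 ∂quotMeasure w ∂quotMeasure w < ⊤ := by
  haveI := sFinite_quotMeasure hw
  obtain ⟨C, hC, hb⟩ := Aleph.Fam.exists_norm_op_kern_le hw hN hH hL1 (A := A) (pl := pl) h₁
  obtain ⟨R, hR, -, hcol⟩ := Aleph.Fam.exists_lintegral_op_kern_le hw hN hA hP h₁
  have hm := Aleph.Fam.measurable_op_kern hw hN hA hP h₁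
  rw [lintegral_lintegral_swap (hm.enorm.pow_const 2).aemeasurable]
  calc ∫⁻ r, ∫⁻ p, ‖A.op pl (fun q => kern t₁ p q) r‖ₑ ^ 2 ∂quotMeasure w ∂quotMeasure w
      ≤ ∫⁻ r, ENNReal.ofReal C * ENNReal.ofReal (H r ^ (1 - s)) * R ∂quotMeasure w := by
        refine lintegral_mono fun r => ?_
        rw [← ENNReal.ofReal_mul hC]
        exact lintegral_sq_le_of_bound (fun p _ => hb p r) (fun p _ => le_rfl)
          ENNReal.ofReal_ne_top (hcol r)
    _ < ⊤ := by
        rw [lintegral_mul_const' _ _ hR, lintegral_const_mul' _ _ ENNReal.ofReal_ne_top]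
        exact ENNReal.mul_lt_top (ENNReal.mul_lt_top ENNReal.ofReal_lt_top (hInt _ (by linarith)))
          hR.lt_top

/-- **The twisted pairing of the operator with a kernel is absolutely integrable.** -/
theorem Aleph.Fam.lintegral_pair_lt_top (hs1 : s ≤ 1) {t₁ t₂ : Test F} (h₁ : t₁.Ok N)
    (h₂ : t₂.Ok N) (τ : F →+* F)
    (hsupp : ∃ C, 1 ≤ C ∧ ∀ φ : Pt F N → ℂ, ∀ q, A.op pl φ q ≠ 0 →
      ∃ r, φ r ≠ 0 ∧ H q ≤ C * H r ∧ H r ≤ C * H q)
    (hkern : ∀ t : Test F, t.Ok N → ∃ C, 1 ≤ C ∧ ∀ p q, kern t p q ≠ 0 →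
      H p ≤ C * H q ∧ H q ≤ C * H p)
    (hcount : ∀ t : Test F, t.Ok N → ∃ C, 0 ≤ C ∧ ∀ p q, ‖kern t p q‖ ≤ C * H p)
    (hτ : ∀ p, H (ptMap (N' := N) τ p) ≤ H p) :
    ∫⁻ p, (∫⁻ r, ‖A.op pl (fun q => kern t₁ p q) r‖ₑ ^ 2 ∂quotMeasure w) ^ (1 / 2 : ℝ) *
      (∫⁻ r, ‖kern t₂ r (ptMap (N' := N) τ p)‖ₑ ^ 2 ∂quotMeasure w) ^ (1 / 2 : ℝ)
        ∂quotMeasure w < ⊤ := by
  haveI := sFinite_quotMeasure hw
  obtain ⟨C₀, hC₀, hb⟩ := Aleph.Fam.exists_norm_op_kern_le hw hN hH hL1 (A := A) (pl := pl) h₁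
  obtain ⟨R, hR, hrow, -⟩ := Aleph.Fam.exists_lintegral_op_kern_le hw hN hA hP h₁
  obtain ⟨C₁, hC₁, hs'⟩ := hsupp
  obtain ⟨C₂, hC₂, hk₁⟩ := hkern t₁ h₁
  obtain ⟨C₃, hC₃, hk₂⟩ := hkern t₂ h₂
  obtain ⟨C₄, hC₄, hn₂⟩ := hcount t₂ h₂
  have hH0 : ∀ q, 0 < H q := fun q => one_pos.trans_le (hH q)
  have hC₁₀ : 0 ≤ C₁ := zero_le_one.trans hC₁
  have hC₁₂ : 0 ≤ C₁ * C₂ := mul_nonneg hC₁₀ (zero_le_one.trans hC₂)
  set K₁ := C₀ * (C₁ * C₂) ^ (1 - s)
  set K₂ := C₄ * C₃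
  set R' := ENNReal.ofReal (t₂.opBound N)
  have hK₁ : 0 ≤ K₁ := mul_nonneg hC₀ (Real.rpow_nonneg hC₁₂ _)
  have hK₂ : 0 ≤ K₂ := mul_nonneg hC₄ (zero_le_one.trans hC₃)
  have h1 : ∀ p, ∫⁻ r, ‖A.op pl (fun q => kern t₁ p q) r‖ₑ ^ 2 ∂quotMeasure w ≤
      ENNReal.ofReal (K₁ * H p ^ (1 - s)) * R := fun p => by
    refine lintegral_sq_le_of_bound (fun r _ => hb p r) (fun r hr => ?_)
      ENNReal.ofReal_ne_top (hrow p)
    obtain ⟨q, hq, hle, -⟩ := hs' _ r hr
    refine ENNReal.ofReal_le_ofReal ?_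
    calc C₀ * H r ^ (1 - s) ≤ C₀ * (C₁ * C₂ * H p) ^ (1 - s) := by
          refine mul_le_mul_of_nonneg_left (Real.rpow_le_rpow (hH0 r).le ?_ (by linarith)) hC₀
          calc H r ≤ C₁ * H q := hle
            _ ≤ C₁ * (C₂ * H p) := mul_le_mul_of_nonneg_left (hk₁ p q hq).2 hC₁₀
            _ = _ := (mul_assoc _ _ _).symm
      _ = _ := by rw [Real.mul_rpow hC₁₂ (hH0 p).le, ← mul_assoc]
  have h2 : ∀ p, ∫⁻ r, ‖kern t₂ r (ptMap (N' := N) τ p)‖ₑ ^ 2 ∂quotMeasure w ≤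
      ENNReal.ofReal (K₂ * H p) * R' := fun p => by
    refine lintegral_sq_le_of_bound (b := fun r => ENNReal.ofReal (C₄ * H r))
      (fun r _ => by rw [← ofReal_norm]; exact ENNReal.ofReal_le_ofReal (hn₂ r _))
      (fun r hr => ENNReal.ofReal_le_ofReal ?_) ENNReal.ofReal_ne_top
      ((schurKernel hN hw h₂).col _)
    calc C₄ * H r ≤ C₄ * (C₃ * H (ptMap (N' := N) τ p)) :=
          mul_le_mul_of_nonneg_left (hk₂ r _ hr).1 hC₄
      _ ≤ C₄ * (C₃ * H p) := mul_le_mul_of_nonneg_left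
          (mul_le_mul_of_nonneg_left (hτ p) (zero_le_one.trans hC₃)) hC₄
      _ = _ := (mul_assoc _ _ _).symm
  refine lt_of_le_of_lt (lintegral_mono (g := fun p =>
    (ENNReal.ofReal (K₁ * K₂) * R * R') ^ (1 / 2 : ℝ) *
      ENNReal.ofReal (H p ^ (1 - s / 2))) fun p => ?_) ?_
  · refine (mul_le_mul' (ENNReal.rpow_le_rpow (h1 p) (by norm_num))
      (ENNReal.rpow_le_rpow (h2 p) (by norm_num))).trans_eq ?_
    beta_reduce
    rw [← ENNReal.mul_rpow_of_nonneg _ _ (by norm_num),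
      show H p ^ (1 - s / 2) = (H p ^ (2 - s)) ^ (1 / 2 : ℝ) by
        rw [← Real.rpow_mul (hH0 p).le]; ring_nf,
      ← ENNReal.ofReal_rpow_of_nonneg (Real.rpow_nonneg (hH0 p).le _) (by norm_num),
      ← ENNReal.mul_rpow_of_nonneg _ _ (by norm_num)]
    congr 1
    have e : H p ^ (2 - s) = H p ^ (1 - s) * H p := by
      rw [← Real.rpow_add_one (hH0 p).ne']; ring_nf
    rw [e, ENNReal.ofReal_mul (Real.rpow_nonneg (hH0 p).le _), ENNReal.ofReal_mul hK₁,
      ENNReal.ofReal_mul hK₁, ENNReal.ofReal_mul hK₂]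
    ring
  · have hne : (ENNReal.ofReal (K₁ * K₂) * R * R') ^ (1 / 2 : ℝ) ≠ ⊤ :=
      ENNReal.rpow_ne_top_of_nonneg (by norm_num) (ENNReal.mul_ne_top
        (ENNReal.mul_ne_top ENNReal.ofReal_ne_top hR) ENNReal.ofReal_ne_top)
    rw [lintegral_const_mul' _ _ hne]
    exact ENNReal.mul_lt_top hne.lt_top (hInt _ (by linarith))

end bounds

end FLTAgent.LT
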