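import Fermat.Agent.LT.TF.Trace.Stable
import Fermat.Agent.LT.TF.Galois

/-!
An automorphism of the field acts on the points of level `N`, intertwines the action of `PGL₂(F)`
and preserves the measure of the quotient.
-/

set_option autoImplicit false
set_option linter.unusedSectionVars false
set_option linter.style.haveILetI false
set_option synthInstance.maxHeartbeats 200000

noncomputable section

namespace FLTAgent.LT

open NumberField IsDedekindDomain MeasureTheory
open scoped ENNReal

variable {F : Type*} [Field F] [NumberField F] (τ : F ≃+* F)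

local notation "HS" => HeightOneSpectrum (𝓞 F)

/-! ### The maps and their inverses -/

/-- A continuous endomorphism of a completion fixing the field is the identity. -/
theorem apply_eq_of_coe {v w : HS} (e : v = w) (φ : v.adicCompletion F →+* w.adicCompletion F)
    (hc : Continuous φ) (hφ : ∀ x : F, φ (x : v.adicCompletion F) = (x : w.adicCompletion F))
    (a : Af F) : φ (a v) = a w := by
  subst e
  exact congrFun ((HeightOneSpectrum.denseRange_algebraMap F v).equalizer hc continuous_id
    (funext hφ)) (a v)

theorem afMap_symm_afMap (a : Af F) : afMap (τ.symm : F →+* F) (afMap (τ : F →+* F) a) = a := by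
  refine FiniteAdeleRing.ext F fun w => ?_
  have hv : placeBelow (τ : F →+* F) (placeBelow (τ.symm : F →+* F) w) = w :=
    HeightOneSpectrum.ext (Ideal.ext fun z => by
      show RingOfIntegers.mapRingHom (τ.symm : F →+* F)
        (RingOfIntegers.mapRingHom (τ : F →+* F) z) ∈ w.asIdeal ↔ z ∈ w.asIdeal
      rw [show RingOfIntegers.mapRingHom (τ.symm : F →+* F)
        (RingOfIntegers.mapRingHom (τ : F →+* F) z) = z from
          RingOfIntegers.ext (τ.symm_apply_apply _)])
  rw [afMap_apply, afMap_apply]
  exact apply_eq_of_coe hv ((complMap (τ.symm : F →+* F) w).comp (complMap (τ : F →+* F) _))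
    ((continuous_complMap _ w).comp (continuous_complMap _ _))
    (fun x => by rw [RingHom.comp_apply, complMap_coe, complMap_coe]; simp) a

theorem gfMap_symm_gfMap (g : GF F) : gfMap (τ.symm : F →+* F) (gfMap (τ : F →+* F) g) = g :=
  Units.ext (Matrix.ext fun _ _ => afMap_symm_afMap τ _)

theorem comap_symm_comap (w : InfinitePlace F) :
    (w.comap (τ.symm : F →+* F)).comap (τ : F →+* F) = w :=
  InfinitePlace.ext _ _ fun x => by simp [InfinitePlace.comap_apply]

theorem infMap_symm_infMap (x : Xinf F) :
    infMap (τ.symm : F →+* F) (infMap (τ : F →+* F) x) = x := by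
  classical
  funext w
  set u := w.comap (τ.symm : F →+* F) with hu
  have hiff : (u.comap (τ : F →+* F)).embedding = u.embedding.comp (τ : F →+* F) ↔
      u.embedding = w.embedding.comp (τ.symm : F →+* F) := by
    rw [show u.comap (τ : F →+* F) = w from comap_symm_comap τ w]
    constructor <;> intro h <;> refine RingHom.ext fun y => ?_
    · rw [h]; simp
    · rw [h]; simp
  have hconj : ∀ p : H3, conjH3 (conjH3 p) = p := fun p => by simp [conjH3]
  simp only [infMap, ← hu]
  rw [show u.comap (τ : F →+* F) = w from comap_symm_comap τ w] at hiff ⊢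
  by_cases h : w.embedding = u.embedding.comp (τ : F →+* F)
  · rw [if_pos (hiff.1 h), if_pos h]
  · rw [if_neg (fun h' => h (hiff.2 h')), if_neg h, hconj]

/-! ### On cosets and on `PGL₂` -/

variable {N : ℕ}

/-- The map of cosets. -/
def twCos (c : Cos F N) : Cos F N := QuotientGroup.mk (gfMap (τ : F →+* F) c.out)

theorem twCos_mk (hN : 0 < N) (g : GF F) :
    twCos τ (g : Cos F N) = QuotientGroup.mk (gfMap (τ : F →+* F) g) := by
  refine QuotientGroup.eq.2 ?_
  rw [← map_inv, ← map_mul]
  exact Ell.gfMap_mem_UZ _ hN (QuotientGroup.eq.1 (QuotientGroup.out_eq' _))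

theorem twCos_symm_twCos (hN : 0 < N) (c : Cos F N) : twCos τ.symm (twCos τ c) = c := by
  show twCos τ.symm (QuotientGroup.mk (gfMap (τ : F →+* F) c.out)) = c
  rw [twCos_mk _ hN, gfMap_symm_gfMap, QuotientGroup.out_eq']

/-- The map of points is the product of its components. -/
theorem ptMap_eq (p : Pt F N) :
    (ptMap (τ : F →+* F) p : Pt F N) = (infMap (τ : F →+* F) p.1, twCos τ p.2) := rfl

theorem ptMap_symm_ptMap (hN : 0 < N) (p : Pt F N) :
    (ptMap (τ.symm : F →+* F) (ptMap (N' := N) (τ : F →+* F) p) : Pt F N) = p := by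
  rw [ptMap_eq, ptMap_eq, infMap_symm_infMap, twCos_symm_twCos τ hN]

theorem ptMap_smulPt (hN : 0 < N) (γ : GL (Fin 2) F) (p : Pt F N) :
    (ptMap (τ : F →+* F) (smulPt γ p) : Pt F N) =
      smulPt (Matrix.GeneralLinearGroup.map (τ : F →+* F) γ) (ptMap (τ : F →+* F) p) := by
  obtain ⟨g, hg⟩ := QuotientGroup.mk_surjective p.2
  rw [ptMap_eq, ptMap_eq]
  refine Prod.ext (Ell.infMap_actInf _ _ _) ?_
  show twCos τ (toFin γ • p.2) = toFin _ • twCos τ p.2
  rw [← hg, MulAction.Quotient.smul_mk, twCos_mk τ hN, twCos_mk τ hN, MulAction.Quotient.smul_mk,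
    smul_eq_mul, smul_eq_mul, map_mul, gfMap_toFin]

/-- The map of `PGL₂`. -/
def twPG : PG F →* PG F :=
  QuotientGroup.map _ _ (Matrix.GeneralLinearGroup.map (τ : F →+* F)) fun γ hγ => by
    obtain ⟨a, rfl⟩ := (mem_center_iff_scalar γ).1 hγ
    refine (mem_center_iff_scalar _).2 ⟨Units.map (τ : F →+* F).toMonoidHom a, ?_⟩
    ext i j
    rcases eq_or_ne i j with rfl | h <;>
      simp_all [Matrix.GeneralLinearGroup.scalar]

theorem twPG_symm_twPG (q : PG F) : twPG τ.symm (twPG τ q) = q := by
  obtain ⟨γ, rfl⟩ := QuotientGroup.mk_surjective q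
  simp only [twPG, QuotientGroup.map_mk]
  congr 1
  ext i j
  simp

/-- The automorphism of `PGL₂`. -/
def twPGEquiv : PG F ≃ PG F where
  toFun := twPG τ
  invFun := twPG τ.symm
  left_inv := twPG_symm_twPG τ
  right_inv q := by simpa using twPG_symm_twPG τ.symm q

theorem ptMap_smul (hN : 0 < N) (q : PG F) (p : Pt F N) :
    (ptMap (τ : F →+* F) (q • p) : Pt F N) = twPG τ q • ptMap (τ : F →+* F) p := by
  obtain ⟨γ, rfl⟩ := QuotientGroup.mk_surjective q
  rw [mk_smul, ptMap_smulPt τ hN, ← mk_smul]
  rfl

/-! ### Measures -/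

theorem measurable_ptMap [Countable (Cos F N)] :
    Measurable (ptMap (τ : F →+* F) : Pt F N → Pt F N) :=
  ((Ell.measurable_infMap _).comp measurable_fst).prodMk
    ((measurable_from_top (f := (twCos τ : Cos F N → Cos F N))).comp measurable_snd)

/-- The points as a measurable space are permuted. -/
def twPt [Countable (Cos F N)] (hN : 0 < N) : Pt F N ≃ᵐ Pt F N where
  toFun := ptMap (τ : F →+* F)
  invFun := ptMap (τ.symm : F →+* F)
  left_inv := ptMap_symm_ptMap τ hN
  right_inv p := by simpa using ptMap_symm_ptMap τ.symm hN p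
  measurable_toFun := measurable_ptMap τ
  measurable_invFun := measurable_ptMap τ.symm

theorem measurePreserving_infMap :
    MeasurePreserving (infMap (τ : F →+* F))
      (Measure.pi fun _ : InfinitePlace F => hypMeasure)
      (Measure.pi fun _ : InfinitePlace F => hypMeasure) := by
  classical
  set σ : InfinitePlace F ≃ InfinitePlace F :=
    { toFun := fun w => w.comap (τ : F →+* F)
      invFun := fun w => w.comap (τ.symm : F →+* F)
      left_inv := fun w => InfinitePlace.ext _ _ fun x => by simp [InfinitePlace.comap_apply]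
      right_inv := comap_symm_comap τ }
  set c : InfinitePlace F → H3 → H3 := fun w =>
    if (w.comap (τ : F →+* F)).embedding = w.embedding.comp (τ : F →+* F) then id else conjH3
  have h1 : MeasurePreserving (fun (x : Xinf F) (w : InfinitePlace F) => x (σ w))
      (Measure.pi fun _ : InfinitePlace F => hypMeasure)
      (Measure.pi fun _ : InfinitePlace F => hypMeasure) :=
    (measurePreserving_piCongrLeft (fun _ : InfinitePlace F => hypMeasure) σ).symm
  have h2 := measurePreserving_pi (fun _ : InfinitePlace F => hypMeasure)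
    (fun _ : InfinitePlace F => hypMeasure) (f := c) fun w => by
      simp only [c]
      split_ifs
      · exact MeasurePreserving.id _
      · exact TraceTheta.measurePreserving_conjH3
  refine (funext fun x => funext fun w => ?_ : infMap (τ : F →+* F) = _) ▸ h2.comp h1
  simp only [infMap, Function.comp_apply, c, σ, Equiv.coe_fn_mk]
  split_ifs <;> rfl

theorem measurePreserving_twCos (hN : 0 < N) :
    MeasurePreserving (twCos τ : Cos F N → Cos F N) Measure.count Measure.count := by
  refine ⟨measurable_from_top, Measure.ext fun s hs => ?_⟩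
  rw [Measure.map_apply measurable_from_top hs,
    Measure.count_apply (measurable_from_top hs), Measure.count_apply hs]
  congr 1
  exact Set.encard_preimage_of_injective_subset_range
    (Function.LeftInverse.injective (twCos_symm_twCos τ hN))
    (fun c _ => ⟨twCos τ.symm c, by simpa using twCos_symm_twCos τ.symm hN c⟩)

theorem measurePreserving_ptMap [Countable (Cos F N)] (hN : 0 < N) :
    MeasurePreserving (ptMap (τ : F →+* F) : Pt F N → Pt F N) (ptMeasure F N) (ptMeasure F N) :=
  (measurePreserving_infMap τ).prod (measurePreserving_twCos τ hN)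

theorem IsPtWeight.comp_ptMap [Countable (Cos F N)] (hN : 0 < N) {w : Pt F N → ℝ≥0∞}
    (hw : IsPtWeight w) : IsPtWeight fun p : Pt F N => w (ptMap (τ : F →+* F) p) := by
  refine (isPtWeight_iff _).2 ⟨hw.1.comp (measurable_ptMap τ), fun p => ?_⟩
  simp only [ptMap_smul τ hN]
  rw [← ((isPtWeight_iff w).1 hw).sum_one (ptMap (τ : F →+* F) p)]
  exact (twPGEquiv τ).tsum_eq fun q => w (q • ptMap (τ : F →+* F) p)

/-- Integrals of invariant functions over the quotient do not see the automorphism. -/
theorem integral_ptMap [Countable (Cos F N)] (hN : 0 < N) {w : Pt F N → ℝ≥0∞} (hw : IsPtWeight w)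
    {f : Pt F N → ℂ} (hf : Measurable f) (hinv : ∀ (q : PG F) p, f (q • p) = f p)
    (hi : Integrable f (quotMeasure w)) :
    ∫ p, f (ptMap (τ : F →+* F) p) ∂quotMeasure w = ∫ p, f p ∂quotMeasure w := by
  haveI : SMulInvariantMeasure (PG F) (Pt F N) (ptMeasure F N) := instSMulInvariantMeasurePG
  have hw' := IsPtWeight.comp_ptMap τ.symm hN hw
  set w' : Pt F N → ℝ≥0∞ := fun p => w (ptMap (τ.symm : F →+* F) p)
  have he : MeasurePreserving (twPt τ hN) (quotMeasure w) (quotMeasure w') := by
    refine ⟨(twPt τ hN).measurable, Measure.ext fun s hs => ?_⟩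
    rw [Measure.map_apply (twPt τ hN).measurable hs, quotMeasure, quotMeasure, RS.wMeasure,
      RS.wMeasure, withDensity_apply _ ((twPt τ hN).measurable hs), withDensity_apply _ hs,
      ← (measurePreserving_ptMap τ hN).setLIntegral_comp_preimage hs hw'.1]
    refine lintegral_congr fun p => ?_
    simp only [w', ptMap_symm_ptMap τ hN]
  have h := ((isPtWeight_iff w').1 hw').integral_eq ((isPtWeight_iff w).1 hw)
    (μ := ptMeasure F N) hf hinv hi
  exact (he.integral_comp' f).trans h.2

end FLTAgent.LT
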