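import Fermat.Agent.LT.TF.Extract
import Fermat.Agent.LT.TF.TwistMeasure
import Mathlib.Analysis.InnerProductSpace.Trace

/-!
The projected pairing on a side whose joint eigenspace is a space of cusp forms: it is a constant
times the trace of the pullback composed with the operator of the bad part.
-/

set_option autoImplicit false
set_option linter.unusedSectionVars false
set_option linter.unusedSimpArgs false
set_option linter.deprecated false
set_option linter.style.haveILetI false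
set_option synthInstance.maxHeartbeats 200000

noncomputable section

namespace FLTAgent.LT

open NumberField IsDedekindDomain MeasureTheory
open scoped ENNReal InnerProductSpace

variable {F : Type} [Field F] [NumberField F] [IsTotallyComplex F] {N : ℕ}

theorem ptFun_smul_out {Φ : Form F} (hr : ∀ x, Aleph.RightInv N (Φ x)) (x : Xinf F) (g : GF F)
    (d : Cos F N) : ptFun N Φ (x, g • d) = Φ x (g * d.out) := by
  conv_lhs => rw [← QuotientGroup.out_eq' d, MulAction.Quotient.smul_mk, smul_eq_mul]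
  exact ptFun_mk hr x _

theorem ptFun_finAct {Φ : Form F} (hr : ∀ x, Aleph.RightInv N (Φ x)) {f : GF F → ℂ}
    (C : Finset (Cos F N)) (hC : ∀ c : Cos F N, f c.out ≠ 0 → c ∈ C) (p : Pt F N) :
    ptFun N (TraceTheta.finAct N f Φ) p =
      ∑ d ∈ C, f d.out * ptFun N Φ (p.1, p.2.out • d) := by
  show TraceTheta.finAct N f Φ p.1 p.2.out = _
  rw [TraceTheta.finAct, finsum_eq_sum_of_support_subset _ fun c hc =>
    Finset.mem_coe.2 (hC c (left_ne_zero_of_mul hc))]
  exact Finset.sum_congr rfl fun d _ => by rw [ptFun_smul_out hr]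

theorem ptFun_Tform (σ : F ≃+* F) {Φ : Form F} (hr : ∀ x, Aleph.RightInv N (Φ x)) (p : Pt F N) :
    ptFun N (TraceTheta.Tform σ Φ) p = ptFun N Φ (ptMap (σ : F →+* F) p) := by
  rw [ptMap_eq, twCos, ptFun_mk hr]
  rfl

/-- A kernel with an arbitrary finite part through kernels with trivial finite part. -/
theorem kern_finPart {t : Test F} (ht : t.Ok N)
    (hK : (⟨Aleph.wordFin N [], t.inf⟩ : Test F).Ok N) (C : Finset (Cos F N))
    (hC : ∀ c : Cos F N, t.fin c.out ≠ 0 → c ∈ C) (p q : Pt F N) :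
    kern t p q = ∑ d ∈ C, t.fin d.out *
      kern ⟨Aleph.wordFin N [], t.inf⟩ (p.1, p.2.out • d) q := by
  classical
  have hd : ∀ d : Cos F N, t.fin d.out * kern ⟨Aleph.wordFin N [], t.inf⟩ (p.1, p.2.out • d) q =
      ∑' γ : PG F, t.fin d.out * kTerm ⟨Aleph.wordFin N [], t.inf⟩ (p.1, p.2.out • d) (γ • q) :=
    fun d => by rw [kern_eq_tsum hK, tsum_mul_left]
  rw [kern_eq_tsum ht, Finset.sum_congr rfl fun d _ => hd d]
  rw [← Summable.tsum_finsetSum fun d _ => (summable_kTerm hK _ q).mul_left _]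
  refine tsum_congr fun γ => ?_
  simp only [kTerm_wordNil, Set.indicator_apply, Set.mem_setOf_eq, mul_ite, mul_zero]
  set r := γ • q
  set d₀ : Cos F N := p.2.out⁻¹ • r.2 with hd₀
  have hiff : ∀ d : Cos F N, r.2 = p.2.out • d ↔ d = d₀ := fun d =>
    ⟨fun h => by rw [hd₀, h, inv_smul_smul], fun h => by rw [h, hd₀, smul_inv_smul]⟩
  simp only [hiff, Finset.sum_ite_eq']
  obtain ⟨u, hu, e⟩ : ∃ u ∈ UZ F N, d₀.out = p.2.out⁻¹ * r.2.out * u :=
    ⟨_, QuotientGroup.eq.1 (((QuotientGroup.out_eq' d₀).trans (by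
      conv_lhs => rw [hd₀, ← QuotientGroup.out_eq' r.2, MulAction.Quotient.smul_mk, smul_eq_mul]
      )).symm), (mul_inv_cancel_left _ _).symm⟩
  have hf : t.fin d₀.out = t.fin (p.2.out⁻¹ * r.2.out) := by rw [e, ht.right_inv u hu]
  split_ifs with h
  · rw [hf]
    rfl
  · rw [kTerm, ← hf, not_not.1 (mt (hC d₀) h), zero_mul]

variable [Countable (Cos F N)] {w : Pt F N → ℝ≥0∞} (hN : 0 < N) (hw : IsPtWeight w)

include hN hw

/-- A radial kernel row against the vector of a cusp form with parameter zero. -/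
theorem inner_covec_radT {Φ : Form F} (hΦ : CuspZero N Φ) {h : InfinitePlace F → ℝ → ℝ}
    (hh : ∀ v, Rad1 (h v)) (q : Pt F N) :
    ⟪covec w (radT N h) q, vecOf w (ptFun N Φ)⟫_ℂ =
      ((∏ v, lam0 (h v) : ℝ) : ℂ) * ptFun N Φ q := by
  haveI : LocallyCompactSpace (Set.Ioi (0 : ℝ)) := isOpen_Ioi.locallyCompactSpace
  haveI : IsLocallyFiniteMeasure hypMeasure := isLocallyFiniteMeasure_of_isFiniteMeasureOnCompacts
  have hr : ∀ x, Aleph.RightInv N (Φ x) := fun x g u hu => hΦ.aut.mul_UZ x g hu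
  have hl : Aleph.LocForm (Aleph.formOf (ptFun N Φ)) := by
    rw [formOf_ptFun hr]
    exact ⟨fun g => (hΦ.cont g).measurable, fun g => (hΦ.cont g).locallyIntegrable⟩
  have hm := measurable_ptFun (N := N) fun g => (hΦ.cont g).measurable
  have e : ⟪covec w (radT N h) q, vecOf w (ptFun N Φ)⟫_ℂ =
      intOp (quotMeasure w) (kern (radTest N h)) (ptFun N Φ) q := by
    rw [inner_Lp_two, intOp]
    refine integral_congr_ae ?_
    filter_upwards [covec_ae hN hw (ok_radT hh) q, vecOf_ae (memLp_ptFun hN hw hΦ)] with r a b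
    rw [a, b, Complex.conj_conj]
    rfl
  rw [e, intOp_radTest hw hh hm (ptFun_smul hΦ.aut.left_inv hr) hl, formOf_ptFun hr,
    Complex.ofReal_prod]
  obtain ⟨B, hB⟩ := hΦ.bdd
  exact hΦ.eigen.applyProd hh q.1 q.2.out (hΦ.cont _) ⟨B, fun y => hB y _⟩

/-- A column of a radial kernel is its conjugate row. -/
theorem kvec_radT {h : InfinitePlace F → ℝ → ℝ} (hh : ∀ v, Rad1 (h v)) (q : Pt F N) :
    kvec w (radT N h) q = covec w (radT N h) q := by
  refine Lp.ext ?_
  filter_upwards [kvec_ae hN hw (ok_radT hh) q, covec_ae hN hw (ok_radT hh) q] with r a b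
  rw [a, b]
  exact ((herm_word_nil hN (conj_radFun h)).conj_kern hN (ok_radT hh) q r).symm

/-- A radial kernel column against the vector of a cusp form. -/
theorem inner_vec_radT {Φ : Form F} (hΦ : CuspZero N Φ) {h : InfinitePlace F → ℝ → ℝ}
    (hh : ∀ v, Rad1 (h v)) (q : Pt F N) :
    ⟪vecOf w (ptFun N Φ), kvec w (radT N h) q⟫_ℂ =
      ((∏ v, lam0 (h v) : ℝ) : ℂ) * (starRingEnd ℂ) (ptFun N Φ q) := by
  rw [kvec_radT hN hw hh, ← inner_conj_symm, inner_covec_radT hN hw hΦ hh, map_mul,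
    Complex.conj_ofReal]

/-- A row with a finite part against the vector of a cusp form. -/
theorem inner_covec_finPart {Φ : Form F} (hΦ : CuspZero N Φ) {f : GF F → ℂ}
    {h : InfinitePlace F → ℝ → ℝ} (hh : ∀ v, Rad1 (h v))
    (ht : (⟨f, radFun h⟩ : Test F).Ok N) (p : Pt F N) :
    ⟪covec w ⟨f, radFun h⟩ p, vecOf w (ptFun N Φ)⟫_ℂ =
      ((∏ v, lam0 (h v) : ℝ) : ℂ) * ptFun N (TraceTheta.finAct N f Φ) p := by
  classical
  have hr : ∀ x, Aleph.RightInv N (Φ x) := fun x g u hu => hΦ.aut.mul_UZ x g hu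
  set C := ht.finite.toFinset
  have hC : ∀ c : Cos F N, f c.out ≠ 0 → c ∈ C := fun c hc =>
    ht.finite.mem_toFinset.2 ⟨c.out, hc, QuotientGroup.out_eq' c⟩
  have e : covec w ⟨f, radFun h⟩ p =
      ∑ d ∈ C, (starRingEnd ℂ) (f d.out) • covec w (radT N h) (p.1, p.2.out • d) := by
    refine (vecOf_eq (memLp_cokern hN hw ht p) ?_).symm
    filter_upwards [Lp.coeFn_finsetSum C fun d : Cos F N =>
        (starRingEnd ℂ) (f d.out) • covec w (radT N h) (p.1, p.2.out • d),
      (ae_all_iff.2 fun d : Cos F N => (Lp.coeFn_smul ((starRingEnd ℂ) (f d.out))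
        (covec w (radT N h) (p.1, p.2.out • d))).and
          (covec_ae hN hw (ok_radT hh) (p.1, p.2.out • d)))] with r hs hd
    rw [hs, Finset.sum_apply, kern_finPart ht (ok_radT hh) C hC p r, map_sum]
    refine Finset.sum_congr rfl fun d _ => ?_
    rw [(hd d).1, Pi.smul_apply, (hd d).2, smul_eq_mul, map_mul]
    rfl
  rw [e, sum_inner, ptFun_finAct hr C hC, Finset.mul_sum]
  refine Finset.sum_congr rfl fun d _ => ?_
  rw [inner_smul_left, inner_covec_radT hN hw hΦ hh, Complex.conj_conj]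
  ring

/-- The vectors of cusp forms determine the forms. -/
theorem vecOf_ptFun_inj {Φ Ψ : Form F} (hΦ : CuspZero N Φ) (hΨ : CuspZero N Ψ)
    (h : vecOf w (ptFun N Φ) = vecOf w (ptFun N Ψ)) : Φ = Ψ := by
  have hr : ∀ {X : Form F}, CuspZero N X → ∀ x, Aleph.RightInv N (X x) := fun hX x g u hu =>
    hX.aut.mul_UZ x g hu
  rw [← formOf_ptFun (hr hΦ), ← formOf_ptFun (hr hΨ)]
  congr 1
  funext q
  refine eq_of_ae_quot hw (measurable_ptFun fun g => (hΦ.cont g).measurable)
    (measurable_ptFun fun g => (hΨ.cont g).measurable) (ptFun_smul hΦ.aut.left_inv (hr hΦ))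
    (ptFun_smul hΨ.aut.left_inv (hr hΨ)) (fun c => hΦ.cont c.out) (fun c => hΨ.cont c.out) ?_ q
  filter_upwards [vecOf_ae (memLp_ptFun hN hw hΦ), vecOf_ae (memLp_ptFun hN hw hΨ)] with r a b
  rw [← a, ← b, h]

/-- Bounded measurable functions are integrable. -/
theorem integrable_of_bounded {f : Pt F N → ℂ} (hf : Measurable f) (B : ℝ) (hB : ∀ p, ‖f p‖ ≤ B) :
    Integrable f (quotMeasure w) := by
  haveI : IsFiniteMeasure (quotMeasure w) := ⟨Ht.quotMeasure_univ_lt_top hN hw⟩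
  exact Integrable.mono' (integrable_const B) hf.aestronglyMeasurable (Filter.Eventually.of_forall hB)

omit hN hw

namespace SideData

variable {L H κ : Type*} [Fintype κ] {P : FamData L H κ}

/-- The scalar by which the paired combination acts on an eigenvector. -/
def _root_.FLTAgent.LT.FamData.total (P : FamData L H κ) : ℂ :=
  ∑ k, P.coef k * (((P.aw k).map fun l => (P.c l : ℂ)).prod * (P.lam (P.mul P.g (P.ah k)) : ℂ))

variable (S : SideData P F) [Countable (Cos F S.N)]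

theorem inner_covec_iterMul {e : Lp ℂ 2 (quotMeasure S.w)}
    (he : ∀ l, S.opT l e = (P.c l : ℂ) • e) :
    ∀ (ws : List L) {t : Test F}, t.Ok S.N → ∀ p,
      ⟪covec S.w (iterMul (ws.map S.pl) t) p, e⟫_ℂ =
        (ws.map fun l => (P.c l : ℂ)).prod * ⟪covec S.w t p, e⟫_ℂ
  | [], t, _, p => by simp [iterMul]
  | l :: ws, t, ht, p => by
    rw [List.map_cons, iterMul, inner_covec_iterMul he ws (ht.mulHecke (S.hpl l) S.hN).1,
      ← heckeCLM_covec S.hN S.hw (S.hpl l) ht, heckeCLM_symm,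
      show heckeCLM S.hN S.hw (S.hpl l) e = _ from he l, inner_smul_right, List.map_cons,
      List.prod_cons]
    ring

variable (hlam : ∀ a, ∏ v, lam0 (S.hh a v) = P.lam a)

include hlam

theorem inner_covec_tst {Φ : Form F} (hΦ : CuspZero S.N Φ)
    (he : ∀ l, S.opT l (vecOf S.w (ptFun S.N Φ)) = (P.c l : ℂ) • vecOf S.w (ptFun S.N Φ))
    (ws : List L) (a : H) (p : Pt F S.N) :
    ⟪covec S.w (S.tst ws a) p, vecOf S.w (ptFun S.N Φ)⟫_ℂ =
      (ws.map fun l => (P.c l : ℂ)).prod * (P.lam a : ℂ) *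
        ptFun S.N (TraceTheta.finAct S.N S.bad Φ) p := by
  have hok : (⟨S.bad, radFun (S.hh a)⟩ : Test F).Ok S.N :=
    ⟨S.bad_left, S.bad_right, S.bad_finite, lipschitz_radFun (S.hhR a),
      hasCompactSupport_radFun (S.hhR a)⟩
  have e : S.tst ws a = iterMul (ws.map S.pl) ⟨S.bad, radFun (S.hh a)⟩ := by
    have h1 := iterMul_fin_congr (ws.map S.pl) (t := ⟨S.bad, radFun (S.hh a)⟩)
      (t' := ⟨S.bad, radFun (S.hh P.g)⟩) rfl
    have h2 := iterMul_inf (ws.map S.pl) (⟨S.bad, radFun (S.hh a)⟩ : Test F)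
    rw [tst, ← h1]
    conv_lhs => arg 2; rw [show radFun (S.hh a) = _ from h2.symm]
  rw [e, S.inner_covec_iterMul he ws hok, inner_covec_finPart S.hN S.hw hΦ (S.hhR a) hok, hlam]
  ring

theorem inner_k1_form {Φ : Form F} (hΦ : CuspZero S.N Φ)
    (he : ∀ l, S.opT l (vecOf S.w (ptFun S.N Φ)) = (P.c l : ℂ) • vecOf S.w (ptFun S.N Φ))
    (p : Pt F S.N) :
    ⟪S.k1 p, vecOf S.w (ptFun S.N Φ)⟫_ℂ =
      P.total * ptFun S.N (TraceTheta.finAct S.N S.bad Φ) p := by
  rw [inner_k1, FamData.total, Finset.sum_mul]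
  refine Finset.sum_congr rfl fun k _ => ?_
  rw [S.inner_covec_tst hlam hΦ he]
  ring

/-- **The projected pairing as a trace.** -/
theorem pairing_eq_trace (τ : F ≃+* F) (htau : S.tau = (τ : F →+* F))
    (V : Submodule ℂ (Form F)) [FiniteDimensional ℂ V] (hV : ∀ φ ∈ V, CuspZero S.N φ)
    (hmem : ∀ φ ∈ V, vecOf S.w (ptFun S.N φ) ∈ S.allSpace)
    (hall : ∀ u ∈ S.allSpace, ∃ φ ∈ V, vecOf S.w (ptFun S.N φ) = u)
    (X T : V →ₗ[ℂ] V)
    (hX : ∀ φ : V, ((X φ : V) : Form F) = TraceTheta.finAct S.N S.bad (φ : Form F))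
    (hT : ∀ φ : V, ((T φ : V) : Form F) = TraceTheta.Tform τ.symm (φ : Form F)) (a : H) :
    ∫ p, ⟪S.k1 p, S.allSpace.starProjection (S.kq [] a p)⟫_ℂ ∂quotMeasure S.w =
      P.total * (P.lam a : ℂ) * LinearMap.trace ℂ V (T * X) := by
  classical
  have hN := S.hN
  have hw := S.hw
  set vec : Form F → Lp ℂ 2 (quotMeasure S.w) := fun φ => vecOf S.w (ptFun S.N φ) with hvec
  have hr : ∀ φ : V, ∀ x, Aleph.RightInv S.N ((φ : Form F) x) := fun φ x g u hu =>
    (hV _ φ.2).aut.mul_UZ x g hu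
  let L₀ : V →ₗ[ℂ] S.allSpace :=
    { toFun := fun φ => ⟨vec φ, hmem _ φ.2⟩
      map_add' := fun φ ψ => Subtype.ext <| by
        refine (vecOf_eq (memLp_ptFun hN hw (hV _ (φ + ψ).2)) ?_).symm
        filter_upwards [Lp.coeFn_add (vec φ) (vec ψ), vecOf_ae (memLp_ptFun hN hw (hV _ φ.2)),
          vecOf_ae (memLp_ptFun hN hw (hV _ ψ.2))] with r h a b
        show (vec φ + vec ψ) r = _
        rw [h, Pi.add_apply, a, b]
        rfl
      map_smul' := fun c φ => Subtype.ext <| by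
        refine (vecOf_eq (memLp_ptFun hN hw (hV _ (c • φ).2)) ?_).symm
        filter_upwards [Lp.coeFn_smul c (vec φ), vecOf_ae (memLp_ptFun hN hw (hV _ φ.2))] with r h a
        show (c • vec φ) r = _
        rw [h, Pi.smul_apply, a]
        rfl }
  have hinj : Function.Injective L₀ := fun φ ψ h =>
    Subtype.ext (vecOf_ptFun_inj hN hw (hV _ φ.2) (hV _ ψ.2) (congrArg Subtype.val h))
  have hsur : Function.Surjective L₀ := fun u => by
    obtain ⟨φ, hφ, e⟩ := hall _ u.2
    exact ⟨⟨φ, hφ⟩, Subtype.ext e⟩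
  let Le : V ≃ₗ[ℂ] S.allSpace := LinearEquiv.ofBijective L₀ ⟨hinj, hsur⟩
  haveI : FiniteDimensional ℂ S.allSpace := Le.finiteDimensional
  set b := stdOrthonormalBasis ℂ S.allSpace
  set φb : Fin (Module.finrank ℂ S.allSpace) → V := fun i => Le.symm (b i) with hφb
  have hb : ∀ i, vec (φb i) = (b i : Lp ℂ 2 (quotMeasure S.w)) := fun i =>
    congrArg Subtype.val (Le.apply_symm_apply (b i))
  -- the integrand
  have key : ∀ p, ⟪S.k1 p, S.allSpace.starProjection (S.kq [] a p)⟫_ℂ =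
      ∑ i, P.total * (P.lam a : ℂ) * (ptFun S.N (X (φb i) : Form F) p *
        (starRingEnd ℂ) (ptFun S.N (φb i : Form F) (ptMap (τ : F →+* F) p))) := fun p => by
    set x := S.kq [] a p
    have hP : S.allSpace.starProjection x ∈ S.allSpace := Submodule.starProjection_apply_mem _ _
    have hsum := congrArg Subtype.val (b.sum_repr' ⟨_, hP⟩)
    simp only [Submodule.coe_sum, Submodule.coe_smul, Submodule.coe_inner] at hsum
    rw [← hsum, inner_sum]
    refine Finset.sum_congr rfl fun i _ => ?_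
    rw [inner_smul_right, ← Submodule.inner_starProjection_left_eq_right,
      Submodule.starProjection_eq_self_iff.2 (b i).2, ← hb i,
      S.inner_k1_form hlam (hV _ (φb i).2) (fun l => ((S.mem_allSpace).1 (hmem _ (φb i).2)).2
        (Sum.inl l)), hX]
    show ⟪_, kvec S.w (radT S.N (S.hh a)) (ptMap S.tau p)⟫_ℂ * _ = _
    rw [inner_vec_radT hN hw (hV _ (φb i).2) (S.hhR a), hlam, htau]
    ring
  -- measurability and bounds
  have hm : ∀ φ : V, Measurable (ptFun S.N (φ : Form F)) := fun φ =>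
    measurable_ptFun fun g => ((hV _ φ.2).cont g).measurable
  have hinv : ∀ (φ : V) (γ : PG F) p, ptFun S.N (φ : Form F) (γ • p) = ptFun S.N (φ : Form F) p :=
    fun φ => ptFun_smul (hV _ φ.2).aut.left_inv (hr φ)
  have hbd : ∀ φ : V, ∃ B, ∀ p, ‖ptFun S.N (φ : Form F) p‖ ≤ B := fun φ => by
    obtain ⟨B, hB⟩ := (hV _ φ.2).bdd
    exact ⟨B, fun p => hB _ _⟩
  set f : V → V → Pt F S.N → ℂ := fun φ ψ p => ptFun S.N (φ : Form F) p *
    (starRingEnd ℂ) (ptFun S.N (ψ : Form F) (ptMap (τ : F →+* F) p))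
  have hfm : ∀ φ ψ, Measurable (f φ ψ) := fun φ ψ =>
    (hm φ).mul (Complex.continuous_conj.measurable.comp ((hm ψ).comp (measurable_ptMap τ)))
  have hfi : ∀ φ ψ, Integrable (f φ ψ) (quotMeasure S.w) := fun φ ψ => by
    obtain ⟨B, hB⟩ := hbd φ
    obtain ⟨B', hB'⟩ := hbd ψ
    refine integrable_of_bounded hN hw (hfm φ ψ) (B * B') fun p => ?_
    rw [norm_mul, RCLike.norm_conj]
    exact mul_le_mul (hB p) (hB' _) (norm_nonneg _) ((norm_nonneg _).trans (hB p))
  simp only [key]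
  rw [integral_finsetSum _ fun i _ => (hfi _ _).const_mul _,
    ← LinearMap.trace_conj' (T * X) Le, LinearMap.trace_eq_sum_inner _ b, Finset.mul_sum]
  refine Finset.sum_congr rfl fun i _ => ?_
  rw [integral_const_mul]
  congr 1
  -- the adjoint of the pullback
  have hadj := integral_ptMap τ.symm hN hw (hfm (X (φb i)) (φb i)) (fun q p => by
    simp only [f, ptMap_smul τ hN, hinv]) (hfi _ _)
  rw [← hadj, Submodule.coe_inner, ← hb i, inner_Lp_two]
  refine integral_congr_ae ?_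
  show _ =ᵐ[_] fun r => (starRingEnd ℂ) (vec (φb i) r) *
    (vec ((T * X) (φb i)) r)
  filter_upwards [vecOf_ae (memLp_ptFun hN hw (hV _ (φb i).2)),
    vecOf_ae (memLp_ptFun hN hw (hV _ ((T * X) (φb i)).2))] with r a b
  show _ = (starRingEnd ℂ) (vecOf S.w _ r) * vecOf S.w _ r
  rw [a, b, Module.End.mul_apply, hT, ptFun_Tform τ.symm (hr _)]
  simp only [f]
  rw [show (ptMap (τ : F →+* F) (ptMap (N' := S.N) (τ.symm : F →+* F) r) : Pt F S.N) = r by
    simpa using ptMap_symm_ptMap τ.symm hN r, mul_comm]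

end SideData

end FLTAgent.LT
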