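import Fermat.Agent.LT.Hyp.Radial
import Fermat.Agent.LT.TF.Defs

/-!
One-place radial kernels, as functions of the hyperbolic distance: the admissible class, their
convolution, their value at spectral parameter zero, and products over the infinite places.
-/

set_option autoImplicit false

noncomputable section

namespace FLTAgent.LT

open MeasureTheory NumberField

/-- An admissible radial kernel of one place: Lipschitz and compactly supported. -/
structure Rad1 (H : ℝ → ℝ) : Prop where
  lipschitz : ∃ C, LipschitzWith C H
  compact : HasCompactSupport H

/-- The point `r` away from the base point on the vertical axis. -/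
def axisPt (r : ℝ) : H3 := (0, ⟨Real.exp r, Set.mem_Ioi.2 (Real.exp_pos r)⟩)

/-- Convolution of radial kernels of one place. -/
def conv1 (H G : ℝ → ℝ) (r : ℝ) : ℝ :=
  ∫ y, H (hdist Hyp.org y) * G (hdist y (axisPt r)) ∂hypMeasure

/-- The value of a radial kernel at spectral parameter zero. -/
def lam0 (H : ℝ → ℝ) : ℝ := ∫ r in Set.Ioi (0 : ℝ), H r * (4 * Real.pi * r * Real.sinh r)

variable {F : Type*} [Field F] [NumberField F]

/-- The product over the places of radial kernels. -/
def radFun (h : InfinitePlace F → ℝ → ℝ) (r : InfinitePlace F → ℝ) : ℂ :=
  ∏ w, ((h w (r w) : ℝ) : ℂ)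

end FLTAgent.LT
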