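import Fermat.Agent.LT.TF.Vec
import Fermat.Agent.LT.TF.RadialOne
import Fermat.Agent.LT.TF.JointSpace

/-!
The operators on one side of the comparison: composition rules, commutation, and the pairing of a
transposed kernel vector with a damped word vector as a damped kernel.
-/

set_option autoImplicit false
set_option linter.unusedSectionVars false
set_option linter.unusedSimpArgs false
set_option linter.deprecated false
set_option linter.style.haveILetI false
set_option synthInstance.maxHeartbeats 200000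

noncomputable section

namespace FLTAgent.LT

open NumberField IsDedekindDomain MeasureTheory
open scoped ENNReal InnerProductSpace

variable {F : Type*} [Field F] [NumberField F] {N : ℕ}

/-- The radial test of a tuple of one-place kernels. -/
def radT (N : ℕ) (h : InfinitePlace F → ℝ → ℝ) : Test F := ⟨Aleph.wordFin N [], radFun h⟩

theorem conj_radFun (h : InfinitePlace F → ℝ → ℝ) (r : InfinitePlace F → ℝ) :
    (starRingEnd ℂ) (radFun h r) = radFun h r := by
  simp [radFun, map_prod]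

theorem ok_word {ws : List (HeightOneSpectrum (𝓞 F))} (hws : ∀ v ∈ ws, (N : 𝓞 F) ∉ v.asIdeal)
    {h : InfinitePlace F → ℝ → ℝ} (hh : ∀ w, Rad1 (h w)) :
    (⟨Aleph.wordFin N ws, radFun h⟩ : Test F).Ok N :=
  Aleph.wordFin_ok hws _ (lipschitz_radFun hh) (hasCompactSupport_radFun hh)

theorem ok_radT {h : InfinitePlace F → ℝ → ℝ} (hh : ∀ w, Rad1 (h w)) : (radT N h).Ok N :=
  ok_word (ws := []) (by simp) hh

theorem mulHecke_word_nil {v : HeightOneSpectrum (𝓞 F)} (hv : (N : 𝓞 F) ∉ v.asIdeal)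
    (K : (InfinitePlace F → ℝ) → ℂ) :
    (⟨Aleph.wordFin N [], K⟩ : Test F).mulHecke v = ⟨Aleph.wordFin N [v], K⟩ := by
  classical
  have key : ∀ y, ((⟨Aleph.wordFin N [], K⟩ : Test F).mulHecke v).fin y = Aleph.wordFin N [v] y := by
    intro y
    have h1 : ((⟨Aleph.wordFin N [], K⟩ : Test F).mulHecke v).fin y =
        ∑ r : Aleph.RIdx v, (UZ F N : Set (GF F)).indicator 1 (y * Aleph.hRep v r) := by
      rw [Fintype.sum_option, add_comm]
      show (∑ᶠ u, _) + _ = _
      rw [finsum_eq_sum_of_fintype]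
      rfl
    have h2 : ∀ g : GF F, (UZ F N : Set (GF F)).indicator (1 : GF F → ℂ) g =
        (UZ F N : Set (GF F)).indicator 1 g⁻¹ := fun g => by
      by_cases h : g ∈ UZ F N <;> simp [h]
    have h3 : ((⟨Aleph.wordFin N [], K⟩ : Test F).mulHecke v).fin y =
        Aleph.wordFin N [v] y⁻¹ := by
      rw [h1]
      exact Finset.sum_congr rfl fun r _ => by rw [h2, mul_inv_rev]; rfl
    rw [h3, ← (Aleph.isFinKer_word v hv).herm]
    simp [Aleph.wordFin, map_sum, Set.indicator_apply, apply_ite (starRingEnd ℂ)]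
  cases hm : ((⟨Aleph.wordFin N [], K⟩ : Test F).mulHecke v) with
  | mk a b =>
    congr 1
    · exact funext fun y => by rw [← key y, hm]
    · exact (congrArg Test.inf hm).symm

/-- Iterated composition with `T_v` on the right. -/
def iterMul : List (HeightOneSpectrum (𝓞 F)) → Test F → Test F
  | [], t => t
  | v :: ws, t => iterMul ws (t.mulHecke v)

theorem iterMul_inf : ∀ (ws : List (HeightOneSpectrum (𝓞 F))) (t : Test F),
    (iterMul ws t).inf = t.inf
  | [], _ => rfl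
  | v :: ws, t => (iterMul_inf ws (t.mulHecke v)).trans rfl

theorem Test.Ok.iterMul (hN : 0 < N) : ∀ {ws : List (HeightOneSpectrum (𝓞 F))},
    (∀ v ∈ ws, (N : 𝓞 F) ∉ v.asIdeal) → ∀ {t : Test F}, t.Ok N → (LT.iterMul ws t).Ok N
  | [], _, _, ht => ht
  | v :: ws, h, _, ht => Test.Ok.iterMul hN (fun u hu => h u (List.mem_cons_of_mem _ hu))
      (ht.mulHecke (h v List.mem_cons_self) hN).1

theorem Test.Ok.of_fin {t t' : Test F} (ht : t.Ok N) (hfin : t'.fin = t.fin)
    (hL : ∃ C, LipschitzWith C t'.inf) (hK : HasCompactSupport t'.inf) : t'.Ok N :=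
  ⟨hfin ▸ ht.left_inv, hfin ▸ ht.right_inv, hfin ▸ ht.finite, hL, hK⟩

theorem Test.Ok.damp (hN : 0 < N) {v : HeightOneSpectrum (𝓞 F)} (hv : (N : 𝓞 F) ∉ v.asIdeal)
    {t : Test F} (ht : t.Ok N) : (t.damp v).Ok N := by
  have h2 := ((ht.mulHecke hv hN).1.mulHecke hv hN).1
  refine ⟨fun u hu g => ?_, fun u hu g => ?_,
    ((ht.finite.union h2.finite).subset ?_), ht.lipschitz, ht.compact⟩
  · simp only [Test.damp, ht.left_inv u hu, h2.left_inv u hu]
  · simp only [Test.damp, ht.right_inv u hu, h2.right_inv u hu]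
  · rw [← Set.image_union]
    refine Set.image_mono fun g hg => ?_
    by_contra hne
    simp only [Set.mem_union, Function.mem_support, not_or, not_not] at hne
    exact hg (by simp [Test.damp, hne.1, hne.2])

theorem Test.Ok.dampPow (hN : 0 < N) {v : HeightOneSpectrum (𝓞 F)} (hv : (N : 𝓞 F) ∉ v.asIdeal) :
    ∀ (J : ℕ) {t : Test F}, t.Ok N → (t.dampPow v J).Ok N
  | 0, _, ht => ht
  | J + 1, _, ht => (Test.Ok.dampPow hN hv J ht).damp hN hv

theorem Test.dampPow_inf (v : HeightOneSpectrum (𝓞 F)) : ∀ (J : ℕ) (t : Test F),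
    (t.dampPow v J).inf = t.inf
  | 0, _ => rfl
  | J + 1, t => (Test.dampPow_inf v J t).symm ▸ rfl

theorem Test.dampPow_fin_congr (v : HeightOneSpectrum (𝓞 F)) {t t' : Test F}
    (h : t.fin = t'.fin) : ∀ J, (t.dampPow v J).fin = (t'.dampPow v J).fin
  | 0 => h
  | J + 1 => by
    funext y
    have ih := Test.dampPow_fin_congr v h J
    simp only [Test.dampPow, Test.damp, Test.mulHecke, ih]

section

variable [Countable (Cos F N)] {w : Pt F N → ℝ≥0∞} (hN : 0 < N) (hw : IsPtWeight w)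

include hN hw

/-- The operator of a kernel is pairing with its transposed sections. -/
theorem kernCLM_ae {t : Test F} (ht : t.Ok N) (u : Lp ℂ 2 (quotMeasure w)) :
    kernCLM hN hw ht u =ᵐ[quotMeasure w] fun p => ⟪covec w t p, u⟫_ℂ := by
  haveI := sFinite_quotMeasure hw
  refine ((schurKernel hN hw ht).formula.op_ae u).trans (Filter.Eventually.of_forall fun p => ?_)
  show intOp (quotMeasure w) (kern t) u p = ⟪covec w t p, u⟫_ℂ
  rw [inner_Lp_two, intOp]
  refine integral_congr_ae ?_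
  filter_upwards [covec_ae hN hw ht p] with r hr
  rw [hr, Complex.conj_conj]

theorem kernCLM_congr {t t' : Test F} (ht : t.Ok N) (ht' : t'.Ok N) (h : t = t') :
    kernCLM hN hw ht = kernCLM hN hw ht' := by
  subst h; rfl

theorem covec_smul {t : Test F} (ht : t.Ok N) (γ : PG F) (p : Pt F N) :
    covec w t (γ • p) = covec w t p := by
  simp only [covec, kern_smul_left ht]

/-- `T_v` composed with a kernel operator. -/
theorem heckeCLM_kernCLM {v : HeightOneSpectrum (𝓞 F)} (hv : (N : 𝓞 F) ∉ v.asIdeal) {t : Test F}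
    (ht : t.Ok N) (u : Lp ℂ 2 (quotMeasure w)) :
    heckeCLM hN hw hv (kernCLM hN hw ht u) = kernCLM hN hw (ht.heckeL hv) u := by
  refine Lp.ext ?_
  refine ((finFormula hw (Aleph.isFinKer_word v hv)).op_ae _).trans ?_
  filter_upwards [finOp_congr hN hw (f := Aleph.wordFin N [v]) (kernCLM_ae hN hw ht u),
    kernCLM_ae hN hw (ht.heckeL hv) u] with p hp hq
  rw [hp, hq, finOp_word hw hv (fun γ p => by rw [covec_smul hN hw ht]), Aleph.hOp, ← sum_inner]
  congr 1
  refine Lp.ext ?_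
  have hall := ae_all_iff.2 fun r : Aleph.RIdx v =>
    covec_ae hN hw ht (p.1, ((p.2.out * Aleph.hRep v r : GF F) : Cos F N))
  filter_upwards [hall, covec_ae hN hw (ht.heckeL hv) p,
    Lp.coeFn_finsetSum Finset.univ fun r : Aleph.RIdx v =>
      covec w t (p.1, ((p.2.out * Aleph.hRep v r : GF F) : Cos F N))] with x hx hy hs
  rw [hs, hy, Finset.sum_apply]
  simp only [hx, ← map_sum]
  congr 1
  rw [← finOp_kern hw hv ht p x, finOp_word hw hv (fun γ p => kern_smul_left ht γ p x), Aleph.hOp]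

theorem finOp_avg (f : GF F → ℂ) (u : Pt F N → ℂ) (p : Pt F N) :
    finOp w f (avg w u) p = finOp w f u p :=
  tsum_congr fun c => by rw [avg_of_invariant hw (fun γ q => avg_smul u γ q)]

theorem heckeCLM_comm {v v' : HeightOneSpectrum (𝓞 F)} (hv : (N : 𝓞 F) ∉ v.asIdeal)
    (hv' : (N : 𝓞 F) ∉ v'.asIdeal) : Commute (heckeCLM hN hw hv) (heckeCLM hN hw hv') := by
  refine ContinuousLinearMap.ext fun u => Lp.ext ?_
  have key : ∀ {a b : HeightOneSpectrum (𝓞 F)} (ha : (N : 𝓞 F) ∉ a.asIdeal)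
      (hb : (N : 𝓞 F) ∉ b.asIdeal), ∀ᵐ p ∂quotMeasure w,
      (heckeCLM hN hw ha (heckeCLM hN hw hb u)) p = ∑ r : Aleph.RIdx a, ∑ s : Aleph.RIdx b,
        avg w u (p.1, ((p.2.out * Aleph.hRep a r * Aleph.hRep b s : GF F) : Cos F N)) := by
    intro a b ha hb
    filter_upwards [(finFormula hw (Aleph.isFinKer_word a ha)).op_ae (heckeCLM hN hw hb u),
      finOp_congr hN hw (f := Aleph.wordFin N [a])
        ((finFormula hw (Aleph.isFinKer_word b hb)).op_ae u)] with p hp hq
    show (finFormula hw (Aleph.isFinKer_word a ha)).op _ p = _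
    rw [hp]
    refine hq.trans ?_
    rw [finOp_word hw ha (fun γ q => finOp_smul (Aleph.isFinKer_word b hb) u γ q), Aleph.hOp]
    refine Finset.sum_congr rfl fun r _ => ?_
    show finOp w _ _ _ = _
    rw [← finOp_avg hN hw, finOp_word hw hb (fun γ q => avg_smul _ γ q)]
    obtain ⟨k, hk, e⟩ : ∃ k ∈ UZ F N,
        ((p.2.out * Aleph.hRep a r : GF F) : Cos F N).out = p.2.out * Aleph.hRep a r * k :=
      ⟨_, QuotientGroup.eq.1 (QuotientGroup.out_eq' _).symm, (mul_inv_cancel_left _ _).symm⟩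
    have hR : Aleph.RightInv N fun g : GF F => avg w u (p.1, (g : Cos F N)) := fun g k hk =>
      congrArg (fun c => avg w u (p.1, c)) (QuotientGroup.mk_mul_of_mem g hk)
    refine Eq.trans ?_ (hR.hOp hb _ k hk)
    rw [← e]
  filter_upwards [key hv hv', key hv' hv] with p h1 h2
  show (heckeCLM hN hw hv (heckeCLM hN hw hv' u)) p = (heckeCLM hN hw hv' (heckeCLM hN hw hv u)) p
  rw [h1, h2]
  rcases eq_or_ne v v' with rfl | hne
  · rfl
  rw [Finset.sum_comm]
  refine Finset.sum_congr rfl fun s _ => Finset.sum_congr rfl fun r _ => ?_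
  have hc : Aleph.hRep v r * Aleph.hRep v' s = Aleph.hRep v' s * Aleph.hRep v r :=
    Units.ext (Red.loc_ext fun x => by
      rw [Units.val_mul, Units.val_mul, Red.loc_mul, Red.loc_mul]
      rcases eq_or_ne x v with rfl | hx
      · rw [(Aleph.loc_hRep_ne v' hne s).1, mul_one, one_mul]
      · rw [(Aleph.loc_hRep_ne v hx r).1, one_mul, mul_one])
  rw [mul_assoc, hc, ← mul_assoc]

omit hN hw in
theorem finMass_word_le (v : HeightOneSpectrum (𝓞 F)) :
    (finMass N (Aleph.wordFin N [v])).toReal ≤ ((Nat.card (𝓞 F ⧸ v.asIdeal) + 1 : ℕ) : ℝ) := by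
  classical
  have hle : finMass N (Aleph.wordFin N [v]) ≤
      ((Nat.card (𝓞 F ⧸ v.asIdeal) + 1 : ℕ) : ℝ≥0∞) := by
    refine le_trans (ENNReal.tsum_le_tsum (g := fun c : Cos F N =>
      ∑ r : Aleph.RIdx v, ‖(UZ F N : Set (GF F)).indicator (1 : GF F → ℂ)
        ((Aleph.hRep v r)⁻¹ * c.out)‖ₑ) fun c => ?_) ?_
    · refine le_trans (le_of_eq ?_) (enorm_sum_le _ _)
      rfl
    rw [Summable.tsum_finsetSum fun _ _ => ENNReal.summable]
    refine le_trans (Finset.sum_le_card_nsmul _ _ 1 fun r _ => ?_) (le_of_eq ?_)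
    · rw [tsum_eq_single ((Aleph.hRep v r : GF F) : Cos F N) fun c hc => ?_]
      · by_cases h : (Aleph.hRep v r)⁻¹ * ((Aleph.hRep v r : GF F) : Cos F N).out ∈ UZ F N <;>
          simp [h]
      · rw [Set.indicator_of_notMem, enorm_zero]
        intro hm
        exact hc (by rw [← QuotientGroup.out_eq' c]; exact (QuotientGroup.eq.2 hm).symm)
    · rw [Finset.card_univ, Fintype.card_option, Fintype.card_eq_nat_card, nsmul_eq_mul, mul_one]
  calc _ ≤ ((Nat.card (𝓞 F ⧸ v.asIdeal) + 1 : ℕ) : ℝ≥0∞).toReal :=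
        ENNReal.toReal_mono (ENNReal.natCast_ne_top _) hle
    _ = _ := ENNReal.toReal_natCast _

/-- The damping contraction `T_v / (q + 1)`. -/
def dampA (hN : 0 < N) (hw : IsPtWeight w) {v : HeightOneSpectrum (𝓞 F)}
    (hv : (N : 𝓞 F) ∉ v.asIdeal) : Lp ℂ 2 (quotMeasure w) →L[ℂ] Lp ℂ 2 (quotMeasure w) :=
  (((Nat.card (𝓞 F ⧸ v.asIdeal) + 1 : ℕ) : ℂ))⁻¹ • heckeCLM hN hw hv

theorem isSAC_dampA {v : HeightOneSpectrum (𝓞 F)} (hv : (N : 𝓞 F) ∉ v.asIdeal) :
    IsSAC (dampA hN hw hv) := by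
  refine ⟨fun a b => ?_, fun a => ?_⟩
  · simp only [dampA, ContinuousLinearMap.smul_apply, inner_smul_left, inner_smul_right,
      heckeCLM_symm hN hw hv, map_inv₀, map_natCast]
  · simp only [dampA, ContinuousLinearMap.smul_apply, norm_smul, norm_inv, Complex.norm_natCast]
    rw [inv_mul_le_iff₀ (by positivity)]
    exact ((finFormula hw (Aleph.isFinKer_word v hv)).norm_op_le a).trans
      (mul_le_mul_of_nonneg_right (finMass_word_le v) (norm_nonneg a))

theorem kernCLM_comp {t₁ t₂ : Test F} (h₁ : t₁.Ok N) (h₂ : t₂.Ok N) (hh : t₂.Herm)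
    {s : (InfinitePlace F → ℝ) → ℂ}
    (hspec : ∀ x z : Xinf F, ∫ y, t₁.inf (fun v => hdist (x v) (y v)) *
      t₂.inf (fun v => hdist (y v) (z v)) ∂Measure.pi (fun _ : InfinitePlace F => hypMeasure) =
        s fun v => hdist (x v) (z v))
    (hs : ∃ C, LipschitzWith C s) (hs' : HasCompactSupport s) :
    kernCLM hN hw h₁ * kernCLM hN hw h₂ = kernCLM hN hw (ok_finConv h₁ h₂ hs hs') := by
  refine ContinuousLinearMap.ext fun u => Lp.ext ?_
  filter_upwards [kernCLM_ae hN hw h₁ (kernCLM hN hw h₂ u),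
    kernCLM_ae hN hw (ok_finConv h₁ h₂ hs hs') u] with p a b
  show (kernCLM hN hw h₁ (kernCLM hN hw h₂ u)) p = _
  rw [a, b, ← kernCLM_symm hN hw h₂ hh, kernCLM_covec hN hw h₁ h₂ hspec hs hs' hh]

omit hN hw in
theorem finConv_radT (h h' : InfinitePlace F → ℝ → ℝ) (hN : 0 < N) :
    finConv N (radT N h).fin (radT N h').fin = Aleph.wordFin N [] :=
  funext fun y => finConv_unit_right hN (fun u hu g => Aleph.wordFin_right N [] g u hu) y

theorem radOp_comp {h h' : InfinitePlace F → ℝ → ℝ} (hh : ∀ x, Rad1 (h x))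
    (hh' : ∀ x, Rad1 (h' x)) :
    kernCLM hN hw (ok_radT (N := N) hh) * kernCLM hN hw (ok_radT (N := N) hh') =
      kernCLM hN hw (ok_radT (N := N) fun x => (hh x).conv1 (hh' x)) := by
  rw [kernCLM_comp hN hw (ok_radT hh) (ok_radT hh') (herm_word_nil hN (conj_radFun h'))
    (s := radFun fun x => conv1 (h x) (h' x)) (radFun_conv hh hh')
    (lipschitz_radFun fun x => (hh x).conv1 (hh' x))
    (hasCompactSupport_radFun fun x => (hh x).conv1 (hh' x))]
  exact kernCLM_congr hN hw _ _ (congrArg (fun f => (⟨f, _⟩ : Test F)) (finConv_radT h h' hN))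

theorem radOp_comm {h h' : InfinitePlace F → ℝ → ℝ} (hh : ∀ x, Rad1 (h x))
    (hh' : ∀ x, Rad1 (h' x)) :
    Commute (kernCLM hN hw (ok_radT (N := N) hh)) (kernCLM hN hw (ok_radT (N := N) hh')) := by
  show _ * _ = _ * _
  rw [radOp_comp hN hw hh hh', radOp_comp hN hw hh' hh]
  refine kernCLM_congr hN hw _ _ ?_
  rw [show (fun x => conv1 (h x) (h' x)) = fun x => conv1 (h' x) (h x) from
    funext fun x => conv1_comm (hh x) (hh' x)]

theorem hecke_radOp_comm {v : HeightOneSpectrum (𝓞 F)} (hv : (N : 𝓞 F) ∉ v.asIdeal)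
    {h : InfinitePlace F → ℝ → ℝ} (hh : ∀ x, Rad1 (h x)) :
    Commute (heckeCLM hN hw hv) (kernCLM hN hw (ok_radT (N := N) hh)) := by
  have hone : ∀ x ∈ [v], (N : 𝓞 F) ∉ x.asIdeal := fun x hx => by
    rw [List.mem_singleton.1 hx]; exact hv
  refine ContinuousLinearMap.ext fun u => ?_
  show heckeCLM hN hw hv (kernCLM hN hw (ok_radT (N := N) hh) u) =
    kernCLM hN hw (ok_radT (N := N) hh) (heckeCLM hN hw hv u)
  rw [heckeCLM_kernCLM hN hw hv (ok_radT hh) u]
  refine Lp.ext ?_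
  filter_upwards [kernCLM_ae hN hw ((ok_radT (N := N) hh).heckeL hv) u,
    kernCLM_ae hN hw (ok_radT (N := N) hh) (heckeCLM hN hw hv u)] with p a b
  rw [a, b, ← heckeCLM_symm hN hw hv, heckeCLM_covec hN hw hv (ok_radT hh)]
  show ⟪covec w ((⟨Aleph.wordFin N [], radFun h⟩ : Test F).heckeL v) p, u⟫_ℂ =
    ⟪covec w ((⟨Aleph.wordFin N [], radFun h⟩ : Test F).mulHecke v) p, u⟫_ℂ
  rw [heckeL_wordFin, mulHecke_word_nil hv]

theorem heckeCLM_word {v : HeightOneSpectrum (𝓞 F)} (hv : (N : 𝓞 F) ∉ v.asIdeal)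
    {ws : List (HeightOneSpectrum (𝓞 F))} (hws : ∀ x ∈ ws, (N : 𝓞 F) ∉ x.asIdeal)
    {h : InfinitePlace F → ℝ → ℝ} (hh : ∀ x, Rad1 (h x)) (q : Pt F N) :
    heckeCLM hN hw hv (kvec w ⟨Aleph.wordFin N ws, radFun h⟩ q) =
      kvec w ⟨Aleph.wordFin N (v :: ws), radFun h⟩ q := by
  rw [heckeCLM_kvec hN hw hv (ok_word hws hh), heckeL_wordFin]

theorem radOp_word {ws : List (HeightOneSpectrum (𝓞 F))} (hws : ∀ x ∈ ws, (N : 𝓞 F) ∉ x.asIdeal)
    {g h : InfinitePlace F → ℝ → ℝ} (hg : ∀ x, Rad1 (g x)) (hh : ∀ x, Rad1 (h x)) (q : Pt F N) :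
    kernCLM hN hw (ok_radT (N := N) hg) (kvec w ⟨Aleph.wordFin N ws, radFun h⟩ q) =
      kvec w ⟨Aleph.wordFin N ws, radFun fun x => conv1 (g x) (h x)⟩ q := by
  rw [kernCLM_kvec hN hw (ok_radT hg) (ok_word hws hh) (radFun_conv hg hh)
    (lipschitz_radFun fun x => (hg x).conv1 (hh x))
    (hasCompactSupport_radFun fun x => (hg x).conv1 (hh x))]
  exact congrArg (fun f => kvec w (⟨f, _⟩ : Test F) q)
    (funext fun y => finConv_unit_left hN (fun u hu g => Aleph.wordFin_left hws u hu g) y)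

/-- A transposed vector against a word vector. -/
theorem inner_covec_word {K S : (InfinitePlace F → ℝ) → ℂ}
    {h : InfinitePlace F → ℝ → ℝ} (hh : ∀ x, Rad1 (h x))
    (hspec : ∀ x z : Xinf F, ∫ y, K (fun v => hdist (x v) (y v)) *
      radFun h (fun v => hdist (y v) (z v)) ∂Measure.pi (fun _ : InfinitePlace F => hypMeasure) =
        S fun v => hdist (x v) (z v))
    (hS : ∃ C, LipschitzWith C S) (hS' : HasCompactSupport S) :
    ∀ {ws : List (HeightOneSpectrum (𝓞 F))}, (∀ x ∈ ws, (N : 𝓞 F) ∉ x.asIdeal) →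
      ∀ {t : Test F}, t.Ok N → t.inf = K → ∀ p q : Pt F N,
        ⟪covec w t p, kvec w ⟨Aleph.wordFin N ws, radFun h⟩ q⟫_ℂ =
          kern ⟨(iterMul ws t).fin, S⟩ p q
  | [], _, t, ht, htK, p, q => by
    rw [inner_covec_kvec_eq hN hw ht (ok_word (ws := []) (by simp) hh)
      (by rw [htK]; exact hspec) hS hS']
    exact congrArg (fun f => kern (⟨f, _⟩ : Test F) p q)
      (funext fun y => finConv_unit_right hN (fun u hu g => ht.right_inv u hu g) y)
  | v :: ws, hws, t, ht, htK, p, q => by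
    have hv := hws v List.mem_cons_self
    have hws' : ∀ x ∈ ws, (N : 𝓞 F) ∉ x.asIdeal := fun x hx => hws x (List.mem_cons_of_mem _ hx)
    rw [← heckeCLM_word hN hw hv hws' hh, ← heckeCLM_symm hN hw hv, heckeCLM_covec hN hw hv ht]
    exact inner_covec_word hh hspec hS hS' hws' (ht.mulHecke hv hN).1 htK p q

theorem dampA_covec {v : HeightOneSpectrum (𝓞 F)} (hv : (N : 𝓞 F) ∉ v.asIdeal) {t : Test F}
    (ht : t.Ok N) (p : Pt F N) :
    (1 - dampA hN hw hv * dampA hN hw hv) (covec w t p) = covec w (t.damp v) p := by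
  have h1 := (ht.mulHecke hv hN).1
  have h2 := (h1.mulHecke hv hN).1
  set c : ℂ := (((Nat.card (𝓞 F ⧸ v.asIdeal) + 1 : ℕ) : ℂ))⁻¹ with hc
  have e : (1 - dampA hN hw hv * dampA hN hw hv) (covec w t p) =
      covec w t p - (c * c) • covec w ((t.mulHecke v).mulHecke v) p := by
    show covec w t p - c • heckeCLM hN hw hv (c • heckeCLM hN hw hv (covec w t p)) = _
    rw [map_smul, heckeCLM_covec hN hw hv ht, heckeCLM_covec hN hw hv h1, smul_smul]
  rw [e]
  refine Lp.ext ?_
  filter_upwards [Lp.coeFn_sub (covec w t p) ((c * c) • covec w ((t.mulHecke v).mulHecke v) p),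
    Lp.coeFn_smul (c * c) (covec w ((t.mulHecke v).mulHecke v) p), covec_ae hN hw ht p,
    covec_ae hN hw h2 p, covec_ae hN hw (ht.damp hN hv) p] with r a b x y z
  rw [a, Pi.sub_apply, b, Pi.smul_apply, x, y, z, smul_eq_mul,
    show c * c = (starRingEnd ℂ) (c * c) by simp [hc, map_inv₀, map_natCast], ← map_mul, ← map_sub]
  congr 1
  rw [kern_eq_tsum ht, kern_eq_tsum h2, kern_eq_tsum (ht.damp hN hv), ← tsum_mul_left,
    ← (summable_kTerm ht p r).tsum_sub ((summable_kTerm h2 p r).mul_left _)]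
  refine tsum_congr fun γ => ?_
  simp only [kTerm, Test.damp, hc]
  rw [show ((t.mulHecke v).mulHecke v).inf = t.inf from rfl]
  field_simp

theorem dampPow_covec {v : HeightOneSpectrum (𝓞 F)} (hv : (N : 𝓞 F) ∉ v.asIdeal) :
    ∀ (J : ℕ) {t : Test F}, t.Ok N → ∀ p : Pt F N,
      ((1 - dampA hN hw hv * dampA hN hw hv) ^ J) (covec w t p) = covec w (t.dampPow v J) p
  | 0, _, _, _ => rfl
  | J + 1, t, ht, p => by
    rw [damper_pow_succ, dampPow_covec hv J ht p,
      dampA_covec hN hw hv (ht.dampPow hN hv J) p]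
    rfl

/-- **The damped pairing is a damped kernel.** -/
theorem inner_covec_dampPow_word {v : HeightOneSpectrum (𝓞 F)} (hv : (N : 𝓞 F) ∉ v.asIdeal)
    (J : ℕ) {K S : (InfinitePlace F → ℝ) → ℂ} {h : InfinitePlace F → ℝ → ℝ}
    (hh : ∀ x, Rad1 (h x))
    (hspec : ∀ x z : Xinf F, ∫ y, K (fun v => hdist (x v) (y v)) *
      radFun h (fun v => hdist (y v) (z v)) ∂Measure.pi (fun _ : InfinitePlace F => hypMeasure) =
        S fun v => hdist (x v) (z v))
    (hS : ∃ C, LipschitzWith C S) (hS' : HasCompactSupport S) :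
    ∀ {ws : List (HeightOneSpectrum (𝓞 F))}, (∀ x ∈ ws, (N : 𝓞 F) ∉ x.asIdeal) →
      ∀ {t : Test F}, t.Ok N → t.inf = K → ∀ p q : Pt F N,
        ⟪covec w t p,
          ((1 - dampA hN hw hv * dampA hN hw hv) ^ J) (kvec w ⟨Aleph.wordFin N ws, radFun h⟩ q)⟫_ℂ =
          kern ((⟨(iterMul ws t).fin, S⟩ : Test F).dampPow v J) p q
  | [], _, t, ht, htK, p, q => by
    have hD : IsDamper (1 - dampA hN hw hv * dampA hN hw hv) :=
      (isDamper_one_sub_sq _ (isSAC_dampA hN hw hv).1 (isSAC_dampA hN hw hv).2).1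
    rw [← hD.pow_symm J, dampPow_covec hN hw hv J ht p,
      inner_covec_word hN hw hh hspec hS hS' (ws := []) (by simp) (ht.dampPow hN hv J)
        ((Test.dampPow_inf v J t).trans htK)]
    refine congrArg (fun t' => kern t' p q) ?_
    have e1 : ((⟨t.fin, S⟩ : Test F).dampPow v J).fin = (t.dampPow v J).fin :=
      Test.dampPow_fin_congr v (t := ⟨t.fin, S⟩) (t' := t) rfl J
    have e2 := Test.dampPow_inf v J (⟨t.fin, S⟩ : Test F)
    cases hd : (⟨t.fin, S⟩ : Test F).dampPow v J with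
    | mk a b =>
      rw [hd] at e1 e2
      simp only [iterMul] at *
      rw [hd, e1, e2]
  | x :: ws, hws, t, ht, htK, p, q => by
    have hx := hws x List.mem_cons_self
    have hws' : ∀ u ∈ ws, (N : 𝓞 F) ∉ u.asIdeal := fun u hu => hws u (List.mem_cons_of_mem _ hu)
    have hcA : Commute (dampA hN hw hv) (heckeCLM hN hw hx) :=
      (heckeCLM_comm hN hw hv hx).smul_left _
    have hc : Commute ((1 - dampA hN hw hv * dampA hN hw hv) ^ J) (heckeCLM hN hw hx) :=
      ((Commute.one_left _).sub_left (hcA.mul_left hcA)).pow_left J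
    have hap : ∀ u, ((1 - dampA hN hw hv * dampA hN hw hv) ^ J) (heckeCLM hN hw hx u) =
        heckeCLM hN hw hx (((1 - dampA hN hw hv * dampA hN hw hv) ^ J) u) := fun u =>
      congrArg (fun T => T u) hc.eq
    rw [← heckeCLM_word hN hw hx hws' hh, hap, ← heckeCLM_symm hN hw hx,
      heckeCLM_covec hN hw hx ht]
    exact inner_covec_dampPow_word hv J hh hspec hS hS' hws' (ht.mulHecke hx hN).1 htK p q

end

end FLTAgent.LT
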