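import Fermat.Agent.LT.TF.Choice
import Fermat.Agent.LT.TF.Limit
import Fermat.Agent.LT.TF.L2Pair
import Fermat.Agent.LT.TF.Aleph.Push

/-!
The analytic bounds of one side of the comparison: the vector paired against everything is the
operator of a killing family on a kernel section, hence measurable and integrable against the word
vectors. Both sides of the descent satisfy them.
-/

set_option autoImplicit false
set_option linter.unusedSectionVars false
set_option linter.unusedSimpArgs false
set_option linter.deprecated false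
set_option linter.style.haveILetI false
set_option synthInstance.maxHeartbeats 400000

noncomputable section

namespace FLTAgent.LT

open NumberField IsDedekindDomain MeasureTheory
open scoped ENNReal InnerProductSpace

/-! ### Measurability of vectors with a measurable kernel -/

theorem stronglyMeasurable_of_kernel {X Y : Type*} [MeasurableSpace X] [MeasurableSpace Y]
    [MeasurableSpace.CountablyGenerated Y] {ν : Measure Y} [SFinite ν] {f : X → Lp ℂ 2 ν}
    {G : X × Y → ℂ} (hG : Measurable G) (hf : ∀ x, f x =ᵐ[ν] fun y => G (x, y)) :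
    StronglyMeasurable f := by
  haveI : Fact ((2 : ℝ≥0∞) ≠ ∞) := ⟨ENNReal.ofNat_ne_top⟩
  letI : MeasurableSpace (Lp ℂ 2 ν) := borel _
  haveI : BorelSpace (Lp ℂ 2 ν) := ⟨rfl⟩
  refine Measurable.stronglyMeasurable (measurable_of_isOpen fun U hU => ?_)
  let B : {i : Lp ℂ 2 ν × ℝ // Metric.ball i.1 i.2 ⊆ U} → Set (Lp ℂ 2 ν) :=
    fun i => Metric.ball i.1.1 i.1.2
  obtain ⟨T, hT, hTU⟩ := TopologicalSpace.isOpen_iUnion_countable B fun _ => Metric.isOpen_ball
  have hUB : ⋃ i, B i = U := by
    refine Set.Subset.antisymm (Set.iUnion_subset fun i => i.2) fun u hu => ?_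
    obtain ⟨ε, hε, hsub⟩ := Metric.isOpen_iff.1 hU u hu
    exact Set.mem_iUnion.2 ⟨⟨(u, ε), hsub⟩, Metric.mem_ball_self hε⟩
  rw [← hUB, ← hTU, Set.preimage_iUnion₂]
  refine MeasurableSet.biUnion hT fun i _ => ?_
  obtain ⟨⟨u, r⟩, -⟩ := i
  have hd : ∀ x, dist (f x) u =
      ((∫⁻ y, ‖G (x, y) - u y‖ₑ ^ 2 ∂ν) ^ (1 / 2 : ℝ)).toReal := fun x => by
    rw [dist_eq_norm, ← toReal_enorm, enorm_Lp_two]
    congr 2
    refine lintegral_congr_ae ?_
    filter_upwards [Lp.coeFn_sub (f x) u, hf x] with y a b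
    rw [a, Pi.sub_apply, b]
  have hm : Measurable fun x => dist (f x) u := by
    simp only [hd]
    exact (((hG.sub ((Lp.stronglyMeasurable u).measurable.comp measurable_snd)).enorm.pow_const
      2).lintegral_prod_right'.pow_const _).ennreal_toReal
  exact hm measurableSet_Iio

variable {F : Type*} [Field F] [NumberField F] {N : ℕ}

theorem countablyGenerated_pt [Countable (Cos F N)] :
    MeasurableSpace.CountablyGenerated (Pt F N) := by
  haveI : DiscreteMeasurableSpace (Cos F N) := ⟨fun _ => trivial⟩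
  infer_instance

theorem toReal_norm_Lp {X : Type*} [MeasurableSpace X] {μ : Measure X} (u : Lp ℂ 2 μ) {f : X → ℂ}
    (h : u =ᵐ[μ] f) : ‖u‖ = ((∫⁻ x, ‖f x‖ₑ ^ 2 ∂μ) ^ (1 / 2 : ℝ)).toReal := by
  rw [← toReal_enorm, enorm_Lp_two]
  congr 2
  exact lintegral_congr_ae (h.mono fun x hx => by simp only [hx])

/-! ### Symmetry of word tests -/

namespace Aleph

theorem wordFin_perm {ws ws' : List (HeightOneSpectrum (𝓞 F))} (h : ws.Perm ws') (y : GF F) :
    wordFin N ws y = wordFin N ws' y := by
  induction h generalizing y with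
  | nil => rfl
  | cons v _ ih => exact Finset.sum_congr rfl fun r _ => ih _
  | swap v v' ws =>
    rcases eq_or_ne v v' with rfl | hne
    · rfl
    show ∑ r : RIdx v', ∑ s : RIdx v, wordFin N ws ((hRep v s)⁻¹ * ((hRep v' r)⁻¹ * y)) =
      ∑ s : RIdx v, ∑ r : RIdx v', wordFin N ws ((hRep v' r)⁻¹ * ((hRep v s)⁻¹ * y))
    rw [Finset.sum_comm]
    refine Finset.sum_congr rfl fun s _ => Finset.sum_congr rfl fun r _ => ?_
    have hc : hRep v s * hRep v' r = hRep v' r * hRep v s :=
      Units.ext (Red.loc_ext fun x => by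
        rw [Units.val_mul, Units.val_mul, Red.loc_mul, Red.loc_mul]
        rcases eq_or_ne x v with rfl | hx
        · rw [(loc_hRep_ne v' hne r).1, mul_one, one_mul]
        · rw [(loc_hRep_ne v hx s).1, one_mul, mul_one])
    rw [← mul_assoc, ← mul_assoc, ← mul_inv_rev, ← mul_inv_rev, hc]
  | trans _ _ h1 h2 => exact (h1 y).trans (h2 y)

theorem conj_wordFin : ∀ (ws : List (HeightOneSpectrum (𝓞 F))) (y : GF F),
    (starRingEnd ℂ) (wordFin N ws y) = wordFin N ws y
  | [], y => by
    classical
    simp [wordFin, Set.indicator_apply, apply_ite (starRingEnd ℂ)]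
  | v :: ws, y => by
    simp only [wordFin, map_sum]
    exact Finset.sum_congr rfl fun r _ => conj_wordFin ws _

theorem sum_wordFin_hRep {v : HeightOneSpectrum (𝓞 F)} (hv : (N : 𝓞 F) ∉ v.asIdeal) :
    ∀ (ws : List (HeightOneSpectrum (𝓞 F))) (y : GF F),
      ∑ r : RIdx v, wordFin N ws (y * hRep v r) = wordFin N (ws ++ [v]) y
  | [], y => by
    classical
    show _ = wordFin N [v] y
    rw [← conj_wordFin [v] y, (isFinKer_word v hv).herm y]
    refine Finset.sum_congr rfl fun r _ => ?_
    show (UZ F N : Set (GF F)).indicator 1 _ = (UZ F N : Set (GF F)).indicator 1 _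
    rw [← mul_inv_rev]
    by_cases h : y * hRep v r ∈ UZ F N
    · rw [Set.indicator_of_mem (SetLike.mem_coe.2 h),
        Set.indicator_of_mem (SetLike.mem_coe.2 (inv_mem h))]
      rfl
    · rw [Set.indicator_of_notMem (fun hm => h (SetLike.mem_coe.1 hm)),
        Set.indicator_of_notMem (fun hm => h (inv_mem_iff.1 (SetLike.mem_coe.1 hm)))]
  | u :: ws, y => by
    show ∑ r : RIdx v, ∑ s : RIdx u, wordFin N ws ((hRep u s)⁻¹ * (y * hRep v r)) =
      ∑ s : RIdx u, wordFin N (ws ++ [v]) ((hRep u s)⁻¹ * y)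
    rw [Finset.sum_comm]
    refine Finset.sum_congr rfl fun s _ => ?_
    simp only [← mul_assoc]
    exact sum_wordFin_hRep hv ws _

theorem wordFin_inv : ∀ {ws : List (HeightOneSpectrum (𝓞 F))},
    (∀ v ∈ ws, (N : 𝓞 F) ∉ v.asIdeal) → ∀ y, wordFin N ws y⁻¹ = wordFin N ws y
  | [], _, y => by
    classical
    simp [wordFin, Set.indicator_apply]
  | v :: ws, h, y => by
    show ∑ r : RIdx v, wordFin N ws ((hRep v r)⁻¹ * y⁻¹) = _
    simp only [← mul_inv_rev, wordFin_inv (ws := ws) fun u hu => h u (List.mem_cons_of_mem _ hu)]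
    rw [sum_wordFin_hRep (h v List.mem_cons_self)]
    exact wordFin_perm (List.perm_append_singleton v ws) y

end Aleph

theorem kern_word_symm (hN : 0 < N) {ws : List (HeightOneSpectrum (𝓞 F))}
    (hws : ∀ v ∈ ws, (N : 𝓞 F) ∉ v.asIdeal) {h : InfinitePlace F → ℝ → ℝ} (hh : ∀ x, Rad1 (h x))
    (r q : Pt F N) : kern (⟨Aleph.wordFin N ws, radFun h⟩ : Test F) r q =
      kern ⟨Aleph.wordFin N ws, radFun h⟩ q r := by
  have hok := ok_word hws hh
  have e : (⟨Aleph.wordFin N ws, radFun h⟩ : Test F).flip = ⟨Aleph.wordFin N ws, radFun h⟩ :=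
    congrArg (fun f => (⟨f, radFun h⟩ : Test F)) (funext fun y => Aleph.wordFin_inv hws y)
  conv_lhs => rw [← e]
  exact kern_flip hok (hok.flip' hN) r q

theorem measurable_kern_tw [Countable (Cos F N)] {t : Test F} (ht : t.Ok N) (τ : F →+* F) :
    Measurable fun x : Pt F N × Pt F N => kern t x.2 (ptMap (N' := N) τ x.1) := by
  have hc : Measurable fun c : Cos F N => (QuotientGroup.mk (gfMap τ c.out) : Cos F N) :=
    measurable_from_top
  have h1 : Measurable fun p : Pt F N => (ptMap (N' := N) τ p : Pt F N) :=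
    ((Ell.measurable_infMap τ).comp measurable_fst).prodMk (hc.comp measurable_snd)
  have h2 : Measurable fun x : Pt F N × Pt F N => (x.2, ptMap (N' := N) τ x.1) :=
    measurable_snd.prodMk (h1.comp measurable_fst)
  have h3 : Measurable fun y : Pt F N × Pt F N => kern t y.1 y.2 := measurable_kern ht
  have h4 := h3.comp h2
  simp only [Function.comp_def] at h4
  exact h4

/-- A word test applied to a kernel section is a kernel. -/
theorem testOp_word_kern [Countable (Cos F N)] {w : Pt F N → ℝ≥0∞} (hN : 0 < N) (hw : IsPtWeight w)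
    {ws : List (HeightOneSpectrum (𝓞 F))} (hws : ∀ v ∈ ws, (N : 𝓞 F) ∉ v.asIdeal)
    {g a : InfinitePlace F → ℝ → ℝ} (hg : ∀ x, Rad1 (g x)) (ha : ∀ x, Rad1 (a x)) {t₁ : Test F}
    (h₁ : t₁.Ok N) (ht₁ : t₁.inf = radFun g) (p r : Pt F N) :
    testOp ⟨Aleph.wordFin N ws, radFun a⟩ (fun q => kern t₁ p q) r =
      kern ⟨(iterMul ws t₁).fin, radFun fun x => conv1 (g x) (a x)⟩ p r := by
  rw [testOp_kern hw hN (ok_word hws ha) h₁, ← inner_covec_word hN hw ha (radFun_conv hg ha)
    (lipschitz_radFun fun x => (hg x).conv1 (ha x))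
    (hasCompactSupport_radFun fun x => (hg x).conv1 (ha x)) hws h₁ ht₁ p r,
    inner_covec_kvec hN hw h₁ (ok_word hws ha)]
  refine integral_congr_ae (Filter.Eventually.of_forall fun q => ?_)
  beta_reduce
  rw [kern_word_symm hN hws ha r q, mul_comm]

/-! ### One side carried by a family -/

namespace SideData

variable {ι : Type*} [Fintype ι] {A : Aleph.Fam ι (InfinitePlace F)} {L H : Type*}
  {P : FamData L H A.κ} (S : SideData P F) [Countable (Cos F S.N)]
  {pl : ι → HeightOneSpectrum (𝓞 F)}

theorem k1_ae (hcoef : P.coef = A.coef) (hword : ∀ k, (P.aw k).map S.pl = (A.word k).map pl)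
    (hrad : ∀ k, A.rad k = radFun (S.hh (P.ah k))) (p : Pt F S.N) :
    S.k1 p =ᵐ[quotMeasure S.w] fun r =>
      (starRingEnd ℂ) (A.op pl (fun q => kern (S.tst [] P.g) p q) r) := by
  have hsum : ∀ᵐ r ∂quotMeasure S.w, ∀ k,
      ((starRingEnd ℂ) (P.coef k) • covec S.w (S.tst (P.aw k) (P.mul P.g (P.ah k))) p :
        Lp ℂ 2 (quotMeasure S.w)) r =
      (starRingEnd ℂ) (P.coef k * kern (S.tst (P.aw k) (P.mul P.g (P.ah k))) p r) := by
    refine ae_all_iff.2 fun k => ?_
    filter_upwards [Lp.coeFn_smul ((starRingEnd ℂ) (P.coef k))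
      (covec S.w (S.tst (P.aw k) (P.mul P.g (P.ah k))) p),
      covec_ae S.hN S.hw (S.tst_ok (P.aw k) (P.mul P.g (P.ah k))) p] with r a b
    rw [a, Pi.smul_apply, b, smul_eq_mul, map_mul]
  filter_upwards [hsum, Lp.coeFn_finsetSum Finset.univ fun k =>
    ((starRingEnd ℂ) (P.coef k) • covec S.w (S.tst (P.aw k) (P.mul P.g (P.ah k))) p :
      Lp ℂ 2 (quotMeasure S.w))] with r h hs
  rw [k1, hs, Finset.sum_apply, Finset.sum_congr rfl fun k _ => h k, Aleph.Fam.op, map_sum]
  refine Finset.sum_congr rfl fun k _ => congrArg (starRingEnd ℂ) ?_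
  rw [hcoef, ← hword k, hrad k, testOp_word_kern S.hN S.hw (S.hplMap (P.aw k)) (S.hhR P.g)
    (S.hhR (P.ah k)) (S.tst_ok [] P.g) rfl]
  congr 2
  show _ = (⟨_, _⟩ : Test F)
  simp only [tst, S.hmul]
  congr 1

/-- **The bounds of a side carried by a killing family.** -/
theorem bounded_of_fam [IsTotallyComplex F] [DecidableEq ι] (hA : A.Reg) {p₀ : ℕ}
    (hK : A.Kills (p₀ : ℝ) fun _ => Real.log p₀) (hP : Aleph.Places S.N p₀ pl)
    (hcoef : P.coef = A.coef) (hword : ∀ k, (P.aw k).map S.pl = (A.word k).map pl)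
    (hrad : ∀ k, A.rad k = radFun (S.hh (P.ah k))) : Bounded S := by
  haveI := sFinite_quotMeasure S.hw
  haveI := countablyGenerated_pt (F := F) (N := S.N)
  have h₁ := S.tst_ok [] P.g
  have hae := S.k1_ae hcoef hword hrad
  have hG : Measurable fun x : Pt F S.N × Pt F S.N =>
      (starRingEnd ℂ) (A.op pl (fun q => kern (S.tst [] P.g) x.1 q) x.2) :=
    Complex.continuous_conj.measurable.comp (Aleph.Fam.measurable_op_kern S.hw S.hN hA hP h₁)
  have hk1 : AEStronglyMeasurable S.k1 (quotMeasure S.w) :=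
    (stronglyMeasurable_of_kernel hG hae).aestronglyMeasurable
  set t : List L → H → Test F := fun ws a =>
    ⟨Aleph.wordFin S.N (ws.map S.pl), radFun (S.hh a)⟩
  have ht : ∀ ws a, (t ws a).Ok S.N := fun ws a => ok_word (S.hplMap ws) (S.hhR a)
  have hkae : ∀ ws a q, S.kq ws a q =ᵐ[quotMeasure S.w] fun r =>
      kern (t ws a) r (ptMap (N' := S.N) S.tau q) := fun ws a q => kvec_ae S.hN S.hw (ht ws a) _
  have hkq : ∀ ws a, AEStronglyMeasurable (S.kq ws a) (quotMeasure S.w) := fun ws a => by
    exact (stronglyMeasurable_of_kernel (measurable_kern_tw (ht ws a) S.tau)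
      (hkae ws a)).aestronglyMeasurable
  refine ⟨hk1, hkq, fun ws a => ⟨hk1.norm.mul (hkq ws a).norm, ?_⟩⟩
  refine lt_of_le_of_lt (lintegral_mono fun p => ?_)
    (Aleph.Fam.lintegral_pair_lt_top' S.hw S.hN hA hK hP h₁ (ht ws a) S.tau)
  beta_reduce
  rw [enorm_mul, toReal_norm_Lp (S.k1 p) (hae p), toReal_norm_Lp (S.kq ws a p) (hkae ws a p)]
  simp only [RCLike.enorm_conj]
  refine mul_le_mul' ?_ ?_ <;>
    rw [Real.enorm_eq_ofReal ENNReal.toReal_nonneg] <;> exact ENNReal.ofReal_toReal_le

end SideData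

namespace Descent

variable {d : Octa} {N : ℕ}

/-- `K` has one infinite place. -/
@[reducible] def uniqueInfKf (d : Octa) : Unique (InfinitePlace d.Kf) :=
  haveI := Asai.subsingleton_places d
  uniqueOfSubsingleton (Classical.arbitrary _)

namespace Choice

variable (C : Choice d N)

open scoped Classical in
/-- The killing family on `K`, with the same index set as the one on `M`. -/
def famK : Aleph.Fam (Fin 1) (InfinitePlace d.Kf) :=
  letI := uniqueInfKf d
  Aleph.alephFamK (infIdx d) C.shift C.p C.bump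

theorem famK_reg : C.famK.Reg := by
  classical
  letI := uniqueInfKf d
  exact Aleph.alephFamK_reg C.bump_abel

theorem famK_kills : C.famK.Kills (C.p : ℝ) fun _ => Real.log C.p := by
  classical
  letI := uniqueInfKf d
  exact Aleph.alephFamK_kills_log C.bump_abel C.hp.prime.pos

theorem famK_value : C.famK.value = C.fam.value := by
  classical
  letI := uniqueInfKf d
  exact Aleph.Fam.value_push (Aleph.alephFamK_isPush C.bump_abel)

theorem famK_value_ne : C.famK.value ≠ 0 := fun h =>
  C.fam_value_ne (C.famK_value.symm.trans h)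

theorem famK_coef (k : C.fam.κ) : C.famK.coef k = C.fam.coef k := rfl

theorem famK_rad (k : C.fam.κ) : C.famK.rad k = radFun (C.famRad k).down ∧
    (∫ x, C.famK.abel k x) = ((C.famRad k).lam : ℂ) := by
  classical
  letI := uniqueInfKf d
  refine ⟨funext fun r => ?_, ?_⟩
  · rw [radFun, Fintype.prod_subsingleton _ (default : InfinitePlace d.Kf)]
    rfl
  · have h := Aleph.alephFamK_isPush (σ := infIdx d) (P' := InfinitePlace d.Kf) (l := C.shift)
      (p := (C.p : ℝ)) C.bump_abel k (fun _ => 1) (locallyIntegrable_const _)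
    simp only [mul_one] at h
    exact h.trans (C.fam_rad k).2

/-- The words of the family on `K` are the images of the words of the combination. -/
theorem famK_word (k : C.fam.κ) : (C.data.aw k).map (fun l => l.1.1) =
    (C.famK.word k).map fun _ : Fin 1 => C.vp.1 := by
  show ((C.fam.word k).map fun j => (C.vp, j)).map (fun l : Letter d N => l.1.1) =
    (List.replicate (C.fam.word k).length (default : Fin 1)).map fun _ => C.vp.1
  rw [List.map_map, List.map_replicate]
  simp [Function.comp_def]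

/-- The words of the family on `M` are the images of the words of the combination. -/
theorem fam_word (k : C.fam.κ) : (C.data.aw k).map (fun l => l.1.up l.2) =
    (C.fam.word k).map C.vp.up := by
  show ((C.fam.word k).map fun j => (C.vp, j)).map (fun l : Letter d N => l.1.up l.2) = _
  rw [List.map_map]
  rfl

open Match in
/-- **The bounds on the side of `M`.** -/
theorem bounded_M (LM : ∀ w, GL (Fin 2) (Kp d.Mf w) → ℂ) (h : LocFam N LM) :
    haveI : Countable (Cos d.Mf (C.sideM LM h).N) := Red.countable_cos C.hN.1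
    SideData.Bounded (C.sideM LM h) :=
  haveI : Countable (Cos d.Mf (C.sideM LM h).N) := Red.countable_cos C.hN.1
  SideData.bounded_of_fam (A := C.fam) (C.sideM LM h) C.fam_reg C.fam_kills C.placesM rfl C.fam_word
    fun k => (C.fam_rad k).1

open Match in
/-- **The bounds on the side of `K`.** -/
theorem bounded_K (LK : ∀ v, GL (Fin 2) (Kp d.Kf v) → ℂ) (h : LocFam N LK) :
    haveI : Countable (Cos d.Kf (C.sideK LK h).N) := Red.countable_cos C.hN.1
    SideData.Bounded (C.sideK LK h) :=
  haveI : Countable (Cos d.Kf (C.sideK LK h).N) := Red.countable_cos C.hN.1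
  SideData.bounded_of_fam (A := C.famK) (C.sideK LK h) C.famK_reg C.famK_kills C.placesK rfl
    C.famK_word fun k => (C.famK_rad k).1

end Choice

end Descent

end FLTAgent.LT
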