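import Fermat.Agent.LT.TF.Match.BadLoc
import Fermat.Agent.LT.TF.Choice
import Fermat.Agent.LT.TF.Witness
import Fermat.Agent.LT.TF.Match.Slots
import Fermat.Agent.LT.TF.Match.LocalSplit

/-!
The damped test of a word vector on each side as a product of local functions, and the relation of
the two families at every place.
-/

set_option autoImplicit false
set_option linter.unusedSectionVars false
set_option linter.unusedSimpArgs false
set_option linter.style.haveILetI false
set_option linter.deprecated false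
set_option synthInstance.maxHeartbeats 400000

noncomputable section

namespace FLTAgent.LT.Match

open NumberField IsDedekindDomain

local notation "Γ₀" => WithZero (Multiplicative ℤ)

variable {F : Type*} [Field F] [NumberField F] {N : ℕ} {L : ∀ v, GL (Fin 2) (Kp F v) → ℂ}

theorem LocFam.biFin_good (hL : LocFam N L) {v : HeightOneSpectrum (𝓞 F)}
    (hv : (N : 𝓞 F) ∉ v.asIdeal) : BiFin (lvlZ 1) (L v) := by
  rw [← levN_eq_one hv]
  exact ⟨hL.left_inv v, hL.right_inv v, (hL.finite v).subset fun c hc =>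
    ⟨c.out, hc, c.out_eq'⟩⟩

open scoped Classical in
/-- The family after a word. -/
def wordFam (L : ∀ v, GL (Fin 2) (Kp F v) → ℂ) :
    List (HeightOneSpectrum (𝓞 F)) → ∀ v, GL (Fin 2) (Kp F v) → ℂ
  | [] => L
  | u :: us => wordFam (Function.update L u (heckeFn u (L u))) us

open scoped Classical in
theorem wordFam_apply : ∀ (us : List (HeightOneSpectrum (𝓞 F)))
    (L : ∀ v, GL (Fin 2) (Kp F v) → ℂ) (w : HeightOneSpectrum (𝓞 F)),
    wordFam L us w = (heckeFn w)^[us.count w] (L w)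
  | [], _, _ => rfl
  | u :: us, L, w => by
    rw [wordFam, wordFam_apply us]
    rcases eq_or_ne u w with rfl | h
    · rw [Function.update_self, List.count_cons_self, Function.iterate_succ_apply]
    · rw [Function.update_of_ne h.symm, List.count_cons_of_ne h]

theorem wordFam_locFam : ∀ {us : List (HeightOneSpectrum (𝓞 F))},
    (∀ u ∈ us, (N : 𝓞 F) ∉ u.asIdeal) → ∀ {L : ∀ v, GL (Fin 2) (Kp F v) → ℂ}, LocFam N L →
      LocFam N (wordFam L us)
  | [], _, _, hL => hL
  | u :: us, hus, L, hL => by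
    classical
    exact wordFam_locFam (fun x hx => hus x (List.mem_cons_of_mem _ hx))
      (hL.update_good (hus u List.mem_cons_self) (hL.biFin_good (hus u List.mem_cons_self)).hecke)

theorem iterMul_prodTest : ∀ {us : List (HeightOneSpectrum (𝓞 F))},
    (∀ u ∈ us, (N : 𝓞 F) ∉ u.asIdeal) → ∀ {L : ∀ v, GL (Fin 2) (Kp F v) → ℂ}, LocFam N L →
      ∀ (h : (InfinitePlace F → ℝ) → ℂ), iterMul us (prodTest L h) = prodTest (wordFam L us) h
  | [], _, _, _, _ => rfl
  | u :: us, hus, L, hL, h => by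
    classical
    show iterMul us ((prodTest L h).mulHecke u) = _
    have e := hL.mulHecke_prodTest u (L u) h
    rw [Function.update_eq_self] at e
    rw [e, iterMul_prodTest (fun x hx => hus x (List.mem_cons_of_mem _ hx))
      (hL.update_good (hus u List.mem_cons_self) (hL.biFin_good (hus u List.mem_cons_self)).hecke)]
    rfl

open scoped Classical in
/-- The family after a word and damping. -/
def slotFam (L : ∀ v, GL (Fin 2) (Kp F v) → ℂ) (v₀ : HeightOneSpectrum (𝓞 F))
    (us : List (HeightOneSpectrum (𝓞 F))) (J : ℕ) : ∀ v, GL (Fin 2) (Kp F v) → ℂ :=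
  Function.update (wordFam L us) v₀ ((dampFn v₀)^[J] (wordFam L us v₀))

variable {v₀ : HeightOneSpectrum (𝓞 F)} {us : List (HeightOneSpectrum (𝓞 F))}

theorem slotFam_locFam (hL : LocFam N L) (hv₀ : (N : 𝓞 F) ∉ v₀.asIdeal)
    (hus : ∀ u ∈ us, (N : 𝓞 F) ∉ u.asIdeal) (J : ℕ) : LocFam N (slotFam L v₀ us J) := by
  classical
  exact (wordFam_locFam hus hL).update_good hv₀
    (((wordFam_locFam hus hL).biFin_good hv₀).iterate (fun _ h => h.damp) J)

theorem slotFam_of_mem (hv₀ : (N : 𝓞 F) ∉ v₀.asIdeal) (hus : ∀ u ∈ us, (N : 𝓞 F) ∉ u.asIdeal)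
    (J : ℕ) {w : HeightOneSpectrum (𝓞 F)} (hw : (N : 𝓞 F) ∈ w.asIdeal) :
    slotFam L v₀ us J w = L w := by
  classical
  rw [slotFam, Function.update_of_ne (fun e : w = v₀ => hv₀ (e ▸ hw)), wordFam_apply,
    List.count_eq_zero_of_not_mem fun h => hus w h hw]
  rfl

open scoped Classical in
theorem slotFam_apply (J : ℕ) (w : HeightOneSpectrum (𝓞 F)) :
    slotFam L v₀ us J w =
      (dampFn w)^[if w = v₀ then J else 0] ((heckeFn w)^[us.count w] (L w)) := by
  rw [slotFam]
  rcases eq_or_ne w v₀ with rfl | h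
  · rw [Function.update_self, if_pos rfl, wordFam_apply]
  · rw [Function.update_of_ne h, if_neg h, wordFam_apply]
    rfl

variable {E : Type*} [Field E] [NumberField E]

/-- Damped powers of `T_v` transported along an isometry. -/
theorem powers_transport {v : HeightOneSpectrum (𝓞 F)} {w : HeightOneSpectrum (𝓞 E)}
    (s : Kp F v →+* Kp E w) (hs : Function.Bijective s) (hv : ∀ x, Valued.v (s x) = Valued.v x)
    (hq : Nat.card (𝓞 E ⧸ w.asIdeal) = Nat.card (𝓞 F ⧸ v.asIdeal)) (J n : ℕ) :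
    (fun g => ((dampFn w)^[J] ((heckeFn w)^[n] (unitFn 1))) (gl s g)) =
      (dampFn v)^[J] ((heckeFn v)^[n] (unitFn 1)) := by
  have hu : BiFin (lvlZ (1 : Γ₀)) (unitFn (K := Kp E w) 1) := biFin_unitFn 1
  have hT : ∀ m, BiFin (lvlZ 1) ((heckeFn w)^[m] (unitFn 1)) :=
    fun m => hu.iterate (fun _ h => h.hecke) m
  induction J with
  | succ J ih =>
    rw [Function.iterate_succ_apply', Function.iterate_succ_apply', ← ih]
    set f := (dampFn w)^[J] ((heckeFn w)^[n] (unitFn 1)) with hf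
    have hb : BiFin (lvlZ 1) f := (hT n).iterate (fun _ h => h.damp) J
    funext g
    have e1 : heckeFn v (fun g => f (gl s g)) = fun g => heckeFn w f (gl s g) :=
      funext fun y => heckeFn_transport s hs hv hb.right y
    simp only [dampFn, e1, heckeFn_transport s hs hv hb.hecke.right g, hq]
  | zero =>
    simp only [Function.iterate_zero_apply]
    induction n with
    | zero =>
      funext g
      simp only [Function.iterate_zero_apply, unitFn]
      classical
      rw [Set.indicator_apply, Set.indicator_apply]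
      refine if_congr ⟨fun h => ?_, fun h => ?_⟩ rfl rfl
      · have hv' : ∀ x, Valued.v (isoInv s hs x) = Valued.v x := fun x => by
          rw [← hv, isoInv_apply]
        have := gl_mem_lvlZ_of_isometry (isoInv s hs) hv' (SetLike.mem_coe.1 h)
        rwa [isoInv_gl] at this
      · exact gl_mem_lvlZ_of_isometry s hv (SetLike.mem_coe.1 h)
    | succ n ih =>
      rw [Function.iterate_succ_apply', Function.iterate_succ_apply', ← ih]
      exact funext fun g => (heckeFn_transport s hs hv (hT n).right g).symm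

end FLTAgent.LT.Match

namespace FLTAgent.LT.Descent

open NumberField IsDedekindDomain

variable {d : Octa} {N : ℕ}

theorem placeBelow_natCast_not_mem {F E : Type*} [Field F] [NumberField F] [Field E] [NumberField E]
    (i : F →+* E) {u : HeightOneSpectrum (𝓞 E)} (h : (N : 𝓞 E) ∉ u.asIdeal) :
    (N : 𝓞 F) ∉ (placeBelow i u).asIdeal := fun hm => h (by
  have h' : RingOfIntegers.mapRingHom i (N : 𝓞 F) ∈ u.asIdeal := hm
  rwa [map_natCast] at h')

open scoped Classical in
/-- The counts of a word below are the sums of the counts above. -/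
theorem count_down (hN : d.Good N) (v : SplitPl d N) (ls : List (Letter d N)) :
    (ls.map fun l => l.1.1).count v.1 = ∑ k, (ls.map fun l => l.1.up l.2).count (v.up k) := by
  obtain ⟨hinj, hbelow, -, -, -, -⟩ := v.up_spec hN
  induction ls with
  | nil => simp
  | cons l ls ih =>
    simp only [List.map_cons, List.count_cons, Finset.sum_add_distrib, ih, add_right_inj]
    obtain ⟨v', k'⟩ := l
    rcases eq_or_ne v' v with rfl | h
    · simp [hinj.eq_iff]
    · have hne : ∀ k, v'.up k' ≠ v.up k := fun k e => h (Subtype.ext (by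
        have := congrArg (placeBelow (iKM d)) e
        rwa [(v'.up_spec hN).2.1, hbelow] at this))
      have h' : v'.1 ≠ v.1 := fun e => h (Subtype.ext e)
      simp [hne, h']

/-- A place of `M` moved by the generator, off the level, lies over a good split place. -/
theorem exists_splitPl (hN : d.Good N) {w : HeightOneSpectrum (𝓞 d.Mf)}
    (hw : (N : 𝓞 d.Mf) ∉ w.asIdeal) (h : placeBelow (tauM d) w ≠ w) :
    ∃ v : SplitPl d N, v.1 = placeBelow (iKM d) w :=
  ⟨⟨_, splitGood_of_below_ne hN w hw h⟩, rfl⟩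

theorem ne_up_of_fixed (hN : d.Good N) {w : HeightOneSpectrum (𝓞 d.Mf)}
    (h : placeBelow (tauM d) w = w) (v : SplitPl d N) (k : Fin 3) : w ≠ v.up k := fun e =>
  v.placeBelow_tau_ne hN k (e ▸ h)

theorem ne_below_of_fixed (hN : d.Good N) {w : HeightOneSpectrum (𝓞 d.Mf)}
    (h : placeBelow (tauM d) w = w) (v : SplitPl d N) : placeBelow (iKM d) w ≠ v.1 := fun e => by
  obtain ⟨k, hk⟩ := (v.up_spec hN).2.2.1 w e
  exact ne_up_of_fixed hN h v k hk

open Match in
/-- The two families of bad factors match: the classes at fixed places, triples at moved ones. -/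
structure BadPair (d : Octa) (N j : ℕ) (LM : ∀ w, GL (Fin 2) (Kp d.Mf w) → ℂ)
    (LK : ∀ v, GL (Fin 2) (Kp d.Kf v) → ℂ) : Prop where
  famM : LocFam N LM
  famK : LocFam N LK
  unitM : ∀ w, (N : 𝓞 d.Mf) ∉ w.asIdeal → LM w = unitFn 1
  unitK : ∀ v, (N : 𝓞 d.Kf) ∉ v.asIdeal → LK v = unitFn 1
  fixed : ∀ w (hτ : placeBelow (tauM d) w = w), (N : 𝓞 d.Mf) ∈ w.asIdeal →
    BadLoc (cycGen d) N hτ (v := placeBelow (iKM d) w) rfl (LM w) (LK (placeBelow (iKM d) w))
  contract : ∃ w, placeBelow (tauM d) w = w ∧ (N : 𝓞 d.Mf) ∈ w.asIdeal ∧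
    LM w = omegaAt (tauM d) N j w ∧ LK (placeBelow (iKM d) w) = dsetAt N j (placeBelow (iKM d) w)
  moved : ∀ v, (N : 𝓞 d.Kf) ∈ v.asIdeal →
    (∃ w, placeBelow (iKM d) w = v ∧ placeBelow (tauM d) w ≠ w) →
      ∃ (w : HeightOneSpectrum (𝓞 d.Mf)) (hw : placeBelow (iKM d) w = v),
        LK v = conv3 (lvlZ (levN v N)) (orbitFn (tauM d) (iKM d) (cycGen d) hw LM)

namespace BadPair

open Match

variable {j : ℕ} {LM : ∀ w, GL (Fin 2) (Kp d.Mf w) → ℂ} {LK : ∀ v, GL (Fin 2) (Kp d.Kf v) → ℂ}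
  (hB : BadPair d N j LM LK) (C : Choice d N) (ls : List (Letter d N)) (J : ℕ)

/-- The family on `M` after a word and damping. -/
def famMJ (_hB : BadPair d N j LM LK) : ∀ w, GL (Fin 2) (Kp d.Mf w) → ℂ :=
  slotFam LM (C.w0.up 0) (ls.map fun l => l.1.up l.2) J

/-- The family on `K` after a word and damping. -/
def famKJ (_hB : BadPair d N j LM LK) : ∀ v, GL (Fin 2) (Kp d.Kf v) → ℂ :=
  slotFam LK C.w0.1 (ls.map fun l => l.1.1) J

theorem goodM (C : Choice d N) (ls : List (Letter d N)) : ∀ u ∈ ls.map (fun l : Letter d N => l.1.up l.2), (N : 𝓞 d.Mf) ∉ u.asIdeal :=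
  fun _ hu => by
    obtain ⟨l, -, rfl⟩ := List.mem_map.1 hu
    exact (l.1.up_spec C.hN).2.2.2.2.2 l.2

theorem goodK : ∀ u ∈ ls.map (fun l : Letter d N => l.1.1), (N : 𝓞 d.Kf) ∉ u.asIdeal :=
  fun _ hu => by
    obtain ⟨l, -, rfl⟩ := List.mem_map.1 hu
    exact l.1.2.1

theorem v0M : (N : 𝓞 d.Mf) ∉ (C.w0.up 0).asIdeal := (C.w0.up_spec C.hN).2.2.2.2.2 0

theorem famMJ_locFam : LocFam N (hB.famMJ C ls J) :=
  slotFam_locFam hB.famM (v0M C) (goodM C ls) J

theorem famKJ_locFam : LocFam N (hB.famKJ C ls J) :=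
  slotFam_locFam hB.famK C.w0.2.1 (goodK ls) J

theorem famMJ_fixed_bad {w : HeightOneSpectrum (𝓞 d.Mf)} (hw : (N : 𝓞 d.Mf) ∈ w.asIdeal) :
    hB.famMJ C ls J w = LM w ∧
      hB.famKJ C ls J (placeBelow (iKM d) w) = LK (placeBelow (iKM d) w) := by
  have hv : (N : 𝓞 d.Kf) ∈ (placeBelow (iKM d) w).asIdeal := by
    show RingOfIntegers.mapRingHom (iKM d) (N : 𝓞 d.Kf) ∈ w.asIdeal
    rwa [map_natCast]
  rw [famMJ, famKJ, slotFam_of_mem (v0M C) (goodM C ls) J hw,
    slotFam_of_mem C.w0.2.1 (goodK ls) J hv]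
  exact ⟨rfl, rfl⟩

theorem famMJ_fixed_good {w : HeightOneSpectrum (𝓞 d.Mf)} (hτ : placeBelow (tauM d) w = w)
    (hw : (N : 𝓞 d.Mf) ∉ w.asIdeal) :
    hB.famMJ C ls J w = unitFn 1 ∧ hB.famKJ C ls J (placeBelow (iKM d) w) = unitFn 1 := by
  classical
  rw [famMJ, famKJ, slotFam_apply, slotFam_apply, if_neg (ne_up_of_fixed C.hN hτ C.w0 0),
    if_neg (ne_below_of_fixed C.hN hτ C.w0), hB.unitM w hw,
    hB.unitK _ (placeBelow_natCast_not_mem _ hw),
    List.count_eq_zero_of_not_mem (fun h => ?_), List.count_eq_zero_of_not_mem (fun h => ?_)]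
  · exact ⟨rfl, rfl⟩
  · obtain ⟨l, -, e⟩ := List.mem_map.1 h
    exact ne_below_of_fixed C.hN hτ l.1 e.symm
  · obtain ⟨l, -, e⟩ := List.mem_map.1 h
    exact ne_up_of_fixed C.hN hτ l.1 l.2 e.symm

theorem famKJ_split (v : SplitPl d N) :
    ∃ (w : HeightOneSpectrum (𝓞 d.Mf)) (hw : placeBelow (iKM d) w = v.1),
      hB.famKJ C ls J v.1 =
        conv3 (lvlZ (levN v.1 N)) (orbitFn (tauM d) (iKM d) (cycGen d) hw (hB.famMJ C ls J)) := by
  classical
  obtain ⟨hinj, hbelow, -, hτ, hcard, hgood⟩ := v.up_spec C.hN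
  refine ⟨v.up 0, hbelow 0, ?_⟩
  have e1 : placeBelow (tauM d) (v.up 0) = v.up 2 := hτ 2
  have e2 : placeBelow (tauM d) (v.up 2) = v.up 1 := hτ 1
  set n := fun k => (ls.map fun l => l.1.up l.2).count (v.up k) with hn
  have key : ∀ (u : HeightOneSpectrum (𝓞 d.Mf)) (hu : placeBelow (iKM d) u = v.1) (k : Fin 3),
      u = v.up k → (fun g => hB.famMJ C ls J u (gl (cMap (iKM d) u v.1 hu) g)) =
        (dampFn v.1)^[if v.up k = C.w0.up 0 then J else 0] ((heckeFn v.1)^[n k] (unitFn 1)) := by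
    intro u hu k e
    subst e
    have hmv := v.placeBelow_tau_ne C.hN k
    rw [famMJ, slotFam_apply, hB.unitM _ (hgood k)]
    exact powers_transport _
      (bijective_cMap_of_moved (cycGen d) ⟨_, hu⟩ hmv) (v_cMap_of_moved (cycGen d) hmv hu)
      (hcard k) _ _
  have hw0 : ∀ k : Fin 3, (v.up k = C.w0.up 0 ↔ v = C.w0 ∧ k = 0) := fun k => by
    refine ⟨fun e => ?_, fun ⟨e, e'⟩ => by rw [e, e']⟩
    have hv : v = C.w0 := Subtype.ext (by
      rw [← hbelow k, ← (C.w0.up_spec C.hN).2.1 0, e])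
    subst hv
    exact ⟨rfl, hinj e⟩
  have hf : orbitFn (tauM d) (iKM d) (cycGen d) (hbelow 0) (hB.famMJ C ls J) =
      ![(dampFn v.1)^[if v = C.w0 then J else 0] ((heckeFn v.1)^[n 0] (unitFn 1)),
        (heckeFn v.1)^[n 2] (unitFn 1), (heckeFn v.1)^[n 1] (unitFn 1)] := by
    funext k
    fin_cases k
    · refine (key _ _ 0 rfl).trans ?_
      simp [hw0]
    · refine (key _ _ 2 e1).trans ?_
      simp [hw0]
    · refine (key _ _ 1 (by rw [e1, e2])).trans ?_
      simp [hw0]
  rw [hf, levN_eq_one v.2.1, conv3_powers, famKJ, slotFam_apply, hB.unitK _ v.2.1,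
    count_down C.hN v ls, Fin.sum_univ_three]
  have h0 : (v.1 = C.w0.1) = (v = C.w0) := propext ⟨Subtype.ext, congrArg Subtype.val⟩
  simp only [h0, hn, add_right_comm]

theorem famKJ_moved (v : HeightOneSpectrum (𝓞 d.Kf))
    (hv : ∃ w, placeBelow (iKM d) w = v ∧ placeBelow (tauM d) w ≠ w) :
    ∃ (w : HeightOneSpectrum (𝓞 d.Mf)) (hw : placeBelow (iKM d) w = v),
      hB.famKJ C ls J v =
        conv3 (lvlZ (levN v N)) (orbitFn (tauM d) (iKM d) (cycGen d) hw (hB.famMJ C ls J)) := by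
  by_cases hvN : (N : 𝓞 d.Kf) ∈ v.asIdeal
  · obtain ⟨w, hw, e⟩ := hB.moved v hvN hv
    refine ⟨w, hw, ?_⟩
    have hm : ∀ u : HeightOneSpectrum (𝓞 d.Mf), placeBelow (iKM d) u = v →
        hB.famMJ C ls J u = LM u := fun u hu => by
      refine slotFam_of_mem (v0M C) (goodM C ls) J ?_
      have h' : (N : 𝓞 d.Kf) ∈ (placeBelow (iKM d) u).asIdeal := by rw [hu]; exact hvN
      have h'' : RingOfIntegers.mapRingHom (iKM d) (N : 𝓞 d.Kf) ∈ u.asIdeal := h'
      rwa [map_natCast] at h''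
    rw [famKJ, slotFam_of_mem C.w0.2.1 (goodK ls) J hvN, e]
    congr 1
    funext k g
    fin_cases k
    · exact (congrFun (hm w hw) _).symm
    · exact (congrFun (hm _ ((placeBelow_i_tau (cycGen d) w).trans hw)) _).symm
    · exact (congrFun (hm _ ((placeBelow_i_tau (cycGen d) _).trans
        ((placeBelow_i_tau (cycGen d) w).trans hw))) _).symm
  · obtain ⟨w, hw, hτ⟩ := hv
    obtain ⟨v', hv'⟩ := exists_splitPl C.hN (w := w) (fun h => hvN (by
      rw [← hw]
      show RingOfIntegers.mapRingHom (iKM d) (N : 𝓞 d.Kf) ∈ w.asIdeal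
      rwa [map_natCast])) hτ
    rw [hw] at hv'
    subst hv'
    exact hB.famKJ_split C ls J v'

end BadPair

end FLTAgent.LT.Descent
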