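import Fermat.Agent.LT.TF.Choice
import Fermat.Agent.LT.TF.Pairing
import Fermat.Agent.LT.TF.Diag
import Fermat.Agent.LT.TF.SideBound
import Fermat.Agent.LT.Asai.Kfield

/-!
The eigenspaces of the two concrete sides: finitely many operators cut out finite dimensional spaces,
the space on `M` is the space of cusp forms with the prescribed eigenvalues at the split places, and
a vector on `K` gives the descended form.
-/

set_option autoImplicit false
set_option linter.unusedSectionVars false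
set_option linter.unusedSimpArgs false
set_option linter.deprecated false
set_option linter.style.haveILetI false
set_option synthInstance.maxHeartbeats 400000

noncomputable section

namespace FLTAgent.LT

open NumberField IsDedekindDomain MeasureTheory
open scoped ENNReal InnerProductSpace

theorem heckeCLM_congr {F : Type*} [Field F] [NumberField F] {N : ℕ} [Countable (Cos F N)]
    {w : Pt F N → ℝ≥0∞} (hN : 0 < N) (hw : IsPtWeight w) {v v' : HeightOneSpectrum (𝓞 F)}
    (hv : (N : 𝓞 F) ∉ v.asIdeal) (hv' : (N : 𝓞 F) ∉ v'.asIdeal) (h : v = v') :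
    heckeCLM hN hw hv = heckeCLM hN hw hv' := by
  subst h; rfl

namespace SideData

variable {L H κ : Type*} [Fintype κ] {P : FamData L H κ}
variable {F : Type} [Field F] [NumberField F] [IsTotallyComplex F] (S : SideData P F)
  [Countable (Cos F S.N)] {ι : Type*} [Fintype ι] [DecidableEq ι] {p₀ : ℕ}
  {plA : ι → HeightOneSpectrum (𝓞 F)}

/-- The eigenvalue equation of a letter at an auxiliary place. -/
theorem hecke_eq_zero {u : Lp ℂ 2 (quotMeasure S.w)} {l : L}
    (hu : S.op (.inl l) u = (P.val (.inl l) : ℂ) • u) {v : HeightOneSpectrum (𝓞 F)}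
    (hv : (S.N : 𝓞 F) ∉ v.asIdeal) (e : S.pl l = v) (hc : P.c l = 0) :
    heckeCLM S.hN S.hw hv u = 0 := by
  rw [← heckeCLM_congr S.hN S.hw (S.hpl l) hv e, show heckeCLM S.hN S.hw (S.hpl l) u = _ from hu,
    show P.val (.inl l) = 0 from hc, Complex.ofReal_zero, zero_smul]

/-- A killing family on the letters makes finitely many operators enough. -/
theorem exists_finset_finiteDimensional (hP : Aleph.Places S.N p₀ plA)
    {A : Aleph.Fam ι (InfinitePlace F)} (hA : A.Reg)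
    (hK : A.Kills (p₀ : ℝ) fun _ => Real.log p₀) (hval : A.value ≠ 0)
    (lp : ι → L) (hlp : ∀ j, S.pl (lp j) = plA j) (hc : ∀ j, P.c (lp j) = 0)
    (ar : A.κ → H) (har : ∀ k, A.rad k = radFun (S.hh (ar k)))
    (hab : ∀ k, A.word k = [] → (∫ x, A.abel k x) = (P.lam (ar k) : ℂ))
    (hlam : ∀ a, ∏ v, lam0 (S.hh a v) = P.lam a) {a₀ : H} (ha₀ : P.lam a₀ ≠ 0) :
    ∃ T : Finset (L ⊕ H), FiniteDimensional ℂ (S.eig fun i : T => (i : L ⊕ H)) := by
  classical
  refine ⟨Finset.univ.image (fun j => Sum.inl (lp j)) ∪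
    (Finset.univ.image (fun k => Sum.inr (ar k)) ∪ {Sum.inr a₀}), ?_⟩
  have hl : ∀ a, ((P.lam a : ℝ) : ℂ) = ∏ v, ((lam0 (S.hh a v) : ℝ) : ℂ) := fun a => by
    rw [← hlam, Complex.ofReal_prod]
  refine finiteDimensional_of_eigen S.hN S.hw hP hA (fun k => S.hhR (ar k)) har
    (fun k hk => (hab k hk).trans (hl _)) hval (S.hhR a₀)
    (fun v h0 => ha₀ (by rw [← hlam]; exact Finset.prod_eq_zero (Finset.mem_univ v) h0))
    (Aleph.Fam.lintegral_sq_op_kern_lt_top' S.hw S.hN hA hK hP (ok_radT (S.hhR a₀))) _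
    (fun u hu => ?_) (fun u hu k => ?_) fun u hu j => ?_
  · rw [← hl]
    exact (S.mem_eig).1 hu ⟨.inr a₀, by simp⟩
  · rw [← hl]
    exact (S.mem_eig).1 hu ⟨.inr (ar k), by simp⟩
  · exact S.hecke_eq_zero ((S.mem_eig).1 hu ⟨.inl (lp j), by simp⟩) _ (hlp j) (hc j)

end SideData

end FLTAgent.LT

namespace FLTAgent.LT.Descent

open NumberField IsDedekindDomain MeasureTheory
open scoped ENNReal InnerProductSpace

variable {d : Octa} {N : ℕ}

theorem lam_mul (a b : Rad3 d) : (a.mul b).lam = a.lam * b.lam := by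
  rw [Rad3.lam, Rad3.lam, Rad3.lam, ← Finset.prod_mul_distrib]
  exact Finset.prod_congr rfl fun w _ => lam0_conv1 (a.2 w) (b.2 w)

namespace Choice

variable (C : Choice d N)

theorem data_total : C.data.total = (unitRad d).lam * C.fam.value := by
  rw [FamData.total, Aleph.Fam.value, Finset.mul_sum]
  refine Finset.sum_congr rfl fun k => ?_
  intro _
  show C.fam.coef k * ((((C.fam.word k).map fun j => (C.vp, j)).map
    fun l : Letter d N => (cOf d l.1.1 : ℂ)).prod * (((unitRad d).mul (C.famRad k)).lam : ℂ)) = _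
  rw [List.map_map, lam_mul, Complex.ofReal_mul]
  cases hw : C.fam.word k with
  | nil => simp [(C.fam_rad k).2]; ring
  | cons j js => simp [C.vp_zero]

theorem data_total_ne : C.data.total ≠ 0 := by
  rw [C.data_total]
  exact mul_ne_zero (Complex.ofReal_ne_zero.2 unitRad_lam_pos.ne') C.fam_value_ne

variable {LM : ∀ w, GL (Fin 2) (Match.Kp d.Mf w) → ℂ} (hLM : Match.LocFam N LM)
  {LK : ∀ v, GL (Fin 2) (Match.Kp d.Kf v) → ℂ} (hLK : Match.LocFam N LK)

theorem hlam_M (a : Rad3 d) : ∏ v, lam0 ((C.sideM LM hLM).hh a v) = C.data.lam a := rfl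

theorem hlam_K (a : Rad3 d) : ∏ v, lam0 ((C.sideK LK hLK).hh a v) = C.data.lam a :=
  a.prod_lam_down

theorem exists_finset_M [Countable (Cos d.Mf N)] :
    haveI : Countable (Cos d.Mf (C.sideM LM hLM).N) := ‹Countable (Cos d.Mf N)›
    ∃ T : Finset (Letter d N ⊕ Rad3 d),
      FiniteDimensional ℂ ((C.sideM LM hLM).eig fun i : T => (i : Letter d N ⊕ Rad3 d)) := by
  haveI : Countable (Cos d.Mf (C.sideM LM hLM).N) := ‹Countable (Cos d.Mf N)›
  exact (C.sideM LM hLM).exists_finset_finiteDimensional C.placesM C.fam_reg C.fam_kills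
    C.fam_value_ne (fun j => (C.vp, j)) (fun _ => rfl) (fun _ => C.vp_zero) C.famRad
    (fun k => (C.fam_rad k).1) (fun k _ => (C.fam_rad k).2) (C.hlam_M hLM)
    (a₀ := unitRad d) unitRad_lam_pos.ne'

theorem exists_finset_K [Countable (Cos d.Kf N)] :
    haveI : Countable (Cos d.Kf (C.sideK LK hLK).N) := ‹Countable (Cos d.Kf N)›
    ∃ T : Finset (Letter d N ⊕ Rad3 d),
      FiniteDimensional ℂ ((C.sideK LK hLK).eig fun i : T => (i : Letter d N ⊕ Rad3 d)) := by
  haveI : Countable (Cos d.Kf (C.sideK LK hLK).N) := ‹Countable (Cos d.Kf N)›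
  exact (C.sideK LK hLK).exists_finset_finiteDimensional C.placesK C.famK_reg C.famK_kills
    C.famK_value_ne (fun _ => (C.vp, 0)) (fun _ => rfl) (fun _ => C.vp_zero) C.famRad
    (fun k => (C.famK_rad k).1) (fun k _ => (C.famK_rad k).2) (C.hlam_K hLK)
    (a₀ := unitRad d) unitRad_lam_pos.ne'

/-- One set of operators for both sides. -/
theorem exists_finset_both [Countable (Cos d.Mf N)] [Countable (Cos d.Kf N)] :
    haveI : Countable (Cos d.Mf (C.sideM LM hLM).N) := ‹Countable (Cos d.Mf N)›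
    haveI : Countable (Cos d.Kf (C.sideK LK hLK).N) := ‹Countable (Cos d.Kf N)›
    ∃ T : Finset (Letter d N ⊕ Rad3 d),
      FiniteDimensional ℂ ((C.sideM LM hLM).eig fun i : T => (i : Letter d N ⊕ Rad3 d)) ∧
      FiniteDimensional ℂ ((C.sideK LK hLK).eig fun i : T => (i : Letter d N ⊕ Rad3 d)) := by
  classical
  haveI : Countable (Cos d.Mf (C.sideM LM hLM).N) := ‹Countable (Cos d.Mf N)›
  haveI : Countable (Cos d.Kf (C.sideK LK hLK).N) := ‹Countable (Cos d.Kf N)›
  haveI := Asai.subsingleton_places d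
  haveI : Unique (InfinitePlace d.Kf) := uniqueOfSubsingleton (Classical.arbitrary _)
  obtain ⟨T₁, h₁⟩ := C.exists_finset_M hLM
  obtain ⟨T₂, h₂⟩ := C.exists_finset_K hLK
  refine ⟨T₁ ∪ T₂, ?_, ?_⟩
  · haveI := h₁
    exact Submodule.finiteDimensional_of_le ((C.sideM LM hLM).eig_mono (ops :=
      fun i : T₁ => (i : Letter d N ⊕ Rad3 d)) (by
        rintro _ ⟨i, rfl⟩
        exact ⟨⟨i.1, Finset.mem_union_left _ i.2⟩, rfl⟩))
  · haveI := h₂
    exact Submodule.finiteDimensional_of_le ((C.sideK LK hLK).eig_mono (ops :=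
      fun i : T₂ => (i : Letter d N ⊕ Rad3 d)) (by
        rintro _ ⟨i, rfl⟩
        exact ⟨⟨i.1, Finset.mem_union_right _ i.2⟩, rfl⟩))

/-! ### `M`: the eigenspace is a space of forms -/

section M

variable [Countable (Cos d.Mf N)]

theorem vec_mem_allSpace {φ : Form d.Mf} (hφ : CuspZero N φ)
    (heig : ∀ (v : SplitPl d N) k x g, hecke (v.up k) φ x g = (cOf d v.1 : ℂ) * φ x g) :
    haveI : Countable (Cos d.Mf (C.sideM LM hLM).N) := ‹Countable (Cos d.Mf N)›
    vecOf C.wM (ptFun N φ) ∈ (C.sideM LM hLM).allSpace := by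
  haveI : Countable (Cos d.Mf (C.sideM LM hLM).N) := ‹Countable (Cos d.Mf N)›
  have hT := fun (v : SplitPl d N) k => heckeCLM_zeroVec C.hN.1 C.hwM hφ
    ((v.up_spec C.hN).2.2.2.2.2 k) (heig v k)
  refine ((C.sideM LM hLM).mem_allSpace).2 ⟨?_, fun j => ?_⟩
  · show dampA C.hN.1 C.hwM ((C.w0.up_spec C.hN).2.2.2.2.2 0) _ = 0
    rw [dampA, ContinuousLinearMap.smul_apply, hT, C.w0_zero]
    simp
  · rcases j with l | a
    · exact hT l.1 l.2
    · refine (kernCLM_zeroVec C.hN.1 C.hwM hφ a.2).trans ?_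
      show _ = ((∏ v, lam0 (a.1 v) : ℝ) : ℂ) • _
      rw [Complex.ofReal_prod]
      rfl

theorem exists_form_of_mem (u : Lp ℂ 2 (quotMeasure (C.sideM LM hLM).w))
    (hu : ∀ j, haveI : Countable (Cos d.Mf (C.sideM LM hLM).N) := ‹Countable (Cos d.Mf N)›
      (C.sideM LM hLM).op j u = (C.data.val j : ℂ) • u) :
    ∃ φ : Form d.Mf, CuspZero N φ ∧ vecOf C.wM (ptFun N φ) = u ∧
      ∀ (v : SplitPl d N) k x g, hecke (v.up k) φ x g = (cOf d v.1 : ℂ) * φ x g := by
  haveI : Countable (Cos d.Mf (C.sideM LM hLM).N) := ‹Countable (Cos d.Mf N)›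
  obtain ⟨φ, hφ, hae, htr⟩ := exists_regular_of_bounds C.hN.1 C.hwM C.placesM C.fam_reg
    C.fam_kills C.fam_value_ne
    (fun k _ => ⟨(C.famRad k).1, (C.famRad k).2, (C.fam_rad k).1,
      (C.fam_rad k).2.trans (by rw [Rad3.lam, Complex.ofReal_prod])⟩)
    Aleph.one_le_hMax (Aleph.gain_pos (F := d.Mf))
    (Aleph.Fam.exists_op_le_L1 C.fam_reg C.fam_kills C.placesM C.hN.1 C.hwM)
    (Aleph.Fam.exists_op_le_sup C.fam_reg C.fam_kills C.placesM C.hN.1) u
    (fun h hh => (hu (.inr ⟨h, hh⟩)).trans (by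
      show (((∏ v, lam0 (h v) : ℝ)) : ℂ) • u = _
      rw [Complex.ofReal_prod]
      rfl))
    fun j => (C.sideM LM hLM).hecke_eq_zero (hu (.inl (C.vp, j))) (C.placesM.not_mem j) rfl
      C.vp_zero
  exact ⟨φ, hφ, (vecOf_eq (memLp_ptFun C.hN.1 C.hwM hφ) hae).symm,
    fun v k => htr _ ((v.up_spec C.hN).2.2.2.2.2 k) _ (hu (.inl (v, k)))⟩

theorem pairing_M (τ : d.Mf ≃+* d.Mf) (htau : (τ : d.Mf →+* d.Mf) = tauM d)
    (V : Submodule ℂ (Form d.Mf))
    (hV : ∀ φ, φ ∈ V ↔ CuspZero N φ ∧ ∀ v, SplitGood d N v → ∀ u, placeBelow (iKM d) u = v →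
      ∀ x g, hecke u φ x g = (cOf d v : ℂ) * φ x g)
    [FiniteDimensional ℂ V] (X T : V →ₗ[ℂ] V)
    (hX : ∀ φ : V, ((X φ : V) : Form d.Mf) = TraceTheta.finAct N (Match.prodFun LM) (φ : Form d.Mf))
    (hT : ∀ φ : V, ((T φ : V) : Form d.Mf) = TraceTheta.Tform τ.symm (φ : Form d.Mf))
    (a : Rad3 d) :
    haveI : Countable (Cos d.Mf (C.sideM LM hLM).N) := ‹Countable (Cos d.Mf N)›
    ∫ p, ⟪(C.sideM LM hLM).k1 p, (C.sideM LM hLM).allSpace.starProjection
        ((C.sideM LM hLM).kq [] a p)⟫_ℂ ∂quotMeasure (C.sideM LM hLM).w =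
      C.data.total * (a.lam : ℂ) * LinearMap.trace ℂ V (T * X) := by
  haveI : Countable (Cos d.Mf (C.sideM LM hLM).N) := ‹Countable (Cos d.Mf N)›
  refine (C.sideM LM hLM).pairing_eq_trace (C.hlam_M hLM) τ htau.symm V
    (fun φ hφ => ((hV φ).1 hφ).1) (fun φ hφ => ?_) (fun u hu => ?_) X T hX hT a
  · obtain ⟨h1, h2⟩ := (hV φ).1 hφ
    exact C.vec_mem_allSpace hLM h1 fun v k =>
      h2 v.1 v.2 _ ((v.up_spec C.hN).2.1 k)
  · obtain ⟨φ, h1, h2, h3⟩ := C.exists_form_of_mem hLM u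
      (((C.sideM LM hLM).mem_allSpace).1 hu).2
    refine ⟨φ, (hV φ).2 ⟨h1, fun v hv x hx => ?_⟩, h2⟩
    obtain ⟨k, rfl⟩ := (SplitPl.up_spec C.hN (⟨v, hv⟩ : SplitPl d N)).2.2.1 x hx
    exact h3 ⟨v, hv⟩ k

include C hLM in
/-- Forms with the prescribed eigenvalues make a finite dimensional space. -/
theorem finiteDimensional_forms (V : Submodule ℂ (Form d.Mf))
    (hV : ∀ φ ∈ V, CuspZero N φ ∧ ∀ v, SplitGood d N v → ∀ u, placeBelow (iKM d) u = v →
      ∀ x g, hecke u φ x g = (cOf d v : ℂ) * φ x g) : FiniteDimensional ℂ V := by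
  haveI : Countable (Cos d.Mf (C.sideM LM hLM).N) := ‹Countable (Cos d.Mf N)›
  obtain ⟨T, hT⟩ := C.exists_finset_M hLM
  haveI := (C.sideM LM hLM).finiteDimensional_allSpace _ hT
  let f : V →ₗ[ℂ] (C.sideM LM hLM).allSpace :=
    { toFun := fun φ => ⟨vecOf C.wM (ptFun N (φ : Form d.Mf)),
        C.vec_mem_allSpace hLM (hV _ φ.2).1 fun v k => (hV _ φ.2).2 v.1 v.2 _
          ((v.up_spec C.hN).2.1 k)⟩
      map_add' := fun φ ψ => Subtype.ext <| by
        refine (vecOf_eq (memLp_ptFun C.hN.1 C.hwM (hV _ (φ + ψ).2).1) ?_).symm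
        filter_upwards [Lp.coeFn_add (vecOf C.wM (ptFun N (φ : Form d.Mf)))
            (vecOf C.wM (ptFun N (ψ : Form d.Mf))),
          vecOf_ae (memLp_ptFun C.hN.1 C.hwM (hV _ φ.2).1),
          vecOf_ae (memLp_ptFun C.hN.1 C.hwM (hV _ ψ.2).1)] with r h a b
        show (vecOf C.wM (ptFun N (φ : Form d.Mf)) + vecOf C.wM (ptFun N (ψ : Form d.Mf))) r = _
        rw [h, Pi.add_apply, a, b]
        rfl
      map_smul' := fun c φ => Subtype.ext <| by
        refine (vecOf_eq (memLp_ptFun C.hN.1 C.hwM (hV _ (c • φ).2).1) ?_).symm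
        filter_upwards [Lp.coeFn_smul c (vecOf C.wM (ptFun N (φ : Form d.Mf))),
          vecOf_ae (memLp_ptFun C.hN.1 C.hwM (hV _ φ.2).1)] with r h a
        show (c • vecOf C.wM (ptFun N (φ : Form d.Mf))) r = _
        rw [h, Pi.smul_apply, a]
        rfl }
  exact FiniteDimensional.of_injective f fun φ ψ h => Subtype.ext
    (vecOf_ptFun_inj C.hN.1 C.hwM (hV _ φ.2).1 (hV _ ψ.2).1 (congrArg Subtype.val h))

end M

/-! ### `K`: a vector gives the descended form -/

/-- **A joint eigenvector on `K` gives the descended form.** -/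
theorem cubicDescent_of_vector [Countable (Cos d.Kf N)]
    {u : Lp ℂ 2 (quotMeasure (C.sideK LK hLK).w)} (hu0 : u ≠ 0)
    (hu : ∀ j, haveI : Countable (Cos d.Kf (C.sideK LK hLK).N) := ‹Countable (Cos d.Kf N)›
      (C.sideK LK hLK).op j u = (C.data.val j : ℂ) • u) : CubicDescent d := by
  classical
  haveI : Countable (Cos d.Kf (C.sideK LK hLK).N) := ‹Countable (Cos d.Kf N)›
  haveI := Asai.subsingleton_places d
  haveI : Unique (InfinitePlace d.Kf) := uniqueOfSubsingleton (Classical.arbitrary _)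
  obtain ⟨b, hb1, -, -, hbpos⟩ := exists_bump one_pos
  have hz : u ∈ zeroSpace C.hN.1 C.hwK (fun _ : Fin 1 => C.vp.1) C.placesK.not_mem := by
    refine ⟨radial_eigen_of_triples C.hN.1 C.hwK (b := fun _ => b) (fun _ => hb1)
      (fun _ => hbpos.ne') fun h hh => ?_, fun j =>
        (C.sideK LK hLK).hecke_eq_zero (hu (.inl (C.vp, 0))) _ rfl C.vp_zero⟩
    set a : Rad3 d := ⟨fun w => if w = infIdx d 0 then h default else b, fun w => by
      by_cases e : w = infIdx d 0 <;> simp only [e, if_true, if_false]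
      exacts [hh _, hb1]⟩
    have e0 : a.1 (infIdx d 0) = h default := if_pos rfl
    have e1 : a.1 (infIdx d 1) = b := if_neg fun e => by simpa using (infIdx d).injective e
    have e2 : a.1 (infIdx d 2) = b := if_neg fun e => by simpa using (infIdx d).injective e
    have ed : a.down = fun x => conv1 (conv1 (h x) b) b := funext fun x => by
      rw [Rad3.down, e0, e1, e2, Unique.eq_default x]
    have hl : (a.lam : ℂ) = ∏ x, ((lam0 (h x) * lam0 b * lam0 b : ℝ) : ℂ) := by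
      rw [Fintype.prod_unique, Rad3.lam, ← (infIdx d).prod_comp, Fin.prod_univ_three, e0, e1, e2]
    have h1 := hu (.inr a)
    rw [show C.data.val (.inr a) = a.lam from rfl, hl] at h1
    refine Eq.trans ?_ h1
    exact congrArg (fun T => T u) (kernCLM_congr C.hN.1 C.hwK _ (ok_radT a.down_rad1)
      (congrArg (radT N) ed.symm))
  obtain ⟨ψ, h⟩ := exists_descended C.hN C.hN.1 C.hwK C.placesK C.famK_reg C.famK_kills
    C.famK_value_ne
    (fun k => ⟨(C.famRad k).down, Rad3.down_rad1 _, (C.famK_rad k).1,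
      fun _ => (C.famK_rad k).2.trans (by rw [← Rad3.prod_lam_down, Complex.ofReal_prod])⟩)
    hu0 hz fun v hv => hu (.inl (⟨v, hv⟩, 0))
  exact ⟨N, ψ, C.hN, h⟩

end Choice

end FLTAgent.LT.Descent
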