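import Mathlib

/-!
Powers of a positive contraction converge strongly to the projection on its fixed space, and the
resulting limit of integrals of matrix coefficients.
-/

set_option autoImplicit false
set_option linter.unusedSectionVars false
set_option linter.deprecated false

noncomputable section

namespace FLTAgent.LT

open Filter Topology MeasureTheory ContinuousLinearMap
open scoped InnerProductSpace

variable {E : Type*} [NormedAddCommGroup E] [InnerProductSpace ℂ E] [CompleteSpace E]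

/-- A self adjoint operator with values of the quadratic form in `[0, ‖v‖²]`. -/
structure IsDamper (D : E →L[ℂ] E) : Prop where
  symm : ∀ v w, ⟪D v, w⟫_ℂ = ⟪v, D w⟫_ℂ
  nonneg : ∀ v, 0 ≤ (⟪D v, v⟫_ℂ).re
  le_one : ∀ v, (⟪D v, v⟫_ℂ).re ≤ ‖v‖ ^ 2
  norm_le : ∀ v, ‖D v‖ ≤ ‖v‖

variable {D : E →L[ℂ] E}

lemma damper_pow_succ (J : ℕ) (v : E) : (D ^ (J + 1)) v = D ((D ^ J) v) := by
  rw [pow_succ']; rfl

lemma IsDamper.pow_symm (h : IsDamper D) (J : ℕ) (v w : E) :
    ⟪(D ^ J) v, w⟫_ℂ = ⟪v, (D ^ J) w⟫_ℂ := by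
  induction J generalizing v w with
  | zero => simp
  | succ J ih =>
    rw [damper_pow_succ, h.symm, ih]
    congr 1

lemma IsDamper.pow_norm_le (h : IsDamper D) (J : ℕ) (v : E) : ‖(D ^ J) v‖ ≤ ‖v‖ := by
  induction J with
  | zero => simp
  | succ J ih => rw [damper_pow_succ]; exact (h.norm_le _).trans ih

/-- Cauchy-Schwarz for the form of a damper. -/
lemma IsDamper.sq_norm_le (h : IsDamper D) (u : E) : ‖D u‖ ^ 2 ≤ (⟪D u, u⟫_ℂ).re := by
  -- positivity of the form at `u - t • D u`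
  have key : ∀ t : ℝ, 0 ≤ (⟪D u, u⟫_ℂ).re - 2 * t * ‖D u‖ ^ 2
      + t ^ 2 * (⟪D (D u), D u⟫_ℂ).re := fun t => by
    have := h.nonneg (u - (t : ℂ) • D u)
    simp only [map_sub, map_smul, inner_sub_left, inner_sub_right, inner_smul_left,
      inner_smul_right, Complex.conj_ofReal, Complex.sub_re, Complex.mul_re, Complex.ofReal_re,
      Complex.ofReal_im, zero_mul, sub_zero] at this
    have e1 : (⟪D (D u), u⟫_ℂ).re = ‖D u‖ ^ 2 := by
      rw [h.symm, inner_self_eq_norm_sq_to_K]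
      simp [← Complex.ofReal_pow]
    have e2 : (⟪D u, D u⟫_ℂ).re = ‖D u‖ ^ 2 := by
      rw [inner_self_eq_norm_sq_to_K]
      simp [← Complex.ofReal_pow]
    rw [e1, e2] at this
    nlinarith [this]
  have h1 := key 1
  have h2 := h.le_one (D u)
  linarith

/-- The form of the powers is antitone and the powers converge. -/
lemma IsDamper.exists_tendsto (h : IsDamper D) (v : E) :
    ∃ w, Tendsto (fun J => (D ^ J) v) atTop (𝓝 w) := by
  set a : ℕ → ℝ := fun m => (⟪(D ^ m) v, v⟫_ℂ).re with ha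
  have hpair : ∀ j l, (⟪(D ^ j) v, (D ^ l) v⟫_ℂ).re = a (j + l) := fun j l => by
    rw [ha]; dsimp only
    rw [← h.pow_symm l, add_comm j l, pow_add]
    rfl
  have heven : ∀ k, a (2 * k) = ‖(D ^ k) v‖ ^ 2 := fun k => by
    rw [two_mul, ← hpair, inner_self_eq_norm_sq_to_K]
    simp [← Complex.ofReal_pow]
  have hodd : ∀ k, a (2 * k + 1) = (⟪D ((D ^ k) v), (D ^ k) v⟫_ℂ).re := fun k => by
    rw [← damper_pow_succ, hpair, show k + 1 + k = 2 * k + 1 by ring]
  have hanti : Antitone a := antitone_nat_of_succ_le fun m => by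
    rcases Nat.even_or_odd m with ⟨k, rfl⟩ | ⟨k, rfl⟩
    · rw [← two_mul, hodd, heven]; exact h.le_one _
    · rw [hodd, show 2 * k + 1 + 1 = 2 * (k + 1) by ring, heven, damper_pow_succ]
      exact h.sq_norm_le _
  have hnn : ∀ m, 0 ≤ a m := fun m => by
    rcases Nat.even_or_odd m with ⟨k, rfl⟩ | ⟨k, rfl⟩
    · rw [← two_mul, heven]; positivity
    · rw [hodd]; exact h.nonneg _
  obtain ⟨L, hL⟩ : ∃ L, Tendsto a atTop (𝓝 L) :=
    ⟨_, tendsto_atTop_ciInf hanti ⟨0, by rintro _ ⟨m, rfl⟩; exact hnn m⟩⟩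
  have hdist : ∀ j l, ‖(D ^ j) v - (D ^ l) v‖ ^ 2 = a (2 * j) - 2 * a (j + l) + a (2 * l) :=
    fun j l => by
    rw [norm_sub_sq (𝕜 := ℂ), ← hpair j l, ← heven, ← heven]
    rfl
  refine cauchySeq_tendsto_of_complete (Metric.cauchySeq_iff.2 fun ε hε => ?_)
  obtain ⟨M, hM⟩ := Metric.tendsto_atTop.1 hL (ε ^ 2 / 4) (by positivity)
  refine ⟨M, fun j hj l hl => ?_⟩
  have b1 := abs_lt.1 (Real.dist_eq _ L ▸ hM (2 * j) (by omega))
  have b2 := abs_lt.1 (Real.dist_eq _ L ▸ hM (j + l) (by omega))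
  have b3 := abs_lt.1 (Real.dist_eq _ L ▸ hM (2 * l) (by omega))
  have : ‖(D ^ j) v - (D ^ l) v‖ ^ 2 < ε ^ 2 := by rw [hdist]; linarith
  rw [dist_eq_norm]
  exact (pow_lt_pow_iff_left₀ (norm_nonneg _) hε.le two_ne_zero).1 this

/-- The limit is the orthogonal projection on any closed space which is the fixed space. -/
theorem IsDamper.tendsto_proj (h : IsDamper D) (V : Submodule ℂ E) [V.HasOrthogonalProjection]
    (hV : ∀ u, u ∈ V ↔ D u = u) (v : E) :
    Tendsto (fun J => (D ^ J) v) atTop (𝓝 (V.starProjection v)) := by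
  obtain ⟨w, hw⟩ := h.exists_tendsto v
  have hfix : D w = w := by
    refine tendsto_nhds_unique ?_ ((tendsto_add_atTop_iff_nat 1).2 hw)
    simpa only [damper_pow_succ, Function.comp_def] using (D.continuous.tendsto w).comp hw
  suffices V.starProjection v = w by rw [this]; exact hw
  refine (Submodule.eq_starProjection_of_mem_of_inner_eq_zero ((hV w).2 hfix) fun u hu => ?_)
  have hu' : ∀ J, (D ^ J) u = u := fun J => by
    induction J with
    | zero => simp
    | succ J ih => rw [damper_pow_succ, ih, (hV u).1 hu]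
  have : Tendsto (fun J => ⟪(D ^ J) v, u⟫_ℂ) atTop (𝓝 ⟪w, u⟫_ℂ) := hw.inner tendsto_const_nhds
  simp only [h.pow_symm, hu'] at this
  rw [inner_sub_left, tendsto_nhds_unique this tendsto_const_nhds, sub_self]

/-- The dominated limit of matrix coefficients. -/
theorem IsDamper.tendsto_integral (h : IsDamper D) (V : Submodule ℂ E)
    [V.HasOrthogonalProjection] (hV : ∀ u, u ∈ V ↔ D u = u)
    {X : Type*} [MeasurableSpace X] {μ : Measure X} {k₁ k₂ : X → E}
    (h1 : AEStronglyMeasurable k₁ μ) (h2 : AEStronglyMeasurable k₂ μ)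
    (hint : Integrable (fun x => ‖k₁ x‖ * ‖k₂ x‖) μ) :
    Tendsto (fun J => ∫ x, ⟪k₁ x, (D ^ J) (k₂ x)⟫_ℂ ∂μ) atTop
      (𝓝 (∫ x, ⟪k₁ x, V.starProjection (k₂ x)⟫_ℂ ∂μ)) := by
  refine tendsto_integral_of_dominated_convergence (fun x => ‖k₁ x‖ * ‖k₂ x‖)
    (fun J => h1.inner ((D ^ J).continuous.comp_aestronglyMeasurable h2)) hint
    (fun J => Eventually.of_forall fun x => ?_) (Eventually.of_forall fun x => ?_)
  · exact (norm_inner_le_norm _ _).trans
      (mul_le_mul_of_nonneg_left (h.pow_norm_le J _) (norm_nonneg _))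
  · exact tendsto_const_nhds.inner (h.tendsto_proj V hV _)

/-- `1 - A²` is a damper for a self adjoint contraction `A`, with fixed space `ker A`. -/
theorem isDamper_one_sub_sq (A : E →L[ℂ] E) (hs : ∀ v w, ⟪A v, w⟫_ℂ = ⟪v, A w⟫_ℂ)
    (hn : ∀ v, ‖A v‖ ≤ ‖v‖) :
    IsDamper (1 - A * A) ∧ ∀ u, A u = 0 ↔ (1 - A * A) u = u := by
  have q : ∀ v, (⟪(1 - A * A) v, v⟫_ℂ).re = ‖v‖ ^ 2 - ‖A v‖ ^ 2 := fun v => by
    simp only [ContinuousLinearMap.sub_apply, ContinuousLinearMap.one_apply,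
      ContinuousLinearMap.mul_apply, inner_sub_left, hs (A v) v, inner_self_eq_norm_sq_to_K]
    simp [← Complex.ofReal_pow]
  have sym : ∀ v w, ⟪(1 - A * A) v, w⟫_ℂ = ⟪v, (1 - A * A) w⟫_ℂ := fun v w => by
    simp only [ContinuousLinearMap.sub_apply, ContinuousLinearMap.one_apply,
      ContinuousLinearMap.mul_apply, inner_sub_left, inner_sub_right, hs]
  refine ⟨⟨sym, fun v => ?_, fun v => ?_, fun v => ?_⟩, fun u => ⟨fun hu => ?_, fun hu => ?_⟩⟩
  · rw [q]; nlinarith [hn v, norm_nonneg (A v), norm_nonneg v]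
  · rw [q]; nlinarith [sq_nonneg ‖A v‖]
  · have h1 := norm_sub_sq (𝕜 := ℂ) v (A (A v))
    rw [show RCLike.re ⟪v, A (A v)⟫_ℂ = ‖A v‖ ^ 2 by
      rw [← hs, inner_self_eq_norm_sq_to_K]; simp [← Complex.ofReal_pow]] at h1
    have h2 : ‖(1 - A * A) v‖ ^ 2 ≤ ‖v‖ ^ 2 := by
      simp only [ContinuousLinearMap.sub_apply, ContinuousLinearMap.one_apply,
        ContinuousLinearMap.mul_apply]
      nlinarith [hn (A v), norm_nonneg (A (A v)), sq_nonneg ‖A v‖]
    exact (pow_le_pow_iff_left₀ (norm_nonneg _) (norm_nonneg _) two_ne_zero).1 h2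
  · simp [hu]
  · have := q u
    rw [hu, inner_self_eq_norm_sq_to_K] at this
    simp [← Complex.ofReal_pow] at this
    exact norm_eq_zero.1 (pow_eq_zero_iff two_ne_zero |>.1 (by linarith))

/-- A finite dimensional bound: orthonormal eigenvectors with a nonzero eigenvalue of an operator
given by square integrable vectors are few. -/
theorem card_le_of_integral_op {X : Type*} [MeasurableSpace X] {μ : Measure X} {k : X → E}
    (hk : Integrable (fun x => ‖k x‖ ^ 2) μ) {n : ℕ} {e : Fin n → E} (he : Orthonormal ℂ e)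
    {lam : ℂ} (f : Fin n → X → ℂ) (hf : ∀ i, ∀ᵐ x ∂μ, lam * f i x = ⟪k x, e i⟫_ℂ)
    (hf1 : ∀ i, Integrable (fun x => ‖f i x‖ ^ 2) μ)
    (hf2 : ∀ i, ∫ x, ‖f i x‖ ^ 2 ∂μ = 1) :
    (n : ℝ) * ‖lam‖ ^ 2 ≤ ∫ x, ‖k x‖ ^ 2 ∂μ := by
  have hle : ∀ᵐ x ∂μ, ‖lam‖ ^ 2 * ∑ i, ‖f i x‖ ^ 2 ≤ ‖k x‖ ^ 2 := by
    filter_upwards [ae_all_iff.2 hf] with x hx
    have := he.sum_inner_products_le (k x) (s := Finset.univ)
    refine le_trans (le_of_eq ?_) this
    rw [Finset.mul_sum]
    exact Finset.sum_congr rfl fun i _ => by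
      rw [← mul_pow, ← norm_mul, hx i, norm_inner_symm]
  have hint : Integrable (fun x => ‖lam‖ ^ 2 * ∑ i, ‖f i x‖ ^ 2) μ :=
    (integrable_finsetSum _ fun i _ => hf1 i).const_mul _
  have := integral_mono_ae hint hk hle
  rw [integral_const_mul, integral_finsetSum _ fun i _ => hf1 i] at this
  simpa [hf2, mul_comm] using this

end FLTAgent.LT
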