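import Fermat.Agent.LT.TF.ConvKern
import Fermat.Agent.LT.TF.Compare
import Fermat.Agent.LT.Hyp.Moments

/-!
Kernel sections as vectors of `L²`, Hecke and kernel operators acting on them, and their pairings.
-/

set_option autoImplicit false
set_option linter.unusedSectionVars false
set_option linter.unusedSimpArgs false
set_option linter.deprecated false
set_option linter.style.haveILetI false
set_option synthInstance.maxHeartbeats 200000

noncomputable section

namespace FLTAgent.LT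

open NumberField IsDedekindDomain MeasureTheory Filter
open scoped ENNReal InnerProductSpace

variable {F : Type*} [Field F] [NumberField F] {N : ℕ}

theorem Test.Ok.flip' {t : Test F} (hN : 0 < N) (ht : t.Ok N) : t.flip.Ok N := by
  refine ht.flip ((Red.finite_levelOrbit hN
    ((ht.finite.image fun c : Cos F N => c.out⁻¹))).subset ?_)
  rintro _ ⟨y, hy, rfl⟩
  have hy' : t.fin y⁻¹ ≠ 0 := hy
  obtain ⟨u, hu, e⟩ : ∃ u ∈ UZ F N, ((y⁻¹ : GF F) : Cos F N).out = y⁻¹ * u :=
    ⟨_, QuotientGroup.eq.1 (QuotientGroup.out_eq' _).symm, (mul_inv_cancel_left _ _).symm⟩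
  obtain ⟨k, hk, c, rfl⟩ := Red.mem_UZ.1 hu
  refine ⟨k, Red.inLevel_one_of_inLevel hk, ((y⁻¹ : GF F) : Cos F N).out⁻¹,
    ⟨_, ⟨y⁻¹, hy', rfl⟩, rfl⟩, ?_⟩
  refine QuotientGroup.eq.2 (Red.mem_UZ.2 ⟨1, Red.InLevel.one N, c⁻¹, ?_⟩)
  have e2 : k * (y⁻¹ * (k * scalarGF c))⁻¹ = y * scalarGF c⁻¹ := by
    rw [mul_inv_rev, mul_inv_rev, inv_inv, ← Red.scalarGF_inv, mul_assoc (scalarGF c⁻¹),
      Red.scalarGF_comm c⁻¹ (k⁻¹ * y)]
    group
  rw [e, e2, one_mul]
  group

theorem kern_flip {t : Test F} (ht : t.Ok N) (hf : t.flip.Ok N) (p q : Pt F N) :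
    kern t.flip p q = kern t q p := by
  rw [kern_eq_tsum hf, kern_eq_tsum ht, ← (Equiv.inv (PG F)).tsum_eq]
  refine tsum_congr fun γ => ?_
  rw [Equiv.inv_apply, kTerm_flip, ← kTerm_smul ht γ, smul_inv_smul]

theorem Test.Ok.mulHecke {v : HeightOneSpectrum (𝓞 F)} (hv : (N : 𝓞 F) ∉ v.asIdeal) {t : Test F}
    (ht : t.Ok N) (hN : 0 < N) : (t.mulHecke v).Ok N ∧
      ∀ y, (t.mulHecke v).fin y = Aleph.hOp v t.fin y := by
  have hsum : ∀ y, (t.mulHecke v).fin y = Aleph.hOp v t.fin y := fun y => by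
    rw [Aleph.hOp, Fintype.sum_option, add_comm]
    show (∑ᶠ u, _) + _ = _
    rw [finsum_eq_sum_of_fintype]
    rfl
  have hR : Aleph.RightInv N t.fin := fun g u hu => ht.right_inv u hu g
  refine ⟨⟨fun u hu g => ?_, fun u hu g => ?_, ?_, ht.lipschitz, ht.compact⟩, hsum⟩
  · rw [hsum, hsum]
    exact Finset.sum_congr rfl fun r _ => by rw [mul_assoc, ht.left_inv u hu]
  · rw [hsum, hsum, hR.hOp hv g u hu]
  · refine ((ht.finite.biUnion fun (a : Cos F N) _ => (Set.finite_univ (α := Aleph.RIdx v)).biUnion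
      fun r _ => (Red.finite_levelOrbit (N := N) hN (Set.finite_singleton (Aleph.hRep v r)⁻¹)).image
        fun d : Cos F N => a.out • d)).subset ?_
    rintro _ ⟨g, hg, rfl⟩
    have hg' : (t.mulHecke v).fin g ≠ 0 := hg
    rw [hsum, Aleph.hOp] at hg'
    obtain ⟨r, -, hr⟩ := Finset.exists_ne_zero_of_sum_ne_zero hg'
    refine Set.mem_biUnion ⟨_, hr, rfl⟩ (Set.mem_biUnion (Set.mem_univ r) ?_)
    obtain ⟨u, hu, e⟩ : ∃ u ∈ UZ F N, ((g * Aleph.hRep v r : GF F) : Cos F N).out =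
        g * Aleph.hRep v r * u :=
      ⟨_, QuotientGroup.eq.1 (QuotientGroup.out_eq' _).symm, (mul_inv_cancel_left _ _).symm⟩
    obtain ⟨k, hk, c, rfl⟩ := Red.mem_UZ.1 hu
    refine ⟨((k⁻¹ * (Aleph.hRep v r)⁻¹ : GF F) : Cos F N), ⟨k⁻¹, Red.InLevel.inv
      (Red.inLevel_one_of_inLevel hk), _, Set.mem_singleton _, rfl⟩, ?_⟩
    rw [e]
    refine QuotientGroup.eq.2 (Red.mem_UZ.2 ⟨1, Red.InLevel.one N, c⁻¹, ?_⟩)
    show (g * Aleph.hRep v r * (k * scalarGF c) * (k⁻¹ * (Aleph.hRep v r)⁻¹))⁻¹ * g = _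
    rw [one_mul, Red.scalarGF_inv,
      show g * Aleph.hRep v r * (k * scalarGF c) * (k⁻¹ * (Aleph.hRep v r)⁻¹) =
        g * Aleph.hRep v r * k * (scalarGF c * (k⁻¹ * (Aleph.hRep v r)⁻¹)) by
          simp only [mul_assoc],
      Red.scalarGF_comm]
    group

section

variable [Countable (Cos F N)]

/-- The class of a square integrable function, zero otherwise. -/
def vecOf (w : Pt F N → ℝ≥0∞) (u : Pt F N → ℂ) : Lp ℂ 2 (quotMeasure w) := by
  classical exact if h : MemLp u 2 (quotMeasure w) then h.toLp u else 0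

/-- A kernel section as a vector. -/
def kvec (w : Pt F N → ℝ≥0∞) (t : Test F) (q : Pt F N) : Lp ℂ 2 (quotMeasure w) :=
  vecOf w fun p => kern t p q

/-- The conjugate of a transposed kernel section as a vector. -/
def covec (w : Pt F N → ℝ≥0∞) (t : Test F) (p : Pt F N) : Lp ℂ 2 (quotMeasure w) :=
  vecOf w fun r => (starRingEnd ℂ) (kern t p r)

variable {w : Pt F N → ℝ≥0∞} (hN : 0 < N) (hw : IsPtWeight w)

omit hN hw in
lemma vecOf_ae {u : Pt F N → ℂ} (h : MemLp u 2 (quotMeasure w)) :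
    vecOf w u =ᵐ[quotMeasure w] u := by
  rw [vecOf, dif_pos h]
  exact h.coeFn_toLp

omit hN hw in
lemma vecOf_eq {u : Pt F N → ℂ} (h : MemLp u 2 (quotMeasure w)) {a : Lp ℂ 2 (quotMeasure w)}
    (ha : a =ᵐ[quotMeasure w] u) : a = vecOf w u :=
  Lp.ext (ha.trans (vecOf_ae h).symm)

include hN hw

lemma memLp_kern' {t : Test F} (ht : t.Ok N) (q : Pt F N) :
    MemLp (fun p => kern t p q) 2 (quotMeasure w) := memLp_kern hw ht (ht.flip' hN) q

lemma memLp_cokern {t : Test F} (ht : t.Ok N) (p : Pt F N) :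
    MemLp (fun r => (starRingEnd ℂ) (kern t p r)) 2 (quotMeasure w) := by
  have h := memLp_kern hw (ht.flip' hN) (by rw [Test.flip_flip]; exact ht) p
  simp only [kern_flip ht (ht.flip' hN)] at h
  exact ⟨continuous_star.comp_aestronglyMeasurable h.1,
    lt_of_eq_of_lt (by rw [eLpNorm_two_eq, eLpNorm_two_eq]; simp [RCLike.enorm_conj]) h.2⟩

lemma kvec_ae {t : Test F} (ht : t.Ok N) (q : Pt F N) :
    kvec w t q =ᵐ[quotMeasure w] fun p => kern t p q := vecOf_ae (memLp_kern' hN hw ht q)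

lemma covec_ae {t : Test F} (ht : t.Ok N) (p : Pt F N) :
    covec w t p =ᵐ[quotMeasure w] fun r => (starRingEnd ℂ) (kern t p r) :=
  vecOf_ae (memLp_cokern hN hw ht p)

lemma finOp_congr {f : GF F → ℂ} {u u' : Pt F N → ℂ} (h : u =ᵐ[quotMeasure w] u') :
    ∀ᵐ p ∂quotMeasure w, finOp w f u p = finOp w f u' p := by
  filter_upwards [ae_all_iff.2 fun c' => ae_slice hw (avg_congr hw h) c'] with p hp
  exact tsum_congr fun c' => by rw [hp c']

/-- `T_v` on `L²`. -/
def heckeCLM (_hN : 0 < N) (hw : IsPtWeight w) {v : HeightOneSpectrum (𝓞 F)} (hv : (N : 𝓞 F) ∉ v.asIdeal) :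
    Lp ℂ 2 (quotMeasure w) →L[ℂ] Lp ℂ 2 (quotMeasure w) :=
  (finFormula hw (Aleph.isFinKer_word v hv)).op

variable {v : HeightOneSpectrum (𝓞 F)} (hv : (N : 𝓞 F) ∉ v.asIdeal)

include hv

theorem heckeCLM_symm (a b : Lp ℂ 2 (quotMeasure w)) :
    ⟪heckeCLM hN hw hv a, b⟫_ℂ = ⟪a, heckeCLM hN hw hv b⟫_ℂ :=
  finFormula_symm hw (Aleph.isFinKer_word v hv) a b

theorem heckeCLM_kvec {t : Test F} (ht : t.Ok N) (q : Pt F N) :
    heckeCLM hN hw hv (kvec w t q) = kvec w (t.heckeL v) q := by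
  refine vecOf_eq (memLp_kern' hN hw (ht.heckeL hv) q) ?_
  refine ((finFormula hw (Aleph.isFinKer_word v hv)).op_ae _).trans ?_
  filter_upwards [finOp_congr hN hw (f := Aleph.wordFin N [v]) (kvec_ae hN hw ht q)] with p hp
  rw [hp, finOp_kern hw hv ht]

theorem finOp_cokern {t : Test F} (ht : t.Ok N) (p r : Pt F N) :
    finOp w (Aleph.wordFin N [v]) (fun r => (starRingEnd ℂ) (kern t p r)) r =
      (starRingEnd ℂ) (kern (t.mulHecke v) p r) := by
  obtain ⟨hok, hfin⟩ := ht.mulHecke hv hN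
  rw [finOp_word hw hv (fun γ r => by rw [kern_smul_right ht]), Aleph.hOp, ← map_sum]
  congr 1
  simp only [kern_eq_tsum ht, kern_eq_tsum hok]
  rw [← Summable.tsum_finsetSum fun x _ => summable_kTerm ht p _]
  refine tsum_congr fun γ => ?_
  obtain ⟨γ, rfl⟩ := QuotientGroup.mk_surjective γ
  obtain ⟨u, hu, e⟩ := toFin_smul_out γ r.2
  simp only [mk_smul, kTerm, smulPt, e, hfin, Aleph.hOp, Finset.sum_mul]
  rw [← Finset.sum_mul, ← Finset.sum_mul]
  congr 1
  have hR : Aleph.RightInv N t.fin := fun g k hk => ht.right_inv k hk g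
  show _ = Aleph.hOp v t.fin (p.2.out⁻¹ * (toFin γ * r.2.out * u))
  rw [← mul_assoc, hR.hOp hv _ u hu, Aleph.hOp]
  refine Finset.sum_congr rfl fun x _ => ?_
  obtain ⟨u', hu', e'⟩ := toFin_smul_out γ ((r.2.out * Aleph.hRep v x : GF F) : Cos F N)
  obtain ⟨u'', hu'', e''⟩ : ∃ u ∈ UZ F N, ((r.2.out * Aleph.hRep v x : GF F) : Cos F N).out =
      r.2.out * Aleph.hRep v x * u :=
    ⟨_, QuotientGroup.eq.1 (QuotientGroup.out_eq' _).symm, (mul_inv_cancel_left _ _).symm⟩
  rw [e', e'', show p.2.out⁻¹ * (toFin γ * (r.2.out * Aleph.hRep v x * u'') * u') =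
    p.2.out⁻¹ * (toFin γ * r.2.out) * Aleph.hRep v x * u'' * u' by group,
    ht.right_inv u' hu', ht.right_inv u'' hu'']

theorem heckeCLM_covec {t : Test F} (ht : t.Ok N) (p : Pt F N) :
    heckeCLM hN hw hv (covec w t p) = covec w (t.mulHecke v) p := by
  refine vecOf_eq (memLp_cokern hN hw (ht.mulHecke hv hN).1 p) ?_
  refine ((finFormula hw (Aleph.isFinKer_word v hv)).op_ae _).trans ?_
  filter_upwards [finOp_congr hN hw (f := Aleph.wordFin N [v]) (covec_ae hN hw ht p)] with r hr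
  rw [hr, finOp_cokern hN hw hv ht]

omit hv

/-- The pairing of two kernel vectors. -/
theorem inner_covec_kvec {t₁ t₂ : Test F} (h₁ : t₁.Ok N) (h₂ : t₂.Ok N) (p q : Pt F N) :
    ⟪covec w t₁ p, kvec w t₂ q⟫_ℂ =
      intOp (quotMeasure w) (kern t₁) (fun r => kern t₂ r q) p := by
  rw [inner_Lp_two]
  refine integral_congr_ae ?_
  filter_upwards [covec_ae hN hw h₁ p, kvec_ae hN hw h₂ q] with r a b
  rw [a, b, Complex.conj_conj]

end

/-! ### Operators of kernels -/

/-- A hermitian test. -/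
structure Test.Herm (t : Test F) : Prop where
  fin : ∀ y, (starRingEnd ℂ) (t.fin y) = t.fin y⁻¹
  inf : ∀ r, (starRingEnd ℂ) (t.inf r) = t.inf r

theorem Test.Herm.conj_kern {t : Test F} (h : t.Herm) (hN : 0 < N) (ht : t.Ok N) (p q : Pt F N) :
    (starRingEnd ℂ) (kern t p q) = kern t q p := by
  rw [← kern_flip ht (ht.flip' hN) p q, kern, kern, Complex.conj_tsum]
  refine tsum_congr fun γ => ?_
  rw [map_mul, h.fin, h.inf]
  rfl

/-- The size of a test at the base point. -/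
def Test.size0 (t : Test F) (N : ℕ) : ℝ≥0∞ := t.size N fun _ => Hyp.org

theorem Test.Ok.size_eq [Countable (Cos F N)] {t : Test F} (ht : t.Ok N) (x : Xinf F) : t.size N x = t.size0 N := by
  have hp : MeasurePreserving (fun y : Xinf F => fun v => act (Hyp.toPt (x v)) (y v))
      (Measure.pi fun _ : InfinitePlace F => hypMeasure)
      (Measure.pi fun _ : InfinitePlace F => hypMeasure) :=
    measurePreserving_pi _ _ fun v => Hyp.measurePreserving_act (Hyp.toPt (x v))
  have hm : Measurable fun y : Xinf F => ‖t.inf fun v => hdist (x v) (y v)‖ₑ :=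
    ((measurable_infTerm ht).comp (f := fun y : Xinf F => (x, y))
      (measurable_const.prodMk measurable_id)).enorm
  rw [Test.size0, Test.size, Test.size, ← hp.lintegral_comp hm]
  congr 1
  refine lintegral_congr fun y => ?_
  congr 2
  funext v
  conv_lhs => rw [← Hyp.act_toPt_org (x v), hdist_act]

section

variable [Countable (Cos F N)] {w : Pt F N → ℝ≥0∞}

/-- The bound of a kernel operator. -/
def Test.opBound (t : Test F) (N : ℕ) : ℝ := max (t.size0 N).toReal (t.flip.size0 N).toReal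

theorem schurKernel (hN : 0 < N) (hw : IsPtWeight w) {t : Test F} (ht : t.Ok N) :
    SchurKernel (quotMeasure w) (kern t) (t.opBound N) where
  nonneg := le_max_of_le_left ENNReal.toReal_nonneg
  meas := measurable_kern ht
  row p := (lintegral_kern_le hw ht p).trans (by
    rw [ht.size_eq, ← ENNReal.ofReal_toReal (a := t.size0 N) (size_ne_top ht _)]
    exact ENNReal.ofReal_le_ofReal (le_max_left _ _))
  col q := by
    have hf := ht.flip' hN
    simp only [← kern_flip ht hf q]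
    refine (lintegral_kern_le hw hf q).trans ?_
    rw [hf.size_eq, ← ENNReal.ofReal_toReal (a := t.flip.size0 N) (size_ne_top hf _)]
    exact ENNReal.ofReal_le_ofReal (le_max_right _ _)

/-- The operator of a kernel on `L²`. -/
def kernCLM (hN : 0 < N) (hw : IsPtWeight w) {t : Test F} (ht : t.Ok N) :
    Lp ℂ 2 (quotMeasure w) →L[ℂ] Lp ℂ 2 (quotMeasure w) :=
  haveI := sFinite_quotMeasure hw
  (schurKernel hN hw ht).formula.op

variable (hN : 0 < N) (hw : IsPtWeight w)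

include hN hw

lemma intOp_congr {K : Pt F N → Pt F N → ℂ} {u u' : Pt F N → ℂ} (h : u =ᵐ[quotMeasure w] u')
    (p : Pt F N) : intOp (quotMeasure w) K u p = intOp (quotMeasure w) K u' p :=
  integral_congr_ae (h.mono fun q hq => by simp only [hq])

theorem kernCLM_symm {t : Test F} (ht : t.Ok N) (h : t.Herm) (a b : Lp ℂ 2 (quotMeasure w)) :
    ⟪kernCLM hN hw ht a, b⟫_ℂ = ⟪a, kernCLM hN hw ht b⟫_ℂ :=
  haveI := sFinite_quotMeasure hw
  (schurKernel hN hw ht).symm (h.conj_kern hN ht) a b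

variable {t₁ t₂ : Test F} (h₁ : t₁.Ok N) (h₂ : t₂.Ok N) {s : (InfinitePlace F → ℝ) → ℂ}
  (hspec : ∀ x z : Xinf F, ∫ y, t₁.inf (fun v => hdist (x v) (y v)) *
    t₂.inf (fun v => hdist (y v) (z v)) ∂Measure.pi (fun _ : InfinitePlace F => hypMeasure) =
      s fun v => hdist (x v) (z v))
  (hs : ∃ C, LipschitzWith C s) (hs' : HasCompactSupport s)

include h₁ h₂ hspec hs hs'

theorem kernCLM_kvec (q : Pt F N) :
    kernCLM hN hw h₁ (kvec w t₂ q) = kvec w ⟨finConv N t₁.fin t₂.fin, s⟩ q := by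
  haveI := sFinite_quotMeasure hw
  refine vecOf_eq (memLp_kern' hN hw (ok_finConv h₁ h₂ hs hs') q) ?_
  refine ((schurKernel hN hw h₁).formula.op_ae _).trans (Filter.Eventually.of_forall fun p => ?_)
  rw [intOp_congr hN hw (kvec_ae hN hw h₂ q) p,
    intOp_kern_kern hw h₁ h₂ (h₂.flip' hN) hspec hs hs']

theorem kernCLM_covec (hh : t₂.Herm) (p : Pt F N) :
    kernCLM hN hw h₂ (covec w t₁ p) = covec w ⟨finConv N t₁.fin t₂.fin, s⟩ p := by
  haveI := sFinite_quotMeasure hw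
  refine vecOf_eq (memLp_cokern hN hw (ok_finConv h₁ h₂ hs hs') p) ?_
  refine ((schurKernel hN hw h₂).formula.op_ae _).trans (Filter.Eventually.of_forall fun r => ?_)
  show _ = (starRingEnd ℂ) (kern _ p r)
  rw [intOp_congr hN hw (covec_ae hN hw h₁ p) r, ← intOp_kern_kern hw h₁ h₂ (h₂.flip' hN) hspec hs hs',
    intOp, intOp, ← integral_conj]
  refine integral_congr_ae (Filter.Eventually.of_forall fun x => ?_)
  simp only [map_mul, hh.conj_kern hN h₂, mul_comm]

theorem inner_covec_kvec_eq (p q : Pt F N) :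
    ⟪covec w t₁ p, kvec w t₂ q⟫_ℂ = kern ⟨finConv N t₁.fin t₂.fin, s⟩ p q := by
  rw [inner_covec_kvec hN hw h₁ h₂, intOp_kern_kern hw h₁ h₂ (h₂.flip' hN) hspec hs hs']

omit h₁ h₂ hspec hs hs'

omit hw in
theorem finConv_unit_left {f : GF F → ℂ} (hf : ∀ u ∈ UZ F N, ∀ g, f (u * g) = f g) (y : GF F) :
    finConv N (Aleph.wordFin N []) f y = f y := by
  have h1 : ((1 : GF F) : Cos F N).out ∈ UZ F N := by
    have := QuotientGroup.eq.1 (QuotientGroup.out_eq' ((1 : GF F) : Cos F N))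
    simpa using inv_mem this
  show ∑' h : Cos F N, _ = _
  rw [tsum_eq_single ((1 : GF F) : Cos F N)]
  · show (UZ F N : Set (GF F)).indicator 1 _ * _ = _
    rw [Set.indicator_of_mem (SetLike.mem_coe.2 h1), Pi.one_apply, one_mul, hf _ (inv_mem h1)]
  · intro h hne
    show (UZ F N : Set (GF F)).indicator 1 _ * _ = _
    rw [Set.indicator_of_notMem, zero_mul]
    intro hm
    exact hne (by
      rw [← QuotientGroup.out_eq' h, QuotientGroup.eq]
      simpa using inv_mem (SetLike.mem_coe.1 hm))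

omit hw in
theorem finConv_unit_right {f : GF F → ℂ} (hf : ∀ u ∈ UZ F N, ∀ g, f (g * u) = f g) (y : GF F) :
    finConv N f (Aleph.wordFin N []) y = f y := by
  obtain ⟨u, hu, e⟩ : ∃ u ∈ UZ F N, (y : Cos F N).out = y * u :=
    ⟨_, QuotientGroup.eq.1 (QuotientGroup.out_eq' _).symm, (mul_inv_cancel_left _ _).symm⟩
  show ∑' h : Cos F N, _ = _
  rw [tsum_eq_single (y : Cos F N)]
  · show _ * (UZ F N : Set (GF F)).indicator 1 _ = _
    rw [e, Set.indicator_of_mem (by simpa [mul_inv_rev, mul_assoc] using inv_mem hu), Pi.one_apply,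
      mul_one, hf u hu]
  · intro h hne
    show _ * (UZ F N : Set (GF F)).indicator 1 _ = _
    rw [Set.indicator_of_notMem, mul_zero]
    intro hm
    exact hne (by
      rw [← QuotientGroup.out_eq' h, QuotientGroup.eq]
      exact SetLike.mem_coe.1 hm)

omit hw in
theorem herm_word_nil {K : (InfinitePlace F → ℝ) → ℂ} (hK : ∀ r, (starRingEnd ℂ) (K r) = K r) :
    (⟨Aleph.wordFin N [], K⟩ : Test F).Herm := by
  refine ⟨fun y => ?_, hK⟩
  show (starRingEnd ℂ) ((UZ F N : Set (GF F)).indicator 1 y) =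
    (UZ F N : Set (GF F)).indicator 1 y⁻¹
  by_cases h : y ∈ UZ F N
  · simp [h]
  · simp [h]

end

end FLTAgent.LT
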