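import Fermat.Agent.LT.TF.FinOp
import Fermat.Agent.LT.TF.Aleph.Word
import Fermat.Agent.LT.Red.Proper

/-!
`T_v` as a finite kernel: it is hermitian, acts on invariant functions by the representatives, and
on the kernel of a test by composing the test with the representatives on the left.
-/

set_option autoImplicit false
set_option linter.unusedSectionVars false
set_option linter.unusedSimpArgs false
set_option linter.deprecated false
set_option linter.style.haveILetI false
set_option synthInstance.maxHeartbeats 200000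

noncomputable section

namespace FLTAgent.LT

open NumberField IsDedekindDomain MeasureTheory
open scoped ENNReal

namespace Aleph

open FLTAgent.LT.Red (loc loc_mul loc_one inLevel_iff EntLe)

variable {F : Type*} [Field F] [NumberField F] (v : HeightOneSpectrum (𝓞 F))

theorem loc_scalarGF (c : (Af F)ˣ) (w : HeightOneSpectrum (𝓞 F)) :
    loc w (scalarGF c : Matrix (Fin 2) (Fin 2) (Af F)) =
      Matrix.scalar (Fin 2) ((c : Af F) w) := by
  refine Matrix.ext fun i j => ?_
  show (Matrix.diagonal (fun _ => (c : Af F)) : Matrix (Fin 2) (Fin 2) (Af F)) i j w = _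
  fin_cases i <;> fin_cases j <;> simp <;> rfl

theorem exists_dual (r : RIdx v) :
    ∃ r', EntLe v 1 (lInv v r' * (piV v • lInv v r)) ∧
      EntLe v 1 ((piV v)⁻¹ • lRep v r * lRep v r') := by
  have hπ := piV_ne_zero v
  have hπ1 : Valued.v (piV v) ≤ 1 := by
    rw [valued_piV, ← WithZero.exp_zero, WithZero.exp_le_exp]; norm_num
  cases r with
  | some u =>
    have hu := v.valuation_le_one (K := F) (Quotient.out u : 𝓞 F)
    have hu2 : (Valued.v (piV v))⁻¹ * v.valuation F ((Quotient.out u : 𝓞 F) : F) *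
        Valued.v (piV v) ≤ 1 := by
      rw [mul_right_comm, inv_mul_cancel₀ (by simpa using hπ), one_mul]
      exact hu
    refine ⟨none, fun i j => ?_, fun i j => ?_⟩ <;> fin_cases i <;> fin_cases j <;>
      simp [lInv, lRep, Matrix.mul_apply, Fin.sum_univ_two, ← mul_assoc, hπ, hu, hu2]
  | none =>
    set z : 𝓞 F := Quotient.out (Ideal.Quotient.mk v.asIdeal 0)
    have hz : z ∈ v.asIdeal := by
      have := Ideal.Quotient.eq.1 (Ideal.Quotient.mk_out (Ideal.Quotient.mk v.asIdeal 0))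
      simpa [z] using this
    have hu : Valued.v (((z : F)) : v.adicCompletion F) < 1 := by
      rw [HeightOneSpectrum.adicCompletion.valued_coe, HeightOneSpectrum.valuation_of_algebraMap,
        v.intValuation_lt_one_iff_mem]
      exact hz
    have hu' := valued_div_piV_le v hu
    refine ⟨some (Ideal.Quotient.mk v.asIdeal 0), fun i j => ?_, fun i j => ?_⟩ <;>
      fin_cases i <;> fin_cases j <;>
      simp [lInv, lRep, Matrix.mul_apply, Fin.sum_univ_two, ← mul_assoc, hπ, z] at hu' ⊢ <;>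
      exact hu'

variable {N : ℕ}

/-- The inverse of a representative is a representative up to `U(N)` and the centre. -/
theorem exists_inv_rep (hv : (N : 𝓞 F) ∉ v.asIdeal) (r : RIdx v) :
    ∃ r', (hRep v r')⁻¹ * (hRep v r)⁻¹ ∈ UZ F N := by
  obtain ⟨r', h1, h2⟩ := exists_dual v r
  refine ⟨r', Red.mem_UZ.2 ⟨scalarGF (unifIdele v) * ((hRep v r')⁻¹ * (hRep v r)⁻¹),
    inLevel_iff.2 fun w => ?_, (unifIdele v)⁻¹, ?_⟩⟩
  · simp only [mul_inv_rev, inv_inv, ← Red.scalarGF_inv, Units.val_mul, loc_mul]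
    rcases eq_or_ne w v with rfl | hw
    · rw [(loc_hRep_self w r').1, (loc_hRep_self w r').2, (loc_hRep_self w r).1,
        (loc_hRep_self w r).2, loc_scalarGF, loc_scalarGF, unifIdele_apply_self,
        unifIdele_inv_apply_self, Red.valued_natCast_eq_one hv, sub_eq_add_neg, sub_eq_add_neg]
      refine ⟨EntLe.add ?_ (Red.entLe_one w).neg, EntLe.add ?_ (Red.entLe_one w).neg⟩
      · rw [show Matrix.scalar (Fin 2) (piV w) = piV w • (1 : Matrix (Fin 2) (Fin 2) _) from
          (Matrix.smul_one_eq_diagonal _).symm, Matrix.smul_mul, one_mul, ← Matrix.mul_smul]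
        exact h1
      · rw [show Matrix.scalar (Fin 2) ((piV w)⁻¹) = (piV w)⁻¹ • (1 : Matrix (Fin 2) (Fin 2) _) from
          (Matrix.smul_one_eq_diagonal _).symm, Matrix.mul_smul, mul_one]
        rw [Matrix.smul_mul] at h2
        exact h2
    · rw [(loc_hRep_ne v hw r').1, (loc_hRep_ne v hw r').2, (loc_hRep_ne v hw r).1,
        (loc_hRep_ne v hw r).2, loc_scalarGF, loc_scalarGF, unifIdele_apply_ne v hw,
        unifIdele_inv_apply_ne v hw]
      simp only [map_one, mul_one, sub_self]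
      exact ⟨fun i j => by simp, fun i j => by simp⟩
  · rw [Red.scalarGF_comm (unifIdele v), mul_assoc, ← Red.scalarGF_mul, mul_inv_cancel,
      Red.scalarGF_one, mul_one]

/-- Two representatives in one coset are equal. -/
theorem rep_unique (hv : (N : 𝓞 F) ∉ v.asIdeal) {r r' : RIdx v}
    (h : (hRep v r')⁻¹ * hRep v r ∈ UZ F N) : r = r' := by
  obtain ⟨k, hk, c, hc⟩ := Red.mem_UZ.1 h
  have hk1 := Red.inLevel_one_of_inLevel hk
  have hK : EntLe v 1 (loc v (k : Matrix (Fin 2) (Fin 2) (Af F))) :=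
    Red.entLe_of_inLevel_one hk1 v
  have hK' : EntLe v 1 (loc v ((k⁻¹ : GF F) : Matrix (Fin 2) (Fin 2) (Af F))) :=
    Red.entLe_of_inLevel_one (Red.InLevel.inv hk1) v
  have e := congrArg (fun g : GF F => loc v (g : Matrix (Fin 2) (Fin 2) (Af F))) hc
  simp only [Units.val_mul, loc_mul, (loc_hRep_self v r').2, (loc_hRep_self v r).1, loc_scalarGF] at e
  have hKK : loc v (k : Matrix (Fin 2) (Fin 2) (Af F)) *
      loc v ((k⁻¹ : GF F) : Matrix (Fin 2) (Fin 2) (Af F)) = 1 := by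
    rw [← loc_mul, ← Units.val_mul, mul_inv_cancel, Units.val_one, loc_one]
  have hd : Valued.v (loc v (k : Matrix (Fin 2) (Fin 2) (Af F))).det = 1 := by
    have h1 := congrArg (fun M => Valued.v (Matrix.det M)) hKK
    simp only [Matrix.det_mul, map_mul, Matrix.det_one, map_one] at h1
    refine le_antisymm (det_entLe v hK) (le_of_not_gt fun hlt => ?_)
    exact (ne_of_lt (mul_lt_one_of_nonneg_of_lt_one_left zero_le hlt (det_entLe v hK'))) h1
  have hdet := congrArg (fun M => Valued.v (Matrix.det M)) e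
  simp only [Matrix.det_mul, map_mul, hd, one_mul] at hdet
  simp only [Matrix.det_fin_two] at hdet
  have hc1 : Valued.v ((c : Af F) v) = 1 := by
    have h2 : Valued.v (((c : Af F) v) * ((c : Af F) v)) = 1 := by
      have := piV_ne_zero v
      cases r <;> cases r' <;> simp [lInv, lRep, this] at hdet ⊢ <;> exact hdet.symm
    rw [map_mul, ← sq] at h2
    exact (pow_eq_one_iff.1 h2).resolve_right two_ne_zero
  refine eq_of_entLe v ?_
  rw [e, show Matrix.scalar (Fin 2) ((c : Af F) v) =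
      ((c : Af F) v) • (1 : Matrix (Fin 2) (Fin 2) (v.adicCompletion F)) from
    (Matrix.smul_one_eq_diagonal _).symm, Matrix.mul_smul, mul_one]
  intro i j
  rw [Matrix.smul_apply, smul_eq_mul, map_mul, hc1, one_mul]
  exact hK i j

/-- `T_v` is a hermitian finite kernel. -/
theorem isFinKer_word (hv : (N : 𝓞 F) ∉ v.asIdeal) : IsFinKer N (wordFin N [v]) := by
  classical
  have hmem : ∀ w ∈ [v], (N : 𝓞 F) ∉ w.asIdeal := fun w hw => by
    rw [List.mem_singleton.1 hw]; exact hv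
  refine ⟨wordFin_left hmem, fun u hu g => wordFin_right N [v] g u hu, wordFin_finite [v],
    fun g => ?_⟩
  have hval : ∀ g, wordFin N [v] g =
      if ∃ r, (hRep v r)⁻¹ * g ∈ UZ F N then 1 else 0 := fun g => by
    show ∑ r : RIdx v, (UZ F N : Set (GF F)).indicator 1 ((hRep v r)⁻¹ * g) = _
    split_ifs with h
    · obtain ⟨r, hr⟩ := h
      rw [Finset.sum_eq_single r (fun s _ hs => ?_) (fun h' => absurd (Finset.mem_univ r) h'),
        Set.indicator_of_mem (SetLike.mem_coe.2 hr), Pi.one_apply]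
      refine Set.indicator_of_notMem (fun hs' => hs ?_) _
      refine rep_unique v hv ?_
      have := mul_mem hr (inv_mem (SetLike.mem_coe.1 hs'))
      simpa [mul_assoc] using this
    · exact Finset.sum_eq_zero fun r _ => Set.indicator_of_notMem (fun hr => h ⟨r, hr⟩) _
  have hinv : ∀ g, (∃ r, (hRep v r)⁻¹ * g ∈ UZ F N) → ∃ r, (hRep v r)⁻¹ * g⁻¹ ∈ UZ F N := by
    rintro g ⟨r, hr⟩
    obtain ⟨k, hk, c, hc⟩ := Red.mem_UZ.1 (inv_mem hr)
    obtain ⟨r', hr'⟩ := exists_inv_rep v hv r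
    -- `g⁻¹ = k c r⁻¹`
    obtain ⟨σ, hσ⟩ := exists_perm v hv hk
    have hg : g⁻¹ = k * scalarGF c * (hRep v r)⁻¹ := by
      rw [← hc]; group
    refine ⟨σ r', ?_⟩
    rw [hg, show (hRep v (σ r'))⁻¹ * (k * scalarGF c * (hRep v r)⁻¹) =
      ((hRep v (σ r'))⁻¹ * k * hRep v r' * scalarGF c) * ((hRep v r')⁻¹ * (hRep v r)⁻¹) by
        rw [mul_assoc _ (scalarGF c) ((hRep v r')⁻¹ * (hRep v r)⁻¹), ← mul_assoc (scalarGF c),
          Red.scalarGF_comm c (hRep v r')⁻¹]
        group]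
    exact mul_mem (Red.mem_UZ.2 ⟨_, hσ r', c, rfl⟩) hr'
  rw [hval, hval]
  by_cases h : ∃ r, (hRep v r)⁻¹ * g ∈ UZ F N
  · rw [if_pos h, if_pos (hinv g h), map_one]
  · rw [if_neg h, if_neg fun h' => h (by simpa using hinv _ h'), map_zero]

end Aleph

variable {F : Type*} [Field F] [NumberField F] {N : ℕ}

/-- Composition with the representatives of `T_v` on the left. -/
def Test.heckeL (v : HeightOneSpectrum (𝓞 F)) (t : Test F) : Test F where
  fin y := ∑ r : Aleph.RIdx v, t.fin ((Aleph.hRep v r)⁻¹ * y)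
  inf := t.inf

theorem heckeL_wordFin (v : HeightOneSpectrum (𝓞 F)) (ws : List (HeightOneSpectrum (𝓞 F)))
    (h : (InfinitePlace F → ℝ) → ℂ) :
    (⟨Aleph.wordFin N ws, h⟩ : Test F).heckeL v = ⟨Aleph.wordFin N (v :: ws), h⟩ := rfl

lemma exists_out_mul (g : GF F) (c : Cos F N) :
    ∃ u ∈ UZ F N, (g • c).out = g * c.out * u := by
  refine ⟨(g * c.out)⁻¹ * (g • c).out, QuotientGroup.eq.1 ?_, by group⟩
  rw [QuotientGroup.out_eq']
  conv_rhs => rw [← QuotientGroup.out_eq' c]
  rfl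

theorem Test.Ok.heckeL {v : HeightOneSpectrum (𝓞 F)} (hv : (N : 𝓞 F) ∉ v.asIdeal) {t : Test F}
    (ht : t.Ok N) : (t.heckeL v).Ok N := by
  refine ⟨fun u hu g => ?_, fun u hu g => ?_, ?_, ht.lipschitz, ht.compact⟩
  · obtain ⟨k, hk, c, rfl⟩ := Red.mem_UZ.1 hu
    obtain ⟨σ, hσ⟩ := Aleph.exists_perm v hv hk
    show ∑ r, t.fin _ = ∑ r, t.fin _
    rw [← Equiv.sum_comp σ fun r => t.fin ((Aleph.hRep v r)⁻¹ * (k * scalarGF c * g))]
    refine Finset.sum_congr rfl fun r _ => ?_
    rw [show (Aleph.hRep v (σ r))⁻¹ * (k * scalarGF c * g) =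
      ((Aleph.hRep v (σ r))⁻¹ * k * Aleph.hRep v r * scalarGF c) * ((Aleph.hRep v r)⁻¹ * g) by
        rw [mul_assoc _ (scalarGF c) ((Aleph.hRep v r)⁻¹ * g), ← mul_assoc (scalarGF c),
          Red.scalarGF_comm c (Aleph.hRep v r)⁻¹]
        group]
    exact ht.left_inv _ (Red.mem_UZ.2 ⟨_, hσ r, c, rfl⟩) _
  · show ∑ r, t.fin _ = ∑ r, t.fin _
    exact Finset.sum_congr rfl fun r _ => by rw [← mul_assoc, ht.right_inv u hu]
  · refine ((Set.finite_univ (α := Aleph.RIdx v)).biUnion fun r _ =>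
      (ht.finite.image fun c : Cos F N => Aleph.hRep v r • c)).subset ?_
    rintro _ ⟨g, hg, rfl⟩
    obtain ⟨r, -, hr⟩ := Finset.exists_ne_zero_of_sum_ne_zero hg
    simp only [Set.mem_univ, Set.iUnion_true, Set.mem_iUnion]
    refine ⟨r, _, ⟨_, hr, rfl⟩, ?_⟩
    show Aleph.hRep v r • (((Aleph.hRep v r)⁻¹ * g : GF F) : Cos F N) = _
    rw [MulAction.Quotient.smul_mk, smul_eq_mul, mul_inv_cancel_left]

lemma hdist_bound {p q : H3} {B : ℝ} (h : hdist p q ≤ B) :
    ‖q.1‖ ≤ ‖p.1‖ + 2 * Real.cosh B * (p.2 : ℝ) ∧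
      (p.2 : ℝ) / (2 * Real.cosh B) ≤ (q.2 : ℝ) := by
  have h1 : (1 : ℝ) ≤ coshDist p q := Hyp.one_le_coshDist p q
  have h0 : 0 ≤ hdist p q := Real.arcosh_nonneg h1
  have hK : coshDist p q ≤ Real.cosh B := by
    rw [← Real.cosh_arcosh h1]
    exact Real.cosh_le_cosh.2 (by
      show |hdist p q| ≤ |B|
      rw [abs_of_nonneg h0, abs_of_nonneg (h0.trans h)]; exact h)
  set K := Real.cosh B
  have hK1 : 1 ≤ K := Real.one_le_cosh B
  have ht : (0 : ℝ) < p.2 := p.2.2
  have ht' : (0 : ℝ) < q.2 := q.2.2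
  have key : Complex.normSq (p.1 - q.1) + ((p.2 : ℝ) - q.2) ^ 2 ≤ (K - 1) * (2 * p.2 * q.2) :=
    (div_le_iff₀ (by positivity)).1 (by unfold coshDist at hK; linarith)
  have hn := Complex.normSq_nonneg (p.1 - q.1)
  have hlow : (p.2 : ℝ) ≤ 2 * K * q.2 := by
    nlinarith [sq_nonneg (q.2 : ℝ)]
  have hup : (q.2 : ℝ) ≤ 2 * K * p.2 := by
    nlinarith [sq_nonneg (p.2 : ℝ)]
  refine ⟨?_, (div_le_iff₀ (by positivity)).2 (by linarith)⟩
  have hz : ‖q.1 - p.1‖ ^ 2 ≤ (2 * K * p.2) ^ 2 := by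
    rw [norm_sub_rev, Complex.sq_norm]
    nlinarith [mul_le_mul_of_nonneg_left hup (by positivity : (0 : ℝ) ≤ 2 * K * p.2)]
  have := (pow_le_pow_iff_left₀ (norm_nonneg _) (by positivity) two_ne_zero).1 hz
  linarith [norm_le_norm_add_norm_sub' q.1 p.1]

/-- Only finitely many translates meet a test. -/
theorem finite_kTerm {t : Test F} (ht : t.Ok N) (p q : Pt F N) :
    {γ : PG F | kTerm t p (γ • q) ≠ 0}.Finite := by
  classical
  obtain ⟨B, hB⟩ := ht.compact.isBounded.exists_norm_le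
  set K := Real.cosh B
  set R : ℝ := ∑ w : InfinitePlace F, (‖(p.1 w).1‖ + 2 * K * ((p.1 w).2 : ℝ))
  have hne : (Finset.univ : Finset (InfinitePlace F)).Nonempty := Finset.univ_nonempty
  set c : ℝ := Finset.univ.inf' hne fun w => ((p.1 w).2 : ℝ) / (2 * K)
  have hc : 0 < c := (Finset.lt_inf'_iff hne).2 fun w _ =>
    div_pos (p.1 w).2.2 (mul_pos two_pos (Real.cosh_pos B))
  refine (Red.finite_meets (T := (fun d => p.2.out • d) '' (QuotientGroup.mk ''
    Function.support t.fin)) (ht.finite.image _) R hc q).subset fun γ hγ => ?_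
  have hf := left_ne_zero_of_mul hγ
  have hi := right_ne_zero_of_mul hγ
  refine ⟨⟨_, ⟨_, hf, rfl⟩, ?_⟩, fun w => ?_⟩
  · show p.2.out • ((p.2.out⁻¹ * (γ • q).2.out : GF F) : Cos F N) = (γ • q).2
    rw [MulAction.Quotient.smul_mk, smul_eq_mul, mul_inv_cancel_left, QuotientGroup.out_eq']
  · have hd : hdist (p.1 w) ((γ • q).1 w) ≤ B :=
      (le_abs_self _).trans ((norm_le_pi_norm _ w).trans (hB _ (subset_tsupport _ hi)))
    obtain ⟨h1, h2⟩ := hdist_bound hd
    refine ⟨h1.trans ?_, le_trans (Finset.inf'_le _ (Finset.mem_univ w)) h2⟩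
    exact Finset.single_le_sum (f := fun w => ‖(p.1 w).1‖ + 2 * K * ((p.1 w).2 : ℝ))
      (fun w _ => add_nonneg (norm_nonneg _)
        (mul_nonneg (mul_nonneg zero_le_two (Real.cosh_pos B).le) (p.1 w).2.2.le))
      (Finset.mem_univ w)

theorem summable_kTerm {t : Test F} (ht : t.Ok N) (p q : Pt F N) :
    Summable fun γ : PG F => kTerm t p (γ • q) :=
  summable_of_hasFiniteSupport (finite_kTerm ht p q)

section

variable [Countable (Cos F N)] {w : Pt F N → ℝ≥0∞} (hw : IsPtWeight w)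
  {v : HeightOneSpectrum (𝓞 F)} (hv : (N : 𝓞 F) ∉ v.asIdeal)

include hw hv

/-- `T_v` on an invariant function. -/
theorem finOp_word {u : Pt F N → ℂ} (hu : ∀ (γ : PG F) p, u (γ • p) = u p) (p : Pt F N) :
    finOp w (Aleph.wordFin N [v]) u p =
      Aleph.hOp v (fun g => u (p.1, (g : Cos F N))) p.2.out := by
  have hf := Aleph.isFinKer_word v hv
  set C : GF F → ℂ := fun g => u (p.1, (g : Cos F N)) with hC
  have hCr : Aleph.RightInv N C := fun g k hk =>
    congrArg (fun c => u (p.1, c)) (QuotientGroup.mk_mul_of_mem g hk)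
  show _ = Aleph.hWord [v] C p.2.out
  rw [← Aleph.finsum_wordFin hCr [v] p.2.out,
    ← tsum_eq_finsum (L := SummationFilter.unconditional _) (Aleph.finite_wordSupp [v] _), finOp,
    ← (MulAction.toPerm p.2.out : Cos F N ≃ Cos F N).tsum_eq]
  refine tsum_congr fun d => ?_
  rw [MulAction.toPerm_apply, hf.pairVal_eq_translate, avg_of_invariant hw hu, hC]
  congr 3
  conv_lhs => rw [← QuotientGroup.out_eq' d]
  rfl

/-- `T_v` on the kernel of a test. -/
theorem finOp_kern {t : Test F} (ht : t.Ok N) (p q : Pt F N) :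
    finOp w (Aleph.wordFin N [v]) (fun p => kern t p q) p = kern (t.heckeL v) p q := by
  rw [finOp_word hw hv (fun γ p => kern_smul_left ht γ p q) p, Aleph.hOp,
    kern_eq_tsum (ht.heckeL hv)]
  simp only [kern_eq_tsum ht]
  rw [← Summable.tsum_finsetSum fun r _ => summable_kTerm ht _ q]
  refine tsum_congr fun γ => ?_
  simp only [kTerm, Test.heckeL, Finset.sum_mul]
  refine Finset.sum_congr rfl fun r _ => ?_
  obtain ⟨u, hu, hout⟩ : ∃ u ∈ UZ F N, ((p.2.out * Aleph.hRep v r : GF F) : Cos F N).out =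
      p.2.out * Aleph.hRep v r * u :=
    ⟨_, QuotientGroup.eq.1 (QuotientGroup.out_eq' _).symm, (mul_inv_cancel_left _ _).symm⟩
  rw [hout, show (p.2.out * Aleph.hRep v r * u)⁻¹ * (γ • q).2.out =
    u⁻¹ * ((Aleph.hRep v r)⁻¹ * (p.2.out⁻¹ * (γ • q).2.out)) by group,
    ht.left_inv _ (inv_mem hu)]

end

/-- `T_v` on a form is `T_v` on the function of cosets. -/
theorem hOp_eq_hecke {φ : Form F} {u : Pt F N → ℂ} (h : ∀ x g, φ x g = u (x, (g : Cos F N)))
    (v : HeightOneSpectrum (𝓞 F)) (p : Pt F N) :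
    Aleph.hOp v (fun g => u (p.1, (g : Cos F N))) p.2.out = hecke v φ p.1 p.2.out := by
  rw [Aleph.hecke_eq_hOp]
  simp only [Aleph.hOp, h]

end FLTAgent.LT
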